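import Mathlib

/-!
# S13 / M8: linear algebra in a space of dimension `≤ 2`  (OWNER: helper9)

* `s13_a2_line_span`  : a proper subspace `N` of a space of dimension `≤ 2` is spanned by any of
  its nonzero vectors.
* `s13_a2_decomp`     : if `N ≠ ⊥` and `w ∉ N`, every vector is `n + c • w` with `n ∈ N`.
* `s13_a2_finrank_le_two` : `card V ≤ p ^ 2 → finrank (ZMod p) V ≤ 2`.
-/

set_option autoImplicit false

namespace Fermat.Agent.S13

section Lin

variable {F V : Type*} [Field F] [AddCommGroup V] [Module F V] [FiniteDimensional F V]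

theorem s13_a2_line_span (hV : Module.finrank F V ≤ 2) (N : Submodule F V) (hN1 : N ≠ ⊤)
    {z : V} (hz : z ∈ N) (hz0 : z ≠ 0) {x : V} (hx : x ∈ N) : ∃ c : F, x = c • z := by
  have h1 : Module.finrank F N < Module.finrank F V := Submodule.finrank_lt hN1
  have h2 : Module.finrank F (Submodule.span F {z}) = 1 := finrank_span_singleton hz0
  have hle : Submodule.span F {z} ≤ N := (Submodule.span_singleton_le_iff_mem z N).2 hz
  have heq : Submodule.span F {z} = N :=
    Submodule.eq_of_le_of_finrank_le hle (by rw [h2]; omega)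
  rw [← heq] at hx
  obtain ⟨c, hc⟩ := Submodule.mem_span_singleton.1 hx
  exact ⟨c, hc.symm⟩

theorem s13_a2_decomp (hV : Module.finrank F V ≤ 2) (N : Submodule F V) (hN0 : N ≠ ⊥)
    {w : V} (hw : w ∉ N) (x : V) : ∃ n ∈ N, ∃ c : F, x = n + c • w := by
  have hlt : N < N ⊔ Submodule.span F {w} := by
    refine lt_of_le_of_ne le_sup_left ?_
    intro h
    apply hw
    rw [h]
    exact Submodule.mem_sup_right (Submodule.mem_span_singleton_self w)
  have h1 : Module.finrank F N < Module.finrank F ↥(N ⊔ Submodule.span F {w}) :=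
    Submodule.finrank_lt_finrank_of_lt hlt
  have h0 : 0 < Module.finrank F N := by
    rw [Module.finrank_pos_iff]
    exact (Submodule.nontrivial_iff_ne_bot).2 hN0
  have h2 : Module.finrank F ↥(N ⊔ Submodule.span F {w}) ≤ Module.finrank F V :=
    Submodule.finrank_le _
  have htop : N ⊔ Submodule.span F {w} = ⊤ :=
    Submodule.eq_top_of_finrank_eq (by omega)
  have hx : x ∈ N ⊔ Submodule.span F {w} := by rw [htop]; exact Submodule.mem_top
  obtain ⟨n, hn, y, hy, hxy⟩ := Submodule.mem_sup.1 hx
  obtain ⟨c, hc⟩ := Submodule.mem_span_singleton.1 hy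
  exact ⟨n, hn, c, by rw [hc, hxy]⟩

end Lin

theorem s13_a2_finrank_le_two {p : ℕ} [Fact p.Prime] {V : Type*} [AddCommGroup V]
    [Module (ZMod p) V] [Finite V] (hcard : Nat.card V ≤ p ^ 2) :
    Module.finrank (ZMod p) V ≤ 2 := by
  have : Module.Finite (ZMod p) V := Module.Finite.of_finite
  have h := Module.natCard_eq_pow_finrank (K := ZMod p) (V := V)
  rw [Nat.card_zmod] at h
  rw [h] at hcard
  exact (Nat.pow_le_pow_iff_right (Fact.out : p.Prime).one_lt).1 hcard

end Fermat.Agent.S13
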