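import Mathlib
import Fermat.Prelude.Def_FLTPrelim_FreyPackage
import Fermat.Prelude.Def_FLTPrelim_GaloisRep
import Fermat.Prelude.Def_FLTPrelim_Ramification
import Fermat.Prelude.Def_FLTPrelim_CofixedLine

/-!
# S13 — shared definitions (OWNER: helper4, architect)

Notation used in all S13 files (namespace `Fermat.Agent.S13`):
* `Qb = AlgebraicClosure ℚ`, `GQ = Qb ≃ₐ[ℚ] Qb`;
* `Vp P = Submodule.torsionBy ℤ (P.freyCurve⁄Qb).Point P.p` (the `p`-torsion of the Frey curve);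
* `A : ValuationSubring Qb`, `A.valuation` is MULTIPLICATIVE (`x ∈ A ↔ A.valuation x ≤ 1`);
  `A.LiesOverPrime q` means `A.valuation q < 1`; `A.inertiaSubgroupIn ℚ : Subgroup GQ`.
-/

set_option autoImplicit false

namespace Fermat.Agent.S13

open WeierstrassCurve WeierstrassCurve.Affine WeierstrassCurve.Affine.Point

/-- the algebraic closure of `ℚ`. -/
abbrev Qb : Type := AlgebraicClosure ℚ

/-- the absolute Galois group of `ℚ`. -/
abbrev GQ : Type := Qb ≃ₐ[ℚ] Qb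

/-- the `p`-torsion of the Frey curve over `Qb`. -/
abbrev Vp (P : FreyPackage) : Type :=
  Submodule.torsionBy ℤ (P.freyCurve⁄Qb).Point P.p

section basic

variable {P : FreyPackage}

lemma s13_coe_smul (σ : GQ) (x : Vp P) :
    ((σ • x : Vp P) : (P.freyCurve⁄Qb).Point) = σ • (x : (P.freyCurve⁄Qb).Point) := rfl

lemma s13_smul_point_def (σ : GQ) (x : (P.freyCurve⁄Qb).Point) :
    σ • x = Point.map σ.toAlgHom x := rfl

lemma s13_nsmul_coe (x : Vp P) : P.p • (x : (P.freyCurve⁄Qb).Point) = 0 := by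
  have := x.2
  rw [Submodule.mem_torsionBy_iff] at this
  rwa [natCast_zsmul] at this

lemma s13_mem_torsionBy {x : (P.freyCurve⁄Qb).Point} (hx : P.p • x = 0) :
    x ∈ Submodule.torsionBy ℤ (P.freyCurve⁄Qb).Point P.p := by
  rw [Submodule.mem_torsionBy_iff, natCast_zsmul]
  exact hx

/-- the element of `Vp P` given by a point killed by `p`. -/
def s13_mkVp (x : (P.freyCurve⁄Qb).Point) (hx : P.p • x = 0) : Vp P :=
  ⟨x, s13_mem_torsionBy hx⟩

@[simp] lemma s13_mkVp_coe (x : (P.freyCurve⁄Qb).Point) (hx : P.p • x = 0) :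
    ((s13_mkVp x hx : Vp P) : (P.freyCurve⁄Qb).Point) = x := rfl

lemma s13_smul_sub (σ : GQ) (x y : Vp P) : σ • (x - y) = σ • x - σ • y :=
  smul_sub σ x y

lemma s13_smul_zmod (σ : GQ) (c : ZMod P.p) (x : Vp P) : σ • (c • x) = c • (σ • x) := by
  have : NeZero P.p := ⟨P.hp0⟩
  obtain ⟨n, rfl⟩ : ∃ n : ℕ, (n : ZMod P.p) = c := ⟨c.val, ZMod.natCast_zmod_val c⟩
  rw [Nat.cast_smul_eq_nsmul, Nat.cast_smul_eq_nsmul]
  exact (DistribSMul.toAddMonoidHom (Vp P) σ).map_nsmul n x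

end basic

section frey

variable (P : FreyPackage)

@[simp] lemma s13_frey_a₁ : P.freyCurve.a₁ = 1 := rfl
@[simp] lemma s13_frey_a₃ : P.freyCurve.a₃ = 0 := rfl
@[simp] lemma s13_frey_a₆ : P.freyCurve.a₆ = 0 := rfl
lemma s13_frey_a₂ : P.freyCurve.a₂ = ((P.b : ℚ) ^ P.p - 1 - (P.a : ℚ) ^ P.p) / 4 := rfl
lemma s13_frey_a₄ : P.freyCurve.a₄ = -((P.a : ℚ) ^ P.p) * ((P.b : ℚ) ^ P.p) / 16 := rfl

lemma s13_hFLT : (P.a : ℚ) ^ P.p + (P.b : ℚ) ^ P.p = (P.c : ℚ) ^ P.p := by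
  have := congrArg (Int.cast : ℤ → ℚ) P.hFLT
  push_cast at this
  exact this

lemma s13_frey_b₂ : P.freyCurve.b₂ = (P.b : ℚ) ^ P.p - (P.a : ℚ) ^ P.p := by
  simp only [WeierstrassCurve.b₂, s13_frey_a₁, s13_frey_a₂]; ring

lemma s13_frey_b₄ : P.freyCurve.b₄ = 2 * P.freyCurve.a₄ := by
  simp only [WeierstrassCurve.b₄, s13_frey_a₁, s13_frey_a₃]; ring

lemma s13_frey_b₆ : P.freyCurve.b₆ = 0 := by
  simp only [WeierstrassCurve.b₆, s13_frey_a₃, s13_frey_a₆]; ring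

lemma s13_frey_b₈ : P.freyCurve.b₈ = -P.freyCurve.a₄ ^ 2 := by
  simp only [WeierstrassCurve.b₈, s13_frey_a₁, s13_frey_a₃, s13_frey_a₆]; ring

/-- the discriminant of the Frey curve is `(abc)^(2p) / 2^8`. -/
lemma s13_frey_Δ :
    P.freyCurve.Δ = ((P.a : ℚ) * P.b * P.c) ^ (2 * P.p) / 2 ^ 8 := by
  have h := s13_hFLT P
  rw [WeierstrassCurve.Δ, s13_frey_b₂, s13_frey_b₄, s13_frey_b₆, s13_frey_b₈, s13_frey_a₄]
  have : ((P.a : ℚ) * P.b * P.c) ^ (2 * P.p) =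
      ((P.a : ℚ) ^ P.p) ^ 2 * ((P.b : ℚ) ^ P.p) ^ 2 * ((P.c : ℚ) ^ P.p) ^ 2 := by
    rw [mul_pow, mul_pow, pow_mul', pow_mul', pow_mul']
  rw [this, ← h]
  ring

lemma s13_frey_Δ_ne_zero : P.freyCurve.Δ ≠ 0 := by
  rw [s13_frey_Δ]
  have h : ((P.a : ℚ) * P.b * P.c) ≠ 0 := by
    have := P.habc0
    exact_mod_cast this
  exact div_ne_zero (pow_ne_zero _ h) (by norm_num)

end frey

end Fermat.Agent.S13
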