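import Fermat.Agent.S05.Local

/-!
# S13 / M10: the local theory at `p`, multiplicative case  (OWNER: helper1)

Setting: `W : Y² = X (X - e) (X - f)` over `ℚ`, `K / ℚ` a field with a valuation subring `A`
(`v = A.valuation`, multiplicative), `v 2 = 1`, `e = ε ^ p` with `v ε < 1`, `v f = v (f - e) = 1`.
The residue characteristic is allowed to be `p`.

* `s13_lpm_E1`            : the kernel of reduction `E₁ = {O} ∪ {(x, y) | 1 < v x}`.
* `s13_lpm_E1_add/neg/sub/nsmul` : `E₁` is a subgroup (for `a₁ = a₃ = 0`, `a₂ a₄ a₆` integral,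
  `v 2 = 1`).
* `s13_lpm_close`         : two affine points which are close to each other differ by a point
  of `E₁`.
* `s13_lpm_inertia_E1`    : for `σ` in the inertia group and a `p`-torsion point `P`:
  `σ P - P ∈ E₁`.
* `s13_lpm_group`         : the group-theoretic lemma (`card V ≤ p²`).
* `s13_lpm_exists_root`   : a polynomial whose constant coefficient has smaller valuation than
  its leading coefficient has a root of valuation `< 1`.
* `s13_lpm_main`          : the statement (AT p) in the MULT case.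
-/

set_option autoImplicit false
set_option linter.unusedSectionVars false
set_option linter.unusedVariables false

namespace Fermat.Agent.S13

open WeierstrassCurve WeierstrassCurve.Affine WeierstrassCurve.Affine.Point
open Fermat.Agent.S05

section OrderAux

variable {Γ₀ : Type*} [LinearOrderedCommGroupWithZero Γ₀]

lemma s13_lpm_order_aux {a b D P M Sg : Γ₀} (ha : 1 < a) (hb : 1 < b) (hab : a ≤ b)
    (hD0 : D ≠ 0) (hD : D ≤ b ^ 2) (hprod : P * M * D = (a * b) ^ 2)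
    (hsum : Sg * D ≤ b * (a * b)) (hult : P < M → Sg = M) : 1 < P := by
  by_contra hP
  have hP1 : P ≤ 1 := not_lt.1 hP
  have hDpos : 0 < D := zero_lt_iff.2 hD0
  have ha0 : 0 < a := lt_trans zero_lt_one ha
  have hb0 : 0 < b := lt_trans zero_lt_one hb
  have hab0 : 0 < a * b := mul_pos ha0 hb0
  have hbab0 : 0 < b * (a * b) := mul_pos hb0 hab0
  have h1 : b * (a * b) < (a * b) ^ 2 := by
    have e : (a * b) ^ 2 = a * (b * (a * b)) := by rw [pow_two, mul_assoc]
    rw [e]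
    calc b * (a * b) = 1 * (b * (a * b)) := (one_mul _).symm
      _ < a * (b * (a * b)) := mul_lt_mul_of_pos_right ha hbab0
  have h2 : b ^ 2 < (a * b) ^ 2 := by
    apply pow_lt_pow_left₀ _ zero_le two_ne_zero
    calc b = 1 * b := (one_mul _).symm
      _ < a * b := mul_lt_mul_of_pos_right ha hb0
  have hMD : (a * b) ^ 2 ≤ M * D := by
    rw [← hprod, mul_assoc]
    calc P * (M * D) ≤ 1 * (M * D) := mul_le_mul_left hP1 _
      _ = M * D := one_mul _
  have hM1 : 1 < M := by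
    by_contra hM
    have hM' : M ≤ 1 := not_lt.1 hM
    have : M * D ≤ b ^ 2 :=
      calc M * D ≤ 1 * D := mul_le_mul_left hM' _
        _ = D := one_mul _
        _ ≤ b ^ 2 := hD
    exact absurd (lt_of_le_of_lt (hMD.trans this) h2) (lt_irrefl _)
  have hS := hult (lt_of_le_of_lt hP1 hM1)
  rw [hS] at hsum
  exact absurd (lt_of_le_of_lt (hMD.trans hsum) h1) (lt_irrefl _)

lemma s13_lpm_order {a b D P M Sg : Γ₀} (ha : 1 < a) (hb : 1 < b)
    (hD0 : D ≠ 0) (hD : D ≤ (max a b) ^ 2) (hprod : P * M * D = (a * b) ^ 2)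
    (hsum : Sg * D ≤ max a b * (a * b)) (hult : P < M → Sg = M) : 1 < P := by
  rcases le_total a b with hab | hab
  · rw [max_eq_right hab] at hD hsum
    exact s13_lpm_order_aux ha hb hab hD0 hD hprod hsum hult
  · rw [max_eq_left hab] at hD hsum
    rw [mul_comm a b] at hprod hsum
    exact s13_lpm_order_aux hb ha hab hD0 hD hprod hsum hult

end OrderAux

section E1

variable {K : Type*} [Field K] [DecidableEq K] {Γ₀ : Type*} [LinearOrderedCommGroupWithZero Γ₀]
  (v : Valuation K Γ₀) {W : Affine K}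

/-- The kernel of reduction `E₁ = {O} ∪ {(x, y) | 1 < v x}`. -/
def s13_lpm_E1 (P : W.Point) : Prop :=
  match P with
  | .zero => True
  | .some x _ _ => 1 < v x

lemma s13_lpm_E1_zero : s13_lpm_E1 v (0 : W.Point) := trivial

lemma s13_lpm_E1_some {x y : K} (h : W.Nonsingular x y) :
    s13_lpm_E1 v (Point.some x y h) ↔ 1 < v x := Iff.rfl

lemma s13_lpm_E1_neg {P : W.Point} (hP : s13_lpm_E1 v P) : s13_lpm_E1 v (-P) := by
  rcases P with _ | ⟨x, y, h⟩
  · exact hP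
  · rw [Point.neg_some]; exact hP

lemma s13_lpm_two_ne (hv2 : v 2 = 1) : (2 : K) ≠ 0 := by
  intro h0
  rw [h0, _root_.map_zero] at hv2
  exact zero_ne_one hv2

lemma s13_lpm_val_four (hv2 : v 2 = 1) : v 4 = 1 := by
  have : (4 : K) = 2 * 2 := by norm_num
  rw [this, map_mul, hv2, mul_one]

lemma s13_lpm_val_eight (hv2 : v 2 = 1) : v 8 = 1 := by
  have : (8 : K) = 2 * 2 * 2 := by norm_num
  rw [this, map_mul, map_mul, hv2, mul_one, mul_one]

lemma s13_lpm_val_mul_pow_le {z x : K} (hz : v z ≤ 1) (hx : 1 < v x) {j k : ℕ} (hjk : j ≤ k) :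
    v (z * x ^ j) ≤ v x ^ k := by
  rw [map_mul, map_pow]
  calc v z * v x ^ j ≤ 1 * v x ^ j := mul_le_mul_left hz _
    _ = v x ^ j := one_mul _
    _ ≤ v x ^ k := pow_le_pow_right₀ hx.le hjk

/-- `v (y²) = v x ^ 3` for a point with `1 < v x`. -/
lemma s13_lpm_val_y_sq (h1 : W.a₁ = 0) (h3 : W.a₃ = 0) (ha2 : v W.a₂ ≤ 1) (ha4 : v W.a₄ ≤ 1)
    (ha6 : v W.a₆ ≤ 1) {x y : K} (h : W.Equation x y) (hx : 1 < v x) :
    v (y ^ 2) = v x ^ 3 := by
  have e := xonly_equation h1 h3 h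
  have e' : y ^ 2 = x ^ 3 + (W.a₂ * x ^ 2 + W.a₄ * x ^ 1 + W.a₆ * x ^ 0) := by
    rw [e]; ring
  have hrest : v (W.a₂ * x ^ 2 + W.a₄ * x ^ 1 + W.a₆ * x ^ 0) ≤ v x ^ 2 :=
    Valuation.map_add_le v (Valuation.map_add_le v
      (s13_lpm_val_mul_pow_le v ha2 hx le_rfl)
      (s13_lpm_val_mul_pow_le v ha4 hx (by norm_num)))
      (s13_lpm_val_mul_pow_le v ha6 hx (by norm_num))
  rw [e', Valuation.map_add_eq_of_lt_left, map_pow]
  rw [map_pow]
  exact lt_of_le_of_lt hrest (pow_lt_pow_right₀ hx (by norm_num))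

/-- `E₁` is closed under duplication. -/
lemma s13_lpm_E1_double (h1 : W.a₁ = 0) (h3 : W.a₃ = 0) (ha2 : v W.a₂ ≤ 1) (ha4 : v W.a₄ ≤ 1)
    (ha6 : v W.a₆ ≤ 1) (hv2 : v 2 = 1) {x y : K} (h : W.Nonsingular x y) (hx : 1 < v x) :
    s13_lpm_E1 v (Point.some x y h + Point.some x y h) := by
  by_cases hy : y = 0
  · rw [xonly_double_of_y_eq_zero h1 h3 h hy]
    exact s13_lpm_E1_zero v
  obtain ⟨x', y', h', hdbl, hx'⟩ := xonly_double h1 h3 (s13_lpm_two_ne v hv2) h hy
  rw [hdbl]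
  show 1 < v x'
  have hvy := s13_lpm_val_y_sq v h1 h3 ha2 ha4 ha6 h.1 hx
  have e' : x ^ 4 - 2 * W.a₄ * x ^ 2 - 8 * W.a₆ * x + W.a₄ ^ 2 - 4 * W.a₂ * W.a₆
      = x ^ 4 + ((-(2 * W.a₄)) * x ^ 2 + (-(8 * W.a₆)) * x ^ 1
        + (W.a₄ ^ 2 - 4 * W.a₂ * W.a₆) * x ^ 0) := by ring
  have c1 : v (-(2 * W.a₄)) ≤ 1 := by
    rw [Valuation.map_neg, map_mul, hv2, one_mul]; exact ha4
  have c2 : v (-(8 * W.a₆)) ≤ 1 := by
    rw [Valuation.map_neg, map_mul, s13_lpm_val_eight v hv2, one_mul]; exact ha6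
  have c3 : v (W.a₄ ^ 2 - 4 * W.a₂ * W.a₆) ≤ 1 := by
    apply Valuation.map_sub_le v
    · rw [map_pow]; exact pow_le_one₀ zero_le ha4
    · rw [map_mul, map_mul, s13_lpm_val_four v hv2, one_mul]
      exact mul_le_one' ha2 ha6
  have hrest : v ((-(2 * W.a₄)) * x ^ 2 + (-(8 * W.a₆)) * x ^ 1
        + (W.a₄ ^ 2 - 4 * W.a₂ * W.a₆) * x ^ 0) ≤ v x ^ 2 :=
    Valuation.map_add_le v (Valuation.map_add_le v
      (s13_lpm_val_mul_pow_le v c1 hx le_rfl)
      (s13_lpm_val_mul_pow_le v c2 hx (by norm_num)))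
      (s13_lpm_val_mul_pow_le v c3 hx (by norm_num))
  have hR : v (x' * (4 * y ^ 2)) = v x ^ 4 := by
    rw [hx', e', Valuation.map_add_eq_of_lt_left, map_pow]
    rw [map_pow]
    exact lt_of_le_of_lt hrest (pow_lt_pow_right₀ hx (by norm_num))
  rw [map_mul, map_mul, s13_lpm_val_four v hv2, one_mul, hvy] at hR
  have hx0 : v x ≠ 0 := ne_of_gt (lt_trans zero_lt_one hx)
  have e4 : v x ^ 4 = v x * v x ^ 3 := by rw [← pow_succ']
  rw [e4] at hR
  have := mul_right_cancel₀ (pow_ne_zero 3 hx0) hR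
  rw [this]
  exact hx

/-- `E₁` is closed under addition and subtraction: main case `x₁ ≠ x₂`. -/
lemma s13_lpm_E1_add_sub_of_ne (h1 : W.a₁ = 0) (h3 : W.a₃ = 0) (ha2 : v W.a₂ ≤ 1)
    (ha4 : v W.a₄ ≤ 1) (ha6 : v W.a₆ ≤ 1) (hv2 : v 2 = 1) {x₁ y₁ x₂ y₂ : K}
    (h₁ : W.Nonsingular x₁ y₁) (h₂ : W.Nonsingular x₂ y₂) (hx₁ : 1 < v x₁) (hx₂ : 1 < v x₂)
    (hne : x₁ ≠ x₂) :
    s13_lpm_E1 v (Point.some x₁ y₁ h₁ + Point.some x₂ y₂ h₂) ∧
      s13_lpm_E1 v (Point.some x₁ y₁ h₁ - Point.some x₂ y₂ h₂) := by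
  obtain ⟨xp, yp, xm, ym, hp, hm, hadd, hsub, -, -, hprod, hsum⟩ :=
    xonly_add_sub h1 h3 h₁ h₂ hne
  rw [hadd, hsub]
  show 1 < v xp ∧ 1 < v xm
  have ha0 : 0 < v x₁ := lt_trans zero_lt_one hx₁
  have hb0 : 0 < v x₂ := lt_trans zero_lt_one hx₂
  have hab1 : 1 < v x₁ * v x₂ := one_lt_mul_of_lt_of_le' hx₁ hx₂.le
  have hmax1 : 1 ≤ max (v x₁) (v x₂) := hx₁.le.trans (le_max_left _ _)
  have hmaxab : max (v x₁) (v x₂) ≤ v x₁ * v x₂ := by
    apply max_le
    · calc v x₁ = v x₁ * 1 := (mul_one _).symm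
        _ ≤ v x₁ * v x₂ := mul_le_mul_right hx₂.le _
    · calc v x₂ = 1 * v x₂ := (one_mul _).symm
        _ ≤ v x₁ * v x₂ := mul_le_mul_left hx₁.le _
  have hD0 : v (x₁ - x₂) ^ 2 ≠ 0 :=
    pow_ne_zero 2 ((Valuation.ne_zero_iff v).2 (sub_ne_zero.2 hne))
  have hD : v (x₁ - x₂) ^ 2 ≤ (max (v x₁) (v x₂)) ^ 2 :=
    pow_le_pow_left₀ zero_le (Valuation.map_sub v x₁ x₂) 2
  -- the product
  have hM : v (x₁ * x₂ - W.a₄) = v x₁ * v x₂ := by
    rw [Valuation.map_sub_eq_of_lt_left, map_mul]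
    rw [map_mul]
    exact lt_of_le_of_lt ha4 hab1
  have hN : v ((x₁ * x₂ - W.a₄) ^ 2 - 4 * W.a₆ * (x₁ + x₂ + W.a₂)) = (v x₁ * v x₂) ^ 2 := by
    rw [Valuation.map_sub_eq_of_lt_left, map_pow, hM]
    rw [map_pow, hM, map_mul, map_mul, s13_lpm_val_four v hv2, one_mul]
    have hs : v (x₁ + x₂ + W.a₂) ≤ max (v x₁) (v x₂) :=
      Valuation.map_add_le v ((Valuation.map_add v x₁ x₂)) (ha2.trans hmax1)
    calc v W.a₆ * v (x₁ + x₂ + W.a₂) ≤ 1 * v (x₁ + x₂ + W.a₂) := mul_le_mul_left ha6 _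
      _ = v (x₁ + x₂ + W.a₂) := one_mul _
      _ ≤ max (v x₁) (v x₂) := hs
      _ ≤ v x₁ * v x₂ := hmaxab
      _ = (v x₁ * v x₂) ^ 1 := (pow_one _).symm
      _ < (v x₁ * v x₂) ^ 2 := pow_lt_pow_right₀ hab1 (by norm_num)
  have hprod' : v xp * v xm * v (x₁ - x₂) ^ 2 = (v x₁ * v x₂) ^ 2 := by
    rw [← hN, ← hprod, map_mul, map_mul, map_pow]
  -- the sum
  have hS : v (2 * ((x₁ + x₂) * (x₁ * x₂ + W.a₄) + 2 * W.a₂ * x₁ * x₂ + 2 * W.a₆))
      ≤ max (v x₁) (v x₂) * (v x₁ * v x₂) := by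
    rw [map_mul, hv2, one_mul]
    have hone : (1 : Γ₀) ≤ max (v x₁) (v x₂) * (v x₁ * v x₂) :=
      calc (1 : Γ₀) = 1 * 1 := (one_mul _).symm
        _ ≤ max (v x₁) (v x₂) * (v x₁ * v x₂) := mul_le_mul' hmax1 hab1.le
    refine Valuation.map_add_le v (Valuation.map_add_le v ?_ ?_) ?_
    · rw [map_mul]
      refine mul_le_mul' (Valuation.map_add v x₁ x₂) ?_
      refine Valuation.map_add_le v ?_ (ha4.trans hab1.le)
      rw [map_mul]
    · rw [map_mul, map_mul, map_mul, hv2, one_mul]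
      calc v W.a₂ * v x₁ * v x₂ = v W.a₂ * (v x₁ * v x₂) := mul_assoc _ _ _
        _ ≤ max (v x₁) (v x₂) * (v x₁ * v x₂) := mul_le_mul_left (ha2.trans hmax1) _
    · rw [map_mul, hv2, one_mul]
      exact ha6.trans hone
  have hsum' : v (xp + xm) * v (x₁ - x₂) ^ 2 ≤ max (v x₁) (v x₂) * (v x₁ * v x₂) := by
    rw [← map_pow, ← map_mul, hsum]
    exact hS
  refine ⟨s13_lpm_order hx₁ hx₂ hD0 hD hprod' hsum' ?_, ?_⟩
  · intro hlt
    exact Valuation.map_add_eq_of_lt_right v hlt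
  · have hprod'' : v xm * v xp * v (x₁ - x₂) ^ 2 = (v x₁ * v x₂) ^ 2 := by
      rw [mul_comm (v xm)]; exact hprod'
    refine s13_lpm_order hx₁ hx₂ hD0 hD hprod'' hsum' ?_
    intro hlt
    exact Valuation.map_add_eq_of_lt_left v hlt

/-- `E₁` is closed under addition. -/
lemma s13_lpm_E1_add (h1 : W.a₁ = 0) (h3 : W.a₃ = 0) (ha2 : v W.a₂ ≤ 1) (ha4 : v W.a₄ ≤ 1)
    (ha6 : v W.a₆ ≤ 1) (hv2 : v 2 = 1) {P Q : W.Point} (hP : s13_lpm_E1 v P)
    (hQ : s13_lpm_E1 v Q) : s13_lpm_E1 v (P + Q) := by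
  rcases P with _ | ⟨x₁, y₁, h₁⟩
  · have e1 : (Point.zero : W.Point) = 0 := rfl
    rw [e1, zero_add]; exact hQ
  rcases Q with _ | ⟨x₂, y₂, h₂⟩
  · have e1 : (Point.zero : W.Point) = 0 := rfl
    rw [e1, add_zero]; exact hP
  by_cases hne : x₁ = x₂
  · rcases (Point.X_eq_iff (h₁ := h₁) (h₂ := h₂)).1 hne with heq | heq
    · rw [heq]
      exact s13_lpm_E1_double v h1 h3 ha2 ha4 ha6 hv2 h₂ hQ
    · rw [heq, neg_add_cancel]
      exact s13_lpm_E1_zero v
  · exact (s13_lpm_E1_add_sub_of_ne v h1 h3 ha2 ha4 ha6 hv2 h₁ h₂ hP hQ hne).1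

/-- `E₁` is closed under subtraction. -/
lemma s13_lpm_E1_sub (h1 : W.a₁ = 0) (h3 : W.a₃ = 0) (ha2 : v W.a₂ ≤ 1) (ha4 : v W.a₄ ≤ 1)
    (ha6 : v W.a₆ ≤ 1) (hv2 : v 2 = 1) {P Q : W.Point} (hP : s13_lpm_E1 v P)
    (hQ : s13_lpm_E1 v Q) : s13_lpm_E1 v (P - Q) := by
  rw [sub_eq_add_neg]
  exact s13_lpm_E1_add v h1 h3 ha2 ha4 ha6 hv2 hP (s13_lpm_E1_neg v hQ)

/-- `E₁` is closed under multiplication by natural numbers. -/
lemma s13_lpm_E1_nsmul (h1 : W.a₁ = 0) (h3 : W.a₃ = 0) (ha2 : v W.a₂ ≤ 1) (ha4 : v W.a₄ ≤ 1)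
    (ha6 : v W.a₆ ≤ 1) (hv2 : v 2 = 1) {P : W.Point} (hP : s13_lpm_E1 v P) (n : ℕ) :
    s13_lpm_E1 v (n • P) := by
  induction n with
  | zero => rw [zero_nsmul]; exact s13_lpm_E1_zero v
  | succ n ih =>
    rw [succ_nsmul]
    exact s13_lpm_E1_add v h1 h3 ha2 ha4 ha6 hv2 ih hP

/-- **Same reduction**: two affine points which are close to each other (relative to `v y`)
differ by a point of `E₁`. -/
lemma s13_lpm_close (h1 : W.a₁ = 0) (h3 : W.a₃ = 0) (ha2 : v W.a₂ ≤ 1) (hv2 : v 2 = 1)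
    {x y x' y' : K} (h : W.Nonsingular x y) (h' : W.Nonsingular x' y')
    (hx : v x ≤ 1) (hx' : v x' ≤ 1) (hy0 : y ≠ 0)
    (hxx : v (x' - x) < v y) (hyy : v (y' - y) < v y) :
    s13_lpm_E1 v (Point.some x' y' h' - Point.some x y h) := by
  have hvy0 : v y ≠ 0 := (Valuation.ne_zero_iff v).2 hy0
  by_cases hne : x' = x
  · -- then `y' = y`
    have e1 := xonly_equation h1 h3 h.1
    have e2 := xonly_equation h1 h3 h'.1
    rw [hne] at e2
    have hmul : (y' - y) * (y' + y) = 0 := by linear_combination e2 - e1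
    have hy : y' = y := by
      rcases mul_eq_zero.1 hmul with h0 | h0
      · exact sub_eq_zero.1 h0
      · exfalso
        have e : y' - y = -(2 * y) := by linear_combination h0
        rw [e, Valuation.map_neg, map_mul, hv2, one_mul] at hyy
        exact lt_irrefl _ hyy
    subst hne
    subst hy
    rw [sub_self]
    exact s13_lpm_E1_zero v
  · obtain ⟨xp, yp, xm, ym, hp, hm, -, hsub, -, hxm, -, -⟩ := xonly_add_sub h1 h3 h' h hne
    rw [hsub]
    show 1 < v xm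
    have hd0 : v (x' - x) ≠ 0 := (Valuation.ne_zero_iff v).2 (sub_ne_zero.2 hne)
    have hA : v (y' + y) = v y := by
      have e : y' + y = (y' - y) + 2 * y := by ring
      rw [e, Valuation.map_add_eq_of_lt_right]
      · rw [map_mul, hv2, one_mul]
      · rw [map_mul, hv2, one_mul]; exact hyy
    have hB : v ((W.a₂ + x' + x) * (x' - x) ^ 2) < v y ^ 2 := by
      have h1' : v (W.a₂ + x' + x) ≤ 1 :=
        Valuation.map_add_le v (Valuation.map_add_le v ha2 hx') hx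
      calc v ((W.a₂ + x' + x) * (x' - x) ^ 2)
          = v (W.a₂ + x' + x) * v (x' - x) ^ 2 := by rw [map_mul, map_pow]
        _ ≤ 1 * v (x' - x) ^ 2 := mul_le_mul_left h1' _
        _ = v (x' - x) ^ 2 := one_mul _
        _ < v y ^ 2 := local_sq_lt_sq hxx
    have hAB : v ((y' + y) ^ 2 - (W.a₂ + x' + x) * (x' - x) ^ 2) = v y ^ 2 := by
      rw [Valuation.map_sub_eq_of_lt_left, map_pow, hA]
      rw [map_pow, hA]; exact hB
    have hprod : v xm * v (x' - x) ^ 2 = v y ^ 2 := by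
      rw [← hAB, ← hxm, map_mul, map_pow]
    by_contra hle
    have hle' : v xm ≤ 1 := not_lt.1 hle
    have : v y ^ 2 < v y ^ 2 :=
      calc v y ^ 2 = v xm * v (x' - x) ^ 2 := hprod.symm
        _ ≤ 1 * v (x' - x) ^ 2 := mul_le_mul_left hle' _
        _ = v (x' - x) ^ 2 := one_mul _
        _ < v y ^ 2 := local_sq_lt_sq hxx
    exact lt_irrefl _ this

end E1

section Inertia

variable {F K : Type*} [Field F] [Field K] [DecidableEq K] [Algebra F K]
  {Γ₀ : Type*} [LinearOrderedCommGroupWithZero Γ₀] (v : Valuation K Γ₀)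

/-- `σ` preserves `{x | 1 < v x}`. -/
lemma s13_lpm_sigma_big (σ : K ≃ₐ[F] K) (hσ : ∀ x : K, v x ≤ 1 → v (σ x - x) < 1) {x : K}
    (hx : 1 < v x) : 1 < v (σ x) := by
  have hx0 : x ≠ 0 := by
    rintro rfl
    rw [_root_.map_zero] at hx
    exact absurd hx (not_lt.2 zero_le_one)
  have hinv : v x⁻¹ < 1 := by
    rw [map_inv₀]
    exact inv_lt_one_of_one_lt₀ hx
  have h1 : v (σ x⁻¹) < 1 := by
    have e1 : σ x⁻¹ = (σ x⁻¹ - x⁻¹) + x⁻¹ := by ring
    rw [e1]
    exact Valuation.map_add_lt v (hσ _ hinv.le) hinv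
  rw [map_inv₀, map_inv₀] at h1
  have hσx0 : v (σ x) ≠ 0 := (Valuation.ne_zero_iff v).2 (by simpa using hx0)
  by_contra hcon
  have hcon' : v (σ x) ≤ 1 := not_lt.1 hcon
  have : 1 ≤ (v (σ x))⁻¹ := (one_le_inv₀ (zero_lt_iff.2 hσx0)).2 hcon'
  exact absurd h1 (not_lt.2 this)

/-- `σ` preserves `{x | v x ≤ 1}`. -/
lemma s13_lpm_sigma_le (σ : K ≃ₐ[F] K) (hσ : ∀ x : K, v x ≤ 1 → v (σ x - x) < 1) {x : K}
    (hx : v x ≤ 1) : v (σ x) ≤ 1 := by
  have e1 : σ x = (σ x - x) + x := by ring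
  rw [e1]
  exact Valuation.map_add_le v (hσ x hx).le hx

/-- **Inertia moves `p`-torsion points inside `E₁`** (MULT case, any residue characteristic
`≠ 2`): for `σ` in the inertia group and `P` with `p • P = 0`, `σ P - P ∈ E₁`. -/
theorem s13_lpm_inertia_E1 (σ : K ≃ₐ[F] K) (hσ : ∀ x : K, v x ≤ 1 → v (σ x - x) < 1)
    (W : Affine F) (e f ε : F) (h1 : W.a₁ = 0) (h3 : W.a₃ = 0) (h2 : W.a₂ = -(e + f))
    (h4 : W.a₄ = e * f) (h6 : W.a₆ = 0) {p : ℕ} (hp : Odd p) (hv2 : v 2 = 1)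
    (hf : v (algebraMap F K f) = 1) (hfe : v (algebraMap F K (f - e)) = 1)
    (heε : e = ε ^ p) (hε0 : ε ≠ 0) (hε : v (algebraMap F K ε) < 1)
    (P : (W⁄K).Point) (hP : p • P = 0) : s13_lpm_E1 v (σ • P - P) := by
  have hp0 : p ≠ 0 := by
    rintro rfl
    simp at hp
  rcases P with _ | ⟨x, y, h⟩
  · have e1 : (Point.zero : (W⁄K).Point) = 0 := rfl
    have e2 : σ • (0 : (W⁄K).Point) = 0 := rfl
    rw [e1, e2, sub_zero]
    exact s13_lpm_E1_zero v
  obtain ⟨h', hsmul⟩ := local_smul_some σ W h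
  have htor' : p • Point.some (σ x) (σ y) h' = 0 := by
    rw [← hsmul, ← local_smul_nsmul, hP]; rfl
  -- coefficients of the base change
  have k1 : (W⁄K).a₁ = 0 := by simp [h1]
  have k3 : (W⁄K).a₃ = 0 := by simp [h3]
  have k2 : (W⁄K).a₂ = -(algebraMap F K e + algebraMap F K f) := by simp [h2]
  have k4 : (W⁄K).a₄ = algebraMap F K e * algebraMap F K f := by simp [h4]
  have k6 : (W⁄K).a₆ = 0 := by simp [h6]
  have hfe' : v (algebraMap F K f - algebraMap F K e) = 1 := by rwa [← map_sub]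
  have hε0' : algebraMap F K ε ≠ 0 := by
    rwa [Ne, map_eq_zero_iff _ (algebraMap F K).injective]
  have heε' : algebraMap F K e = algebraMap F K ε ^ p := by rw [heε, map_pow]
  have helt : v (algebraMap F K e) < 1 := by
    rw [heε', map_pow]
    exact pow_lt_one₀ zero_le hε hp0
  have ka2 : v (W⁄K).a₂ ≤ 1 := by
    rw [k2, Valuation.map_neg]
    exact Valuation.map_add_le v helt.le hf.le
  have ka4 : v (W⁄K).a₄ ≤ 1 := by
    rw [k4, map_mul, hf, mul_one]; exact helt.le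
  have ka6 : v (W⁄K).a₆ ≤ 1 := by
    rw [k6, _root_.map_zero]; exact zero_le_one
  rw [hsmul]
  by_cases hbig : 1 < v x
  · -- `P ∈ E₁`
    exact s13_lpm_E1_sub v k1 k3 ka2 ka4 ka6 hv2 (s13_lpm_sigma_big v σ hσ hbig) hbig
  have hx : v x ≤ 1 := not_lt.1 hbig
  have hσx : v (σ x) ≤ 1 := s13_lpm_sigma_le v σ hσ hx
  have hy0 : y ≠ 0 := by
    intro hy0
    have hdbl := xonly_double_of_y_eq_zero k1 k3 h hy0
    obtain ⟨k, hk⟩ := hp
    have : p • Point.some x y h = Point.some x y h := by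
      rw [hk, add_smul, one_smul, mul_comm, mul_smul, two_smul, hdbl, smul_zero, zero_add]
    rw [this] at hP
    exact Point.some_ne_zero _ hP
  have heq := xonly_equation k1 k3 h.1
  have hfac : y ^ 2 = x * (x - algebraMap F K e) * (x - algebraMap F K f) := by
    rw [heq, k2, k4, k6]; ring
  suffices hclose : v (σ x - x) < v y ∧ v (σ y - y) < v y from
    s13_lpm_close v k1 k3 ka2 hv2 h h' hx hσx hy0 hclose.1 hclose.2
  have hy : v y ≤ 1 := by
    apply local_le_of_sq_le_sq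
    rw [one_pow, ← map_pow, hfac, map_mul, map_mul]
    exact mul_le_one' (mul_le_one' hx (Valuation.map_sub_le v hx helt.le))
      (Valuation.map_sub_le v hx hf.le)
  by_cases hx1 : v x = 1
  · -- `x` is a unit: then `y` is a unit
    have hy1 : v y = 1 := by
      by_contra hyne
      have hylt : v y < 1 := lt_of_le_of_ne hy hyne
      -- `2 P ∈ E₁`, hence `P ∈ E₁`
      obtain ⟨x', y', h2', hdbl, hx'⟩ := xonly_double k1 k3 (s13_lpm_two_ne v hv2) h hy0
      have hsq : x' * (4 * y ^ 2) = (x ^ 2 - algebraMap F K e * algebraMap F K f) ^ 2 := by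
        rw [hx', k4, k6]; ring
      have hnum : v (x ^ 2 - algebraMap F K e * algebraMap F K f) = 1 := by
        rw [Valuation.map_sub_eq_of_lt_left, map_pow, hx1, one_pow]
        rw [map_pow, hx1, one_pow, map_mul, hf, mul_one]
        exact helt
      have hx'big : 1 < v x' := by
        have hv := congrArg v hsq
        rw [map_mul, map_mul, s13_lpm_val_four v hv2, one_mul, map_pow, map_pow, hnum,
          one_pow] at hv
        have hvy0 : v y ≠ 0 := (Valuation.ne_zero_iff v).2 hy0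
        have hy2 : v y ^ 2 < 1 := by
          have := local_sq_lt_sq hylt
          rwa [one_pow] at this
        by_contra hcon
        have hcon' : v x' ≤ 1 := not_lt.1 hcon
        have : v x' * v y ^ 2 < 1 :=
          calc v x' * v y ^ 2 ≤ 1 * v y ^ 2 := mul_le_mul_left hcon' _
            _ = v y ^ 2 := one_mul _
            _ < 1 := hy2
        rw [hv] at this
        exact lt_irrefl _ this
      have h2E : s13_lpm_E1 v (Point.some x y h + Point.some x y h) := by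
        rw [hdbl]; exact hx'big
      obtain ⟨k, hk⟩ := hp
      have hPE : s13_lpm_E1 v ((k + 1) • (Point.some x y h + Point.some x y h)) :=
        s13_lpm_E1_nsmul v k1 k3 ka2 ka4 ka6 hv2 h2E (k + 1)
      have e3 : (k + 1) • (Point.some x y h + Point.some x y h) = Point.some x y h := by
        rw [← two_nsmul, ← mul_nsmul']
        have : (k + 1) * 2 = p + 1 := by omega
        rw [this, add_nsmul, hP, zero_add, one_nsmul]
      rw [e3] at hPE
      have : 1 < v x := hPE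
      rw [hx1] at this
      exact lt_irrefl _ this
    rw [hy1]
    exact ⟨hσ x hx, hσ y hy⟩
  · -- `v x < 1`: Lemma F1
    have hxlt : v x < 1 := lt_of_le_of_ne hx hx1
    obtain ⟨j, hj0, hjp, hj⟩ := f1_torsion_val v k1 k3 k2 k4 k6 hp heε' hε0' hε hf hv2 h hP hxlt
    have hpos : 0 < v (algebraMap F K ε) := zero_lt_iff.2 ((Valuation.ne_zero_iff v).2 hε0')
    have hex : v (algebraMap F K e) < v x := by
      rw [heε', map_pow, hj]
      exact pow_lt_pow_right_of_lt_one₀ hpos hε hjp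
    have hc : v (algebraMap F K (ε ^ (2 * j))) = v x := by
      rw [map_pow, map_pow, hj]
    set c : F := ε ^ (2 * j) with hcdef
    have hvx0 : v x ≠ 0 := ne_of_gt (lt_of_le_of_lt zero_le hex)
    have hx0 : x ≠ 0 := (Valuation.ne_zero_iff v).1 hvx0
    have hc0 : algebraMap F K c ≠ 0 := (Valuation.ne_zero_iff v).1 (hc ▸ hvx0)
    have hσc : σ (algebraMap F K c) = algebraMap F K c := σ.commutes c
    have hu : v (x / algebraMap F K c) = 1 := by
      rw [map_div₀, hc, div_self hvx0]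
    have hxx : v (σ x - x) < v x := by
      have e1 : σ x - x = algebraMap F K c * (σ (x / algebraMap F K c) - x / algebraMap F K c) := by
        rw [map_div₀, hσc]
        field_simp
      rw [e1, map_mul, hc]
      calc v x * v (σ (x / algebraMap F K c) - x / algebraMap F K c) < v x * 1 :=
            mul_lt_mul_of_pos_left (hσ _ hu.le) (zero_lt_iff.2 hvx0)
        _ = v x := mul_one _
    have hxe : v (x - algebraMap F K e) = v x := Valuation.map_sub_eq_of_lt_left v hex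
    have hxf : v (x - algebraMap F K f) = 1 := by
      rw [Valuation.map_sub_eq_of_lt_right v (by rw [hf]; exact hxlt), hf]
    have hvy : v y = v x := by
      apply local_eq_of_sq_eq_sq
      rw [← map_pow, hfac, map_mul, map_mul, hxe, hxf, mul_one, pow_two]
    have hw : v (y / x) = 1 := by
      rw [map_div₀, hvy, div_self hvx0]
    have hσw : v (σ (y / x)) ≤ 1 := s13_lpm_sigma_le v σ hσ hw.le
    have hyy : v (σ y - y) < v x := by
      have e1 : σ y - y = σ (y / x) * (σ x - x) + (σ (y / x) - y / x) * x := by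
        have e2 : σ y = σ (y / x) * σ x := by
          rw [← map_mul, div_mul_cancel₀ y hx0]
        rw [e2]
        field_simp
        ring
      rw [e1]
      apply Valuation.map_add_lt v
      · rw [map_mul]
        calc v (σ (y / x)) * v (σ x - x) ≤ 1 * v (σ x - x) := mul_le_mul_left hσw _
          _ = v (σ x - x) := one_mul _
          _ < v x := hxx
      · rw [map_mul]
        calc v (σ (y / x) - y / x) * v x < 1 * v x :=
              mul_lt_mul_of_pos_right (hσ _ hw.le) (zero_lt_iff.2 hvx0)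
          _ = v x := one_mul _
    rw [hvy]
    exact ⟨hxx, hyy⟩

end Inertia

section Group

variable {G : Type*} [AddCommGroup G]

lemma s13_lpm_mem_of_coprime (H : AddSubgroup G) {p : ℕ} {X : G} (hX : p • X = 0) {m : ℤ}
    (hm : IsCoprime m (p : ℤ)) (hmX : m • X ∈ H) : X ∈ H := by
  obtain ⟨u, w, huw⟩ := hm
  have e : X = u • (m • X) + w • ((p : ℤ) • X) := by
    rw [← mul_smul, ← mul_smul, ← add_smul, huw, one_smul]
  rw [e, natCast_zsmul, hX, smul_zero, add_zero]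
  exact H.zsmul_mem hmX u

lemma s13_lpm_coprime_sub {p : ℕ} (hp : p.Prime) {a b : ℕ} (ha : a < p) (hb : b < p)
    (hab : a ≠ b) : IsCoprime ((a : ℤ) - b) (p : ℤ) := by
  rw [Int.isCoprime_iff_gcd_eq_one, Int.gcd_comm]
  show Nat.gcd (p : ℤ).natAbs ((a : ℤ) - b).natAbs = 1
  rw [Int.natAbs_natCast]
  apply (Nat.Prime.coprime_iff_not_dvd hp).2
  intro hdvd
  have hpos : 0 < ((a : ℤ) - b).natAbs := by
    apply Int.natAbs_pos.2
    intro h0
    apply hab
    have : (a : ℤ) = b := by linarith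
    exact_mod_cast this
  have hle := Nat.le_of_dvd hpos hdvd
  omega

/-- The group-theoretic lemma: in a group whose `p`-torsion has at most `p²` elements, a proper
subgroup `Z` of the `p`-torsion is contained in, or meets trivially, any subgroup `C1`. -/
theorem s13_lpm_group {p : ℕ} (hp : p.Prime) (hfin : {P : G | p • P = 0}.Finite)
    (hcard : {P : G | p • P = 0}.ncard ≤ p ^ 2) (Z C1 : AddSubgroup G)
    (hZ : ∀ P ∈ Z, p • P = 0) (hZne : ∃ P : G, p • P = 0 ∧ P ∉ Z) :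
    (∀ P ∈ Z, P ∈ C1) ∨ (∀ P ∈ Z, P ∈ C1 → P = 0) := by
  by_contra hcon
  push_neg at hcon
  obtain ⟨⟨R, hRZ, hRC⟩, ⟨Q, hQZ, hQC, hQ0⟩⟩ := hcon
  let φ : Fin p × Fin p → G := fun ab => (ab.1 : ℕ) • Q + (ab.2 : ℕ) • R
  have hφinj : Function.Injective φ := by
    rintro ⟨a, b⟩ ⟨a', b'⟩ hab
    simp only [φ] at hab
    have hab' : (((b : ℕ) : ℤ) - ((b' : ℕ) : ℤ)) • R = (((a' : ℕ) : ℤ) - ((a : ℕ) : ℤ)) • Q := by
      rw [sub_smul, sub_smul, natCast_zsmul, natCast_zsmul, natCast_zsmul, natCast_zsmul,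
        sub_eq_sub_iff_add_eq_add, add_comm, hab, add_comm]
    have hb : b = b' := by
      by_contra hne
      have hcop := s13_lpm_coprime_sub hp b.2 b'.2 (fun h => hne (Fin.ext h))
      have hmem : (((b : ℕ) : ℤ) - ((b' : ℕ) : ℤ)) • R ∈ C1 := by
        rw [hab']; exact C1.zsmul_mem hQC _
      exact hRC (s13_lpm_mem_of_coprime C1 (hZ R hRZ) hcop hmem)
    have ha : a = a' := by
      by_contra hne
      have hcop := s13_lpm_coprime_sub hp a'.2 a.2 (fun h => hne (Fin.ext h).symm)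
      have hmem : (((a' : ℕ) : ℤ) - ((a : ℕ) : ℤ)) • Q ∈ (⊥ : AddSubgroup G) := by
        rw [← hab', hb, sub_self, zero_smul]
        exact (⊥ : AddSubgroup G).zero_mem
      exact hQ0 ((AddSubgroup.mem_bot).1 (s13_lpm_mem_of_coprime ⊥ (hZ Q hQZ) hcop hmem))
    rw [ha, hb]
  have hsub : Set.range φ ⊆ (Z : Set G) := by
    rintro _ ⟨⟨a, b⟩, rfl⟩
    exact Z.add_mem (Z.nsmul_mem hQZ _) (Z.nsmul_mem hRZ _)
  have hZV : (Z : Set G) ⊆ {P : G | p • P = 0} := fun P hP => hZ P hP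
  have hcardφ : (Set.range φ).ncard = p ^ 2 := by
    rw [Set.ncard_range_of_injective hφinj, Nat.card_eq_fintype_card, Fintype.card_prod,
      Fintype.card_fin, pow_two]
  have heq : Set.range φ = {P : G | p • P = 0} :=
    Set.eq_of_subset_of_ncard_le (hsub.trans hZV) (by rw [hcardφ]; exact hcard) hfin
  obtain ⟨P0, hP0, hP0Z⟩ := hZne
  apply hP0Z
  apply hsub
  rw [heq]
  exact hP0

end Group

section Root

variable {K : Type*} [Field K] [IsAlgClosed K] {Γ₀ : Type*} [LinearOrderedCommGroupWithZero Γ₀]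
  (v : Valuation K Γ₀)

/-- A polynomial whose constant coefficient has smaller valuation than its leading coefficient
has a root of valuation `< 1`. -/
theorem s13_lpm_exists_root (C : Polynomial K) (hC : v (C.coeff 0) < v C.leadingCoeff) :
    ∃ x : K, C.IsRoot x ∧ v x < 1 := by
  have hC0 : C ≠ 0 := by
    rintro rfl
    simp at hC
  have hsplit : C.Splits := IsAlgClosed.splits C
  have h0 := hsplit.coeff_zero_eq_leadingCoeff_mul_prod_roots
  by_contra hcon
  push_neg at hcon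
  have hprod : 1 ≤ v C.roots.prod := by
    rw [map_multiset_prod]
    apply Multiset.one_le_prod_of_one_le
    intro g hg
    obtain ⟨x, hx, rfl⟩ := Multiset.mem_map.1 hg
    exact hcon x ((Polynomial.mem_roots hC0).1 hx)
  have hval : v (C.coeff 0) = v C.leadingCoeff * v C.roots.prod := by
    rw [h0, map_mul, map_mul, map_pow, Valuation.map_neg, map_one, one_pow, one_mul]
  rw [hval] at hC
  have : v C.leadingCoeff * 1 ≤ v C.leadingCoeff * v C.roots.prod :=
    mul_le_mul_right hprod _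
  rw [mul_one] at this
  exact absurd hC (not_lt.2 this)

end Root

section Main

variable {K : Type*} [Field K] [DecidableEq K] [Algebra ℚ K]

/-- The subgroup `Z = V ∩ E₁` of the `p`-torsion `V` of `Y² = X (X - e) (X - f)`. -/
def s13_lpm_Z (A : ValuationSubring K) (e f : ℚ) (p : ℕ)
    (he : A.valuation (algebraMap ℚ K e) ≤ 1) (hf : A.valuation (algebraMap ℚ K f) ≤ 1)
    (h2A : A.valuation (2 : K) = 1) : AddSubgroup ((Wef e f)⁄K).Point where
  carrier := {P | p • P = 0 ∧ s13_lpm_E1 A.valuation P}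
  zero_mem' := ⟨smul_zero _, s13_lpm_E1_zero _⟩
  add_mem' := by
    rintro P Q ⟨hP, hPE⟩ ⟨hQ, hQE⟩
    refine ⟨by rw [smul_add, hP, hQ, add_zero], ?_⟩
    refine s13_lpm_E1_add A.valuation ?_ ?_ ?_ ?_ ?_ h2A hPE hQE
    · show algebraMap ℚ K 0 = 0
      exact _root_.map_zero _
    · show algebraMap ℚ K 0 = 0
      exact _root_.map_zero _
    · show A.valuation (algebraMap ℚ K (-(e + f))) ≤ 1
      rw [map_neg, Valuation.map_neg, map_add]
      exact Valuation.map_add_le _ he hf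
    · show A.valuation (algebraMap ℚ K (e * f)) ≤ 1
      rw [map_mul, map_mul]
      exact mul_le_one' he hf
    · show A.valuation (algebraMap ℚ K 0) ≤ 1
      rw [_root_.map_zero, _root_.map_zero]
      exact zero_le_one
  neg_mem' := by
    rintro P ⟨hP, hPE⟩
    exact ⟨by rw [smul_neg, hP, _root_.neg_zero], s13_lpm_E1_neg _ hPE⟩

lemma s13_lpm_mem_Z (A : ValuationSubring K) (e f : ℚ) (p : ℕ)
    (he : A.valuation (algebraMap ℚ K e) ≤ 1) (hf : A.valuation (algebraMap ℚ K f) ≤ 1)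
    (h2A : A.valuation (2 : K) = 1) (P : ((Wef e f)⁄K).Point) :
    P ∈ s13_lpm_Z A e f p he hf h2A ↔ p • P = 0 ∧ s13_lpm_E1 A.valuation P := Iff.rfl

/-- **(AT p), MULT case, core form.**  `W : Y² = X (X - e) (X - f)`, `e = ε ^ p`, `v ε < 1`,
`f`, `f - e`, `2` units; `I` a set of automorphisms acting trivially on the residue field (e.g.
the inertia group of `A`); `(T1)`: the `p`-torsion has at most `p²` elements; some nonzero
`p`-torsion point has `x ∈ A`.  Then for every `I`-stable subgroup `C1` of the `p`-torsion: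
`I` acts trivially on `C1`, or `I` acts trivially on `V / C1`. -/
theorem s13_lpm_main_core (A : ValuationSubring K) (e f ε : ℚ) (p : ℕ) (hp : p.Prime)
    (hp2 : p ≠ 2) (h2A : A.valuation (2 : K) = 1)
    (hε0 : ε ≠ 0) (hε : A.valuation (algebraMap ℚ K ε) < 1) (heε : e = ε ^ p)
    (hf : A.valuation (algebraMap ℚ K f) = 1) (hfe : A.valuation (algebraMap ℚ K (f - e)) = 1)
    (I : Subgroup (K ≃ₐ[ℚ] K))
    (hI : ∀ σ ∈ I, ∀ x : K, A.valuation x ≤ 1 → A.valuation (σ x - x) < 1)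
    (hfin : {P : ((Wef e f)⁄K).Point | p • P = 0}.Finite)
    (hcard : {P : ((Wef e f)⁄K).Point | p • P = 0}.ncard ≤ p ^ 2)
    (hex : ∃ (x y : K) (h : ((Wef e f)⁄K).Nonsingular x y),
      p • Point.some x y h = 0 ∧ A.valuation x ≤ 1)
    (C1 : AddSubgroup ((Wef e f)⁄K).Point) (hC1 : ∀ P ∈ C1, p • P = 0)
    (hC1st : ∀ σ ∈ I, ∀ P ∈ C1, σ • P ∈ C1) :
    (∀ σ ∈ I, ∀ P ∈ C1, σ • P = P) ∨
      (∀ σ ∈ I, ∀ P : ((Wef e f)⁄K).Point, p • P = 0 → σ • P - P ∈ C1) := by
  have hp0 : p ≠ 0 := hp.ne_zero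
  have he : A.valuation (algebraMap ℚ K e) ≤ 1 := by
    rw [heε, map_pow, map_pow]
    exact pow_le_one₀ zero_le hε.le
  -- `σ P - P ∈ Z`
  have key : ∀ σ ∈ I, ∀ P : ((Wef e f)⁄K).Point, p • P = 0 →
      σ • P - P ∈ s13_lpm_Z A e f p he hf.le h2A := by
    intro σ hσ P hP
    refine ⟨?_, ?_⟩
    · rw [smul_sub, ← local_smul_nsmul, hP, sub_zero]; rfl
    · exact s13_lpm_inertia_E1 A.valuation σ (hI σ hσ) (Wef e f) e f ε rfl rfl rfl rfl rfl
        (hp.odd_of_ne_two hp2) h2A hf hfe heε hε0 hε P hP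
  have hZne : ∃ P : ((Wef e f)⁄K).Point, p • P = 0 ∧ P ∉ s13_lpm_Z A e f p he hf.le h2A := by
    obtain ⟨x, y, h, htor, hx⟩ := hex
    refine ⟨Point.some x y h, htor, ?_⟩
    rintro ⟨-, hE⟩
    exact absurd hx (not_le.2 hE)
  rcases s13_lpm_group hp hfin hcard (s13_lpm_Z A e f p he hf.le h2A) C1 (fun P hP => hP.1) hZne
    with hle | hdisj
  · right
    intro σ hσ P hP
    exact hle _ (key σ hσ P hP)
  · left
    intro σ hσ P hP
    have h1 := key σ hσ P (hC1 P hP)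
    have h2 : σ • P - P ∈ C1 := C1.sub_mem (hC1st σ hσ P hP) hP
    exact sub_eq_zero.1 (hdisj _ h1 h2)

/-- The numerical input: `v(ε)^(p k) < v(p)` if `v ε < 1`, `v ε ≤ v p`, `k ≥ 1`, `p ≥ 2`. -/
lemma s13_lpm_val_lt {Γ₀ : Type*} [LinearOrderedCommGroupWithZero Γ₀] {a b : Γ₀} (ha : a < 1)
    (hab : a ≤ b) (hb : b ≤ 1) (hb0 : b ≠ 0) {n : ℕ} (hn : 2 ≤ n) : a ^ n < b := by
  rcases hb.lt_or_eq with hb1 | hb1
  · have hbpos : 0 < b := zero_lt_iff.2 hb0
    calc a ^ n ≤ b ^ n := pow_le_pow_left₀ zero_le hab n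
      _ ≤ b ^ 2 := pow_le_pow_of_le_one zero_le hb hn
      _ = b * b := pow_two b
      _ < b * 1 := mul_lt_mul_of_pos_left hb1 hbpos
      _ = b := mul_one b
  · rw [hb1]
    exact pow_lt_one₀ zero_le ha (by omega)

/-- The constant coefficient of the `p`-th division polynomial `C` of `Y² = X (X - e) (X - f)`
(`lc C = ± p`, `C(0) = ± (e f)^k`, `k = (p² - 1)/4 ≥ 1`) has smaller valuation than its leading
coefficient, if `e = ε ^ p` with `v ε < 1`, `v ε ≤ v p` and `v f = 1`. -/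
lemma s13_lpm_coeff_lt (A : ValuationSubring K) (e f ε : ℚ) (p : ℕ) (hp : p.Prime)
    (hε : A.valuation (algebraMap ℚ K ε) < 1)
    (hεp : A.valuation (algebraMap ℚ K ε) ≤ A.valuation (p : K)) (heε : e = ε ^ p)
    (hf : A.valuation (algebraMap ℚ K f) = 1) (C : Polynomial K) {k : ℕ} (hk : 0 < k)
    (hlc : A.valuation C.leadingCoeff = A.valuation (p : K))
    (hc0 : A.valuation (C.coeff 0) = A.valuation (algebraMap ℚ K (e * f)) ^ k) :
    A.valuation (C.coeff 0) < A.valuation C.leadingCoeff := by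
  have hchar : CharZero K := charZero_of_injective_algebraMap (algebraMap ℚ K).injective
  have hp0 : (p : K) ≠ 0 := Nat.cast_ne_zero.2 hp.ne_zero
  have hvp0 : A.valuation (p : K) ≠ 0 := (Valuation.ne_zero_iff _).2 hp0
  have hvp1 : A.valuation (p : K) ≤ 1 := by
    have := A.valuation_le_one_iff (p : K)
    exact this.2 (natCast_mem A p)
  rw [hlc, hc0, map_mul, map_mul, hf, mul_one, heε, map_pow, map_pow, ← pow_mul]
  refine s13_lpm_val_lt hε hεp hvp1 hvp0 ?_
  have := hp.two_le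
  nlinarith

/-- **(AT p), MULT case.**  As `s13_lpm_main_core`, with the hypothesis "some nonzero
`p`-torsion point has `x ∈ A`" replaced by the existence of a polynomial `C` all of whose roots
are `x`-coordinates of `p`-torsion points and with `v (C 0) < v (lc C)` (the `p`-th division
polynomial: `lc = ± p`, `C 0 = ± (e f)^((p²-1)/4)`, see `s13_lpm_coeff_lt`). -/
theorem s13_lpm_main [IsAlgClosed K] (A : ValuationSubring K) (e f ε : ℚ) (p : ℕ)
    (hp : p.Prime) (hp2 : p ≠ 2) (h2A : A.valuation (2 : K) = 1)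
    (hε0 : ε ≠ 0) (hε : A.valuation (algebraMap ℚ K ε) < 1) (heε : e = ε ^ p)
    (hf : A.valuation (algebraMap ℚ K f) = 1) (hfe : A.valuation (algebraMap ℚ K (f - e)) = 1)
    (I : Subgroup (K ≃ₐ[ℚ] K))
    (hI : ∀ σ ∈ I, ∀ x : K, A.valuation x ≤ 1 → A.valuation (σ x - x) < 1)
    (hfin : {P : ((Wef e f)⁄K).Point | p • P = 0}.Finite)
    (hcard : {P : ((Wef e f)⁄K).Point | p • P = 0}.ncard ≤ p ^ 2)
    (C : Polynomial K)
    (hCroot : ∀ x : K, C.IsRoot x →
      ∃ (y : K) (h : ((Wef e f)⁄K).Nonsingular x y), p • Point.some x y h = 0)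
    (hClt : A.valuation (C.coeff 0) < A.valuation C.leadingCoeff)
    (C1 : AddSubgroup ((Wef e f)⁄K).Point) (hC1 : ∀ P ∈ C1, p • P = 0)
    (hC1st : ∀ σ ∈ I, ∀ P ∈ C1, σ • P ∈ C1) :
    (∀ σ ∈ I, ∀ P ∈ C1, σ • P = P) ∨
      (∀ σ ∈ I, ∀ P : ((Wef e f)⁄K).Point, p • P = 0 → σ • P - P ∈ C1) := by
  obtain ⟨x, hroot, hx⟩ := s13_lpm_exists_root A.valuation C hClt
  obtain ⟨y, h, htor⟩ := hCroot x hroot
  exact s13_lpm_main_core A e f ε p hp hp2 h2A hε0 hε heε hf hfe I hI hfin hcard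
    ⟨x, y, h, htor, hx.le⟩ C1 hC1 hC1st

end Main

end Fermat.Agent.S13
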