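import Fermat.Agent.S13.Local2Trop
import Fermat.Agent.S13.LocalPMult

/-!
# S13 / M8 (local lemmas at `2`): same reduction (2d) and same branch (2e)  (OWNER: helper6)

`W : y² + xy = x³ + a₂x² + a₄x (+ a₆)` over a field `K` with a valuation `v`, `v 2 < 1`,
`v a₂ ≤ 1`.

* `tb2_close`  (2d): two affine points with the same reduction, `v x = 1`, are equal or differ
  by a point of the kernel of reduction.
* `tb2_branch` (2e): two affine points on the same branch at the node (`v a₄ < v x < 1`,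
  `v x' = v x`, `y'/x' ≡ y/x`) are equal or differ by a point with `1 ≤ v x₃`.
* `tb2_inertia_all`, `tb2_inertia_unit`, `tb2_inertia_sq` : the consequences for an
  automorphism `σ` acting trivially on the residue field.
* `tb2_main` : the statement (AT 2) in black-box form.
-/

set_option autoImplicit false
set_option linter.unusedSectionVars false
set_option linter.unusedVariables false

namespace Fermat.Agent.S13

open WeierstrassCurve WeierstrassCurve.Affine WeierstrassCurve.Affine.Point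
open Fermat.Agent.S05

section order

variable {Γ₀ : Type*} [LinearOrderedCommGroupWithZero Γ₀]

lemma tb2_mul_lt_of_lt_of_le {a b c d : Γ₀} (h1 : a < c) (h2 : b ≤ d) (hd : d ≠ 0) :
    a * b < c * d :=
  calc a * b ≤ a * d := mul_le_mul_right h2 _
    _ < c * d := mul_lt_mul_of_pos_right h1 (zero_lt_iff.2 hd)

lemma tb2_mul_lt_of_le_of_lt {a b c d : Γ₀} (h1 : a ≤ c) (h2 : b < d) (hc : c ≠ 0) :
    a * b < c * d :=
  calc a * b ≤ c * b := mul_le_mul_left h1 _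
    _ < c * d := mul_lt_mul_of_pos_left h2 (zero_lt_iff.2 hc)

lemma tb2_mul_le_mul {a b c d : Γ₀} (h1 : a ≤ c) (h2 : b ≤ d) : a * b ≤ c * d :=
  calc a * b ≤ c * b := mul_le_mul_left h1 _
    _ ≤ c * d := mul_le_mul_right h2 _

lemma tb2_pow_left_inj {a b : Γ₀} {n : ℕ} (hn : n ≠ 0) (h : a ^ n = b ^ n) : a = b := by
  rcases lt_trichotomy a b with h1 | h1 | h1
  · exact absurd h (ne_of_lt (pow_lt_pow_left₀ h1 zero_le hn))
  · exact h1
  · exact absurd h.symm (ne_of_lt (pow_lt_pow_left₀ h1 zero_le hn))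

end order

section general

variable {K : Type*} [Field K] [DecidableEq K] {Γ₀ : Type*} [LinearOrderedCommGroupWithZero Γ₀]
  (v : Valuation K Γ₀) {W : Affine K}

/-- The `x`-coordinate of a difference `P₁ - P₂`, `x₁ ≠ x₂`. -/
theorem tb2_sub_formula {x₁ y₁ x₂ y₂ : K} (h₁ : W.Nonsingular x₁ y₁) (h₂ : W.Nonsingular x₂ y₂)
    (hx : x₁ ≠ x₂) :
    ∃ (x₃ y₃ : K) (h₃ : W.Nonsingular x₃ y₃),
      Point.some x₁ y₁ h₁ - Point.some x₂ y₂ h₂ = Point.some x₃ y₃ h₃ ∧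
      x₃ * (x₁ - x₂) ^ 2 = (y₁ - W.negY x₂ y₂) ^ 2 + W.a₁ * (y₁ - W.negY x₂ y₂) * (x₁ - x₂)
        - (W.a₂ + x₁ + x₂) * (x₁ - x₂) ^ 2 := by
  have hn : W.Nonsingular x₂ (W.negY x₂ y₂) := (nonsingular_neg x₂ y₂).mpr h₂
  have hneg : -(Point.some x₂ y₂ h₂) = Point.some x₂ (W.negY x₂ y₂) hn := Point.neg_some h₂
  have hd : x₁ - x₂ ≠ 0 := sub_ne_zero.mpr hx
  have hadd : Point.some x₁ y₁ h₁ + Point.some x₂ (W.negY x₂ y₂) hn = Point.some _ _ _ :=
    Point.add_of_X_ne hx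
  refine ⟨_, _, _, by rw [sub_eq_add_neg, hneg]; exact hadd, ?_⟩
  rw [slope_of_X_ne hx, Affine.addX]
  field_simp
  ring

/-- Integrality of `y`. -/
theorem tb2_val_y_le (h1 : W.a₁ = 1) (h3 : W.a₃ = 0) (ha2 : v W.a₂ ≤ 1) (ha4 : v W.a₄ ≤ 1)
    (ha6 : v W.a₆ ≤ 1) {x y : K} (h : W.Equation x y) (hx : v x ≤ 1) : v y ≤ 1 := by
  by_contra hcon
  have hy : 1 < v y := not_le.1 hcon
  have heq := (W.equation_iff x y).1 h
  rw [h1, h3] at heq
  have hy0 : v y ≠ 0 := ne_of_gt (lt_trans zero_lt_one hy)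
  have hlhs : v (y ^ 2 + 1 * x * y + 0 * y) = v y ^ 2 := by
    have e : y ^ 2 + 1 * x * y + 0 * y = y ^ 2 + x * y := by ring
    rw [e, Valuation.map_add_eq_of_lt_left, map_pow]
    rw [map_pow, map_mul, pow_two]
    exact tb2_mul_lt_of_lt_of_le (lt_of_le_of_lt hx hy) le_rfl hy0
  have hrhs : v (x ^ 3 + W.a₂ * x ^ 2 + W.a₄ * x + W.a₆) ≤ 1 := by
    refine Valuation.map_add_le v (Valuation.map_add_le v (Valuation.map_add_le v ?_ ?_) ?_) ha6
    · rw [map_pow]; exact pow_le_one₀ zero_le hx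
    · rw [map_mul, map_pow]; exact mul_le_one' ha2 (pow_le_one₀ zero_le hx)
    · rw [map_mul]; exact mul_le_one' ha4 hx
  rw [heq] at hlhs
  rw [hlhs] at hrhs
  have : 1 < v y ^ 2 := one_lt_pow₀ hy two_ne_zero
  exact absurd hrhs (not_le.2 this)

/-- **(2d) Same reduction.** -/
theorem tb2_close (h1 : W.a₁ = 1) (h3 : W.a₃ = 0) (ha2 : v W.a₂ ≤ 1) (hv2 : v 2 < 1)
    {x y x' y' : K} (h : W.Nonsingular x y) (h' : W.Nonsingular x' y')
    (hx : v x = 1) (hy : v y ≤ 1) (hxx : v (x' - x) < 1) (hyy : v (y' - y) < 1) :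
    Point.some x' y' h' = Point.some x y h ∨
      ∃ (x₃ y₃ : K) (h₃ : W.Nonsingular x₃ y₃),
        Point.some x' y' h' - Point.some x y h = Point.some x₃ y₃ h₃ ∧ 1 < v x₃ := by
  have h2y : v (2 * y) < 1 := by
    rw [map_mul]
    calc v 2 * v y ≤ v 2 * 1 := mul_le_mul_right hy _
      _ = v 2 := mul_one _
      _ < 1 := hv2
  have hnegY : W.negY x y = -y - x := by
    simp only [Affine.negY, h1, h3]; ring
  have hA : v (y' - W.negY x y) = 1 := by
    have e : y' - W.negY x y = ((y' - y) + 2 * y) + x := by rw [hnegY]; ring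
    rw [e, Valuation.map_add_eq_of_lt_right, hx]
    rw [hx]
    exact Valuation.map_add_lt v hyy h2y
  by_cases hne : x' = x
  · left
    subst hne
    rcases Y_eq_of_X_eq h'.1 h.1 rfl with hY | hY
    · subst hY; rfl
    · exfalso
      rw [hY, sub_self, _root_.map_zero] at hA
      exact zero_ne_one hA
  · right
    obtain ⟨x₃, y₃, h₃, hsub, hx₃⟩ := tb2_sub_formula h' h hne
    refine ⟨x₃, y₃, h₃, hsub, ?_⟩
    have hd0 : v (x' - x) ≠ 0 := (Valuation.ne_zero_iff v).2 (sub_ne_zero.2 hne)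
    have hx' : v x' ≤ 1 := by
      have e : x' = (x' - x) + x := by ring
      rw [e]
      exact Valuation.map_add_le v hxx.le hx.le
    have hd2 : v (x' - x) ^ 2 < 1 := pow_lt_one₀ zero_le hxx two_ne_zero
    have hB : v (W.a₁ * (y' - W.negY x y) * (x' - x)) < 1 := by
      rw [h1, one_mul, map_mul, hA, one_mul]
      exact hxx
    have hC : v ((W.a₂ + x' + x) * (x' - x) ^ 2) < 1 := by
      rw [map_mul, map_pow]
      have : v (W.a₂ + x' + x) ≤ 1 :=
        Valuation.map_add_le v (Valuation.map_add_le v ha2 hx') hx.le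
      calc v (W.a₂ + x' + x) * v (x' - x) ^ 2 ≤ 1 * v (x' - x) ^ 2 := mul_le_mul_left this _
        _ = v (x' - x) ^ 2 := one_mul _
        _ < 1 := hd2
    have hR : v ((y' - W.negY x y) ^ 2 + W.a₁ * (y' - W.negY x y) * (x' - x)
        - (W.a₂ + x' + x) * (x' - x) ^ 2) = 1 := by
      have hAA : v ((y' - W.negY x y) ^ 2) = 1 := by rw [map_pow, hA, one_pow]
      rw [Valuation.map_sub_eq_of_lt_left, Valuation.map_add_eq_of_lt_left, hAA]
      · rw [hAA]; exact hB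
      · rw [Valuation.map_add_eq_of_lt_left, hAA]
        · exact hC
        · rw [hAA]; exact hB
    rw [← hx₃, map_mul, map_pow] at hR
    by_contra hcon
    have hle : v x₃ ≤ 1 := not_lt.1 hcon
    have : v x₃ * v (x' - x) ^ 2 < 1 :=
      calc v x₃ * v (x' - x) ^ 2 ≤ 1 * v (x' - x) ^ 2 := mul_le_mul_left hle _
        _ = v (x' - x) ^ 2 := one_mul _
        _ < 1 := hd2
    rw [hR] at this
    exact lt_irrefl _ this

/-- On the branches at the node: `v y ≤ v x`. -/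
theorem tb2_val_y_le_x (h1 : W.a₁ = 1) (h3 : W.a₃ = 0) (h6 : W.a₆ = 0) (ha2 : v W.a₂ ≤ 1)
    {x y : K} (h : W.Equation x y) (hx : v x ≤ 1) (hx4 : v W.a₄ ≤ v x) : v y ≤ v x := by
  by_contra hcon
  have hy : v x < v y := not_le.1 hcon
  have heq := (W.equation_iff x y).1 h
  rw [h1, h3, h6] at heq
  have hy0 : v y ≠ 0 := ne_of_gt (lt_of_le_of_lt zero_le hy)
  have hlhs : v (y ^ 2 + 1 * x * y + 0 * y) = v y ^ 2 := by
    have e : y ^ 2 + 1 * x * y + 0 * y = y ^ 2 + x * y := by ring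
    rw [e, Valuation.map_add_eq_of_lt_left, map_pow]
    rw [map_pow, map_mul, pow_two]
    exact tb2_mul_lt_of_lt_of_le hy le_rfl hy0
  have hrhs : v (x ^ 3 + W.a₂ * x ^ 2 + W.a₄ * x + 0) ≤ v x ^ 2 := by
    refine Valuation.map_add_le v (Valuation.map_add_le v (Valuation.map_add_le v ?_ ?_) ?_) ?_
    · rw [map_pow, pow_succ]
      calc v x ^ 2 * v x ≤ v x ^ 2 * 1 := mul_le_mul_right hx _
        _ = v x ^ 2 := mul_one _
    · rw [map_mul, map_pow]
      calc v W.a₂ * v x ^ 2 ≤ 1 * v x ^ 2 := mul_le_mul_left ha2 _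
        _ = v x ^ 2 := one_mul _
    · rw [map_mul, pow_two]
      exact mul_le_mul_left hx4 _
    · rw [_root_.map_zero]; exact zero_le
  rw [heq] at hlhs
  rw [hlhs] at hrhs
  have : v x ^ 2 < v y ^ 2 := pow_lt_pow_left₀ hy zero_le two_ne_zero
  exact absurd hrhs (not_le.2 this)

/-- **(2e) Same branch.** -/
theorem tb2_branch (h1 : W.a₁ = 1) (h3 : W.a₃ = 0) (h6 : W.a₆ = 0) (ha2 : v W.a₂ ≤ 1)
    (hv2 : v 2 < 1) {x y x' y' : K} (h : W.Nonsingular x y) (h' : W.Nonsingular x' y')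
    (hx : v x < 1) (hx4 : v W.a₄ < v x) (hxx' : v x' = v x)
    (htt : v (x * y' - x' * y) < v x ^ 2) :
    Point.some x' y' h' = Point.some x y h ∨
      ∃ (x₃ y₃ : K) (h₃ : W.Nonsingular x₃ y₃),
        Point.some x' y' h' - Point.some x y h = Point.some x₃ y₃ h₃ ∧ 1 ≤ v x₃ := by
  have hvx0 : v x ≠ 0 := ne_of_gt (lt_of_le_of_lt zero_le hx4)
  have hvxpos : 0 < v x := zero_lt_iff.2 hvx0
  have hx0 : x ≠ 0 := (Valuation.ne_zero_iff v).1 hvx0
  have hy : v y ≤ v x := tb2_val_y_le_x v h1 h3 h6 ha2 h.1 hx.le hx4.le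
  have hnegY : W.negY x y = -y - x := by
    simp only [Affine.negY, h1, h3]; ring
  have hvx2 : v x ^ 2 ≠ 0 := pow_ne_zero 2 hvx0
  -- `v (2 x y) < v x ^ 2`
  have h2xy : v (2 * x * y) < v x ^ 2 := by
    rw [map_mul, map_mul, pow_two]
    have : v 2 * v x < v x := by
      calc v 2 * v x < 1 * v x := mul_lt_mul_of_pos_right hv2 hvxpos
        _ = v x := one_mul _
    exact tb2_mul_lt_of_lt_of_le this hy hvx0
  have h2x'y : v (2 * x' * y) < v x ^ 2 := by
    rw [map_mul, map_mul, pow_two, hxx']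
    have : v 2 * v x < v x := by
      calc v 2 * v x < 1 * v x := mul_lt_mul_of_pos_right hv2 hvxpos
        _ = v x := one_mul _
    exact tb2_mul_lt_of_lt_of_le this hy hvx0
  -- `T1 = x A - y B`
  have hT1 : v ((x * y' - x' * y) + 2 * x * y + x ^ 2) = v x ^ 2 := by
    rw [Valuation.map_add_eq_of_lt_right, map_pow]
    rw [map_pow]
    exact Valuation.map_add_lt v htt h2xy
  -- `T2 = x A + (y + x) B`
  have hT2 : v ((x * y' - x' * y) + 2 * x' * y + x' * x) = v x ^ 2 := by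
    have e : v (x' * x) = v x ^ 2 := by rw [map_mul, hxx', pow_two]
    rw [Valuation.map_add_eq_of_lt_right, e]
    rw [e]
    exact Valuation.map_add_lt v htt h2x'y
  by_cases hne : x' = x
  · left
    subst hne
    rcases Y_eq_of_X_eq h'.1 h.1 rfl with hY | hY
    · subst hY; rfl
    · exfalso
      rw [hY, hnegY] at hT1
      have e : x' * (-y - x') - x' * y + 2 * x' * y + x' ^ 2 = 0 := by ring
      rw [e, _root_.map_zero] at hT1
      exact hvx2 hT1.symm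
  · right
    obtain ⟨x₃, y₃, h₃, hsub, hx₃⟩ := tb2_sub_formula h' h hne
    refine ⟨x₃, y₃, h₃, hsub, ?_⟩
    rw [hnegY, h1] at hx₃
    have heq := (W.equation_iff x y).1 h.1
    rw [h1, h3, h6] at heq
    have hB : v (x' - x) ≤ v x := by
      apply Valuation.map_sub_le v (le_of_eq hxx') le_rfl
    have hB2 : v (x' - x) ^ 2 ≤ v x ^ 2 := pow_le_pow_left₀ zero_le hB 2
    have hd0 : v (x' - x) ≠ 0 := (Valuation.ne_zero_iff v).2 (sub_ne_zero.2 hne)
    have key : x₃ * (x' - x) ^ 2 * x ^ 2 =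
        ((x * y' - x' * y) + 2 * x * y + x ^ 2) * ((x * y' - x' * y) + 2 * x' * y + x' * x)
          + (W.a₄ * x - x' * x ^ 2) * (x' - x) ^ 2 := by
      linear_combination x ^ 2 * hx₃ + (x' - x) ^ 2 * heq
    have hT3 : v ((W.a₄ * x - x' * x ^ 2) * (x' - x) ^ 2) < v x ^ 2 * v x ^ 2 := by
      rw [map_mul, map_pow]
      refine tb2_mul_lt_of_lt_of_le ?_ hB2 hvx2
      apply Valuation.map_sub_lt v
      · rw [map_mul, pow_two]
        exact mul_lt_mul_of_pos_right hx4 hvxpos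
      · rw [map_mul, map_pow, hxx', pow_two]
        calc v x * (v x * v x) < 1 * (v x * v x) :=
              mul_lt_mul_of_pos_right hx (mul_pos hvxpos hvxpos)
          _ = v x * v x := one_mul _
    have hprod : v (((x * y' - x' * y) + 2 * x * y + x ^ 2) *
        ((x * y' - x' * y) + 2 * x' * y + x' * x)) = v x ^ 2 * v x ^ 2 := by
      rw [map_mul, hT1, hT2]
    have hval : v (x₃ * (x' - x) ^ 2 * x ^ 2) = v x ^ 2 * v x ^ 2 := by
      rw [key, Valuation.map_add_eq_of_lt_left, hprod]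
      rw [hprod]
      exact hT3
    rw [map_mul, map_mul, map_pow, map_pow] at hval
    by_contra hcon
    have hlt : v x₃ < 1 := not_le.1 hcon
    have h1' : v x₃ * v (x' - x) ^ 2 < v x ^ 2 := by
      calc v x₃ * v (x' - x) ^ 2 < 1 * v (x' - x) ^ 2 :=
            mul_lt_mul_of_pos_right hlt (zero_lt_iff.2 (pow_ne_zero 2 hd0))
        _ = v (x' - x) ^ 2 := one_mul _
        _ ≤ v x ^ 2 := hB2
    have : v x₃ * v (x' - x) ^ 2 * v x ^ 2 < v x ^ 2 * v x ^ 2 :=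
      mul_lt_mul_of_pos_right h1' (zero_lt_iff.2 hvx2)
    rw [hval] at this
    exact lt_irrefl _ this

end general

section inertia

variable {F K : Type*} [Field F] [Field K] [DecidableEq K] [Algebra F K]
  {Γ₀ : Type*} [LinearOrderedCommGroupWithZero Γ₀] (v : Valuation K Γ₀)

/-- `σ` preserves the units. -/
lemma tb2_sigma_unit (σ : K ≃ₐ[F] K) (hσ : ∀ x : K, v x ≤ 1 → v (σ x - x) < 1) {x : K}
    (hx : v x = 1) : v (σ x) = 1 := by
  have e1 : σ x = x + (σ x - x) := by ring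
  rw [e1, Valuation.map_add_eq_of_lt_left, hx]
  rw [hx]
  exact hσ x hx.le

/-- `p • (σ • P - P) = 0` for a `p`-torsion point `P`. -/
lemma tb2_nsmul_smul_sub (σ : K ≃ₐ[F] K) (W : Affine F) {p : ℕ} {P : (W⁄K).Point}
    (hP : p • P = 0) : p • (σ • P - P) = 0 := by
  rw [smul_sub, ← local_smul_nsmul, hP, sub_zero]
  rfl

/-- **(2d) for inertia**: a torsion point with unit `x`-coordinate is fixed. -/
theorem tb2_inertia_unit (σ : K ≃ₐ[F] K) (hσ : ∀ x : K, v x ≤ 1 → v (σ x - x) < 1)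
    (W : Affine F) (h1 : W.a₁ = 1) (h3 : W.a₃ = 0) (ha2 : v (algebraMap F K W.a₂) ≤ 1)
    (ha4 : v (algebraMap F K W.a₄) ≤ 1) (ha6 : v (algebraMap F K W.a₆) ≤ 1) (hv2 : v 2 < 1)
    {p : ℕ}
    (h2a : ∀ (x y : K) (h : (W⁄K).Nonsingular x y), p • Point.some x y h = 0 → v x ≤ 1)
    {x y : K} (h : (W⁄K).Nonsingular x y) (hP : p • Point.some x y h = 0) (hx : v x = 1) :
    σ • Point.some x y h = Point.some x y h := by
  obtain ⟨h', hsmul⟩ := local_smul_some σ W h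
  have k1 : (W⁄K).a₁ = 1 := by simp [h1]
  have k3 : (W⁄K).a₃ = 0 := by simp [h3]
  have ka2 : v (W⁄K).a₂ ≤ 1 := by simpa using ha2
  have ka4 : v (W⁄K).a₄ ≤ 1 := by simpa using ha4
  have ka6 : v (W⁄K).a₆ ≤ 1 := by simpa using ha6
  have hy : v y ≤ 1 := tb2_val_y_le v k1 k3 ka2 ka4 ka6 h.1 hx.le
  have htor := tb2_nsmul_smul_sub σ W hP
  rw [hsmul] at htor ⊢
  rcases tb2_close v k1 k3 ka2 hv2 h h' hx hy (hσ x hx.le) (hσ y hy) with heq | ⟨x₃, y₃, h₃, hsub, hbig⟩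
  · exact heq
  · exfalso
    rw [hsub] at htor
    exact absurd (h2a x₃ y₃ h₃ htor) (not_le.2 hbig)

/-- **(2e) for inertia**: a torsion point reducing to the node. -/
theorem tb2_inertia_node (σ : K ≃ₐ[F] K) (hσ : ∀ x : K, v x ≤ 1 → v (σ x - x) < 1)
    (W : Affine F) (h1 : W.a₁ = 1) (h3 : W.a₃ = 0) (h6 : W.a₆ = 0)
    (ha2 : v (algebraMap F K W.a₂) ≤ 1) (h4 : W.a₄ ≠ 0) (hv4 : v (algebraMap F K W.a₄) < 1)
    (h2 : (2 : K) ≠ 0) (hv2 : v 2 < 1) {p : ℕ} (hp : Odd p)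
    (h2a : ∀ (x y : K) (h : (W⁄K).Nonsingular x y), p • Point.some x y h = 0 → v x ≤ 1)
    {x y : K} (h : (W⁄K).Nonsingular x y) (hP : p • Point.some x y h = 0) (hx : v x < 1) :
    σ • Point.some x y h = Point.some x y h ∨
      ∃ (x₃ y₃ : K) (h₃ : (W⁄K).Nonsingular x₃ y₃),
        σ • Point.some x y h - Point.some x y h = Point.some x₃ y₃ h₃ ∧ v x₃ = 1 := by
  have hp0 : p ≠ 0 := by
    rintro rfl
    simp at hp
  obtain ⟨h', hsmul⟩ := local_smul_some σ W h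
  have k1 : (W⁄K).a₁ = 1 := by simp [h1]
  have k3 : (W⁄K).a₃ = 0 := by simp [h3]
  have k6 : (W⁄K).a₆ = 0 := by simp [h6]
  have k4 : (W⁄K).a₄ = algebraMap F K W.a₄ := by simp
  have ka2 : v (W⁄K).a₂ ≤ 1 := by simpa using ha2
  have k4ne : (W⁄K).a₄ ≠ 0 := by
    rw [k4, Ne, map_eq_zero_iff _ (algebraMap F K).injective]
    exact h4
  have kv4 : v (W⁄K).a₄ < 1 := by rw [k4]; exact hv4
  have hv4' : v (4 : K) < 1 := by
    have : (4 : K) = 2 * 2 := by norm_num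
    rw [this, map_mul]
    calc v 2 * v 2 ≤ 1 * v 2 := mul_le_mul_left hv2.le _
      _ = v 2 := one_mul _
      _ < 1 := hv2
  have kb2 : v (W⁄K).b₂ = 1 := by
    have e : (W⁄K).b₂ = 1 + 4 * (W⁄K).a₂ := by
      simp only [WeierstrassCurve.b₂, k1]; ring
    rw [e]
    apply Valuation.map_one_add_of_lt
    rw [map_mul]
    calc v 4 * v (W⁄K).a₂ ≤ v 4 * 1 := mul_le_mul_right ka2 _
      _ = v 4 := mul_one _
      _ < 1 := hv4'
  obtain ⟨j, hj, hjp, hpow, hgt⟩ := tb_torsion_val' v k3 k6 h2 kb2 k4ne kv4 hp h hP hx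
  have hvx0 : v x ≠ 0 := ne_of_gt (lt_of_le_of_lt zero_le hgt)
  have hvxpos : 0 < v x := zero_lt_iff.2 hvx0
  have hx0 : x ≠ 0 := (Valuation.ne_zero_iff v).1 hvx0
  have hσx0 : σ x ≠ 0 := by simpa using hx0
  -- `v (σ x) = v x`
  have hσx : v (σ x) = v x := by
    have hc : v (x ^ p / (W⁄K).a₄ ^ (2 * j)) = 1 := by
      rw [map_div₀, map_pow, map_pow, hpow]
      exact div_self (pow_ne_zero _ ((Valuation.ne_zero_iff v).2 k4ne))
    have hσc := tb2_sigma_unit v σ hσ hc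
    have hσa : σ ((W⁄K).a₄) = (W⁄K).a₄ := by rw [k4]; exact σ.commutes _
    rw [map_div₀, map_pow, map_pow, hσa, map_div₀, map_pow, map_pow] at hσc
    have hne : v (W⁄K).a₄ ^ (2 * j) ≠ 0 := pow_ne_zero _ ((Valuation.ne_zero_iff v).2 k4ne)
    have h3' : v (σ x) ^ p = v (W⁄K).a₄ ^ (2 * j) := by
      have := (div_eq_one_iff_eq hne).1 hσc
      exact this
    exact tb2_pow_left_inj hp0 (h3'.trans hpow.symm)
  have hy : v y ≤ v x := tb2_val_y_le_x v k1 k3 k6 ka2 h.1 hx.le hgt.le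
  have ht : v (y / x) ≤ 1 := by
    rw [map_div₀]
    exact div_le_one_of_le₀ hy zero_le
  have htt : v (x * σ y - σ x * y) < v x ^ 2 := by
    have e : x * σ y - σ x * y = x * σ x * (σ (y / x) - y / x) := by
      rw [map_div₀]
      field_simp
    rw [e, map_mul, map_mul, hσx, pow_two]
    calc v x * v x * v (σ (y / x) - y / x) < v x * v x * 1 :=
          mul_lt_mul_of_pos_left (hσ _ ht) (mul_pos hvxpos hvxpos)
      _ = v x * v x := mul_one _
  have htor := tb2_nsmul_smul_sub σ W hP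
  rw [hsmul] at htor ⊢
  rcases tb2_branch v k1 k3 k6 ka2 hv2 h h' hx hgt hσx htt with heq | ⟨x₃, y₃, h₃, hsub, hbig⟩
  · left; exact heq
  · right
    rw [hsub] at htor
    exact ⟨x₃, y₃, h₃, hsub, le_antisymm (h2a x₃ y₃ h₃ htor) hbig⟩

/-- **(2d) + (2e)**: for `σ` in the inertia group and a `p`-torsion point `P`, either
`σ P = P` or `σ P - P` is an affine point with unit `x`-coordinate. -/
theorem tb2_inertia_all (σ : K ≃ₐ[F] K) (hσ : ∀ x : K, v x ≤ 1 → v (σ x - x) < 1)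
    (W : Affine F) (h1 : W.a₁ = 1) (h3 : W.a₃ = 0) (h6 : W.a₆ = 0)
    (ha2 : v (algebraMap F K W.a₂) ≤ 1) (h4 : W.a₄ ≠ 0) (hv4 : v (algebraMap F K W.a₄) < 1)
    (h2 : (2 : K) ≠ 0) (hv2 : v 2 < 1) {p : ℕ} (hp : Odd p)
    (h2a : ∀ (x y : K) (h : (W⁄K).Nonsingular x y), p • Point.some x y h = 0 → v x ≤ 1)
    (P : (W⁄K).Point) (hP : p • P = 0) :
    σ • P = P ∨
      ∃ (x₃ y₃ : K) (h₃ : (W⁄K).Nonsingular x₃ y₃),
        σ • P - P = Point.some x₃ y₃ h₃ ∧ v x₃ = 1 := by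
  rcases P with _ | ⟨x, y, h⟩
  · left; rfl
  · have hx := h2a x y h hP
    rcases hx.lt_or_eq with hlt | heq
    · exact tb2_inertia_node v σ hσ W h1 h3 h6 ha2 h4 hv4 h2 hv2 hp h2a h hP hlt
    · left
      refine tb2_inertia_unit v σ hσ W h1 h3 ha2 hv4.le ?_ hv2 h2a h hP heq
      rw [h6, _root_.map_zero, _root_.map_zero]
      exact zero_le_one

/-- **`(σ - 1) V ⊆ V^I`**: for `σ, τ` in the inertia group and a `p`-torsion point `P`,
`τ` fixes `σ P - P`. -/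
theorem tb2_inertia_sq (σ τ : K ≃ₐ[F] K) (hσ : ∀ x : K, v x ≤ 1 → v (σ x - x) < 1)
    (hτ : ∀ x : K, v x ≤ 1 → v (τ x - x) < 1)
    (W : Affine F) (h1 : W.a₁ = 1) (h3 : W.a₃ = 0) (h6 : W.a₆ = 0)
    (ha2 : v (algebraMap F K W.a₂) ≤ 1) (h4 : W.a₄ ≠ 0) (hv4 : v (algebraMap F K W.a₄) < 1)
    (h2 : (2 : K) ≠ 0) (hv2 : v 2 < 1) {p : ℕ} (hp : Odd p)
    (h2a : ∀ (x y : K) (h : (W⁄K).Nonsingular x y), p • Point.some x y h = 0 → v x ≤ 1)
    (P : (W⁄K).Point) (hP : p • P = 0) :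
    τ • (σ • P - P) = σ • P - P := by
  have htor := tb2_nsmul_smul_sub σ W hP
  rcases tb2_inertia_all v σ hσ W h1 h3 h6 ha2 h4 hv4 h2 hv2 hp h2a P hP with
    heq | ⟨x₃, y₃, h₃, hsub, hx₃⟩
  · rw [heq, sub_self]; rfl
  · rw [hsub] at htor ⊢
    refine tb2_inertia_unit v τ hτ W h1 h3 ha2 hv4.le ?_ hv2 h2a h₃ htor hx₃
    rw [h6, _root_.map_zero, _root_.map_zero]
    exact zero_le_one

end inertia

end Fermat.Agent.S13
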