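import Mathlib

/-!
# S13 / M2 — the Montgomery ladder polynomials  (OWNER: helper5)

For `b₂ b₄ b₆ b₈ : R` the polynomials `ldA n, ldB n : R[X]` are such that `(ldA n : ldB n)` is the
`x`-coordinate of `n • (X, Y)` on a Weierstrass curve with invariants `b₂, b₄, b₆, b₈`:

* `(A₀, B₀) = (1, 0)`, `(A₁, B₁) = (X, 1)`;
* `A₂ₘ = A⁴ - b₄ A² B² - 2 b₆ A B³ - b₈ B⁴`, `B₂ₘ = 4 A³ B + b₂ A² B² + 2 b₄ A B³ + b₆ B⁴`
  with `(A, B) = (Aₘ, Bₘ)`;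
* `B₂ₘ₊₁ = Cₘ²`, `A₂ₘ₊₁ = Sₘ - X Cₘ²` with `Cₘ = Aₘ₊₁ Bₘ - Aₘ Bₘ₊₁` and
  `Sₘ = 2 A₁ A₂ (A₁ B₂ + A₂ B₁) + b₂ A₁ A₂ B₁ B₂ + b₄ (A₁ B₂ + A₂ B₁) B₁ B₂ + b₆ B₁² B₂²`,
  `(A₁, B₁) = (Aₘ, Bₘ)`, `(A₂, B₂) = (Aₘ₊₁, Bₘ₊₁)`.

Main results: the recursions (valid for all `m`), base change, degrees and leading coefficients,
constant terms in the shape `b₆ = 0`, `b₄ = 2 a₄`, `b₈ = - a₄ ^ 2`.
-/

set_option autoImplicit false

namespace Fermat.Agent.S13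

open Polynomial

variable {R : Type*} [CommRing R]

/-- The pair `(Aₙ, Bₙ)`. -/
noncomputable def ldPair (b₂ b₄ b₆ b₈ : R) : ℕ → R[X] × R[X]
  | 0 => (1, 0)
  | 1 => (X, 1)
  | (k + 2) =>
    if h : (k + 2) % 2 = 0 then
      (((ldPair b₂ b₄ b₆ b₈ ((k + 2) / 2)).1) ^ 4
          - C b₄ * ((ldPair b₂ b₄ b₆ b₈ ((k + 2) / 2)).1) ^ 2
            * ((ldPair b₂ b₄ b₆ b₈ ((k + 2) / 2)).2) ^ 2
          - 2 * C b₆ * ((ldPair b₂ b₄ b₆ b₈ ((k + 2) / 2)).1)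
            * ((ldPair b₂ b₄ b₆ b₈ ((k + 2) / 2)).2) ^ 3
          - C b₈ * ((ldPair b₂ b₄ b₆ b₈ ((k + 2) / 2)).2) ^ 4,
        4 * ((ldPair b₂ b₄ b₆ b₈ ((k + 2) / 2)).1) ^ 3 * ((ldPair b₂ b₄ b₆ b₈ ((k + 2) / 2)).2)
          + C b₂ * ((ldPair b₂ b₄ b₆ b₈ ((k + 2) / 2)).1) ^ 2
            * ((ldPair b₂ b₄ b₆ b₈ ((k + 2) / 2)).2) ^ 2
          + 2 * C b₄ * ((ldPair b₂ b₄ b₆ b₈ ((k + 2) / 2)).1)
            * ((ldPair b₂ b₄ b₆ b₈ ((k + 2) / 2)).2) ^ 3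
          + C b₆ * ((ldPair b₂ b₄ b₆ b₈ ((k + 2) / 2)).2) ^ 4)
    else
      (2 * (ldPair b₂ b₄ b₆ b₈ ((k + 2) / 2)).1 * (ldPair b₂ b₄ b₆ b₈ ((k + 2) / 2 + 1)).1
            * ((ldPair b₂ b₄ b₆ b₈ ((k + 2) / 2)).1 * (ldPair b₂ b₄ b₆ b₈ ((k + 2) / 2 + 1)).2
              + (ldPair b₂ b₄ b₆ b₈ ((k + 2) / 2 + 1)).1 * (ldPair b₂ b₄ b₆ b₈ ((k + 2) / 2)).2)
          + C b₂ * (ldPair b₂ b₄ b₆ b₈ ((k + 2) / 2)).1 * (ldPair b₂ b₄ b₆ b₈ ((k + 2) / 2 + 1)).1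
            * (ldPair b₂ b₄ b₆ b₈ ((k + 2) / 2)).2 * (ldPair b₂ b₄ b₆ b₈ ((k + 2) / 2 + 1)).2
          + C b₄ * ((ldPair b₂ b₄ b₆ b₈ ((k + 2) / 2)).1 * (ldPair b₂ b₄ b₆ b₈ ((k + 2) / 2 + 1)).2
              + (ldPair b₂ b₄ b₆ b₈ ((k + 2) / 2 + 1)).1 * (ldPair b₂ b₄ b₆ b₈ ((k + 2) / 2)).2)
            * (ldPair b₂ b₄ b₆ b₈ ((k + 2) / 2)).2 * (ldPair b₂ b₄ b₆ b₈ ((k + 2) / 2 + 1)).2
          + C b₆ * ((ldPair b₂ b₄ b₆ b₈ ((k + 2) / 2)).2) ^ 2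
            * ((ldPair b₂ b₄ b₆ b₈ ((k + 2) / 2 + 1)).2) ^ 2
          - X * ((ldPair b₂ b₄ b₆ b₈ ((k + 2) / 2 + 1)).1 * (ldPair b₂ b₄ b₆ b₈ ((k + 2) / 2)).2
              - (ldPair b₂ b₄ b₆ b₈ ((k + 2) / 2)).1
                * (ldPair b₂ b₄ b₆ b₈ ((k + 2) / 2 + 1)).2) ^ 2,
        ((ldPair b₂ b₄ b₆ b₈ ((k + 2) / 2 + 1)).1 * (ldPair b₂ b₄ b₆ b₈ ((k + 2) / 2)).2
              - (ldPair b₂ b₄ b₆ b₈ ((k + 2) / 2)).1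
                * (ldPair b₂ b₄ b₆ b₈ ((k + 2) / 2 + 1)).2) ^ 2)
termination_by n => n
decreasing_by all_goals omega

/-- The numerator `Aₙ` of `x(n • P)`. -/
noncomputable def ldA (b₂ b₄ b₆ b₈ : R) (n : ℕ) : R[X] := (ldPair b₂ b₄ b₆ b₈ n).1

/-- The denominator `Bₙ` of `x(n • P)`. -/
noncomputable def ldB (b₂ b₄ b₆ b₈ : R) (n : ℕ) : R[X] := (ldPair b₂ b₄ b₆ b₈ n).2

/-- The cross term `Cₘ = Aₘ₊₁ Bₘ - Aₘ Bₘ₊₁` (the `(2m+1)`-st division polynomial up to sign). -/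
noncomputable def ldC (b₂ b₄ b₆ b₈ : R) (m : ℕ) : R[X] :=
  ldA b₂ b₄ b₆ b₈ (m + 1) * ldB b₂ b₄ b₆ b₈ m - ldA b₂ b₄ b₆ b₈ m * ldB b₂ b₄ b₆ b₈ (m + 1)

/-- The numerator `Sₘ` of `x((m+1)P + mP) + x((m+1)P - mP)`. -/
noncomputable def ldS (b₂ b₄ b₆ b₈ : R) (m : ℕ) : R[X] :=
  2 * ldA b₂ b₄ b₆ b₈ m * ldA b₂ b₄ b₆ b₈ (m + 1)
      * (ldA b₂ b₄ b₆ b₈ m * ldB b₂ b₄ b₆ b₈ (m + 1)
        + ldA b₂ b₄ b₆ b₈ (m + 1) * ldB b₂ b₄ b₆ b₈ m)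
    + C b₂ * ldA b₂ b₄ b₆ b₈ m * ldA b₂ b₄ b₆ b₈ (m + 1)
      * ldB b₂ b₄ b₆ b₈ m * ldB b₂ b₄ b₆ b₈ (m + 1)
    + C b₄ * (ldA b₂ b₄ b₆ b₈ m * ldB b₂ b₄ b₆ b₈ (m + 1)
        + ldA b₂ b₄ b₆ b₈ (m + 1) * ldB b₂ b₄ b₆ b₈ m)
      * ldB b₂ b₄ b₆ b₈ m * ldB b₂ b₄ b₆ b₈ (m + 1)
    + C b₆ * (ldB b₂ b₄ b₆ b₈ m) ^ 2 * (ldB b₂ b₄ b₆ b₈ (m + 1)) ^ 2

variable (b₂ b₄ b₆ b₈ : R)

/-! ### The recursions -/

@[simp] theorem ldA_zero : ldA b₂ b₄ b₆ b₈ 0 = 1 := by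
  simp [ldA, ldPair]

@[simp] theorem ldB_zero : ldB b₂ b₄ b₆ b₈ 0 = 0 := by
  simp [ldB, ldPair]

@[simp] theorem ldA_one : ldA b₂ b₄ b₆ b₈ 1 = X := by
  simp [ldA, ldPair]

@[simp] theorem ldB_one : ldB b₂ b₄ b₆ b₈ 1 = 1 := by
  simp [ldB, ldPair]

theorem ldPair_even (k : ℕ) (h : (k + 2) % 2 = 0) :
    ldPair b₂ b₄ b₆ b₈ (k + 2) =
      ((ldA b₂ b₄ b₆ b₈ ((k + 2) / 2)) ^ 4
          - C b₄ * (ldA b₂ b₄ b₆ b₈ ((k + 2) / 2)) ^ 2 * (ldB b₂ b₄ b₆ b₈ ((k + 2) / 2)) ^ 2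
          - 2 * C b₆ * (ldA b₂ b₄ b₆ b₈ ((k + 2) / 2)) * (ldB b₂ b₄ b₆ b₈ ((k + 2) / 2)) ^ 3
          - C b₈ * (ldB b₂ b₄ b₆ b₈ ((k + 2) / 2)) ^ 4,
        4 * (ldA b₂ b₄ b₆ b₈ ((k + 2) / 2)) ^ 3 * (ldB b₂ b₄ b₆ b₈ ((k + 2) / 2))
          + C b₂ * (ldA b₂ b₄ b₆ b₈ ((k + 2) / 2)) ^ 2 * (ldB b₂ b₄ b₆ b₈ ((k + 2) / 2)) ^ 2
          + 2 * C b₄ * (ldA b₂ b₄ b₆ b₈ ((k + 2) / 2)) * (ldB b₂ b₄ b₆ b₈ ((k + 2) / 2)) ^ 3
          + C b₆ * (ldB b₂ b₄ b₆ b₈ ((k + 2) / 2)) ^ 4) := by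
  rw [ldPair, dif_pos h]
  rfl

theorem ldPair_odd (k : ℕ) (h : ¬ (k + 2) % 2 = 0) :
    ldPair b₂ b₄ b₆ b₈ (k + 2) =
      (ldS b₂ b₄ b₆ b₈ ((k + 2) / 2) - X * (ldC b₂ b₄ b₆ b₈ ((k + 2) / 2)) ^ 2,
        (ldC b₂ b₄ b₆ b₈ ((k + 2) / 2)) ^ 2) := by
  rw [ldPair, dif_neg h]
  rfl

theorem ldA_two_mul (m : ℕ) :
    ldA b₂ b₄ b₆ b₈ (2 * m) =
      (ldA b₂ b₄ b₆ b₈ m) ^ 4 - C b₄ * (ldA b₂ b₄ b₆ b₈ m) ^ 2 * (ldB b₂ b₄ b₆ b₈ m) ^ 2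
        - 2 * C b₆ * (ldA b₂ b₄ b₆ b₈ m) * (ldB b₂ b₄ b₆ b₈ m) ^ 3
        - C b₈ * (ldB b₂ b₄ b₆ b₈ m) ^ 4 := by
  rcases m with _ | m
  · simp
  · have h2 : 2 * (m + 1) = 2 * m + 2 := by ring
    have hmod : (2 * m + 2) % 2 = 0 := by omega
    have hdiv : (2 * m + 2) / 2 = m + 1 := by omega
    rw [h2]
    conv_lhs => rw [ldA, ldPair_even b₂ b₄ b₆ b₈ (2 * m) hmod]
    simp only [hdiv]

theorem ldB_two_mul (m : ℕ) :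
    ldB b₂ b₄ b₆ b₈ (2 * m) =
      4 * (ldA b₂ b₄ b₆ b₈ m) ^ 3 * (ldB b₂ b₄ b₆ b₈ m)
        + C b₂ * (ldA b₂ b₄ b₆ b₈ m) ^ 2 * (ldB b₂ b₄ b₆ b₈ m) ^ 2
        + 2 * C b₄ * (ldA b₂ b₄ b₆ b₈ m) * (ldB b₂ b₄ b₆ b₈ m) ^ 3
        + C b₆ * (ldB b₂ b₄ b₆ b₈ m) ^ 4 := by
  rcases m with _ | m
  · simp
  · have h2 : 2 * (m + 1) = 2 * m + 2 := by ring
    have hmod : (2 * m + 2) % 2 = 0 := by omega
    have hdiv : (2 * m + 2) / 2 = m + 1 := by omega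
    rw [h2]
    conv_lhs => rw [ldB, ldPair_even b₂ b₄ b₆ b₈ (2 * m) hmod]
    simp only [hdiv]

theorem ldC_zero : ldC b₂ b₄ b₆ b₈ 0 = -1 := by
  simp [ldC]

theorem ldS_zero : ldS b₂ b₄ b₆ b₈ 0 = 2 * X := by
  simp [ldS]

theorem ldB_two_mul_add_one (m : ℕ) :
    ldB b₂ b₄ b₆ b₈ (2 * m + 1) = (ldC b₂ b₄ b₆ b₈ m) ^ 2 := by
  rcases m with _ | m
  · simp [ldC_zero]
  · have h2 : 2 * (m + 1) + 1 = (2 * m + 1) + 2 := by ring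
    have hmod : ¬ ((2 * m + 1) + 2) % 2 = 0 := by omega
    have hdiv : ((2 * m + 1) + 2) / 2 = m + 1 := by omega
    rw [h2]
    conv_lhs => rw [ldB, ldPair_odd b₂ b₄ b₆ b₈ (2 * m + 1) hmod]
    simp only [hdiv]

theorem ldA_two_mul_add_one (m : ℕ) :
    ldA b₂ b₄ b₆ b₈ (2 * m + 1) = ldS b₂ b₄ b₆ b₈ m - X * (ldC b₂ b₄ b₆ b₈ m) ^ 2 := by
  rcases m with _ | m
  · simp [ldC_zero, ldS_zero]; ring
  · have h2 : 2 * (m + 1) + 1 = (2 * m + 1) + 2 := by ring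
    have hmod : ¬ ((2 * m + 1) + 2) % 2 = 0 := by omega
    have hdiv : ((2 * m + 1) + 2) / 2 = m + 1 := by omega
    rw [h2]
    conv_lhs => rw [ldA, ldPair_odd b₂ b₄ b₆ b₈ (2 * m + 1) hmod]
    simp only [hdiv]


/-! ### Evaluation forms of the recursions -/

theorem ldA_two_mul_eval (m : ℕ) (x : R) :
    (ldA b₂ b₄ b₆ b₈ (2 * m)).eval x =
      ((ldA b₂ b₄ b₆ b₈ m).eval x) ^ 4
        - b₄ * ((ldA b₂ b₄ b₆ b₈ m).eval x) ^ 2 * ((ldB b₂ b₄ b₆ b₈ m).eval x) ^ 2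
        - 2 * b₆ * ((ldA b₂ b₄ b₆ b₈ m).eval x) * ((ldB b₂ b₄ b₆ b₈ m).eval x) ^ 3
        - b₈ * ((ldB b₂ b₄ b₆ b₈ m).eval x) ^ 4 := by
  rw [ldA_two_mul]
  simp only [eval_sub, eval_mul, eval_pow, eval_C, eval_ofNat]

theorem ldB_two_mul_eval (m : ℕ) (x : R) :
    (ldB b₂ b₄ b₆ b₈ (2 * m)).eval x =
      4 * ((ldA b₂ b₄ b₆ b₈ m).eval x) ^ 3 * ((ldB b₂ b₄ b₆ b₈ m).eval x)
        + b₂ * ((ldA b₂ b₄ b₆ b₈ m).eval x) ^ 2 * ((ldB b₂ b₄ b₆ b₈ m).eval x) ^ 2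
        + 2 * b₄ * ((ldA b₂ b₄ b₆ b₈ m).eval x) * ((ldB b₂ b₄ b₆ b₈ m).eval x) ^ 3
        + b₆ * ((ldB b₂ b₄ b₆ b₈ m).eval x) ^ 4 := by
  rw [ldB_two_mul]
  simp only [eval_add, eval_mul, eval_pow, eval_C, eval_ofNat]

theorem ldC_eval (m : ℕ) (x : R) :
    (ldC b₂ b₄ b₆ b₈ m).eval x =
      (ldA b₂ b₄ b₆ b₈ (m + 1)).eval x * (ldB b₂ b₄ b₆ b₈ m).eval x
        - (ldA b₂ b₄ b₆ b₈ m).eval x * (ldB b₂ b₄ b₆ b₈ (m + 1)).eval x := by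
  simp only [ldC, eval_sub, eval_mul]

theorem ldS_eval (m : ℕ) (x : R) :
    (ldS b₂ b₄ b₆ b₈ m).eval x =
      2 * (ldA b₂ b₄ b₆ b₈ m).eval x * (ldA b₂ b₄ b₆ b₈ (m + 1)).eval x
          * ((ldA b₂ b₄ b₆ b₈ m).eval x * (ldB b₂ b₄ b₆ b₈ (m + 1)).eval x
            + (ldA b₂ b₄ b₆ b₈ (m + 1)).eval x * (ldB b₂ b₄ b₆ b₈ m).eval x)
        + b₂ * (ldA b₂ b₄ b₆ b₈ m).eval x * (ldA b₂ b₄ b₆ b₈ (m + 1)).eval x
          * (ldB b₂ b₄ b₆ b₈ m).eval x * (ldB b₂ b₄ b₆ b₈ (m + 1)).eval x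
        + b₄ * ((ldA b₂ b₄ b₆ b₈ m).eval x * (ldB b₂ b₄ b₆ b₈ (m + 1)).eval x
            + (ldA b₂ b₄ b₆ b₈ (m + 1)).eval x * (ldB b₂ b₄ b₆ b₈ m).eval x)
          * (ldB b₂ b₄ b₆ b₈ m).eval x * (ldB b₂ b₄ b₆ b₈ (m + 1)).eval x
        + b₆ * ((ldB b₂ b₄ b₆ b₈ m).eval x) ^ 2 * ((ldB b₂ b₄ b₆ b₈ (m + 1)).eval x) ^ 2 := by
  simp only [ldS, eval_add, eval_mul, eval_pow, eval_C, eval_ofNat]

theorem ldB_two_mul_add_one_eval (m : ℕ) (x : R) :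
    (ldB b₂ b₄ b₆ b₈ (2 * m + 1)).eval x =
      ((ldA b₂ b₄ b₆ b₈ (m + 1)).eval x * (ldB b₂ b₄ b₆ b₈ m).eval x
        - (ldA b₂ b₄ b₆ b₈ m).eval x * (ldB b₂ b₄ b₆ b₈ (m + 1)).eval x) ^ 2 := by
  rw [ldB_two_mul_add_one, eval_pow, ldC_eval]

theorem ldA_two_mul_add_one_eval (m : ℕ) (x : R) :
    (ldA b₂ b₄ b₆ b₈ (2 * m + 1)).eval x =
      (2 * (ldA b₂ b₄ b₆ b₈ m).eval x * (ldA b₂ b₄ b₆ b₈ (m + 1)).eval x
          * ((ldA b₂ b₄ b₆ b₈ m).eval x * (ldB b₂ b₄ b₆ b₈ (m + 1)).eval x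
            + (ldA b₂ b₄ b₆ b₈ (m + 1)).eval x * (ldB b₂ b₄ b₆ b₈ m).eval x)
        + b₂ * (ldA b₂ b₄ b₆ b₈ m).eval x * (ldA b₂ b₄ b₆ b₈ (m + 1)).eval x
          * (ldB b₂ b₄ b₆ b₈ m).eval x * (ldB b₂ b₄ b₆ b₈ (m + 1)).eval x
        + b₄ * ((ldA b₂ b₄ b₆ b₈ m).eval x * (ldB b₂ b₄ b₆ b₈ (m + 1)).eval x
            + (ldA b₂ b₄ b₆ b₈ (m + 1)).eval x * (ldB b₂ b₄ b₆ b₈ m).eval x)
          * (ldB b₂ b₄ b₆ b₈ m).eval x * (ldB b₂ b₄ b₆ b₈ (m + 1)).eval x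
        + b₆ * ((ldB b₂ b₄ b₆ b₈ m).eval x) ^ 2 * ((ldB b₂ b₄ b₆ b₈ (m + 1)).eval x) ^ 2)
      - x * ((ldA b₂ b₄ b₆ b₈ (m + 1)).eval x * (ldB b₂ b₄ b₆ b₈ m).eval x
        - (ldA b₂ b₄ b₆ b₈ m).eval x * (ldB b₂ b₄ b₆ b₈ (m + 1)).eval x) ^ 2 := by
  rw [ldA_two_mul_add_one, eval_sub, eval_mul, eval_X, eval_pow, ldC_eval, ldS_eval]

/-! ### Base change -/

section Map

variable {S : Type*} [CommRing S] (φ : R →+* S)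

theorem ldPair_map (n : ℕ) :
    (ldA b₂ b₄ b₆ b₈ n).map φ = ldA (φ b₂) (φ b₄) (φ b₆) (φ b₈) n ∧
      (ldB b₂ b₄ b₆ b₈ n).map φ = ldB (φ b₂) (φ b₄) (φ b₆) (φ b₈) n := by
  induction n using Nat.strong_induction_on with
  | _ n ih =>
    rcases Nat.even_or_odd' n with ⟨m, rfl | rfl⟩
    · rcases m with _ | m
      · simp
      · obtain ⟨hA, hB⟩ := ih (m + 1) (by omega)
        constructor
        · rw [ldA_two_mul, ldA_two_mul]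
          simp only [Polynomial.map_sub, Polynomial.map_mul, Polynomial.map_pow, map_C,
            Polynomial.map_ofNat, hA, hB]
        · rw [ldB_two_mul, ldB_two_mul]
          simp only [Polynomial.map_add, Polynomial.map_mul, Polynomial.map_pow, map_C,
            Polynomial.map_ofNat, hA, hB]
    · rcases m with _ | m
      · simp
      · obtain ⟨hA, hB⟩ := ih (m + 1) (by omega)
        obtain ⟨hA', hB'⟩ := ih (m + 1 + 1) (by omega)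
        constructor
        · rw [ldA_two_mul_add_one, ldA_two_mul_add_one]
          simp only [ldS, ldC, Polynomial.map_sub, Polynomial.map_add, Polynomial.map_mul,
            Polynomial.map_pow, map_C, map_X, Polynomial.map_ofNat, hA, hB, hA', hB']
        · rw [ldB_two_mul_add_one, ldB_two_mul_add_one]
          simp only [ldC, Polynomial.map_sub, Polynomial.map_mul, Polynomial.map_pow,
            hA, hB, hA', hB']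

theorem ldA_map (n : ℕ) :
    (ldA b₂ b₄ b₆ b₈ n).map φ = ldA (φ b₂) (φ b₄) (φ b₆) (φ b₈) n :=
  (ldPair_map b₂ b₄ b₆ b₈ φ n).1

theorem ldB_map (n : ℕ) :
    (ldB b₂ b₄ b₆ b₈ n).map φ = ldB (φ b₂) (φ b₄) (φ b₆) (φ b₈) n :=
  (ldPair_map b₂ b₄ b₆ b₈ φ n).2

theorem ldC_map (m : ℕ) :
    (ldC b₂ b₄ b₆ b₈ m).map φ = ldC (φ b₂) (φ b₄) (φ b₆) (φ b₈) m := by
  simp only [ldC, Polynomial.map_sub, Polynomial.map_mul, ldA_map, ldB_map]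

theorem ldS_map (m : ℕ) :
    (ldS b₂ b₄ b₆ b₈ m).map φ = ldS (φ b₂) (φ b₄) (φ b₆) (φ b₈) m := by
  simp only [ldS, Polynomial.map_add, Polynomial.map_mul, Polynomial.map_pow, map_C,
    Polynomial.map_ofNat, ldA_map, ldB_map]

end Map


/-! ### Degrees and leading coefficients -/

/-- `f` has degree at most `d` and its `d`-th coefficient is `c`. -/
def LdTop (f : R[X]) (d : ℕ) (c : R) : Prop := f.natDegree ≤ d ∧ f.coeff d = c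

namespace LdTop

variable {f g : R[X]} {d e : ℕ} {c c' : R}

theorem congr (h : LdTop f d c) (hd : d = e) (hc : c = c') : LdTop f e c' := by
  subst hd; subst hc; exact h

theorem mul (hf : LdTop f d c) (hg : LdTop g e c') : LdTop (f * g) (d + e) (c * c') :=
  ⟨natDegree_mul_le_of_le hf.1 hg.1, by
    rw [coeff_mul_add_eq_of_natDegree_le hf.1 hg.1, hf.2, hg.2]⟩

theorem pow (hf : LdTop f d c) (k : ℕ) : LdTop (f ^ k) (k * d) (c ^ k) :=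
  ⟨natDegree_pow_le_of_le k hf.1, by
    rw [coeff_pow_of_natDegree_le hf.1, hf.2]⟩

theorem add (hf : LdTop f d c) (hg : LdTop g d c') : LdTop (f + g) d (c + c') :=
  ⟨natDegree_add_le_of_degree_le hf.1 hg.1, by rw [coeff_add, hf.2, hg.2]⟩

theorem sub (hf : LdTop f d c) (hg : LdTop g d c') : LdTop (f - g) d (c - c') :=
  ⟨(natDegree_sub_le_of_le hf.1 hg.1).trans (max_self d).le, by rw [coeff_sub, hf.2, hg.2]⟩

theorem lower (hf : LdTop f d c) (h : d < e) : LdTop f e 0 :=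
  ⟨hf.1.trans h.le, coeff_eq_zero_of_natDegree_lt (lt_of_le_of_lt hf.1 h)⟩

theorem const (a : R) : LdTop (C a) 0 a :=
  ⟨(natDegree_C a).le, coeff_C_zero⟩

theorem X' : LdTop (X : R[X]) 1 1 :=
  ⟨natDegree_X_le, coeff_X_one⟩

theorem one : LdTop (1 : R[X]) 0 1 :=
  ⟨natDegree_one.le, coeff_one_zero⟩

theorem zero (d : ℕ) : LdTop (0 : R[X]) d 0 :=
  ⟨by simp, by simp⟩

theorem two : LdTop (2 : R[X]) 0 2 := by
  have h : (2 : R[X]) = C 2 := (C_ofNat 2).symm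
  rw [h]; exact const 2

theorem four : LdTop (4 : R[X]) 0 4 := by
  have h : (4 : R[X]) = C 4 := (C_ofNat 4).symm
  rw [h]; exact const 4

end LdTop

theorem ldTop_ldA_ldB (n : ℕ) :
    LdTop (ldA b₂ b₄ b₆ b₈ n) (n ^ 2) 1 ∧ LdTop (ldB b₂ b₄ b₆ b₈ n) (n ^ 2 - 1) ((n : R) ^ 2) := by
  induction n using Nat.strong_induction_on with
  | _ n ih =>
    rcases Nat.even_or_odd' n with ⟨m, rfl | rfl⟩
    · rcases m with _ | m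
      · simp only [mul_zero, ldA_zero, ldB_zero]
        exact ⟨LdTop.one.congr (by norm_num) rfl, (LdTop.zero 0).congr (by norm_num) (by simp)⟩
      · obtain ⟨hA, hB⟩ := ih (m + 1) (by omega)
        set A := ldA b₂ b₄ b₆ b₈ (m + 1) with hAdef
        set B := ldB b₂ b₄ b₆ b₈ (m + 1) with hBdef
        obtain ⟨e, he⟩ : ∃ e, (m + 1) ^ 2 = e + 1 := ⟨(m + 1) ^ 2 - 1, by
          have : 0 < (m + 1) ^ 2 := by positivity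
          omega⟩
        have he' : (m + 1) ^ 2 - 1 = e := by omega
        have hD : (2 * (m + 1)) ^ 2 = 4 * (e + 1) := by rw [← he]; ring
        rw [he] at hA
        rw [he'] at hB
        constructor
        · rw [ldA_two_mul, hD]
          have t0 := hA.pow 4
          have t1 := (((LdTop.const b₄).mul (hA.pow 2)).mul (hB.pow 2)).lower
            (e := 4 * (e + 1)) (by omega)
          have t2 := ((((LdTop.two).mul (LdTop.const b₆)).mul hA).mul (hB.pow 3)).lower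
            (e := 4 * (e + 1)) (by omega)
          have t3 := ((LdTop.const b₈).mul (hB.pow 4)).lower (e := 4 * (e + 1)) (by omega)
          exact (((t0.sub t1).sub t2).sub t3).congr rfl (by simp)
        · rw [ldB_two_mul, hD]
          have t0 := ((LdTop.four).mul (hA.pow 3)).mul hB
          have t1 := (((LdTop.const b₂).mul (hA.pow 2)).mul (hB.pow 2)).lower
            (e := 4 * (e + 1) - 1) (by omega)
          have t2 := ((((LdTop.two).mul (LdTop.const b₄)).mul hA).mul (hB.pow 3)).lower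
            (e := 4 * (e + 1) - 1) (by omega)
          have t3 := ((LdTop.const b₆).mul (hB.pow 4)).lower (e := 4 * (e + 1) - 1) (by omega)
          exact (((t0.congr (e := 4 * (e + 1) - 1) (by omega) rfl).add t1).add t2).add t3
            |>.congr rfl (by push_cast; ring)
    · rcases m with _ | m
      · simp only [mul_zero, zero_add, ldA_one, ldB_one]
        exact ⟨LdTop.X'.congr (by norm_num) rfl, LdTop.one.congr (by norm_num) (by simp)⟩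
      · obtain ⟨hA1, hB1⟩ := ih (m + 1) (by omega)
        obtain ⟨hA2, hB2⟩ := ih (m + 1 + 1) (by omega)
        set A1 := ldA b₂ b₄ b₆ b₈ (m + 1) with hA1def
        set B1 := ldB b₂ b₄ b₆ b₈ (m + 1) with hB1def
        set A2 := ldA b₂ b₄ b₆ b₈ (m + 1 + 1) with hA2def
        set B2 := ldB b₂ b₄ b₆ b₈ (m + 1 + 1) with hB2def
        obtain ⟨e₁, he₁⟩ : ∃ e, (m + 1) ^ 2 = e + 1 := ⟨(m + 1) ^ 2 - 1, by
          have : 0 < (m + 1) ^ 2 := by positivity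
          omega⟩
        obtain ⟨e₂, he₂⟩ : ∃ e, (m + 1 + 1) ^ 2 = e + 1 := ⟨(m + 1 + 1) ^ 2 - 1, by
          have : 0 < (m + 1 + 1) ^ 2 := by positivity
          omega⟩
        have he₁' : (m + 1) ^ 2 - 1 = e₁ := by omega
        have he₂' : (m + 1 + 1) ^ 2 - 1 = e₂ := by omega
        have hD : (2 * (m + 1) + 1) ^ 2 = 2 * (e₁ + e₂ + 1) + 1 := by
          have h1 : (2 * (m + 1) + 1) ^ 2 + 1 = 2 * ((m + 1) ^ 2 + (m + 1 + 1) ^ 2) := by ring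
          omega
        rw [he₁] at hA1
        rw [he₁'] at hB1
        rw [he₂] at hA2
        rw [he₂'] at hB2
        -- the cross term
        have hC : LdTop (ldC b₂ b₄ b₆ b₈ (m + 1)) (e₁ + e₂ + 1)
            (((m + 1 : ℕ) : R) ^ 2 - ((m + 1 + 1 : ℕ) : R) ^ 2) := by
          have u1 := (hA2.mul hB1).congr (e := e₁ + e₂ + 1) (by omega) (one_mul _)
          have u2 := (hA1.mul hB2).congr (e := e₁ + e₂ + 1) (by omega) (one_mul _)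
          exact u1.sub u2
        have hP : LdTop (A1 * B2 + A2 * B1) (e₁ + e₂ + 1)
            (((m + 1 + 1 : ℕ) : R) ^ 2 + ((m + 1 : ℕ) : R) ^ 2) := by
          have u1 := (hA2.mul hB1).congr (e := e₁ + e₂ + 1) (by omega) (one_mul _)
          have u2 := (hA1.mul hB2).congr (e := e₁ + e₂ + 1) (by omega) (one_mul _)
          exact u2.add u1
        constructor
        · rw [ldA_two_mul_add_one, hD, ldS]
          have t0 := (((LdTop.two).mul hA1).mul hA2).mul hP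
          have t1 := (((((LdTop.const b₂).mul hA1).mul hA2).mul hB1).mul hB2).lower
            (e := 2 * (e₁ + e₂ + 1) + 1) (by omega)
          have t2 := ((((LdTop.const b₄).mul hP).mul hB1).mul hB2).lower
            (e := 2 * (e₁ + e₂ + 1) + 1) (by omega)
          have t3 := (((LdTop.const b₆).mul (hB1.pow 2)).mul (hB2.pow 2)).lower
            (e := 2 * (e₁ + e₂ + 1) + 1) (by omega)
          have t4 := (LdTop.X'.mul (hC.pow 2)).congr (e := 2 * (e₁ + e₂ + 1) + 1) (by omega) rfl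
          exact (((((t0.congr (e := 2 * (e₁ + e₂ + 1) + 1) (by omega) rfl).add t1).add t2).add
            t3).sub t4).congr rfl (by push_cast; ring)
        · rw [ldB_two_mul_add_one, hD]
          exact (hC.pow 2).congr (by omega) (by push_cast; ring)

theorem natDegree_ldA_le (n : ℕ) : (ldA b₂ b₄ b₆ b₈ n).natDegree ≤ n ^ 2 :=
  (ldTop_ldA_ldB b₂ b₄ b₆ b₈ n).1.1

theorem coeff_ldA (n : ℕ) : (ldA b₂ b₄ b₆ b₈ n).coeff (n ^ 2) = 1 :=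
  (ldTop_ldA_ldB b₂ b₄ b₆ b₈ n).1.2

theorem natDegree_ldB_le (n : ℕ) : (ldB b₂ b₄ b₆ b₈ n).natDegree ≤ n ^ 2 - 1 :=
  (ldTop_ldA_ldB b₂ b₄ b₆ b₈ n).2.1

theorem coeff_ldB (n : ℕ) : (ldB b₂ b₄ b₆ b₈ n).coeff (n ^ 2 - 1) = (n : R) ^ 2 :=
  (ldTop_ldA_ldB b₂ b₄ b₆ b₈ n).2.2

theorem ldTop_ldC (m : ℕ) :
    LdTop (ldC b₂ b₄ b₆ b₈ m) (2 * m ^ 2 + 2 * m) (-(2 * (m : R) + 1)) := by
  rcases m with _ | m
  · rw [ldC_zero]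
    have h : (-1 : R[X]) = C (-1) := by simp
    rw [h]
    exact (LdTop.const (-1 : R)).congr (by norm_num) (by simp)
  · obtain ⟨hA1, hB1⟩ := ldTop_ldA_ldB b₂ b₄ b₆ b₈ (m + 1)
    obtain ⟨hA2, hB2⟩ := ldTop_ldA_ldB b₂ b₄ b₆ b₈ (m + 1 + 1)
    have h1 : 0 < (m + 1) ^ 2 := by positivity
    have h2 : 0 < (m + 1 + 1) ^ 2 := by positivity
    have h3 : (m + 1) ^ 2 + (m + 1 + 1) ^ 2 = 2 * (m + 1) ^ 2 + 2 * (m + 1) + 1 := by ring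
    have u1 := (hA2.mul hB1).congr (e := 2 * (m + 1) ^ 2 + 2 * (m + 1)) (by omega) (one_mul _)
    have u2 := (hA1.mul hB2).congr (e := 2 * (m + 1) ^ 2 + 2 * (m + 1)) (by omega) (one_mul _)
    exact (u1.sub u2).congr rfl (by push_cast; ring)

theorem natDegree_ldC_le (m : ℕ) : (ldC b₂ b₄ b₆ b₈ m).natDegree ≤ 2 * m ^ 2 + 2 * m :=
  (ldTop_ldC b₂ b₄ b₆ b₈ m).1

theorem coeff_ldC (m : ℕ) :
    (ldC b₂ b₄ b₆ b₈ m).coeff (2 * m ^ 2 + 2 * m) = -(2 * (m : R) + 1) :=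
  (ldTop_ldC b₂ b₄ b₆ b₈ m).2

theorem ldA_monic (n : ℕ) : (ldA b₂ b₄ b₆ b₈ n).Monic :=
  monic_of_natDegree_le_of_coeff_eq_one _ (natDegree_ldA_le b₂ b₄ b₆ b₈ n)
    (coeff_ldA b₂ b₄ b₆ b₈ n)

theorem natDegree_ldA [Nontrivial R] (n : ℕ) : (ldA b₂ b₄ b₆ b₈ n).natDegree = n ^ 2 :=
  natDegree_eq_of_le_of_coeff_ne_zero (natDegree_ldA_le b₂ b₄ b₆ b₈ n)
    (by rw [coeff_ldA]; exact one_ne_zero)

theorem natDegree_ldC (m : ℕ) (h : ((2 * m + 1 : ℕ) : R) ≠ 0) :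
    (ldC b₂ b₄ b₆ b₈ m).natDegree = 2 * m ^ 2 + 2 * m :=
  natDegree_eq_of_le_of_coeff_ne_zero (natDegree_ldC_le b₂ b₄ b₆ b₈ m) (by
    rw [coeff_ldC]
    intro h0
    apply h
    push_cast
    linear_combination -h0)

theorem leadingCoeff_ldC (m : ℕ) (h : ((2 * m + 1 : ℕ) : R) ≠ 0) :
    (ldC b₂ b₄ b₆ b₈ m).leadingCoeff = -(2 * (m : R) + 1) := by
  rw [leadingCoeff, natDegree_ldC b₂ b₄ b₆ b₈ m h, coeff_ldC]

theorem ldC_ne_zero (m : ℕ) (h : ((2 * m + 1 : ℕ) : R) ≠ 0) : ldC b₂ b₄ b₆ b₈ m ≠ 0 := by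
  intro h0
  have := coeff_ldC b₂ b₄ b₆ b₈ m
  rw [h0, coeff_zero] at this
  apply h
  push_cast
  linear_combination this

theorem natDegree_ldB (n : ℕ) (h : (n : R) ^ 2 ≠ 0) :
    (ldB b₂ b₄ b₆ b₈ n).natDegree = n ^ 2 - 1 :=
  natDegree_eq_of_le_of_coeff_ne_zero (natDegree_ldB_le b₂ b₄ b₆ b₈ n) (by rwa [coeff_ldB])


/-! ### Constant terms in the shape `b₆ = 0`, `b₄ = 2 a₄`, `b₈ = - a₄ ^ 2` -/

theorem ld_eval_zero (b₂ a₄ : R) (n : ℕ) :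
    (∀ j, n = 2 * j →
        (ldA b₂ (2 * a₄) 0 (-a₄ ^ 2) n).eval 0 = a₄ ^ (2 * j ^ 2) ∧
        (ldB b₂ (2 * a₄) 0 (-a₄ ^ 2) n).eval 0 = 0) ∧
    (∀ j, n = 2 * j + 1 →
        (ldA b₂ (2 * a₄) 0 (-a₄ ^ 2) n).eval 0 = 0 ∧
        (ldB b₂ (2 * a₄) 0 (-a₄ ^ 2) n).eval 0 = a₄ ^ (2 * j ^ 2 + 2 * j)) := by
  induction n using Nat.strong_induction_on with
  | _ n ih =>
    constructor
    · rintro m rfl
      rcases m with _ | m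
      · simp
      · obtain ⟨ihe, iho⟩ := ih (m + 1) (by omega)
        rw [ldA_two_mul_eval, ldB_two_mul_eval]
        rcases Nat.even_or_odd' (m + 1) with ⟨j, hj | hj⟩
        · obtain ⟨hA, hB⟩ := ihe j hj
          rw [hA, hB, hj]
          constructor <;> ring
        · obtain ⟨hA, hB⟩ := iho j hj
          rw [hA, hB, hj]
          constructor <;> ring
    · rintro m rfl
      rcases m with _ | m
      · simp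
      · obtain ⟨ihe, iho⟩ := ih (m + 1) (by omega)
        obtain ⟨ihe', iho'⟩ := ih (m + 1 + 1) (by omega)
        rw [ldA_two_mul_add_one_eval, ldB_two_mul_add_one_eval]
        rcases Nat.even_or_odd' (m + 1) with ⟨j, hj | hj⟩
        · obtain ⟨hA, hB⟩ := ihe j hj
          obtain ⟨hA', hB'⟩ := iho' j (by omega)
          rw [hA, hB, hA', hB', hj]
          constructor <;> ring
        · obtain ⟨hA, hB⟩ := iho j hj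
          obtain ⟨hA', hB'⟩ := ihe' (j + 1) (by omega)
          rw [hA, hB, hA', hB', hj]
          constructor <;> ring

theorem ldA_eval_zero_even (b₂ a₄ : R) (j : ℕ) :
    (ldA b₂ (2 * a₄) 0 (-a₄ ^ 2) (2 * j)).eval 0 = a₄ ^ (2 * j ^ 2) :=
  ((ld_eval_zero b₂ a₄ (2 * j)).1 j rfl).1

theorem ldB_eval_zero_even (b₂ a₄ : R) (j : ℕ) :
    (ldB b₂ (2 * a₄) 0 (-a₄ ^ 2) (2 * j)).eval 0 = 0 :=
  ((ld_eval_zero b₂ a₄ (2 * j)).1 j rfl).2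

theorem ldA_eval_zero_odd (b₂ a₄ : R) (j : ℕ) :
    (ldA b₂ (2 * a₄) 0 (-a₄ ^ 2) (2 * j + 1)).eval 0 = 0 :=
  ((ld_eval_zero b₂ a₄ (2 * j + 1)).2 j rfl).1

theorem ldB_eval_zero_odd (b₂ a₄ : R) (j : ℕ) :
    (ldB b₂ (2 * a₄) 0 (-a₄ ^ 2) (2 * j + 1)).eval 0 = a₄ ^ (2 * j ^ 2 + 2 * j) :=
  ((ld_eval_zero b₂ a₄ (2 * j + 1)).2 j rfl).2

/-- The constant term of `Cₘ`: `(-1)^(m+1) a₄^(m²+m)`. -/
theorem ldC_eval_zero (b₂ a₄ : R) (m : ℕ) :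
    (ldC b₂ (2 * a₄) 0 (-a₄ ^ 2) m).eval 0 = (-1) ^ (m + 1) * a₄ ^ (m ^ 2 + m) := by
  rw [ldC_eval]
  rcases Nat.even_or_odd' m with ⟨j, rfl | rfl⟩
  · rw [ldA_eval_zero_odd, ldB_eval_zero_even, ldA_eval_zero_even, ldB_eval_zero_odd]
    have h : (-1 : R) ^ (2 * j + 1) = -1 := by
      rw [pow_succ, pow_mul]; simp
    rw [h]
    ring
  · have h2 : 2 * j + 1 + 1 = 2 * (j + 1) := by ring
    rw [h2, ldA_eval_zero_even, ldB_eval_zero_odd, ldA_eval_zero_odd, ldB_eval_zero_even]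
    have h : (-1 : R) ^ (2 * (j + 1)) = 1 := by
      rw [pow_mul]; simp
    rw [h]
    ring

theorem ldC_coeff_zero (b₂ a₄ : R) (m : ℕ) :
    (ldC b₂ (2 * a₄) 0 (-a₄ ^ 2) m).coeff 0 = (-1) ^ (m + 1) * a₄ ^ (m ^ 2 + m) := by
  rw [coeff_zero_eq_eval_zero, ldC_eval_zero]

theorem ldC_coeff_zero' (b₂ a₄ : R) (m : ℕ) :
    (ldC b₂ (2 * a₄) 0 (-a₄ ^ 2) m).coeff 0 = a₄ ^ (m ^ 2 + m) ∨
      (ldC b₂ (2 * a₄) 0 (-a₄ ^ 2) m).coeff 0 = -a₄ ^ (m ^ 2 + m) := by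
  rw [ldC_coeff_zero]
  rcases neg_one_pow_eq_or R (m + 1) with h | h <;> rw [h]
  · left; ring
  · right; ring

end Fermat.Agent.S13
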