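import Mathlib

/-!
# S13 / M1: x-only formulas on a GENERAL Weierstrass curve  (OWNER: helper1)

Setting: a Weierstrass curve `W` over a field `K` (any characteristic),
`Y² + a₁XY + a₃Y = X³ + a₂X² + a₄X + a₆`, with the usual `b₂, b₄, b₆, b₈`.

* `s13_xonly_add_sub` : for affine `P₁ = (x₁, y₁)`, `P₂ = (x₂, y₂)` with `x₁ ≠ x₂`, both
  `P₁ + P₂ = (x₊, _)` and `P₁ - P₂ = (x₋, _)` are affine, and
  `(x₊ + x₋) (x₁-x₂)² = 2x₁x₂(x₁+x₂) + b₂x₁x₂ + b₄(x₁+x₂) + b₆`,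
  `x₊ x₋ (x₁-x₂)² = x₁²x₂² - b₄x₁x₂ - b₆(x₁+x₂) - b₈`.
* `s13_xonly_double` : if `2P ≠ 0` then `2P = (x', _)` with
  `x' (4x³ + b₂x² + 2b₄x + b₆) = x⁴ - b₄x² - 2b₆x - b₈`.
* `s13_two_nsmul_eq_zero_iff` : `2P = 0 ↔ 4x³ + b₂x² + 2b₄x + b₆ = 0`.
* `s13_dupNum_ne_zero` : if `4x³ + b₂x² + 2b₄x + b₆ = 0` then `x⁴ - b₄x² - 2b₆x - b₈ ≠ 0`.
-/

set_option autoImplicit false
set_option linter.unusedSectionVars false
set_option linter.unusedVariables false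

namespace Fermat.Agent.S13

open WeierstrassCurve WeierstrassCurve.Affine

variable {K : Type*} [Field K] [DecidableEq K] {W : WeierstrassCurve.Affine K}

/-- The curve equation in the form `lhs = rhs`. -/
theorem s13_equation {x y : K} (h : W.Equation x y) :
    y ^ 2 + W.a₁ * x * y + W.a₃ * y = x ^ 3 + W.a₂ * x ^ 2 + W.a₄ * x + W.a₆ :=
  (W.equation_iff x y).1 h

/-- `η² = 4x³ + b₂x² + 2b₄x + b₆` for `η = 2y + a₁x + a₃`. -/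
theorem s13_eta_sq {x y : K} (h : W.Equation x y) :
    (2 * y + W.a₁ * x + W.a₃) ^ 2 = 4 * x ^ 3 + W.b₂ * x ^ 2 + 2 * W.b₄ * x + W.b₆ := by
  have e := s13_equation h
  simp only [WeierstrassCurve.b₂, WeierstrassCurve.b₄, WeierstrassCurve.b₆]
  linear_combination 4 * e

/-- `y - negY x y = 2y + a₁x + a₃`. -/
theorem s13_sub_negY (x y : K) : y - W.negY x y = 2 * y + W.a₁ * x + W.a₃ := by
  simp only [Affine.negY]; ring

/-- The `x`-coordinate of a sum of two affine points with distinct `x`-coordinates. -/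
theorem s13_xonly_add {x₁ y₁ x₂ y₂ : K}
    (h₁ : W.Nonsingular x₁ y₁) (h₂ : W.Nonsingular x₂ y₂) (hx : x₁ ≠ x₂) :
    ∃ (xp yp : K) (hp : W.Nonsingular xp yp),
      Point.some x₁ y₁ h₁ + Point.some x₂ y₂ h₂ = Point.some xp yp hp ∧
      xp * (x₁ - x₂) ^ 2 = (y₁ - y₂) ^ 2 + W.a₁ * (y₁ - y₂) * (x₁ - x₂)
        - (W.a₂ + x₁ + x₂) * (x₁ - x₂) ^ 2 := by
  refine ⟨_, _, _, Point.add_of_X_ne hx, ?_⟩
  have hd : x₁ - x₂ ≠ 0 := sub_ne_zero.mpr hx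
  rw [slope_of_X_ne hx, Affine.addX]
  field_simp
  ring

/-- **x-only addition/subtraction formulas** (general Weierstrass form). -/
theorem s13_xonly_add_sub {x₁ y₁ x₂ y₂ : K}
    (h₁ : W.Nonsingular x₁ y₁) (h₂ : W.Nonsingular x₂ y₂) (hx : x₁ ≠ x₂) :
    ∃ (xp yp xm ym : K) (hp : W.Nonsingular xp yp) (hm : W.Nonsingular xm ym),
      Point.some x₁ y₁ h₁ + Point.some x₂ y₂ h₂ = Point.some xp yp hp ∧
      Point.some x₁ y₁ h₁ - Point.some x₂ y₂ h₂ = Point.some xm ym hm ∧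
      (xp + xm) * (x₁ - x₂) ^ 2 =
        2 * x₁ * x₂ * (x₁ + x₂) + W.b₂ * x₁ * x₂ + W.b₄ * (x₁ + x₂) + W.b₆ ∧
      xp * xm * (x₁ - x₂) ^ 2 =
        x₁ ^ 2 * x₂ ^ 2 - W.b₄ * x₁ * x₂ - W.b₆ * (x₁ + x₂) - W.b₈ := by
  obtain ⟨xp, yp, hp, hadd, hxp⟩ := s13_xonly_add h₁ h₂ hx
  have h₂' : W.Nonsingular x₂ (W.negY x₂ y₂) := (nonsingular_neg x₂ y₂).mpr h₂
  obtain ⟨xm, ym, hm, hsub, hxm⟩ := s13_xonly_add h₁ h₂' hx
  have hd : x₁ - x₂ ≠ 0 := sub_ne_zero.mpr hx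
  have hd2 : (x₁ - x₂) ^ 2 ≠ 0 := pow_ne_zero 2 hd
  have e₁ := s13_equation h₁.1
  have e₂ := s13_equation h₂.1
  have hxm' : xm * (x₁ - x₂) ^ 2 = (y₁ + y₂ + W.a₁ * x₂ + W.a₃) ^ 2
      + W.a₁ * (y₁ + y₂ + W.a₁ * x₂ + W.a₃) * (x₁ - x₂)
      - (W.a₂ + x₁ + x₂) * (x₁ - x₂) ^ 2 := by
    rw [hxm]; simp only [Affine.negY]; ring
  refine ⟨xp, yp, xm, ym, hp, hm, hadd, ?_, ?_, ?_⟩
  · rw [sub_eq_add_neg, Point.neg_some, hsub]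
  · -- sum formula
    rw [add_mul, hxp, hxm']
    simp only [WeierstrassCurve.b₂, WeierstrassCurve.b₄, WeierstrassCurve.b₆]
    linear_combination 2 * e₁ + 2 * e₂
  · -- product formula
    apply mul_right_cancel₀ hd2
    have key : xp * xm * (x₁ - x₂) ^ 2 * (x₁ - x₂) ^ 2 =
        (xp * (x₁ - x₂) ^ 2) * (xm * (x₁ - x₂) ^ 2) := by ring
    rw [key, hxp, hxm']
    simp only [WeierstrassCurve.b₂, WeierstrassCurve.b₄, WeierstrassCurve.b₆,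
      WeierstrassCurve.b₈]
    linear_combination
      (2 * ((x₁ ^ 3 + W.a₂ * x₁ ^ 2 + W.a₄ * x₁ + W.a₆)
            - (x₂ ^ 3 + W.a₂ * x₂ ^ 2 + W.a₄ * x₂ + W.a₆))
          + W.a₁ * W.a₃ * (x₁ - x₂) + W.a₁ ^ 2 * (x₁ - x₂) * x₂
          - 2 * (W.a₂ + x₁ + x₂) * (x₁ - x₂) ^ 2
          + ((y₁ ^ 2 + W.a₁ * x₁ * y₁ + W.a₃ * y₁
              - (x₁ ^ 3 + W.a₂ * x₁ ^ 2 + W.a₄ * x₁ + W.a₆))
            - (y₂ ^ 2 + W.a₁ * x₂ * y₂ + W.a₃ * y₂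
              - (x₂ ^ 3 + W.a₂ * x₂ ^ 2 + W.a₄ * x₂ + W.a₆)))) * e₁
      + (-(2 * ((x₁ ^ 3 + W.a₂ * x₁ ^ 2 + W.a₄ * x₁ + W.a₆)
            - (x₂ ^ 3 + W.a₂ * x₂ ^ 2 + W.a₄ * x₂ + W.a₆))
          + W.a₁ * W.a₃ * (x₁ - x₂)) - W.a₁ ^ 2 * (x₁ - x₂) * x₁
          - 2 * (W.a₂ + x₁ + x₂) * (x₁ - x₂) ^ 2
          - ((y₁ ^ 2 + W.a₁ * x₁ * y₁ + W.a₃ * y₁
              - (x₁ ^ 3 + W.a₂ * x₁ ^ 2 + W.a₄ * x₁ + W.a₆))
            - (y₂ ^ 2 + W.a₁ * x₂ * y₂ + W.a₃ * y₂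
              - (x₂ ^ 3 + W.a₂ * x₂ ^ 2 + W.a₄ * x₂ + W.a₆)))) * e₂

/-- `2P = 0 ↔ 2y + a₁x + a₃ = 0`. -/
theorem s13_add_self_eq_zero_iff {x y : K} (h : W.Nonsingular x y) :
    Point.some x y h + Point.some x y h = 0 ↔ 2 * y + W.a₁ * x + W.a₃ = 0 := by
  constructor
  · intro h0
    by_contra hne
    have hne' : y ≠ W.negY x y := by
      intro hy
      apply hne
      rw [← s13_sub_negY (W := W) x y, sub_eq_zero]
      exact hy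
    rw [Point.add_self_of_Y_ne hne'] at h0
    exact Point.some_ne_zero _ h0
  · intro h0
    apply Point.add_self_of_Y_eq
    rw [← sub_eq_zero, s13_sub_negY]
    exact h0

/-- `2P = 0 ↔ 4x³ + b₂x² + 2b₄x + b₆ = 0`. -/
theorem s13_add_self_eq_zero_iff' {x y : K} (h : W.Nonsingular x y) :
    Point.some x y h + Point.some x y h = 0 ↔
      4 * x ^ 3 + W.b₂ * x ^ 2 + 2 * W.b₄ * x + W.b₆ = 0 := by
  rw [s13_add_self_eq_zero_iff h, ← s13_eta_sq h.1]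
  exact ⟨fun h0 => by rw [h0]; ring, fun h0 => pow_eq_zero_iff (two_ne_zero) |>.1 h0⟩

/-- `2 • P = 0 ↔ 4x³ + b₂x² + 2b₄x + b₆ = 0`. -/
theorem s13_two_nsmul_eq_zero_iff {x y : K} (h : W.Nonsingular x y) :
    2 • Point.some x y h = 0 ↔
      4 * x ^ 3 + W.b₂ * x ^ 2 + 2 * W.b₄ * x + W.b₆ = 0 := by
  rw [two_nsmul]
  exact s13_add_self_eq_zero_iff' h

/-- The polynomial identity behind the duplication formula. -/
theorem s13_dup_identity {x y : K} (h : W.Equation x y) :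
    (3 * x ^ 2 + 2 * W.a₂ * x + W.a₄ - W.a₁ * y) ^ 2
      + W.a₁ * (3 * x ^ 2 + 2 * W.a₂ * x + W.a₄ - W.a₁ * y) * (2 * y + W.a₁ * x + W.a₃)
      - (W.a₂ + 2 * x) * (2 * y + W.a₁ * x + W.a₃) ^ 2 =
    x ^ 4 - W.b₄ * x ^ 2 - 2 * W.b₆ * x - W.b₈ := by
  have e := s13_equation h
  simp only [WeierstrassCurve.b₂, WeierstrassCurve.b₄, WeierstrassCurve.b₆,
    WeierstrassCurve.b₈]
  linear_combination (-(W.a₁ ^ 2 + 4 * W.a₂ + 8 * x)) * e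

/-- **Duplication formula** (`2P ≠ 0`, i.e. `2y + a₁x + a₃ ≠ 0`). -/
theorem s13_xonly_double {x y : K} (h : W.Nonsingular x y)
    (hy : 2 * y + W.a₁ * x + W.a₃ ≠ 0) :
    ∃ (x' y' : K) (h' : W.Nonsingular x' y'),
      Point.some x y h + Point.some x y h = Point.some x' y' h' ∧
      x' * (4 * x ^ 3 + W.b₂ * x ^ 2 + 2 * W.b₄ * x + W.b₆) =
        x ^ 4 - W.b₄ * x ^ 2 - 2 * W.b₆ * x - W.b₈ := by
  have hne : y ≠ W.negY x y := by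
    intro hyy
    apply hy
    rw [← s13_sub_negY (W := W) x y, sub_eq_zero]
    exact hyy
  refine ⟨_, _, _, Point.add_self_of_Y_ne hne, ?_⟩
  have hsl : W.slope x x y y * (2 * y + W.a₁ * x + W.a₃) =
      3 * x ^ 2 + 2 * W.a₂ * x + W.a₄ - W.a₁ * y := by
    rw [slope_of_Y_ne rfl hne, s13_sub_negY, div_mul_cancel₀ _ hy]
  rw [← s13_eta_sq h.1, ← s13_dup_identity h.1, Affine.addX]
  linear_combination (W.slope x x y y * (2 * y + W.a₁ * x + W.a₃)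
    + (3 * x ^ 2 + 2 * W.a₂ * x + W.a₄ - W.a₁ * y)
    + W.a₁ * (2 * y + W.a₁ * x + W.a₃)) * hsl

/-- If `2P = 0` (i.e. `4x³ + b₂x² + 2b₄x + b₆ = 0`), the numerator of the duplication formula
does not vanish. -/
theorem s13_dupNum_ne_zero {x y : K} (h : W.Nonsingular x y)
    (h0 : 4 * x ^ 3 + W.b₂ * x ^ 2 + 2 * W.b₄ * x + W.b₆ = 0) :
    x ^ 4 - W.b₄ * x ^ 2 - 2 * W.b₆ * x - W.b₈ ≠ 0 := by
  have hη : 2 * y + W.a₁ * x + W.a₃ = 0 := by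
    have := s13_eta_sq h.1
    rw [h0] at this
    exact pow_eq_zero_iff (two_ne_zero) |>.1 this
  have hX : W.a₁ * y - (3 * x ^ 2 + 2 * W.a₂ * x + W.a₄) ≠ 0 := by
    rcases (W.nonsingular_iff x y).1 h with ⟨-, hX | hY⟩
    · intro h1; exact hX (sub_eq_zero.1 h1)
    · exfalso; apply hY
      linear_combination hη
  rw [← s13_dup_identity h.1, hη]
  intro hz
  apply hX
  have : (W.a₁ * y - (3 * x ^ 2 + 2 * W.a₂ * x + W.a₄)) ^ 2 = 0 := by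
    linear_combination hz
  exact pow_eq_zero_iff (two_ne_zero) |>.1 this

end Fermat.Agent.S13
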