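import Mathlib
import Fermat.Agent.S13.XOnlyB

/-!
# S13 / M3: the x-only ladder computes `x(n • P)`  (OWNER: helper7)

Setting: a Weierstrass curve `W` over a field `K` (any characteristic), a nonsingular affine
point `P = (x, y)`.

* `s13_lp_Rep W Q a b` : "`(a : b)` is the projective `x`-coordinate of `Q`", i.e.
  `(a, b) ≠ (0, 0)`, `b = 0` if `Q = 0`, and `b ≠ 0`, `a = x(Q) b` if `Q` is affine.
* `s13_lp_rep_dbl`, `s13_lp_rep_add` : one doubling / one differential addition step.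
* `s13_lp_ladder` : any pair of sequences `a, d : ℕ → K` satisfying the ladder recursion
  (started at `(1, 0)`, `(x, 1)`) represents `n • P` for all `n`.
-/

set_option autoImplicit false
set_option linter.unusedSectionVars false
set_option linter.unusedVariables false

namespace Fermat.Agent.S13

open WeierstrassCurve WeierstrassCurve.Affine

variable {K : Type*} [Field K] [DecidableEq K] {W : WeierstrassCurve.Affine K}

/-- `(a : b)` is the projective `x`-coordinate of the point `Q`. -/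
def s13_lp_Rep (W : WeierstrassCurve.Affine K) (Q : W.Point) (a b : K) : Prop :=
  (a ≠ 0 ∨ b ≠ 0) ∧ (Q = 0 → b = 0) ∧
    ∀ (x' y' : K) (h' : W.Nonsingular x' y'), Q = Point.some x' y' h' → b ≠ 0 ∧ a = x' * b

/-- numerator of the doubling step -/
def s13_lp_dblA (W : WeierstrassCurve.Affine K) (a b : K) : K :=
  a ^ 4 - W.b₄ * a ^ 2 * b ^ 2 - 2 * W.b₆ * a * b ^ 3 - W.b₈ * b ^ 4

/-- denominator of the doubling step -/
def s13_lp_dblB (W : WeierstrassCurve.Affine K) (a b : K) : K :=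
  4 * a ^ 3 * b + W.b₂ * a ^ 2 * b ^ 2 + 2 * W.b₄ * a * b ^ 3 + W.b₆ * b ^ 4

/-- the cross term `C` of the addition step -/
def s13_lp_addC (a₁ d₁ a₂ d₂ : K) : K := a₂ * d₁ - a₁ * d₂

/-- the sum term `S` of the addition step -/
def s13_lp_addS (W : WeierstrassCurve.Affine K) (a₁ d₁ a₂ d₂ : K) : K :=
  2 * a₁ * a₂ * (a₁ * d₂ + a₂ * d₁) + W.b₂ * a₁ * a₂ * d₁ * d₂
    + W.b₄ * (a₁ * d₂ + a₂ * d₁) * d₁ * d₂ + W.b₆ * d₁ ^ 2 * d₂ ^ 2

theorem s13_lp_rep_zero {a : K} (ha : a ≠ 0) : s13_lp_Rep W (0 : W.Point) a 0 := by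
  refine ⟨Or.inl ha, fun _ => rfl, ?_⟩
  intro x' y' h' h0
  exact absurd h0.symm (Point.some_ne_zero _)

theorem s13_lp_rep_some {x y : K} (h : W.Nonsingular x y) {a b : K} (hb : b ≠ 0)
    (ha : a = x * b) : s13_lp_Rep W (Point.some x y h) a b := by
  refine ⟨Or.inr hb, fun h0 => absurd h0 (Point.some_ne_zero _), ?_⟩
  intro x' y' h' heq
  have hx : x = x' := by
    injection heq
  subst hx
  exact ⟨hb, ha⟩

theorem s13_lp_Rep.eq_zero_iff {Q : W.Point} {a b : K} (hR : s13_lp_Rep W Q a b) :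
    Q = 0 ↔ b = 0 := by
  constructor
  · exact hR.2.1
  · intro hb
    cases Q with
    | zero => rfl
    | some x y h => exact absurd hb (hR.2.2 x y h rfl).1

theorem s13_lp_Rep.ne_zero {Q : W.Point} {a b : K} (hR : s13_lp_Rep W Q a b) :
    a ≠ 0 ∨ b ≠ 0 := hR.1

theorem s13_lp_Rep.of_some {x y : K} {h : W.Nonsingular x y} {a b : K}
    (hR : s13_lp_Rep W (Point.some x y h) a b) : b ≠ 0 ∧ a = x * b :=
  hR.2.2 x y h rfl

theorem s13_lp_Rep.of_zero {a b : K} (hR : s13_lp_Rep W (0 : W.Point) a b) :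
    a ≠ 0 ∧ b = 0 := by
  have hb := hR.2.1 rfl
  rcases hR.1 with ha | hb'
  · exact ⟨ha, hb⟩
  · exact absurd hb hb'

/-- **Doubling step.** -/
theorem s13_lp_rep_dbl {Q : W.Point} {a b : K} (hR : s13_lp_Rep W Q a b) :
    s13_lp_Rep W (2 • Q) (s13_lp_dblA W a b) (s13_lp_dblB W a b) := by
  cases Q with
  | zero =>
    have h0 : (Point.zero : W.Point) = 0 := rfl
    rw [h0] at hR ⊢
    obtain ⟨ha, hb⟩ := hR.of_zero
    subst hb
    have e1 : s13_lp_dblA W a 0 = a ^ 4 := by simp [s13_lp_dblA]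
    have e2 : s13_lp_dblB W a 0 = 0 := by simp [s13_lp_dblB]
    rw [e1, e2, smul_zero]
    exact s13_lp_rep_zero (pow_ne_zero 4 ha)
  | some x y h =>
    obtain ⟨hb, ha⟩ := hR.of_some
    subst ha
    have e1 : s13_lp_dblA W (x * b) b
        = (x ^ 4 - W.b₄ * x ^ 2 - 2 * W.b₆ * x - W.b₈) * b ^ 4 := by
      simp only [s13_lp_dblA]; ring
    have e2 : s13_lp_dblB W (x * b) b
        = (4 * x ^ 3 + W.b₂ * x ^ 2 + 2 * W.b₄ * x + W.b₆) * b ^ 4 := by
      simp only [s13_lp_dblB]; ring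
    rw [e1, e2]
    have hb4 : b ^ 4 ≠ 0 := pow_ne_zero 4 hb
    by_cases hD : 4 * x ^ 3 + W.b₂ * x ^ 2 + 2 * W.b₄ * x + W.b₆ = 0
    · rw [(s13_two_nsmul_eq_zero_iff h).2 hD, hD, zero_mul]
      exact s13_lp_rep_zero (mul_ne_zero (s13_dupNum_ne_zero h hD) hb4)
    · have hη : 2 * y + W.a₁ * x + W.a₃ ≠ 0 := by
        intro h0
        apply hD
        rw [← s13_eta_sq h.1, h0]; ring
      obtain ⟨x', y', h', hadd, hx'⟩ := s13_xonly_double h hη
      rw [two_nsmul, hadd]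
      refine s13_lp_rep_some h' (mul_ne_zero hD hb4) ?_
      rw [← hx']; ring

/-- **Differential addition step**: `Q₂ - Q₁ = P = (x, y)`. -/
theorem s13_lp_rep_add {Q₁ Q₂ : W.Point} {a₁ d₁ a₂ d₂ x y : K} {h : W.Nonsingular x y}
    (h₁ : s13_lp_Rep W Q₁ a₁ d₁) (h₂ : s13_lp_Rep W Q₂ a₂ d₂)
    (hd : Q₂ - Q₁ = Point.some x y h) :
    s13_lp_Rep W (Q₁ + Q₂)
      (s13_lp_addS W a₁ d₁ a₂ d₂ - x * s13_lp_addC a₁ d₁ a₂ d₂ ^ 2)
      (s13_lp_addC a₁ d₁ a₂ d₂ ^ 2) := by
  cases Q₁ with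
  | zero =>
    have h0 : (Point.zero : W.Point) = 0 := rfl
    rw [h0] at h₁ hd ⊢
    rw [sub_zero] at hd
    subst hd
    obtain ⟨ha1, hd1⟩ := h₁.of_zero
    obtain ⟨hd2, ha2⟩ := h₂.of_some
    subst hd1 ha2
    rw [zero_add]
    have hC : s13_lp_addC a₁ 0 (x * d₂) d₂ ^ 2 = (a₁ * d₂) ^ 2 := by
      simp only [s13_lp_addC]; ring
    have hS : s13_lp_addS W a₁ 0 (x * d₂) d₂ = 2 * x * (a₁ * d₂) ^ 2 := by
      simp only [s13_lp_addS]; ring
    rw [hC, hS]
    refine s13_lp_rep_some h (pow_ne_zero 2 (mul_ne_zero ha1 hd2)) ?_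
    ring
  | some x₁ y₁ hn₁ =>
    obtain ⟨hd1, ha1⟩ := h₁.of_some
    subst ha1
    cases Q₂ with
    | zero =>
      have h0 : (Point.zero : W.Point) = 0 := rfl
      rw [h0] at h₂ hd ⊢
      obtain ⟨ha2, hd2⟩ := h₂.of_zero
      subst hd2
      rw [zero_sub, Point.neg_some] at hd
      have hx : x₁ = x := by injection hd
      subst hx
      rw [add_zero]
      have hC : s13_lp_addC (x₁ * d₁) d₁ a₂ 0 ^ 2 = (a₂ * d₁) ^ 2 := by
        simp only [s13_lp_addC]; ring
      have hS : s13_lp_addS W (x₁ * d₁) d₁ a₂ 0 = 2 * x₁ * (a₂ * d₁) ^ 2 := by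
        simp only [s13_lp_addS]; ring
      rw [hC, hS]
      refine s13_lp_rep_some hn₁ (pow_ne_zero 2 (mul_ne_zero ha2 hd1)) ?_
      ring
    | some x₂ y₂ hn₂ =>
      obtain ⟨hd2, ha2⟩ := h₂.of_some
      subst ha2
      have hC : s13_lp_addC (x₁ * d₁) d₁ (x₂ * d₂) d₂ ^ 2
          = (x₁ - x₂) ^ 2 * (d₁ * d₂) ^ 2 := by
        simp only [s13_lp_addC]; ring
      have hS : s13_lp_addS W (x₁ * d₁) d₁ (x₂ * d₂) d₂
          = (2 * x₁ * x₂ * (x₁ + x₂) + W.b₂ * x₁ * x₂ + W.b₄ * (x₁ + x₂) + W.b₆)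
              * (d₁ * d₂) ^ 2 := by
        simp only [s13_lp_addS]; ring
      rw [hC, hS]
      have hdd : (d₁ * d₂) ^ 2 ≠ 0 := pow_ne_zero 2 (mul_ne_zero hd1 hd2)
      by_cases hx : x₁ = x₂
      · -- same x-coordinate: Q₂ = -Q₁
        subst hx
        rcases Affine.Y_eq_of_X_eq hn₁.1 hn₂.1 rfl with hy | hy
        · exfalso
          subst hy
          rw [sub_self] at hd
          exact Point.some_ne_zero _ hd.symm
        · have hneg : Point.some x₁ y₁ hn₁ + Point.some x₁ y₂ hn₂ = 0 :=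
            Point.add_of_Y_eq rfl hy
          rw [hneg, sub_self]
          have h0 : ((0 : K)) ^ 2 * (d₁ * d₂) ^ 2 = 0 := by ring
          rw [h0, mul_zero, sub_zero]
          refine s13_lp_rep_zero (mul_ne_zero ?_ hdd)
          intro hD
          have hD' : 4 * x₁ ^ 3 + W.b₂ * x₁ ^ 2 + 2 * W.b₄ * x₁ + W.b₆ = 0 := by
            rw [← hD]; ring
          have h2 : Point.some x₁ y₁ hn₁ + Point.some x₁ y₁ hn₁ = 0 :=
            (s13_add_self_eq_zero_iff' hn₁).2 hD'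
          have heq : Point.some x₁ y₁ hn₁ = Point.some x₁ y₂ hn₂ := by
            exact (add_left_cancel (hneg.trans h2.symm)).symm
          rw [heq, sub_self] at hd
          exact Point.some_ne_zero _ hd.symm
      · obtain ⟨xp, yp, xm, ym, hp, hm, hadd, hsub, hsum, -⟩ :=
          s13_xonly_add_sub hn₁ hn₂ hx
        have hxm : xm = x := by
          have hneg : Point.some x₁ y₁ hn₁ - Point.some x₂ y₂ hn₂
              = -(Point.some x y h) := by
            rw [← hd]; abel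
          rw [hsub, Point.neg_some] at hneg
          injection hneg
        subst hxm
        rw [hadd]
        have hxx : (x₁ - x₂) ^ 2 ≠ 0 := pow_ne_zero 2 (sub_ne_zero.mpr hx)
        refine s13_lp_rep_some hp (mul_ne_zero hxx hdd) ?_
        linear_combination (-(d₁ * d₂) ^ 2) * hsum

/-- **The ladder**: sequences satisfying the ladder recursion represent `n • P`. -/
theorem s13_lp_ladder {x y : K} (h : W.Nonsingular x y) (a d : ℕ → K)
    (h0a : a 0 ≠ 0) (h0d : d 0 = 0) (h1a : a 1 = x * d 1) (h1d : d 1 ≠ 0)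
    (hda : ∀ m, 1 ≤ m → a (2 * m) = s13_lp_dblA W (a m) (d m))
    (hdd : ∀ m, 1 ≤ m → d (2 * m) = s13_lp_dblB W (a m) (d m))
    (haa : ∀ m, 1 ≤ m → a (2 * m + 1) =
      s13_lp_addS W (a m) (d m) (a (m + 1)) (d (m + 1))
        - x * s13_lp_addC (a m) (d m) (a (m + 1)) (d (m + 1)) ^ 2)
    (had : ∀ m, 1 ≤ m → d (2 * m + 1) =
      s13_lp_addC (a m) (d m) (a (m + 1)) (d (m + 1)) ^ 2) :
    ∀ n, s13_lp_Rep W (n • Point.some x y h) (a n) (d n) := by
  intro n
  induction n using Nat.strong_induction_on with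
  | _ n ih =>
    rcases Nat.lt_or_ge n 2 with hn | hn
    · interval_cases n
      · rw [zero_nsmul, h0d]; exact s13_lp_rep_zero h0a
      · rw [one_nsmul]; exact s13_lp_rep_some h h1d h1a
    · rcases Nat.even_or_odd' n with ⟨m, rfl | rfl⟩
      · have hm : 1 ≤ m := by omega
        rw [hda m hm, hdd m hm, mul_nsmul']
        exact s13_lp_rep_dbl (ih m (by omega))
      · have hm : 1 ≤ m := by omega
        rw [haa m hm, had m hm]
        have e : (2 * m + 1) • Point.some x y h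
            = m • Point.some x y h + (m + 1) • Point.some x y h := by
          rw [← add_nsmul]; congr 1; omega
        rw [e]
        refine s13_lp_rep_add (h := h) (ih m (by omega)) (ih (m + 1) (by omega)) ?_
        rw [succ_nsmul]; abel

end Fermat.Agent.S13
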