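import Mathlib
import Fermat.Agent.S13.LadderPoint

/-!
# S13 / M4 (abstract part): counting torsion points from a torsion polynomial  (OWNER: helper7)

Setting: a Weierstrass curve `W` over a field `K`, `n : ℕ`, and a polynomial `Cp : K[X]`, `Cp ≠ 0`,
whose roots are exactly the `x`-coordinates of the affine points killed by `n`
(hypothesis `hroot`).  Then the `n`-torsion is finite with at most `1 + 2 deg Cp` elements, and
over an algebraically closed field with `Δ ≠ 0` it is nontrivial as soon as `deg Cp ≥ 1`.
-/

set_option autoImplicit false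
set_option linter.unusedSectionVars false
set_option linter.unusedVariables false

namespace Fermat.Agent.S13

open WeierstrassCurve WeierstrassCurve.Affine Polynomial

variable {K : Type*} [Field K] [DecidableEq K] {W : WeierstrassCurve.Affine K}

/-- The quadratic polynomial in `Y` cutting out the points with given `x`-coordinate. -/
noncomputable def s13_tq_quad (W : WeierstrassCurve.Affine K) (x : K) : K[X] :=
  X ^ 2 + C (W.a₁ * x + W.a₃) * X - C (x ^ 3 + W.a₂ * x ^ 2 + W.a₄ * x + W.a₆)

theorem s13_tq_quad_natDegree (x : K) : (s13_tq_quad W x).natDegree = 2 := by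
  unfold s13_tq_quad
  compute_degree!

theorem s13_tq_quad_ne_zero (x : K) : s13_tq_quad W x ≠ 0 := by
  intro h
  have := s13_tq_quad_natDegree (W := W) x
  rw [h] at this
  simp at this

theorem s13_tq_quad_isRoot_iff (x y : K) : (s13_tq_quad W x).IsRoot y ↔ W.Equation x y := by
  rw [W.equation_iff]
  simp only [s13_tq_quad, IsRoot.def, eval_sub, eval_add, eval_pow, eval_X, eval_mul, eval_C]
  constructor
  · intro h; linear_combination h
  · intro h; linear_combination h

/-- The coordinates of a point. -/
def s13_tq_coord : W.Point → Option (K × K)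
  | .zero => none
  | .some x y _ => some (x, y)

theorem s13_tq_coord_injective : Function.Injective (s13_tq_coord (W := W)) := by
  intro P Q h
  cases P with
  | zero =>
    cases Q with
    | zero => rfl
    | some x y hq => simp [s13_tq_coord] at h
  | some x y hp =>
    cases Q with
    | zero => simp [s13_tq_coord] at h
    | some x' y' hq =>
      simp only [s13_tq_coord, Option.some.injEq, Prod.mk.injEq] at h
      obtain ⟨rfl, rfl⟩ := h
      rfl

/-- The finite set of affine solutions lying over the roots of `Cp`. -/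
noncomputable def s13_tq_pts (W : WeierstrassCurve.Affine K) (Cp : K[X]) : Finset (K × K) :=
  Cp.roots.toFinset.biUnion fun x => (s13_tq_quad W x).roots.toFinset.image fun y => (x, y)

theorem s13_tq_pts_card_le (Cp : K[X]) : (s13_tq_pts W Cp).card ≤ 2 * Cp.natDegree := by
  unfold s13_tq_pts
  refine (Finset.card_biUnion_le).trans ?_
  have h1 : ∀ x ∈ Cp.roots.toFinset,
      ((s13_tq_quad W x).roots.toFinset.image fun y => (x, y)).card ≤ 2 := by
    intro x _
    refine (Finset.card_image_le).trans ?_
    refine (Multiset.toFinset_card_le _).trans ?_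
    exact (Polynomial.card_roots' _).trans (le_of_eq (s13_tq_quad_natDegree x))
  refine (Finset.sum_le_card_nsmul _ _ 2 h1).trans ?_
  rw [smul_eq_mul, mul_comm]
  refine Nat.mul_le_mul_left 2 ?_
  exact (Multiset.toFinset_card_le _).trans (Polynomial.card_roots' _)

theorem s13_tq_mem_pts {Cp : K[X]} (hC : Cp ≠ 0) {x y : K} (hx : Cp.IsRoot x)
    (hxy : W.Equation x y) : (x, y) ∈ s13_tq_pts W Cp := by
  unfold s13_tq_pts
  rw [Finset.mem_biUnion]
  refine ⟨x, ?_, ?_⟩
  · rw [Multiset.mem_toFinset, Polynomial.mem_roots hC]; exact hx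
  · rw [Finset.mem_image]
    refine ⟨y, ?_, rfl⟩
    rw [Multiset.mem_toFinset, Polynomial.mem_roots (s13_tq_quad_ne_zero x)]
    exact (s13_tq_quad_isRoot_iff x y).2 hxy

section Count

variable {n : ℕ} {Cp : K[X]}

theorem s13_tq_subset (hC : Cp ≠ 0)
    (hroot : ∀ (x y : K) (h : W.Nonsingular x y), n • Point.some x y h = 0 → Cp.IsRoot x) :
    {P : W.Point | n • P = 0} ⊆
      s13_tq_coord ⁻¹' (insert none (some '' (s13_tq_pts W Cp : Set (K × K)))) := by
  intro P hP
  cases P with
  | zero => simp [s13_tq_coord]
  | some x y h =>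
    simp only [Set.mem_preimage, s13_tq_coord, Set.mem_insert_iff, reduceCtorEq, Set.mem_image,
      Finset.mem_coe, Option.some.injEq, exists_eq_right, false_or]
    exact s13_tq_mem_pts hC (hroot x y h hP) h.1

theorem s13_tq_target_finite (Cp : K[X]) :
    (insert none (some '' (s13_tq_pts W Cp : Set (K × K))) : Set (Option (K × K))).Finite :=
  ((s13_tq_pts W Cp).finite_toSet.image _).insert _

/-- The `n`-torsion is finite. -/
theorem s13_tq_finite (hC : Cp ≠ 0)
    (hroot : ∀ (x y : K) (h : W.Nonsingular x y), n • Point.some x y h = 0 → Cp.IsRoot x) :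
    {P : W.Point | n • P = 0}.Finite :=
  ((s13_tq_target_finite Cp).preimage s13_tq_coord_injective.injOn).subset
    (s13_tq_subset hC hroot)

/-- The `n`-torsion has at most `1 + 2 deg Cp` elements. -/
theorem s13_tq_ncard_le (hC : Cp ≠ 0)
    (hroot : ∀ (x y : K) (h : W.Nonsingular x y), n • Point.some x y h = 0 → Cp.IsRoot x) :
    {P : W.Point | n • P = 0}.ncard ≤ 1 + 2 * Cp.natDegree := by
  have hfin := s13_tq_target_finite (W := W) Cp
  have h1 : {P : W.Point | n • P = 0}.ncard ≤
      (s13_tq_coord ⁻¹' (insert none (some '' (s13_tq_pts W Cp : Set (K × K))))).ncard :=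
    Set.ncard_le_ncard (s13_tq_subset hC hroot)
      (hfin.preimage s13_tq_coord_injective.injOn)
  have h2 : (s13_tq_coord (W := W) ⁻¹'
      (insert none (some '' (s13_tq_pts W Cp : Set (K × K))))).ncard ≤
      (insert none (some '' (s13_tq_pts W Cp : Set (K × K))) : Set (Option (K × K))).ncard :=
    Set.ncard_le_ncard_of_injOn s13_tq_coord (fun a ha => ha)
      s13_tq_coord_injective.injOn hfin
  have h3 : (insert none (some '' (s13_tq_pts W Cp : Set (K × K))) :
      Set (Option (K × K))).ncard ≤ (s13_tq_pts W Cp).card + 1 := by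
    refine (Set.ncard_insert_le _ _).trans ?_
    refine Nat.add_le_add_right ?_ 1
    refine (Set.ncard_image_le (s13_tq_pts W Cp).finite_toSet).trans ?_
    rw [Set.ncard_coe_finset]
  have h4 := s13_tq_pts_card_le (W := W) Cp
  omega

/-- Existence of a nonzero `n`-torsion point over an algebraically closed field. -/
theorem s13_tq_exists [IsAlgClosed K] (hΔ : W.Δ ≠ 0) (hdeg : Cp.natDegree ≠ 0)
    (hroot : ∀ (x y : K) (h : W.Nonsingular x y), Cp.IsRoot x → n • Point.some x y h = 0) :
    ∃ P : W.Point, P ≠ 0 ∧ n • P = 0 := by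
  have hd : Cp.degree ≠ 0 := by
    intro h0
    apply hdeg
    exact Polynomial.natDegree_eq_of_degree_eq_some h0
  obtain ⟨x, hx⟩ := IsAlgClosed.exists_root Cp hd
  have hq : (s13_tq_quad W x).degree ≠ 0 := by
    intro h0
    have := Polynomial.natDegree_eq_of_degree_eq_some h0
    rw [s13_tq_quad_natDegree] at this
    exact absurd this (by norm_num)
  obtain ⟨y, hy⟩ := IsAlgClosed.exists_root (s13_tq_quad W x) hq
  have heq : W.Equation x y := (s13_tq_quad_isRoot_iff x y).1 hy
  have hns : W.Nonsingular x y := (W.equation_iff_nonsingular_of_Δ_ne_zero hΔ).1 heq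
  exact ⟨Point.some x y hns, Point.some_ne_zero _, hroot x y hns hx⟩

end Count

end Fermat.Agent.S13
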