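import Mathlib
import Fermat.Agent.S13.Ladder
import Fermat.Agent.S13.TorsionQbAux
import Fermat.Agent.S05.Defs
import Fermat.Agent.S13.Defs

/-!
# S13 / M4: the `p`-torsion of a Weierstrass curve via the ladder polynomial  (OWNER: helper7)

`W` a Weierstrass curve over a field `K`; `ldA, ldB, ldC` are helper5's ladder polynomials
(`Ladder.lean`) for the invariants `b₂, b₄, b₆, b₈` of `W`.

* `s13_tq_rep` : `(ldA n (x) : ldB n (x))` is the projective `x`-coordinate of `n • (x, y)`.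
* `s13_tq_nsmul_eq_zero_iff`, `s13_tq_odd_nsmul_eq_zero_iff` : `n • P = 0 ↔ ldB n (x) = 0`,
  `(2m+1) • P = 0 ↔ ldC m (x) = 0`.
* `s13_tq_root_iff` (alg. closed, `Δ ≠ 0`): roots of `ldC m` = `x`-coordinates of the nonzero
  `(2m+1)`-torsion points.
* `s13_tq_tors_finite`, `s13_tq_tors_ncard_le`, `s13_tq_tors_exists` : (T1), (T0).
* versions for `Submodule.torsionBy ℤ W.Point p` and for base changes `W₀⁄K`.
-/

set_option autoImplicit false
set_option linter.unusedSectionVars false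
set_option linter.unusedVariables false

namespace Fermat.Agent.S13

open WeierstrassCurve WeierstrassCurve.Affine Polynomial

variable {K : Type*} [Field K] [DecidableEq K] (W : WeierstrassCurve.Affine K)

/-- the ladder polynomials of the curve `W` -/
noncomputable abbrev s13_tq_A (n : ℕ) : K[X] := ldA W.b₂ W.b₄ W.b₆ W.b₈ n
noncomputable abbrev s13_tq_B (n : ℕ) : K[X] := ldB W.b₂ W.b₄ W.b₆ W.b₈ n
noncomputable abbrev s13_tq_C (m : ℕ) : K[X] := ldC W.b₂ W.b₄ W.b₆ W.b₈ m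

variable {W}

/-- `(ldA n (x) : ldB n (x))` is the projective `x`-coordinate of `n • (x, y)`. -/
theorem s13_tq_rep {x y : K} (h : W.Nonsingular x y) (n : ℕ) :
    s13_lp_Rep W (n • Point.some x y h) ((s13_tq_A W n).eval x) ((s13_tq_B W n).eval x) := by
  refine s13_lp_ladder h (fun n => (s13_tq_A W n).eval x) (fun n => (s13_tq_B W n).eval x)
    ?_ ?_ ?_ ?_ ?_ ?_ ?_ ?_ n
  · simp only [s13_tq_A, ldA_zero, eval_one]; exact one_ne_zero
  · simp only [s13_tq_B, ldB_zero, eval_zero]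
  · simp only [s13_tq_A, s13_tq_B, ldA_one, ldB_one, eval_X, eval_one, mul_one]
  · simp only [s13_tq_B, ldB_one, eval_one]; exact one_ne_zero
  · intro m _
    simp only [s13_tq_A, s13_tq_B, ldA_two_mul, s13_lp_dblA, eval_sub, eval_mul, eval_pow,
      eval_C, eval_ofNat]
  · intro m _
    simp only [s13_tq_A, s13_tq_B, ldB_two_mul, s13_lp_dblB, eval_add, eval_mul, eval_pow,
      eval_C, eval_ofNat]
  · intro m _
    simp only [s13_tq_A, s13_tq_B, ldA_two_mul_add_one, ldS, ldC, s13_lp_addS, s13_lp_addC,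
      eval_sub, eval_add, eval_mul, eval_pow, eval_C, eval_X, eval_ofNat]
  · intro m _
    simp only [s13_tq_A, s13_tq_B, ldB_two_mul_add_one, ldC, s13_lp_addC,
      eval_sub, eval_mul, eval_pow]

/-- `n • P = 0 ↔ ldB n (x) = 0`. -/
theorem s13_tq_nsmul_eq_zero_iff {x y : K} (h : W.Nonsingular x y) (n : ℕ) :
    n • Point.some x y h = 0 ↔ (s13_tq_B W n).IsRoot x :=
  (s13_tq_rep h n).eq_zero_iff

/-- the `x`-coordinate of `n • P`. -/
theorem s13_tq_nsmul_x {x y : K} (h : W.Nonsingular x y) (n : ℕ) {x' y' : K}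
    {h' : W.Nonsingular x' y'} (hn : n • Point.some x y h = Point.some x' y' h') :
    (s13_tq_B W n).eval x ≠ 0 ∧ (s13_tq_A W n).eval x = x' * (s13_tq_B W n).eval x := by
  have := s13_tq_rep h n
  rw [hn] at this
  exact this.of_some

/-- `ldA n` and `ldB n` have no common root among the `x`-coordinates of points. -/
theorem s13_tq_ne_zero {x y : K} (h : W.Nonsingular x y) (n : ℕ) :
    (s13_tq_A W n).eval x ≠ 0 ∨ (s13_tq_B W n).eval x ≠ 0 :=
  (s13_tq_rep h n).ne_zero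

/-- `(2m+1) • P = 0 ↔ ldC m (x) = 0`. -/
theorem s13_tq_odd_nsmul_eq_zero_iff {x y : K} (h : W.Nonsingular x y) (m : ℕ) :
    (2 * m + 1) • Point.some x y h = 0 ↔ (s13_tq_C W m).IsRoot x := by
  rw [s13_tq_nsmul_eq_zero_iff, IsRoot.def, IsRoot.def, s13_tq_B, ldB_two_mul_add_one, eval_pow]
  exact pow_eq_zero_iff (two_ne_zero)

/-- `ldC m ≠ 0` when `2m+1` is invertible in `K`. -/
theorem s13_tq_C_ne_zero (m : ℕ) (hm : ((2 * m + 1 : ℕ) : K) ≠ 0) : s13_tq_C W m ≠ 0 := by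
  intro h0
  have := coeff_ldC W.b₂ W.b₄ W.b₆ W.b₈ m
  rw [show ldC W.b₂ W.b₄ W.b₆ W.b₈ m = 0 from h0, coeff_zero] at this
  apply hm
  push_cast
  linear_combination this

/-- `natDegree (ldC m) = 2m² + 2m` when `2m+1` is invertible in `K`. -/
theorem s13_tq_C_natDegree (m : ℕ) (hm : ((2 * m + 1 : ℕ) : K) ≠ 0) :
    (s13_tq_C W m).natDegree = 2 * m ^ 2 + 2 * m := by
  refine le_antisymm (natDegree_ldC_le _ _ _ _ m) ?_
  refine Polynomial.le_natDegree_of_ne_zero ?_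
  rw [s13_tq_C, coeff_ldC]
  intro h0
  apply hm
  push_cast
  linear_combination -h0

section Tors

variable (m : ℕ)

/-- **(T1a)** the `(2m+1)`-torsion is finite. -/
theorem s13_tq_tors_finite (hm : ((2 * m + 1 : ℕ) : K) ≠ 0) :
    {P : W.Point | (2 * m + 1) • P = 0}.Finite :=
  s13_tq_finite (Cp := s13_tq_C W m) (s13_tq_C_ne_zero m hm)
    (fun x y h hP => (s13_tq_odd_nsmul_eq_zero_iff h m).1 hP)

/-- **(T1)** the `(2m+1)`-torsion has at most `(2m+1)²` elements. -/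
theorem s13_tq_tors_ncard_le (hm : ((2 * m + 1 : ℕ) : K) ≠ 0) :
    {P : W.Point | (2 * m + 1) • P = 0}.ncard ≤ (2 * m + 1) ^ 2 := by
  have h1 := s13_tq_ncard_le (W := W) (n := 2 * m + 1) (Cp := s13_tq_C W m)
    (s13_tq_C_ne_zero m hm) (fun x y h hP => (s13_tq_odd_nsmul_eq_zero_iff h m).1 hP)
  have h2 := natDegree_ldC_le W.b₂ W.b₄ W.b₆ W.b₈ m
  have h3 : 1 + 2 * (2 * m ^ 2 + 2 * m) = (2 * m + 1) ^ 2 := by ring
  calc _ ≤ 1 + 2 * (s13_tq_C W m).natDegree := h1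
    _ ≤ 1 + 2 * (2 * m ^ 2 + 2 * m) := by
        have : (s13_tq_C W m).natDegree ≤ 2 * m ^ 2 + 2 * m := h2
        omega
    _ = _ := h3

/-- **(T0)** over an algebraically closed field there is a nonzero `(2m+1)`-torsion point
(`m ≥ 1`, `Δ ≠ 0`, `2m+1` invertible). -/
theorem s13_tq_tors_exists [IsAlgClosed K] (hΔ : W.Δ ≠ 0) (hm1 : 1 ≤ m)
    (hm : ((2 * m + 1 : ℕ) : K) ≠ 0) :
    ∃ P : W.Point, P ≠ 0 ∧ (2 * m + 1) • P = 0 := by
  refine s13_tq_exists (Cp := s13_tq_C W m) hΔ ?_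
    (fun x y h hx => (s13_tq_odd_nsmul_eq_zero_iff h m).2 hx)
  rw [s13_tq_C_natDegree m hm]
  have : 0 < m ^ 2 := by positivity
  omega

/-- Roots of `ldC m` are exactly the `x`-coordinates of the nonzero `(2m+1)`-torsion points. -/
theorem s13_tq_root_iff [IsAlgClosed K] (hΔ : W.Δ ≠ 0) (x : K) :
    (s13_tq_C W m).IsRoot x ↔
      ∃ (y : K) (h : W.Nonsingular x y), (2 * m + 1) • Point.some x y h = 0 := by
  constructor
  · intro hx
    have hq : (s13_tq_quad W x).degree ≠ 0 := by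
      intro h0
      have := Polynomial.natDegree_eq_of_degree_eq_some h0
      rw [s13_tq_quad_natDegree] at this
      exact absurd this (by norm_num)
    obtain ⟨y, hy⟩ := IsAlgClosed.exists_root (s13_tq_quad W x) hq
    have heq : W.Equation x y := (s13_tq_quad_isRoot_iff x y).1 hy
    have hns : W.Nonsingular x y := (W.equation_iff_nonsingular_of_Δ_ne_zero hΔ).1 heq
    exact ⟨y, hns, (s13_tq_odd_nsmul_eq_zero_iff hns m).2 hx⟩
  · rintro ⟨y, h, hP⟩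
    exact (s13_tq_odd_nsmul_eq_zero_iff h m).1 hP

end Tors

/-! ### Versions for an odd `p` -/

section OddP

variable {p : ℕ}

/-- the torsion polynomial `C_p` of an odd `p` (`= ldC ((p-1)/2)`), degree `(p²-1)/2`. -/
noncomputable abbrev s13_tq_Cp (W : WeierstrassCurve.Affine K) (p : ℕ) : K[X] :=
  s13_tq_C W (p / 2)

theorem s13_tq_p_eq (hp : Odd p) : 2 * (p / 2) + 1 = p :=
  Nat.two_mul_div_two_add_one_of_odd hp

theorem s13_tq_Cp_ne_zero (hp : Odd p) (hpK : (p : K) ≠ 0) : s13_tq_Cp W p ≠ 0 :=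
  s13_tq_C_ne_zero (p / 2) (by rw [s13_tq_p_eq hp]; exact hpK)

/-- `2 * natDegree C_p + 1 = p²`. -/
theorem s13_tq_Cp_natDegree (hp : Odd p) (hpK : (p : K) ≠ 0) :
    2 * (s13_tq_Cp W p).natDegree + 1 = p ^ 2 := by
  rw [s13_tq_Cp, s13_tq_C_natDegree (p / 2) (by rw [s13_tq_p_eq hp]; exact hpK)]
  have h := s13_tq_p_eq hp
  calc 2 * (2 * (p / 2) ^ 2 + 2 * (p / 2)) + 1 = (2 * (p / 2) + 1) ^ 2 := by ring
    _ = p ^ 2 := by rw [h]

theorem s13_tq_Cp_leadingCoeff (hp : Odd p) (hpK : (p : K) ≠ 0) :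
    (s13_tq_Cp W p).leadingCoeff = -(p : K) := by
  have hm : ((2 * (p / 2) + 1 : ℕ) : K) ≠ 0 := by rw [s13_tq_p_eq hp]; exact hpK
  rw [Polynomial.leadingCoeff, s13_tq_Cp, s13_tq_C_natDegree (p / 2) hm, s13_tq_C, coeff_ldC]
  have h : ((2 * (p / 2) + 1 : ℕ) : K) = (p : K) := by rw [s13_tq_p_eq hp]
  rw [← h]; push_cast; ring

/-- `p • P = 0 ↔ C_p (x) = 0` for an affine point `P = (x, y)`. -/
theorem s13_tq_p_nsmul_eq_zero_iff (hp : Odd p) {x y : K} (h : W.Nonsingular x y) :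
    p • Point.some x y h = 0 ↔ (s13_tq_Cp W p).IsRoot x := by
  have := s13_tq_odd_nsmul_eq_zero_iff h (p / 2)
  rwa [s13_tq_p_eq hp] at this

/-- (hCtors) -/
theorem s13_tq_p_root_of_tors (hp : Odd p) {x y : K} (h : W.Nonsingular x y)
    (hP : p • Point.some x y h = 0) : (s13_tq_Cp W p).IsRoot x :=
  (s13_tq_p_nsmul_eq_zero_iff hp h).1 hP

/-- (hCroot) -/
theorem s13_tq_p_tors_of_root [IsAlgClosed K] (hΔ : W.Δ ≠ 0) (hp : Odd p) {x : K}
    (hx : (s13_tq_Cp W p).IsRoot x) :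
    ∃ (y : K) (h : W.Nonsingular x y), p • Point.some x y h = 0 := by
  have := (s13_tq_root_iff (W := W) (p / 2) hΔ x).1 hx
  rwa [s13_tq_p_eq hp] at this

/-- **(T1a)** -/
theorem s13_tq_p_finite (hp : Odd p) (hpK : (p : K) ≠ 0) :
    {P : W.Point | p • P = 0}.Finite := by
  have := s13_tq_tors_finite (W := W) (p / 2) (by rw [s13_tq_p_eq hp]; exact hpK)
  rwa [s13_tq_p_eq hp] at this

/-- **(T1)** -/
theorem s13_tq_p_ncard_le (hp : Odd p) (hpK : (p : K) ≠ 0) :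
    {P : W.Point | p • P = 0}.ncard ≤ p ^ 2 := by
  have := s13_tq_tors_ncard_le (W := W) (p / 2) (by rw [s13_tq_p_eq hp]; exact hpK)
  rwa [s13_tq_p_eq hp] at this

/-- **(T0)** -/
theorem s13_tq_p_exists [IsAlgClosed K] (hΔ : W.Δ ≠ 0) (hp : Odd p) (hp3 : 3 ≤ p)
    (hpK : (p : K) ≠ 0) : ∃ P : W.Point, P ≠ 0 ∧ p • P = 0 := by
  have := s13_tq_tors_exists (W := W) (p / 2) hΔ (by omega)
    (by rw [s13_tq_p_eq hp]; exact hpK)
  rwa [s13_tq_p_eq hp] at this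

end OddP

/-! ### The submodule `Submodule.torsionBy ℤ W.Point p` -/

section TorsionBy

theorem s13_tq_mem_torsionBy_iff (n : ℕ) (P : W.Point) :
    P ∈ Submodule.torsionBy ℤ W.Point (n : ℤ) ↔ n • P = 0 := by
  rw [Submodule.mem_torsionBy_iff, natCast_zsmul]

theorem s13_tq_torsionBy_coe (n : ℕ) :
    ((Submodule.torsionBy ℤ W.Point (n : ℤ) : Submodule ℤ W.Point) : Set W.Point)
      = {P : W.Point | n • P = 0} := by
  ext P
  exact s13_tq_mem_torsionBy_iff n P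

theorem s13_tq_torsionBy_finite_of {n : ℕ} (hfin : {P : W.Point | n • P = 0}.Finite) :
    Finite (Submodule.torsionBy ℤ W.Point (n : ℤ)) := by
  have : (((Submodule.torsionBy ℤ W.Point (n : ℤ) : Submodule ℤ W.Point) :
      Set W.Point)).Finite := by
    rw [s13_tq_torsionBy_coe]; exact hfin
  exact this.to_subtype

theorem s13_tq_torsionBy_card (n : ℕ) :
    Nat.card (Submodule.torsionBy ℤ W.Point (n : ℤ)) = {P : W.Point | n • P = 0}.ncard := by
  rw [← s13_tq_torsionBy_coe]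
  exact (_root_.Nat.card_coe_set_eq _)

theorem s13_tq_torsionBy_nontrivial_of {n : ℕ} (h : ∃ P : W.Point, P ≠ 0 ∧ n • P = 0) :
    Nontrivial (Submodule.torsionBy ℤ W.Point (n : ℤ)) := by
  obtain ⟨P, hP, hn⟩ := h
  refine ⟨⟨⟨P, (s13_tq_mem_torsionBy_iff n P).2 hn⟩, 0, ?_⟩⟩
  intro h0
  apply hP
  exact congrArg Subtype.val h0

variable {p : ℕ}

/-- `V = E[p]` is finite. -/
theorem s13_tq_torsionBy_finite (hp : Odd p) (hpK : (p : K) ≠ 0) :
    Finite (Submodule.torsionBy ℤ W.Point (p : ℤ)) :=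
  s13_tq_torsionBy_finite_of (s13_tq_p_finite hp hpK)

/-- **(T1)** `card V ≤ p²`. -/
theorem s13_tq_torsionBy_card_le (hp : Odd p) (hpK : (p : K) ≠ 0) :
    Nat.card (Submodule.torsionBy ℤ W.Point (p : ℤ)) ≤ p ^ 2 := by
  rw [s13_tq_torsionBy_card]
  exact s13_tq_p_ncard_le hp hpK

/-- **(T0)** `V ≠ 0`. -/
theorem s13_tq_torsionBy_nontrivial [IsAlgClosed K] (hΔ : W.Δ ≠ 0) (hp : Odd p)
    (hp3 : 3 ≤ p) (hpK : (p : K) ≠ 0) :
    Nontrivial (Submodule.torsionBy ℤ W.Point (p : ℤ)) :=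
  s13_tq_torsionBy_nontrivial_of (s13_tq_p_exists hΔ hp hp3 hpK)

end TorsionBy

/-! ### Base change: the torsion polynomial of `W₀⁄K` comes from `W₀` -/

section BaseChange

variable {R₀ : Type*} [CommRing R₀] [Algebra R₀ K] (W₀ : WeierstrassCurve.Affine R₀)

theorem s13_tq_C_baseChange (m : ℕ) :
    s13_tq_C (W₀⁄K) m = (ldC W₀.b₂ W₀.b₄ W₀.b₆ W₀.b₈ m).map (algebraMap R₀ K) := by
  rw [ldC_map]
  show ldC (WeierstrassCurve.map W₀ (algebraMap R₀ K)).b₂ (WeierstrassCurve.map W₀ (algebraMap R₀ K)).b₄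
    (WeierstrassCurve.map W₀ (algebraMap R₀ K)).b₆ (WeierstrassCurve.map W₀ (algebraMap R₀ K)).b₈ _ = _
  rw [WeierstrassCurve.map_b₂, WeierstrassCurve.map_b₄, WeierstrassCurve.map_b₆,
    WeierstrassCurve.map_b₈]

theorem s13_tq_Cp_baseChange (p : ℕ) :
    s13_tq_Cp (W₀⁄K) p = (ldC W₀.b₂ W₀.b₄ W₀.b₆ W₀.b₈ (p / 2)).map (algebraMap R₀ K) :=
  s13_tq_C_baseChange W₀ (p / 2)

theorem s13_tq_A_baseChange (n : ℕ) :
    s13_tq_A (W₀⁄K) n = (ldA W₀.b₂ W₀.b₄ W₀.b₆ W₀.b₈ n).map (algebraMap R₀ K) := by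
  rw [ldA_map]
  show ldA (WeierstrassCurve.map W₀ (algebraMap R₀ K)).b₂ (WeierstrassCurve.map W₀ (algebraMap R₀ K)).b₄
    (WeierstrassCurve.map W₀ (algebraMap R₀ K)).b₆ (WeierstrassCurve.map W₀ (algebraMap R₀ K)).b₈ _ = _
  rw [WeierstrassCurve.map_b₂, WeierstrassCurve.map_b₄, WeierstrassCurve.map_b₆,
    WeierstrassCurve.map_b₈]

theorem s13_tq_B_baseChange (n : ℕ) :
    s13_tq_B (W₀⁄K) n = (ldB W₀.b₂ W₀.b₄ W₀.b₆ W₀.b₈ n).map (algebraMap R₀ K) := by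
  rw [ldB_map]
  show ldB (WeierstrassCurve.map W₀ (algebraMap R₀ K)).b₂ (WeierstrassCurve.map W₀ (algebraMap R₀ K)).b₄
    (WeierstrassCurve.map W₀ (algebraMap R₀ K)).b₆ (WeierstrassCurve.map W₀ (algebraMap R₀ K)).b₈ _ = _
  rw [WeierstrassCurve.map_b₂, WeierstrassCurve.map_b₄, WeierstrassCurve.map_b₆,
    WeierstrassCurve.map_b₈]

end BaseChange

/-! ### Curves over `ℚ` base-changed to an algebraically closed field: `P.freyCurve`, `Wef e f` -/

section OverQ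

variable [Algebra ℚ K]

theorem s13_tq_baseChange_Δ_ne_zero (W₀ : WeierstrassCurve.Affine ℚ) (hΔ : W₀.Δ ≠ 0) :
    (W₀⁄K).Δ ≠ 0 := by
  have h : (W₀⁄K).Δ = algebraMap ℚ K W₀.Δ := WeierstrassCurve.map_Δ W₀ (algebraMap ℚ K)
  rw [h]
  exact (map_ne_zero_iff _ (algebraMap ℚ K).injective).2 hΔ

theorem s13_tq_natCast_ne_zero {p : ℕ} (hp0 : p ≠ 0) : (p : K) ≠ 0 := by
  have : CharZero K := algebraRat.charZero K
  exact Nat.cast_ne_zero.2 hp0

/-- the discriminant of `Y² = X (X - e) (X - f)`. -/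
theorem s13_tq_Wef_Δ (e f : ℚ) : (Fermat.Agent.S05.Wef e f).Δ = 16 * (e * f * (e - f)) ^ 2 := by
  simp only [WeierstrassCurve.Δ, WeierstrassCurve.b₂, WeierstrassCurve.b₄, WeierstrassCurve.b₆,
    WeierstrassCurve.b₈, Fermat.Agent.S05.Wef]
  ring

theorem s13_tq_Wef_Δ_ne_zero {e f : ℚ} (he : e ≠ 0) (hf : f ≠ 0) (hef : e ≠ f) :
    (Fermat.Agent.S05.Wef e f).Δ ≠ 0 := by
  rw [s13_tq_Wef_Δ]
  have := sub_ne_zero.2 hef
  positivity

variable [IsAlgClosed K]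

/-- **Main statement of M4** for a curve `W₀` over `ℚ` with `Δ ≠ 0` and an odd `p ≥ 3`,
base-changed to an algebraically closed field `K ⊇ ℚ`; `Cp` is the image in `K[X]` of the
ladder polynomial `ldC ((p-1)/2)` of `W₀`. -/
theorem s13_tq_overQ (W₀ : WeierstrassCurve.Affine ℚ) (hΔ : W₀.Δ ≠ 0) {p : ℕ} (hp : Odd p)
    (hp3 : 3 ≤ p) :
    (∀ x : K, ((ldC W₀.b₂ W₀.b₄ W₀.b₆ W₀.b₈ (p / 2)).map (algebraMap ℚ K)).IsRoot x ↔
        ∃ (y : K) (h : (W₀⁄K).Nonsingular x y), p • Point.some x y h = 0) ∧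
      {P : (W₀⁄K).Point | p • P = 0}.Finite ∧
      {P : (W₀⁄K).Point | p • P = 0}.ncard ≤ p ^ 2 ∧
      (∃ P : (W₀⁄K).Point, P ≠ 0 ∧ p • P = 0) ∧
      Nontrivial (Submodule.torsionBy ℤ (W₀⁄K).Point (p : ℤ)) ∧
      Finite (Submodule.torsionBy ℤ (W₀⁄K).Point (p : ℤ)) ∧
      Nat.card (Submodule.torsionBy ℤ (W₀⁄K).Point (p : ℤ)) ≤ p ^ 2 := by
  have hΔK := s13_tq_baseChange_Δ_ne_zero (K := K) W₀ hΔ
  have hpK : (p : K) ≠ 0 := s13_tq_natCast_ne_zero (by omega)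
  refine ⟨fun x => ?_, s13_tq_p_finite hp hpK, s13_tq_p_ncard_le hp hpK,
    s13_tq_p_exists hΔK hp hp3 hpK, s13_tq_torsionBy_nontrivial hΔK hp hp3 hpK,
    s13_tq_torsionBy_finite hp hpK, s13_tq_torsionBy_card_le hp hpK⟩
  rw [← s13_tq_Cp_baseChange]
  constructor
  · exact fun hx => s13_tq_p_tors_of_root hΔK hp hx
  · rintro ⟨y, h, hP⟩
    exact s13_tq_p_root_of_tors hp h hP

/-- **(T0)** for the Frey curve, in the shape of the frozen statement. -/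
theorem s13_tq_frey_nontrivial (P : FreyPackage) :
    Nontrivial (Submodule.torsionBy ℤ (P.freyCurve⁄K).Point (P.p : ℤ)) :=
  (s13_tq_overQ (K := K) P.freyCurve (s13_frey_Δ_ne_zero P) P.hp_odd
    (by have := P.hp5; omega)).2.2.2.2.1

/-- `V` is finite for the Frey curve. -/
theorem s13_tq_frey_finite (P : FreyPackage) :
    Finite (Submodule.torsionBy ℤ (P.freyCurve⁄K).Point (P.p : ℤ)) :=
  (s13_tq_overQ (K := K) P.freyCurve (s13_frey_Δ_ne_zero P) P.hp_odd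
    (by have := P.hp5; omega)).2.2.2.2.2.1

/-- **(T1)** for the Frey curve. -/
theorem s13_tq_frey_card_le (P : FreyPackage) :
    Nat.card (Submodule.torsionBy ℤ (P.freyCurve⁄K).Point (P.p : ℤ)) ≤ P.p ^ 2 :=
  (s13_tq_overQ (K := K) P.freyCurve (s13_frey_Δ_ne_zero P) P.hp_odd
    (by have := P.hp5; omega)).2.2.2.2.2.2

/-- roots of `C_p` = `x`-coordinates of the nonzero `p`-torsion points of the Frey curve. -/
theorem s13_tq_frey_root_iff (P : FreyPackage) (x : K) :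
    ((ldC P.freyCurve.b₂ P.freyCurve.b₄ P.freyCurve.b₆ P.freyCurve.b₈ (P.p / 2)).map
        (algebraMap ℚ K)).IsRoot x ↔
      ∃ (y : K) (h : (P.freyCurve⁄K).Nonsingular x y), P.p • Point.some x y h = 0 :=
  (s13_tq_overQ (K := K) P.freyCurve (s13_frey_Δ_ne_zero P) P.hp_odd
    (by have := P.hp5; omega)).1 x

end OverQ

end Fermat.Agent.S13
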