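import Mathlib
import Fermat.Agent.S13.TorsionQb

/-!
# S13 / M4 (integrality): the torsion polynomial `C_p` of the Frey curve has integer coefficients
(OWNER: helper7)

For the Frey curve `E = P.freyCurve : y² + xy = x³ + a₂x² + a₄x` one has
`b₂ = b^p - a^p`, `b₄ = 2a₄`, `b₆ = 0`, `b₈ = -a₄²` with `a₄ = -a^p b^p / 16 ∈ ℤ`.
Hence `C_p(E⁄K)` is the image of the integer polynomial
`s13_tq_freyCpZ P = ldC (b^p - a^p) (2 a₄) 0 (-a₄²) ((p-1)/2) ∈ ℤ[X]`, with leading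
coefficient `-p` and constant term `± a₄^((p²-1)/4)`.
-/

set_option autoImplicit false
set_option linter.unusedSectionVars false
set_option linter.unusedVariables false

namespace Fermat.Agent.S13

open WeierstrassCurve WeierstrassCurve.Affine Polynomial

/-- the integer `a₄ = -a^p b^p / 16` of the Frey curve -/
def s13_tq_freyA4 (P : FreyPackage) : ℤ := -(P.a ^ P.p) * (P.b ^ P.p) / 16

/-- the integer `b₂ = b^p - a^p` of the Frey curve -/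
def s13_tq_freyB2 (P : FreyPackage) : ℤ := P.b ^ P.p - P.a ^ P.p

theorem s13_tq_frey_sixteen_dvd (P : FreyPackage) : (16 : ℤ) ∣ -(P.a ^ P.p) * (P.b ^ P.p) := by
  have h2 : (2 : ℤ) ∣ P.b := (ZMod.intCast_zmod_eq_zero_iff_dvd P.b 2).1 P.hb2
  have h4 : (2 : ℤ) ^ 4 ∣ P.b ^ P.p := by
    refine dvd_trans (pow_dvd_pow_of_dvd h2 4) ?_
    exact pow_dvd_pow P.b (by have := P.hp5; omega)
  have : (16 : ℤ) = 2 ^ 4 := by norm_num
  rw [this]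
  exact Dvd.dvd.mul_left h4 _

theorem s13_tq_freyA4_spec (P : FreyPackage) :
    16 * s13_tq_freyA4 P = -(P.a ^ P.p) * (P.b ^ P.p) := by
  unfold s13_tq_freyA4
  exact Int.mul_ediv_cancel' (s13_tq_frey_sixteen_dvd P)

theorem s13_tq_frey_a₄ (P : FreyPackage) : P.freyCurve.a₄ = (s13_tq_freyA4 P : ℚ) := by
  have h := congrArg (fun z : ℤ => (z : ℚ)) (s13_tq_freyA4_spec P)
  simp only [Int.cast_mul, Int.cast_neg, Int.cast_pow, Int.cast_ofNat] at h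
  show -((P.a : ℚ) ^ P.p) * ((P.b : ℚ) ^ P.p) / 16 = _
  rw [← h]; ring

theorem s13_tq_frey_b₂ (P : FreyPackage) : P.freyCurve.b₂ = (s13_tq_freyB2 P : ℚ) := by
  simp only [WeierstrassCurve.b₂, FreyPackage.freyCurve, s13_tq_freyB2]
  push_cast; ring

theorem s13_tq_frey_b₄ (P : FreyPackage) : P.freyCurve.b₄ = ((2 * s13_tq_freyA4 P : ℤ) : ℚ) := by
  have h := s13_tq_frey_a₄ P
  simp only [WeierstrassCurve.b₄] at h ⊢
  rw [h]
  simp only [FreyPackage.freyCurve]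
  push_cast; ring

theorem s13_tq_frey_b₆ (P : FreyPackage) : P.freyCurve.b₆ = ((0 : ℤ) : ℚ) := by
  simp only [WeierstrassCurve.b₆, FreyPackage.freyCurve]
  push_cast; ring

theorem s13_tq_frey_b₈ (P : FreyPackage) :
    P.freyCurve.b₈ = ((-(s13_tq_freyA4 P) ^ 2 : ℤ) : ℚ) := by
  have h := s13_tq_frey_a₄ P
  simp only [WeierstrassCurve.b₈] at h ⊢
  rw [h]
  simp only [FreyPackage.freyCurve]
  push_cast; ring

/-- the integer torsion polynomial of the Frey curve -/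
noncomputable def s13_tq_freyCpZ (P : FreyPackage) : ℤ[X] :=
  ldC (s13_tq_freyB2 P) (2 * s13_tq_freyA4 P) 0 (-(s13_tq_freyA4 P) ^ 2) (P.p / 2)

theorem s13_tq_freyCpZ_map_rat (P : FreyPackage) :
    (s13_tq_freyCpZ P).map (Int.castRingHom ℚ) =
      ldC P.freyCurve.b₂ P.freyCurve.b₄ P.freyCurve.b₆ P.freyCurve.b₈ (P.p / 2) := by
  rw [s13_tq_freyCpZ, ldC_map, s13_tq_frey_b₂, s13_tq_frey_b₄, s13_tq_frey_b₆, s13_tq_frey_b₈]
  rfl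

variable {K : Type*} [Field K] [DecidableEq K] [Algebra ℚ K]

/-- `C_p(E⁄K)` is the image of the integer polynomial `s13_tq_freyCpZ P`. -/
theorem s13_tq_frey_Cp_eq (P : FreyPackage) :
    s13_tq_Cp (P.freyCurve⁄K) P.p = (s13_tq_freyCpZ P).map (Int.castRingHom K) := by
  rw [s13_tq_Cp_baseChange, ← s13_tq_freyCpZ_map_rat, Polynomial.map_map]
  congr 1
  exact RingHom.ext_int _ _

theorem s13_tq_freyCpZ_natDegree (P : FreyPackage) :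
    2 * (s13_tq_freyCpZ P).natDegree + 1 = P.p ^ 2 := by
  have hp := P.hp_odd
  have hm : 2 * (P.p / 2) + 1 = P.p := s13_tq_p_eq hp
  have hle := natDegree_ldC_le (s13_tq_freyB2 P) (2 * s13_tq_freyA4 P) 0
    (-(s13_tq_freyA4 P) ^ 2) (P.p / 2)
  have hco := coeff_ldC (s13_tq_freyB2 P) (2 * s13_tq_freyA4 P) 0
    (-(s13_tq_freyA4 P) ^ 2) (P.p / 2)
  have hne : (s13_tq_freyCpZ P).coeff (2 * (P.p / 2) ^ 2 + 2 * (P.p / 2)) ≠ 0 := by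
    rw [s13_tq_freyCpZ, hco]
    have : (0 : ℤ) ≤ ((P.p / 2 : ℕ) : ℤ) := Int.natCast_nonneg _
    omega
  have hge := Polynomial.le_natDegree_of_ne_zero hne
  have heq : (s13_tq_freyCpZ P).natDegree = 2 * (P.p / 2) ^ 2 + 2 * (P.p / 2) :=
    le_antisymm hle hge
  rw [heq]
  calc 2 * (2 * (P.p / 2) ^ 2 + 2 * (P.p / 2)) + 1 = (2 * (P.p / 2) + 1) ^ 2 := by ring
    _ = P.p ^ 2 := by rw [hm]

theorem s13_tq_freyCpZ_leadingCoeff (P : FreyPackage) :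
    (s13_tq_freyCpZ P).leadingCoeff = -(P.p : ℤ) := by
  have hp := P.hp_odd
  have hm : 2 * (P.p / 2) + 1 = P.p := s13_tq_p_eq hp
  have hle := natDegree_ldC_le (s13_tq_freyB2 P) (2 * s13_tq_freyA4 P) 0
    (-(s13_tq_freyA4 P) ^ 2) (P.p / 2)
  have hco := coeff_ldC (s13_tq_freyB2 P) (2 * s13_tq_freyA4 P) 0
    (-(s13_tq_freyA4 P) ^ 2) (P.p / 2)
  have hne : (s13_tq_freyCpZ P).coeff (2 * (P.p / 2) ^ 2 + 2 * (P.p / 2)) ≠ 0 := by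
    rw [s13_tq_freyCpZ, hco]
    have : (0 : ℤ) ≤ ((P.p / 2 : ℕ) : ℤ) := Int.natCast_nonneg _
    omega
  have hge := Polynomial.le_natDegree_of_ne_zero hne
  have heq : (s13_tq_freyCpZ P).natDegree = 2 * (P.p / 2) ^ 2 + 2 * (P.p / 2) :=
    le_antisymm hle hge
  rw [Polynomial.leadingCoeff, heq, s13_tq_freyCpZ, hco]
  have : ((P.p : ℕ) : ℤ) = 2 * ((P.p / 2 : ℕ) : ℤ) + 1 := by
    exact_mod_cast hm.symm
  rw [this]

theorem s13_tq_freyCpZ_coeff_zero (P : FreyPackage) :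
    (s13_tq_freyCpZ P).coeff 0 =
      (-1) ^ (P.p / 2 + 1) * (s13_tq_freyA4 P) ^ ((P.p / 2) ^ 2 + P.p / 2) := by
  rw [s13_tq_freyCpZ]
  exact ldC_coeff_zero (s13_tq_freyB2 P) (s13_tq_freyA4 P) (P.p / 2)

/-- every coefficient of `C_p(E⁄K)` is an integer. -/
theorem s13_tq_frey_Cp_coeff (P : FreyPackage) (k : ℕ) :
    (s13_tq_Cp (P.freyCurve⁄K) P.p).coeff k = (((s13_tq_freyCpZ P).coeff k : ℤ) : K) := by
  rw [s13_tq_frey_Cp_eq, Polynomial.coeff_map]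
  rfl

theorem s13_tq_frey_Cp_leadingCoeff (P : FreyPackage) :
    (s13_tq_Cp (P.freyCurve⁄K) P.p).leadingCoeff = -(P.p : K) :=
  s13_tq_Cp_leadingCoeff P.hp_odd (s13_tq_natCast_ne_zero P.hp0)

theorem s13_tq_frey_Cp_coeff_zero (P : FreyPackage) :
    (s13_tq_Cp (P.freyCurve⁄K) P.p).coeff 0 =
      (-1) ^ (P.p / 2 + 1) * ((s13_tq_freyA4 P : ℤ) : K) ^ ((P.p / 2) ^ 2 + P.p / 2) := by
  rw [s13_tq_frey_Cp_coeff, s13_tq_freyCpZ_coeff_zero]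
  push_cast
  ring

/-! ### General integral models and `Wef e f` with integers `e, f` -/

section IntModel

/-- If the invariants `b₂, b₄, b₆, b₈` of `W₀ / ℚ` are integers, `C_p(W₀⁄K)` is the image of
the integer ladder polynomial. -/
theorem s13_tq_Cp_eq_of_int (W₀ : WeierstrassCurve.Affine ℚ) (B2 B4 B6 B8 : ℤ)
    (h2 : W₀.b₂ = (B2 : ℚ)) (h4 : W₀.b₄ = (B4 : ℚ)) (h6 : W₀.b₆ = (B6 : ℚ))
    (h8 : W₀.b₈ = (B8 : ℚ)) (p : ℕ) :
    s13_tq_Cp (W₀⁄K) p = (ldC B2 B4 B6 B8 (p / 2)).map (Int.castRingHom K) := by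
  have h : (ldC B2 B4 B6 B8 (p / 2)).map (Int.castRingHom ℚ)
      = ldC W₀.b₂ W₀.b₄ W₀.b₆ W₀.b₈ (p / 2) := by
    rw [ldC_map, h2, h4, h6, h8]
    rfl
  rw [s13_tq_Cp_baseChange, ← h, Polynomial.map_map]
  congr 1
  exact RingHom.ext_int _ _

/-- degree and leading coefficient of the integer ladder polynomial `ldC m` -/
theorem s13_tq_ldCZ_natDegree (B2 B4 B6 B8 : ℤ) (m : ℕ) :
    (ldC B2 B4 B6 B8 m).natDegree = 2 * m ^ 2 + 2 * m := by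
  have hle := natDegree_ldC_le B2 B4 B6 B8 m
  have hco := coeff_ldC B2 B4 B6 B8 m
  have hne : (ldC B2 B4 B6 B8 m).coeff (2 * m ^ 2 + 2 * m) ≠ 0 := by
    rw [hco]
    have : (0 : ℤ) ≤ ((m : ℕ) : ℤ) := Int.natCast_nonneg _
    omega
  exact le_antisymm hle (Polynomial.le_natDegree_of_ne_zero hne)

theorem s13_tq_ldCZ_leadingCoeff (B2 B4 B6 B8 : ℤ) (m : ℕ) :
    (ldC B2 B4 B6 B8 m).leadingCoeff = -((2 * m + 1 : ℕ) : ℤ) := by
  rw [Polynomial.leadingCoeff, s13_tq_ldCZ_natDegree, coeff_ldC]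
  push_cast; ring

theorem s13_tq_ldCZ_ne_zero (B2 B4 B6 B8 : ℤ) (m : ℕ) : ldC B2 B4 B6 B8 m ≠ 0 := by
  intro h
  have := s13_tq_ldCZ_leadingCoeff B2 B4 B6 B8 m
  rw [h, Polynomial.leadingCoeff_zero] at this
  have h0 : (0 : ℤ) ≤ ((2 * m + 1 : ℕ) : ℤ) := Int.natCast_nonneg _
  push_cast at this h0
  omega

theorem s13_tq_Wef_b₂ (e f : ℤ) :
    (Fermat.Agent.S05.Wef (e : ℚ) (f : ℚ)).b₂ = ((-4 * (e + f) : ℤ) : ℚ) := by
  simp only [WeierstrassCurve.b₂, Fermat.Agent.S05.Wef]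
  push_cast; ring

theorem s13_tq_Wef_b₄ (e f : ℤ) :
    (Fermat.Agent.S05.Wef (e : ℚ) (f : ℚ)).b₄ = ((2 * (e * f) : ℤ) : ℚ) := by
  simp only [WeierstrassCurve.b₄, Fermat.Agent.S05.Wef]
  push_cast; ring

theorem s13_tq_Wef_b₆ (e f : ℤ) :
    (Fermat.Agent.S05.Wef (e : ℚ) (f : ℚ)).b₆ = ((0 : ℤ) : ℚ) := by
  simp only [WeierstrassCurve.b₆, Fermat.Agent.S05.Wef]
  push_cast; ring

theorem s13_tq_Wef_b₈ (e f : ℤ) :
    (Fermat.Agent.S05.Wef (e : ℚ) (f : ℚ)).b₈ = ((-(e * f) ^ 2 : ℤ) : ℚ) := by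
  simp only [WeierstrassCurve.b₈, Fermat.Agent.S05.Wef]
  push_cast; ring

/-- the integer torsion polynomial of `Y² = X (X - e) (X - f)`, `e, f ∈ ℤ` -/
noncomputable def s13_tq_WefCpZ (e f : ℤ) (p : ℕ) : ℤ[X] :=
  ldC (-4 * (e + f)) (2 * (e * f)) 0 (-(e * f) ^ 2) (p / 2)

theorem s13_tq_Wef_Cp_eq (e f : ℤ) (p : ℕ) :
    s13_tq_Cp ((Fermat.Agent.S05.Wef (e : ℚ) (f : ℚ))⁄K) p
      = (s13_tq_WefCpZ e f p).map (Int.castRingHom K) :=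
  s13_tq_Cp_eq_of_int _ _ _ _ _ (s13_tq_Wef_b₂ e f) (s13_tq_Wef_b₄ e f) (s13_tq_Wef_b₆ e f)
    (s13_tq_Wef_b₈ e f) p

theorem s13_tq_WefCpZ_natDegree (e f : ℤ) {p : ℕ} (hp : Odd p) :
    2 * (s13_tq_WefCpZ e f p).natDegree + 1 = p ^ 2 := by
  rw [s13_tq_WefCpZ, s13_tq_ldCZ_natDegree]
  have hm : 2 * (p / 2) + 1 = p := s13_tq_p_eq hp
  calc 2 * (2 * (p / 2) ^ 2 + 2 * (p / 2)) + 1 = (2 * (p / 2) + 1) ^ 2 := by ring
    _ = p ^ 2 := by rw [hm]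

theorem s13_tq_WefCpZ_leadingCoeff (e f : ℤ) {p : ℕ} (hp : Odd p) :
    (s13_tq_WefCpZ e f p).leadingCoeff = -(p : ℤ) := by
  rw [s13_tq_WefCpZ, s13_tq_ldCZ_leadingCoeff, s13_tq_p_eq hp]

theorem s13_tq_WefCpZ_coeff_zero (e f : ℤ) (p : ℕ) :
    (s13_tq_WefCpZ e f p).coeff 0 = (-1) ^ (p / 2 + 1) * (e * f) ^ ((p / 2) ^ 2 + p / 2) := by
  rw [s13_tq_WefCpZ]
  exact ldC_coeff_zero (-4 * (e + f)) (e * f) (p / 2)

theorem s13_tq_Wef_Cp_coeff (e f : ℤ) (p k : ℕ) :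
    (s13_tq_Cp ((Fermat.Agent.S05.Wef (e : ℚ) (f : ℚ))⁄K) p).coeff k
      = (((s13_tq_WefCpZ e f p).coeff k : ℤ) : K) := by
  rw [s13_tq_Wef_Cp_eq, Polynomial.coeff_map]
  rfl

theorem s13_tq_Wef_Cp_coeff_zero (e f : ℤ) (p : ℕ) :
    (s13_tq_Cp ((Fermat.Agent.S05.Wef (e : ℚ) (f : ℚ))⁄K) p).coeff 0 =
      (-1) ^ (p / 2 + 1) * (((e * f : ℤ) : K)) ^ ((p / 2) ^ 2 + p / 2) := by
  rw [s13_tq_Wef_Cp_coeff, s13_tq_WefCpZ_coeff_zero]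
  push_cast
  ring

end IntModel

end Fermat.Agent.S13
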