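import Fermat.Agent.S13.Local2Frey
import Fermat.Agent.S13.Local2Branch
import Fermat.Agent.S13.TorsionQbInt

/-!
# S13 / M8: (2a), (2b), (2c) and (A1) for the Frey curve at `2`  (OWNER: helper6)

`K ⊇ ℚ` a field, `A` a valuation subring of `K` over `2`, `v = A.valuation`,
`E = P.freyCurve⁄K`, `V = E[p]`.

* `s13_l2f_root_le`     : a root of a polynomial with integral coefficients and unit leading
  coefficient is integral.
* `s13_l2f_2a`          : (2a) every `p`-torsion point has `v x ≤ 1`.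
* `s13_l2f_2b`          : (2b) some `p`-torsion point has `v x < 1` (`K` algebraically closed).
* `s13_l2f_2c`          : (2c) for a `p`-torsion point with `v x < 1`, `v x` is not an integral
  power of `v 2`.
* `s13_l2f_moves`       : (A1) if every nonzero element fixed by `I` has valuation in `v(2)^ℤ`
  (R2'), then some `σ ∈ I` moves some `p`-torsion point.
* `s13_l2f_inertia_sq`  : `(σ - 1) V` is fixed by inertia.
-/

set_option autoImplicit false
set_option linter.unusedSectionVars false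
set_option linter.unusedVariables false

namespace Fermat.Agent.S13

open WeierstrassCurve WeierstrassCurve.Affine WeierstrassCurve.Affine.Point Polynomial
open Fermat.Agent.S05

section root

variable {K : Type*} [Field K] {Γ₀ : Type*} [LinearOrderedCommGroupWithZero Γ₀]
  (v : Valuation K Γ₀)

/-- A root of a polynomial with integral coefficients and unit leading coefficient is
integral. -/
theorem s13_l2f_root_le (C : K[X]) (hC : ∀ k, v (C.coeff k) ≤ 1) (hlc : v C.leadingCoeff = 1)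
    {x : K} (hx : C.IsRoot x) : v x ≤ 1 := by
  by_contra hcon
  have hx1 : 1 < v x := not_le.1 hcon
  have hx0 : v x ≠ 0 := ne_of_gt (lt_trans zero_lt_one hx1)
  have heval : C.eval x = 0 := hx
  rw [Polynomial.eval_eq_sum_range, Finset.sum_range_succ] at heval
  have hlow : v (∑ i ∈ Finset.range C.natDegree, C.coeff i * x ^ i) < v x ^ C.natDegree := by
    rcases Nat.eq_zero_or_pos C.natDegree with h0 | hpos
    · rw [h0, Finset.range_zero, Finset.sum_empty, _root_.map_zero, pow_zero]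
      exact zero_lt_one
    · apply Valuation.map_sum_lt v (pow_ne_zero _ hx0)
      intro i hi
      have hi' : i < C.natDegree := Finset.mem_range.1 hi
      rw [map_mul, map_pow]
      calc v (C.coeff i) * v x ^ i ≤ 1 * v x ^ i := mul_le_mul_left (hC i) _
        _ = v x ^ i := one_mul _
        _ < v x ^ C.natDegree := pow_lt_pow_right₀ hx1 hi'
  have htop : v (C.coeff C.natDegree * x ^ C.natDegree) = v x ^ C.natDegree := by
    rw [map_mul, map_pow]
    have : v (C.coeff C.natDegree) = 1 := hlc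
    rw [this, one_mul]
  have hsum : v (∑ i ∈ Finset.range C.natDegree, C.coeff i * x ^ i
      + C.coeff C.natDegree * x ^ C.natDegree) = v x ^ C.natDegree := by
    rw [Valuation.map_add_eq_of_lt_right, htop]
    rw [htop]
    exact hlow
  rw [heval, _root_.map_zero] at hsum
  exact pow_ne_zero _ hx0 hsum.symm

end root

section frey

variable {K : Type*} [Field K] [DecidableEq K] [Algebra ℚ K] (A : ValuationSubring K)
  (P : FreyPackage)

theorem s13_l2f_val_p (hA : A.LiesOverPrime 2) : A.valuation (P.p : K) = 1 := by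
  apply val_natCast_eq_one_of_not_dvd A Nat.prime_two hA
  intro h
  have := (Nat.prime_dvd_prime_iff_eq Nat.prime_two P.pp).1 h
  have := P.hp5
  omega

theorem s13_l2f_Cp_coeff_le (k : ℕ) :
    A.valuation ((s13_tq_Cp (P.freyCurve⁄K) P.p).coeff k) ≤ 1 := by
  rw [s13_tq_frey_Cp_coeff]
  exact val_intCast_le_one A _

theorem s13_l2f_Cp_lc (hA : A.LiesOverPrime 2) :
    A.valuation (s13_tq_Cp (P.freyCurve⁄K) P.p).leadingCoeff = 1 := by
  rw [s13_tq_frey_Cp_leadingCoeff, Valuation.map_neg]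
  exact s13_l2f_val_p A P hA

theorem s13_l2f_Cp_coeff_zero_lt (hA : A.LiesOverPrime 2) :
    A.valuation ((s13_tq_Cp (P.freyCurve⁄K) P.p).coeff 0) < 1 := by
  rw [s13_tq_frey_Cp_coeff_zero, map_mul, map_pow, Valuation.map_neg, map_one, one_pow, one_mul,
    map_pow]
  have h4 : A.valuation (((s13_tq_freyA4 P : ℤ)) : K) < 1 := by
    have := s13_l2f_val_a₄_lt A P hA
    rwa [s13_tq_frey_a₄, map_intCast] at this
  apply pow_lt_one₀ zero_le h4
  have := P.hp5
  have h2 : 2 ≤ P.p / 2 := by omega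
  positivity

/-- **(2a)** every `p`-torsion point of the Frey curve has `x ∈ A` (`A` over `2`). -/
theorem s13_l2f_2a (hA : A.LiesOverPrime 2) (x y : K) (h : (P.freyCurve⁄K).Nonsingular x y)
    (hP : P.p • Point.some x y h = 0) : A.valuation x ≤ 1 :=
  s13_l2f_root_le A.valuation _ (s13_l2f_Cp_coeff_le A P) (s13_l2f_Cp_lc A P hA)
    (s13_tq_p_root_of_tors P.hp_odd h hP)

/-- **(2b)** some `p`-torsion point of the Frey curve reduces to the node at `2`. -/
theorem s13_l2f_2b [IsAlgClosed K] (hA : A.LiesOverPrime 2) :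
    ∃ (x y : K) (h : (P.freyCurve⁄K).Nonsingular x y),
      P.p • Point.some x y h = 0 ∧ A.valuation x < 1 := by
  have hlt : A.valuation ((s13_tq_Cp (P.freyCurve⁄K) P.p).coeff 0) <
      A.valuation (s13_tq_Cp (P.freyCurve⁄K) P.p).leadingCoeff := by
    rw [s13_l2f_Cp_lc A P hA]
    exact s13_l2f_Cp_coeff_zero_lt A P hA
  obtain ⟨x, hroot, hx⟩ := s13_lpm_exists_root A.valuation _ hlt
  obtain ⟨y, h, htor⟩ := s13_tq_p_tors_of_root
    (s13_tq_baseChange_Δ_ne_zero (K := K) P.freyCurve (s13_frey_Δ_ne_zero P)) P.hp_odd hroot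
  exact ⟨x, y, h, htor, hx⟩

/-! coefficients of the base change -/

theorem s13_l2f_k1 : (P.freyCurve⁄K).a₁ = 1 := by simp
theorem s13_l2f_k3 : (P.freyCurve⁄K).a₃ = 0 := by simp
theorem s13_l2f_k6 : (P.freyCurve⁄K).a₆ = 0 := by simp

theorem s13_l2f_k4 : (P.freyCurve⁄K).a₄ = algebraMap ℚ K P.freyCurve.a₄ := by simp

theorem s13_l2f_k4_ne : (P.freyCurve⁄K).a₄ ≠ 0 := by
  rw [s13_l2f_k4, Ne, map_eq_zero_iff _ (algebraMap ℚ K).injective]
  exact s13_l2f_a₄_ne_zero P

theorem s13_l2f_kb2 (hA : A.LiesOverPrime 2) : A.valuation (P.freyCurve⁄K).b₂ = 1 := by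
  have hv2 := s13_l2f_val_two A hA
  have hv4 : A.valuation (4 : K) < 1 := by
    have : (4 : K) = 2 * 2 := by norm_num
    rw [this, map_mul]
    calc A.valuation 2 * A.valuation 2 ≤ 1 * A.valuation 2 := mul_le_mul_left hv2.le _
      _ = A.valuation 2 := one_mul _
      _ < 1 := hv2
  have ka2 : A.valuation (P.freyCurve⁄K).a₂ ≤ 1 := by
    have := s13_l2f_val_a₂ A P
    simpa using this
  have e : (P.freyCurve⁄K).b₂ = 1 + 4 * (P.freyCurve⁄K).a₂ := by
    simp only [WeierstrassCurve.b₂, s13_l2f_k1]; ring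
  rw [e]
  apply Valuation.map_one_add_of_lt
  rw [map_mul]
  calc A.valuation 4 * A.valuation (P.freyCurve⁄K).a₂ ≤ A.valuation 4 * 1 :=
        mul_le_mul_right ka2 _
    _ = A.valuation 4 := mul_one _
    _ < 1 := hv4

/-- **(2c)** for the Frey curve at `2`, in the form `tb_torsion_val`. -/
theorem s13_l2f_2c_val (hA : A.LiesOverPrime 2) (x y : K)
    (h : (P.freyCurve⁄K).Nonsingular x y) (hP : P.p • Point.some x y h = 0)
    (hx : A.valuation x < 1) :
    ∃ j : ℕ, 0 < j ∧ 2 * j < P.p ∧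
      A.valuation x ^ P.p = A.valuation (algebraMap ℚ K P.freyCurve.a₄) ^ (2 * j) := by
  have := tb_torsion_val A.valuation (s13_l2f_k3 P) (s13_l2f_k6 P) (s13_l2f_two_ne_zero (K := K))
    (s13_l2f_kb2 A P hA) (s13_l2f_k4_ne P)
    (by rw [s13_l2f_k4]; exact s13_l2f_val_a₄_lt A P hA) P.hp_odd h hP hx
  rwa [s13_l2f_k4] at this

/-- **(2c)**: the valuation of the `x`-coordinate of a `p`-torsion point reducing to the node is
not an integral power of `v 2`. -/
theorem s13_l2f_2c (hA : A.LiesOverPrime 2) (x y : K)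
    (h : (P.freyCurve⁄K).Nonsingular x y) (hP : P.p • Point.some x y h = 0)
    (hx : A.valuation x < 1) (k : ℤ) : A.valuation x ≠ A.valuation (2 : K) ^ k := by
  obtain ⟨n, hn, hpn, hval⟩ := s13_l2f_val_a₄ A P hA
  have hp2 : P.p ≠ 2 := by have := P.hp5; omega
  exact tb_torsion_not_zpow A.valuation (s13_l2f_k3 P) (s13_l2f_k6 P)
    (s13_l2f_two_ne_zero (K := K)) (s13_l2f_kb2 A P hA) (s13_l2f_k4_ne P)
    (by rw [s13_l2f_k4]; exact s13_l2f_val_a₄_lt A P hA) P.pp hp2
    (s13_l2f_two_ne_zero (K := K)) (s13_l2f_val_two A hA)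
    (by rw [s13_l2f_k4]; exact hval) hpn h hP hx k

/-- **(A1)**: if every nonzero element of `K` fixed by `I` has valuation in `v(2)^ℤ` (R2'), then
some `σ ∈ I` moves some `p`-torsion point of the Frey curve. -/
theorem s13_l2f_moves [IsAlgClosed K] (hA : A.LiesOverPrime 2) (I : Set (K ≃ₐ[ℚ] K))
    (hR2 : ∀ α : K, α ≠ 0 → (∀ σ ∈ I, σ α = α) →
      ∃ k : ℤ, A.valuation α = A.valuation (2 : K) ^ k) :
    ∃ σ ∈ I, ∃ Q : (P.freyCurve⁄K).Point, P.p • Q = 0 ∧ σ • Q ≠ Q := by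
  obtain ⟨x, y, h, htor, hx⟩ := s13_l2f_2b A P hA
  have hx0 : x ≠ 0 := tb_x_ne_zero A.valuation (s13_l2f_k3 P) (s13_l2f_k6 P)
    (s13_l2f_two_ne_zero (K := K)) (s13_l2f_kb2 A P hA) (s13_l2f_k4_ne P)
    (by rw [s13_l2f_k4]; exact s13_l2f_val_a₄_lt A P hA) P.hp_odd h htor
  by_contra hcon
  push Not at hcon
  have hfix : ∀ σ ∈ I, σ x = x := by
    intro σ hσ
    have h1 := hcon σ hσ (Point.some x y h) htor
    obtain ⟨h', hsmul⟩ := local_smul_some σ P.freyCurve h
    rw [hsmul] at h1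
    have := Point.some.inj h1
    exact this.1
  obtain ⟨k, hk⟩ := hR2 x hx0 hfix
  exact s13_l2f_2c A P hA x y h htor hx k hk

/-- **(2d) + (2e)** for the Frey curve: `(σ - 1) V` is fixed by inertia at `2`. -/
theorem s13_l2f_inertia_sq (hA : A.LiesOverPrime 2) (σ τ : K ≃ₐ[ℚ] K)
    (hσ : ∀ x : K, A.valuation x ≤ 1 → A.valuation (σ x - x) < 1)
    (hτ : ∀ x : K, A.valuation x ≤ 1 → A.valuation (τ x - x) < 1)
    (Q : (P.freyCurve⁄K).Point) (hQ : P.p • Q = 0) :
    τ • (σ • Q - Q) = σ • Q - Q :=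
  tb2_inertia_sq A.valuation σ τ hσ hτ P.freyCurve rfl rfl rfl (s13_l2f_val_a₂ A P)
    (s13_l2f_a₄_ne_zero P) (s13_l2f_val_a₄_lt A P hA) (s13_l2f_two_ne_zero (K := K))
    (s13_l2f_val_two A hA) P.hp_odd (s13_l2f_2a A P hA) Q hQ

/-- **(2d)** for the Frey curve: a `p`-torsion point with unit `x`-coordinate is fixed by
inertia at `2`. -/
theorem s13_l2f_inertia_unit (hA : A.LiesOverPrime 2) (σ : K ≃ₐ[ℚ] K)
    (hσ : ∀ x : K, A.valuation x ≤ 1 → A.valuation (σ x - x) < 1)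
    {x y : K} (h : (P.freyCurve⁄K).Nonsingular x y) (hQ : P.p • Point.some x y h = 0)
    (hx : A.valuation x = 1) : σ • Point.some x y h = Point.some x y h := by
  refine tb2_inertia_unit A.valuation σ hσ P.freyCurve rfl rfl (s13_l2f_val_a₂ A P)
    (s13_l2f_val_a₄_lt A P hA).le ?_ (s13_l2f_val_two A hA) (s13_l2f_2a A P hA) h hQ hx
  have : P.freyCurve.a₆ = 0 := rfl
  rw [this, _root_.map_zero, _root_.map_zero]
  exact zero_le_one

/-! ### Forms with `I = A.inertiaSubgroupIn ℚ` -/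

/-- **(A1)** with (R2') stated for the `ℕ`-cast of `2` and a subgroup `I`. -/
theorem s13_l2f_moves_nat [IsAlgClosed K] (hA : A.LiesOverPrime 2) (I : Subgroup (K ≃ₐ[ℚ] K))
    (hR2 : ∀ α : K, α ≠ 0 → (∀ σ ∈ I, σ α = α) →
      ∃ k : ℤ, A.valuation α = A.valuation ((2 : ℕ) : K) ^ k) :
    ∃ σ ∈ I, ∃ Q : (P.freyCurve⁄K).Point, P.p • Q = 0 ∧ σ • Q ≠ Q := by
  refine s13_l2f_moves A P hA (I : Set (K ≃ₐ[ℚ] K)) ?_
  intro α hα hfix
  obtain ⟨k, hk⟩ := hR2 α hα hfix
  exact ⟨k, by simpa using hk⟩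

/-- **(A1)** for the inertia group of `A`. -/
theorem s13_l2f_moves_inertia [IsAlgClosed K] (hA : A.LiesOverPrime 2)
    (hR2 : ∀ α : K, α ≠ 0 → (∀ σ ∈ A.inertiaSubgroupIn ℚ, σ α = α) →
      ∃ k : ℤ, A.valuation α = A.valuation ((2 : ℕ) : K) ^ k) :
    ∃ σ ∈ A.inertiaSubgroupIn ℚ, ∃ Q : (P.freyCurve⁄K).Point, P.p • Q = 0 ∧ σ • Q ≠ Q :=
  s13_l2f_moves_nat A P hA (A.inertiaSubgroupIn ℚ) hR2

/-- `(σ - 1) V` is fixed by the inertia group of `A` (`A` over `2`). -/
theorem s13_l2f_inertia_sq_mem (hA : A.LiesOverPrime 2) {σ τ : K ≃ₐ[ℚ] K}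
    (hσ : σ ∈ A.inertiaSubgroupIn ℚ) (hτ : τ ∈ A.inertiaSubgroupIn ℚ)
    (Q : (P.freyCurve⁄K).Point) (hQ : P.p • Q = 0) :
    τ • (σ • Q - Q) = σ • Q - Q :=
  s13_l2f_inertia_sq A P hA σ τ (local_inertia_val A σ hσ) (local_inertia_val A τ hτ) Q hQ

/-- A `p`-torsion point with unit `x`-coordinate is fixed by the inertia group of `A`. -/
theorem s13_l2f_inertia_unit_mem (hA : A.LiesOverPrime 2) {σ : K ≃ₐ[ℚ] K}
    (hσ : σ ∈ A.inertiaSubgroupIn ℚ)
    {x y : K} (h : (P.freyCurve⁄K).Nonsingular x y) (hQ : P.p • Point.some x y h = 0)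
    (hx : A.valuation x = 1) : σ • Point.some x y h = Point.some x y h :=
  s13_l2f_inertia_unit A P hA σ (local_inertia_val A σ hσ) h hQ hx

end frey

end Fermat.Agent.S13
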