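import Mathlib

/-!
# S13 / M5: finite-level (R2') — elements fixed by the inertia group  (OWNER: helper2)

`L / ℚ` a finite Galois extension (abstract number field), `P` a prime of `𝓞 L` over `q`.
If `α ∈ L` is fixed by the inertia group `P.inertia Gal(L/ℚ)` then `α = q ^ k · (a / s)` with
`a, s ∈ 𝓞 L`, `a, s ∉ P`  (`s13_if_fixed`).

Proof: let `E` be the inertia field; `e(P | q) = |I| = e(P | P_E)` by Mathlib's
`Ideal.card_inertia_eq_ramificationIdxIn` applied to `L/ℚ` and to `L/E`; then compare the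
`P`-adic valuation of `α ∈ E` and of `q` via `valuation_liesOver`.
-/

open NumberField Ideal IsDedekindDomain

set_option autoImplicit false
set_option linter.unusedSectionVars false
set_option linter.unusedVariables false

namespace Fermat.Agent.S13

variable {L : Type*} [Field L] [NumberField L] [IsGalois ℚ L]



/-- the ideal `(q)` of `ℤ` as a height one prime. -/
noncomputable def s13_if_vq {q : ℕ} (hq : q.Prime) : HeightOneSpectrum ℤ where
  asIdeal := Ideal.span {(q : ℤ)}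
  isPrime := by
    rw [Ideal.span_singleton_prime (by exact_mod_cast hq.ne_zero)]
    exact Nat.prime_iff_prime_int.1 hq
  ne_bot := by
    rw [Ne, Ideal.span_singleton_eq_bot]
    exact_mod_cast hq.ne_zero

lemma s13_if_liesOver (P : Ideal (𝓞 L)) [P.IsPrime] {q : ℕ} (hq : q.Prime)
    (hP : (q : 𝓞 L) ∈ P) : P.LiesOver (s13_if_vq hq).asIdeal := by
  constructor
  have hmax : (s13_if_vq hq).asIdeal.IsMaximal := (s13_if_vq hq).isMaximal
  have hle : (s13_if_vq hq).asIdeal ≤ P.under ℤ := by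
    show Ideal.span {(q : ℤ)} ≤ _
    rw [Ideal.span_singleton_le_iff_mem, Ideal.mem_comap]
    simpa using hP
  have hne : P.under ℤ ≠ ⊤ := by
    have : (P.under ℤ).IsPrime := inferInstance
    exact this.ne_top
  exact (hmax.eq_of_le hne hle)






lemma s13_if_perfect {R : Type*} [CommRing R] [IsDedekindDomain R] [Ring.HasFiniteQuotients R]
    (p : Ideal R) [p.IsPrime] (hp : p ≠ ⊥) : PerfectField p.ResidueField := by
  have hmax : p.IsMaximal := Ideal.IsPrime.isMaximal inferInstance hp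
  have hfin : Finite (R ⧸ p) := Ring.HasFiniteQuotients.finiteQuotient hp
  have hbij : Function.Bijective (algebraMap (R ⧸ p) p.ResidueField) :=
    Ideal.bijective_algebraMap_quotient_residueField p
  have : Finite p.ResidueField := Finite.of_surjective _ hbij.2
  infer_instance

lemma s13_if_card_eq (P : Ideal (𝓞 L)) [P.IsPrime] {q : ℕ} (hq : q.Prime)
    (hP : (q : 𝓞 L) ∈ P) :
    Nat.card (P.inertia Gal(L/ℚ)) = P.ramificationIdx ℤ := by
  have := s13_if_liesOver P hq hP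
  have := s13_if_perfect (s13_if_vq hq).asIdeal (s13_if_vq hq).ne_bot
  rw [Ideal.card_inertia_eq_ramificationIdxIn (s13_if_vq hq).asIdeal P,
    Ideal.ramificationIdxIn_eq_ramificationIdx (s13_if_vq hq).asIdeal P Gal(L/ℚ)]






/-- the inertia field of `P`. -/
noncomputable abbrev s13_if_E (P : Ideal (𝓞 L)) [P.IsPrime] : IntermediateField ℚ L :=
  FixedPoints.intermediateField (P.inertia Gal(L/ℚ))

lemma s13_if_under_ne_bot (P : Ideal (𝓞 L)) [P.IsPrime] {q : ℕ} (hq : q.Prime)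
    (hP : (q : 𝓞 L) ∈ P) : P.under (𝓞 (s13_if_E P)) ≠ ⊥ := by
  intro h
  have hmem : (q : 𝓞 (s13_if_E P)) ∈ P.under (𝓞 (s13_if_E P)) := by
    rw [Ideal.mem_comap]
    simpa using hP
  rw [h, Ideal.mem_bot] at hmem
  have : (q : 𝓞 (s13_if_E P)) ≠ 0 := by exact_mod_cast hq.ne_zero
  exact this hmem

lemma s13_if_card_eq' (P : Ideal (𝓞 L)) [P.IsPrime] {q : ℕ} (hq : q.Prime)
    (hP : (q : 𝓞 L) ∈ P) :
    Nat.card (P.inertia Gal(L/ℚ)) = P.ramificationIdx (𝓞 (s13_if_E P)) := by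
  have hGal : IsGaloisGroup (P.inertia Gal(L/ℚ)) (𝓞 (s13_if_E P)) (𝓞 L) :=
    IsGaloisGroup.of_isFractionRing _ _ _ (s13_if_E P) L
  have hne := s13_if_under_ne_bot P hq hP
  have := s13_if_perfect (P.under (𝓞 (s13_if_E P))) hne
  have h1 := Ideal.card_inertia_eq_ramificationIdxIn (G := P.inertia Gal(L/ℚ))
    (P.under (𝓞 (s13_if_E P))) P
  rw [Ideal.ramificationIdxIn_eq_ramificationIdx (P.under (𝓞 (s13_if_E P))) P
    (P.inertia Gal(L/ℚ))] at h1
  rw [← h1]
  have htop : P.inertia (P.inertia Gal(L/ℚ)) = ⊤ := by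
    rw [eq_top_iff]
    intro σ _
    exact Ideal.coe_mem_inertia.1 σ.2
  rw [htop]
  exact (Nat.card_congr (Subgroup.topEquiv).toEquiv).symm






open WithZero in
/-- **Finite-level (R2')**: an element fixed by the inertia group of `P` is `q ^ k` times a
`P`-unit. -/
theorem s13_if_fixed (P : Ideal (𝓞 L)) [P.IsPrime] {q : ℕ} (hq : q.Prime)
    (hP : (q : 𝓞 L) ∈ P) (α : L) (hα : α ≠ 0)
    (hfix : ∀ σ ∈ P.inertia Gal(L/ℚ), σ α = α) :
    ∃ (k : ℤ) (a s : 𝓞 L), a ∉ P ∧ s ∉ P ∧ α * (s : L) = (q : L) ^ k * (a : L) := by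
  have hLO := s13_if_liesOver P hq hP
  have hPne : P ≠ ⊥ := by
    intro h
    rw [h, Ideal.mem_bot] at hP
    have : (q : 𝓞 L) ≠ 0 := by exact_mod_cast hq.ne_zero
    exact this hP
  have hEne := s13_if_under_ne_bot P hq hP
  -- the three places
  let w : HeightOneSpectrum (𝓞 L) := ⟨P, inferInstance, hPne⟩
  let wE : HeightOneSpectrum (𝓞 (s13_if_E P)) := ⟨P.under (𝓞 (s13_if_E P)), inferInstance, hEne⟩
  let vq := s13_if_vq hq
  have hLO1 : w.asIdeal.LiesOver vq.asIdeal := hLO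
  have hLO2 : w.asIdeal.LiesOver wE.asIdeal := ⟨rfl⟩
  -- ramification indices
  have he1 : vq.asIdeal.ramificationIdx' w.asIdeal = Nat.card (P.inertia Gal(L/ℚ)) := by
    rw [Ideal.ramificationIdx'_eq_ramificationIdx vq.asIdeal w.asIdeal vq.ne_bot]
    exact (s13_if_card_eq P hq hP).symm
  have he2 : wE.asIdeal.ramificationIdx' w.asIdeal = Nat.card (P.inertia Gal(L/ℚ)) := by
    rw [Ideal.ramificationIdx'_eq_ramificationIdx wE.asIdeal w.asIdeal wE.ne_bot]
    exact (s13_if_card_eq' P hq hP).symm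
  have hepos : 0 < Nat.card (P.inertia Gal(L/ℚ)) := Nat.card_pos
  set e := Nat.card (P.inertia Gal(L/ℚ)) with he
  -- `α` lies in the inertia field
  have hαE : α ∈ s13_if_E P := by
    intro σ
    exact hfix σ.1 σ.2
  have hα0 : (⟨α, hαE⟩ : s13_if_E P) ≠ 0 := by
    intro h
    exact hα (congrArg Subtype.val h)
  -- valuations
  have h1 := HeightOneSpectrum.valuation_liesOver L vq w (q : ℚ)
  have h2 := HeightOneSpectrum.valuation_liesOver L wE w (⟨α, hαE⟩ : s13_if_E P)
  rw [he1] at h1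
  rw [he2] at h2
  have hvq : vq.valuation ℚ (q : ℚ) = exp (-1 : ℤ) := by
    have : ((q : ℤ) : ℚ) = (q : ℚ) := by norm_cast
    rw [← this, show ((q : ℤ) : ℚ) = algebraMap ℤ ℚ (q : ℤ) from rfl,
      HeightOneSpectrum.valuation_of_algebraMap]
    exact HeightOneSpectrum.intValuation_singleton vq (by exact_mod_cast hq.ne_zero) rfl
  have hwα0 : wE.valuation (s13_if_E P) (⟨α, hαE⟩ : s13_if_E P) ≠ 0 :=
    (Valuation.ne_zero_iff _).2 hα0
  set m : ℤ := log (wE.valuation (s13_if_E P) (⟨α, hαE⟩ : s13_if_E P)) with hm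
  have hwα : wE.valuation (s13_if_E P) (⟨α, hαE⟩ : s13_if_E P) = exp m := (exp_log hwα0).symm
  rw [hwα] at h2
  rw [hvq] at h1
  have hαL : algebraMap (s13_if_E P) L (⟨α, hαE⟩ : s13_if_E P) = α := rfl
  have hqL : algebraMap ℚ L (q : ℚ) = (q : L) := by simp
  rw [hαL] at h2
  rw [hqL] at h1
  -- `β = α * q ^ m` has valuation `1`
  have hβ : w.valuation L (α * (q : L) ^ m) = 1 := by
    rw [map_mul, map_zpow₀, ← h1, ← h2, ← exp_nsmul, ← exp_nsmul, ← exp_zsmul, ← exp_add,
      ← exp_zero]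
    congr 1
    simp only [smul_eq_mul, nsmul_eq_mul, smul_neg]
    ring
  obtain ⟨n, d, hnd⟩ :=
    HeightOneSpectrum.exists_primeCompl_mul_eq_of_integer w (α * (q : L) ^ m) hβ.le
  have hq0 : (q : L) ≠ 0 := by exact_mod_cast hq.ne_zero
  have hdP : (d : 𝓞 L) ∉ P := d.2
  have hnP : n ∉ P := by
    have hd1 : w.valuation L (algebraMap (𝓞 L) L d) = 1 := by
      rw [HeightOneSpectrum.valuation_of_algebraMap]
      exact (HeightOneSpectrum.intValuation_eq_one_iff_mem_primeCompl w _).2 d.2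
    have hn1 : w.valuation L (algebraMap (𝓞 L) L n) = 1 := by
      rw [← hnd, map_mul, hβ, hd1, one_mul]
    rw [HeightOneSpectrum.valuation_of_algebraMap] at hn1
    exact (HeightOneSpectrum.intValuation_eq_one_iff_mem_primeCompl w _).1 hn1
  refine ⟨-m, n, d, hnP, hdP, ?_⟩
  have hnd' : α * (q : L) ^ m * ((d : 𝓞 L) : L) = (n : L) := hnd
  rw [zpow_neg, ← hnd']
  field_simp



end Fermat.Agent.S13
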