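import Mathlib

/-!
# S13 / M5 (R3): the orbit lemma, from (R2') in black-box form  (OWNER: helper2)

`K` a field with a valuation `v`, `I` a group of field automorphisms preserving `v`.
Assume (R2'): every nonzero `I`-fixed element has valuation in `v π ^ ℤ`, where `0 < v π < 1`.
Then (R3): if `v α ^ d * v π = 1` (`0 < d`), every finite set containing the `I`-orbit of `α`
has at least `d` elements.
-/

set_option autoImplicit false
set_option linter.unusedSectionVars false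
set_option linter.unusedVariables false

namespace Fermat.Agent.S13

section Orbit

variable {F K : Type*} [Field F] [Field K] [Algebra F K]
  {Γ₀ : Type*} [LinearOrderedCommGroupWithZero Γ₀] (v : Valuation K Γ₀)

/-- in a linearly ordered group with zero, `0 < x < 1` and `x ^ n = 1` (`n : ℤ`) force
`n = 0`. -/
lemma s13_orb_zpow_eq_one {x : Γ₀} (hx0 : x ≠ 0) (hx1 : x < 1) {n : ℤ} (h : x ^ n = 1) :
    n = 0 := by
  have key : ∀ m : ℕ, 0 < m → x ^ m < 1 := fun m hm => pow_lt_one₀ zero_le hx1 hm.ne'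
  rcases lt_trichotomy n 0 with hn | hn | hn
  · exfalso
    obtain ⟨m, hm⟩ : ∃ m : ℕ, n = -(m : ℤ) := ⟨n.natAbs, by omega⟩
    have hm0 : 0 < m := by omega
    rw [hm, zpow_neg, zpow_natCast, inv_eq_one] at h
    exact (key m hm0).ne h
  · exact hn
  · exfalso
    obtain ⟨m, hm⟩ : ∃ m : ℕ, n = (m : ℤ) := ⟨n.natAbs, by omega⟩
    have hm0 : 0 < m := by omega
    rw [hm, zpow_natCast] at h
    exact (key m hm0).ne h

open Classical in
/-- **Orbit lemma (R3)** from (R2'). -/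
theorem s13_orbit_card (I : Subgroup (K ≃ₐ[F] K))
    (hIv : ∀ σ ∈ I, ∀ x : K, v (σ x) = v x)
    {π : K} (hπ0 : π ≠ 0) (hπ1 : v π < 1)
    (hR2 : ∀ β : K, β ≠ 0 → (∀ σ ∈ I, σ β = β) → ∃ k : ℤ, v β = v π ^ k)
    {α : K} {d : ℕ} (hd : 0 < d) (h : v α ^ d * v π = 1)
    (S : Finset K) (hS : ∀ σ ∈ I, σ α ∈ S) : d ≤ S.card := by
  have hvπ0 : v π ≠ 0 := (Valuation.ne_zero_iff v).2 hπ0
  have hα0 : α ≠ 0 := by
    rintro rfl
    rw [map_zero, zero_pow hd.ne', zero_mul] at h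
    exact zero_ne_one h
  have hvα0 : v α ≠ 0 := (Valuation.ne_zero_iff v).2 hα0
  -- the orbit
  set O : Finset K := S.filter (fun γ => ∃ σ ∈ I, σ α = γ) with hO
  have hmemO : ∀ γ, γ ∈ O ↔ ∃ σ ∈ I, σ α = γ := by
    intro γ
    rw [hO, Finset.mem_filter]
    constructor
    · exact fun h => h.2
    · rintro ⟨σ, hσ, rfl⟩
      exact ⟨hS σ hσ, σ, hσ, rfl⟩
  have hαO : α ∈ O := (hmemO α).2 ⟨1, I.one_mem, rfl⟩
  have hOcard : 0 < O.card := Finset.card_pos.2 ⟨α, hαO⟩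
  have hvO : ∀ γ ∈ O, v γ = v α := by
    intro γ hγ
    obtain ⟨σ, hσ, rfl⟩ := (hmemO γ).1 hγ
    exact hIv σ hσ α
  -- the product over the orbit is fixed
  set β := ∏ γ ∈ O, γ with hβ
  have hβ0 : β ≠ 0 := by
    rw [hβ, Finset.prod_ne_zero_iff]
    intro γ hγ h0
    have := hvO γ hγ
    rw [h0, map_zero] at this
    exact hvα0 this.symm
  have hfix : ∀ τ ∈ I, τ β = β := by
    intro τ hτ
    rw [hβ, map_prod]
    apply Finset.prod_bij (fun γ _ => τ γ)
    · intro γ hγ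
      obtain ⟨σ, hσ, rfl⟩ := (hmemO γ).1 hγ
      exact (hmemO _).2 ⟨τ * σ, I.mul_mem hτ hσ, rfl⟩
    · intro a _ b _ hab
      exact τ.injective hab
    · intro γ hγ
      obtain ⟨σ, hσ, rfl⟩ := (hmemO γ).1 hγ
      refine ⟨(τ⁻¹ * σ) α, (hmemO _).2 ⟨τ⁻¹ * σ, I.mul_mem (I.inv_mem hτ) hσ, rfl⟩, ?_⟩
      show τ ((τ⁻¹ * σ) α) = σ α
      rw [AlgEquiv.mul_apply]
      exact τ.apply_symm_apply (σ α)
    · intro γ _
      rfl
  obtain ⟨k, hk⟩ := hR2 β hβ0 hfix
  have hvβ : v β = v α ^ O.card := by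
    rw [hβ, map_prod, Finset.prod_congr rfl hvO, Finset.prod_const]
  -- `v π ^ (k * d + card) = 1`
  have h1 : v α ^ d = (v π)⁻¹ := eq_inv_of_mul_eq_one_left h
  have h2 : (v π) ^ (k * (d : ℤ) + (O.card : ℤ)) = 1 := by
    rw [zpow_add₀ hvπ0, zpow_mul, ← hk, hvβ, zpow_natCast, zpow_natCast, ← pow_mul,
      mul_comm O.card d, pow_mul, h1, inv_pow, inv_mul_cancel₀ (pow_ne_zero _ hvπ0)]
  have h3 := s13_orb_zpow_eq_one hvπ0 hπ1 h2
  have hle : O.card ≤ S.card := Finset.card_le_card (Finset.filter_subset _ _)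
  -- `d ∣ card O`
  have h4 : (d : ℤ) ∣ (O.card : ℤ) := ⟨-k, by linarith⟩
  have h5 : d ∣ O.card := Int.natCast_dvd_natCast.1 h4
  exact le_trans (Nat.le_of_dvd hOcard h5) hle

end Orbit

end Fermat.Agent.S13
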