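import Mathlib

/-!
# S13 / M5 (RamGlue), finite level: the inertia field is unramified.  (OWNER: helper8)

`L` a number field, Galois over `ℚ`, `P` a prime of `𝓞 L`, `E = L ^ I` the fixed field of the
inertia group `I = P.inertia Gal(L/ℚ)`.  Then `P ∩ 𝓞 E` has ramification index `1` over `ℤ`.
-/

set_option autoImplicit false
set_option linter.unusedSectionVars false
set_option linter.style.haveILetI false

namespace Fermat.Agent.S13

open NumberField Pointwise

section

variable (L : Type*) [Field L] [NumberField L] [IsGalois ℚ L]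
  (P : Ideal (𝓞 L)) [P.IsPrime]

/-- The inertia field of `P`. -/
noncomputable abbrev rg_E : IntermediateField ℚ L :=
  FixedPoints.intermediateField (P.inertia Gal(L/ℚ))

theorem rg_mem_E_iff (x : L) : x ∈ rg_E L P ↔ ∀ g ∈ P.inertia Gal(L/ℚ), g x = x := by
  constructor
  · intro h g hg
    exact h ⟨g, hg⟩
  · intro h g
    exact h g.1 g.2

theorem rg_isGaloisGroup_inertia :
    IsGaloisGroup (P.inertia Gal(L/ℚ)) (𝓞 (rg_E L P)) (𝓞 L) :=
  IsGaloisGroup.of_isFractionRing (P.inertia Gal(L/ℚ)) (𝓞 (rg_E L P)) (𝓞 L) (rg_E L P) L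

/-- The cardinality of the inertia group is the ramification index. -/
theorem rg_card_inertia :
    Nat.card (P.inertia Gal(L/ℚ)) = P.ramificationIdx ℤ := by
  have h1 : Nat.card (P.inertia Gal(L/ℚ)) = (P.under ℤ).ramificationIdxIn (𝓞 L) :=
    Ideal.card_inertia_eq_ramificationIdxIn (G := Gal(L/ℚ)) (P.under ℤ) P
  have h1' : (P.under ℤ).ramificationIdxIn (𝓞 L) = P.ramificationIdx ℤ :=
    Ideal.ramificationIdxIn_eq_ramificationIdx (P.under ℤ) P Gal(L/ℚ)
  rw [h1, h1']

/-- The prime of the inertia field below `P` is unramified over `ℤ`. -/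
theorem rg_fl_inertiaField :
    (P.under (𝓞 (rg_E L P))).ramificationIdx ℤ = 1 := by
  haveI := rg_isGaloisGroup_inertia L P
  have h1 := rg_card_inertia L P
  have h2 : Nat.card (P.inertia (P.inertia Gal(L/ℚ))) =
      (P.under (𝓞 (rg_E L P))).ramificationIdxIn (𝓞 L) :=
    Ideal.card_inertia_eq_ramificationIdxIn (G := P.inertia Gal(L/ℚ)) (P.under (𝓞 (rg_E L P))) P
  have h2' : (P.under (𝓞 (rg_E L P))).ramificationIdxIn (𝓞 L) = P.ramificationIdx (𝓞 (rg_E L P)) :=
    Ideal.ramificationIdxIn_eq_ramificationIdx (P.under (𝓞 (rg_E L P))) P (P.inertia Gal(L/ℚ))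
  have h3 : P.inertia (P.inertia Gal(L/ℚ)) = ⊤ := by
    rw [eq_top_iff]
    intro g _
    exact g.2
  have h4 : P.ramificationIdx ℤ =
      (P.under (𝓞 (rg_E L P))).ramificationIdx ℤ * P.ramificationIdx (𝓞 (rg_E L P)) :=
    Ideal.ramificationIdx_tower (P.under (𝓞 (rg_E L P))) P
  have h5 : Nat.card (P.inertia (P.inertia Gal(L/ℚ))) = Nat.card (P.inertia Gal(L/ℚ)) := by
    rw [h3]
    exact Nat.card_congr (Subgroup.topEquiv).toEquiv
  have h6 : P.ramificationIdx (𝓞 (rg_E L P)) = P.ramificationIdx ℤ := by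
    rw [← h2', ← h2, h5, h1]
  have hpos : 0 < P.ramificationIdx ℤ := Ideal.ramificationIdx_pos P ℤ
  rw [h6] at h4
  have h7 : 1 * P.ramificationIdx ℤ =
      (P.under (𝓞 (rg_E L P))).ramificationIdx ℤ * P.ramificationIdx ℤ := by
    rw [one_mul]; exact h4
  exact (Nat.eq_of_mul_eq_mul_right hpos h7).symm

/-- If `P` is ramified over `ℤ`, the inertia group contains a nontrivial element. -/
theorem rg_exists_inertia_ne_one (h : P.ramificationIdx ℤ ≠ 1) :
    ∃ g ∈ P.inertia Gal(L/ℚ), g ≠ 1 := by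
  by_contra hcon
  push Not at hcon
  apply h
  rw [← rg_card_inertia L P]
  have : P.inertia Gal(L/ℚ) = ⊥ := by
    rw [eq_bot_iff]
    intro g hg
    exact hcon g hg
  rw [this]
  exact Subgroup.card_bot

end

end Fermat.Agent.S13
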