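import Mathlib
import Fermat.Prelude.Def_FLTPrelim_Ramification
import Fermat.Agent.S54.Frobenius
import Fermat.Agent.S05.Local
import Fermat.Agent.S05.Val

/-!
# S13 / M5 (RamGlue), part 1: basic facts on decomposition and inertia groups of a valuation
subring of an algebraic extension.  (OWNER: helper8)
-/

set_option autoImplicit false
set_option linter.unusedSectionVars false
set_option linter.unusedVariables false
set_option linter.style.haveILetI false
set_option linter.unnecessarySimpa false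

namespace Fermat.Agent.S13

open scoped Pointwise

noncomputable section

/-- (R4) Every prime number has a valuation subring of `AlgebraicClosure ℚ` lying over it. -/
theorem rg_exists_liesOverPrime (q : ℕ) (hq : q.Prime) :
    ∃ A : ValuationSubring (AlgebraicClosure ℚ), A.LiesOverPrime q := by
  obtain ⟨A, σ, hA, _⟩ := Fermat.Agent.S54.exists_isFrobeniusAt q hq
  exact ⟨A, hA⟩

section General

variable {F K : Type*} [Field F] [Field K] [Algebra F K] [Algebra.IsAlgebraic F K]

/-- An automorphism of an algebraic extension has finite order on every element. -/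
theorem rg_exists_pow_apply_eq (σ : K ≃ₐ[F] K) (x : K) : ∃ n : ℕ, 0 < n ∧ (σ ^ n) x = x := by
  have hx : IsIntegral F x := (Algebra.IsAlgebraic.isAlgebraic x).isIntegral
  have hfin : ((minpoly F x).rootSet K).Finite := Polynomial.rootSet_finite _ _
  have hmem : ∀ k : ℕ, (σ ^ k) x ∈ (minpoly F x).rootSet K := by
    intro k
    rw [Polynomial.mem_rootSet]
    refine ⟨minpoly.ne_zero hx, ?_⟩
    have : Polynomial.aeval ((σ ^ k) x) (minpoly F x) =
        (σ ^ k) (Polynomial.aeval x (minpoly F x)) :=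
      Polynomial.aeval_algHom_apply (σ ^ k) x _
    rw [this, minpoly.aeval, map_zero]
  have : Finite ((minpoly F x).rootSet K) := hfin
  obtain ⟨i, j, hij, h⟩ := Finite.exists_ne_map_eq_of_infinite
    (fun k : ℕ => (⟨(σ ^ k) x, hmem k⟩ : (minpoly F x).rootSet K))
  have h' : (σ ^ i) x = (σ ^ j) x := congrArg Subtype.val h
  have key : ∀ a b : ℕ, a < b → (σ ^ a) x = (σ ^ b) x → ∃ n : ℕ, 0 < n ∧ (σ ^ n) x = x := by
    intro a b hab hh
    refine ⟨b - a, Nat.sub_pos_of_lt hab, ?_⟩
    have hb : σ ^ b = σ ^ a * σ ^ (b - a) := by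
      rw [← pow_add]; congr 1; omega
    rw [hb] at hh
    have h2 : (σ ^ a) x = (σ ^ a) ((σ ^ (b - a)) x) := hh
    exact ((σ ^ a).injective h2).symm
  rcases Nat.lt_or_gt_of_ne hij with h1 | h1
  · exact key i j h1 h'
  · exact key j i h1 h'.symm

theorem rg_pow_apply_mem (A : ValuationSubring K) (σ : K ≃ₐ[F] K)
    (h : ∀ x ∈ A, σ x ∈ A) (n : ℕ) : ∀ x ∈ A, (σ ^ n) x ∈ A := by
  induction n with
  | zero => intro x hx; simpa using hx
  | succ n ih =>
    intro x hx
    have : (σ ^ (n + 1)) x = σ ((σ ^ n) x) := by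
      rw [pow_succ']; rfl
    rw [this]
    exact h _ (ih x hx)

theorem rg_inv_apply_mem (A : ValuationSubring K) (σ : K ≃ₐ[F] K)
    (h : ∀ x ∈ A, σ x ∈ A) : ∀ x ∈ A, σ⁻¹ x ∈ A := by
  intro x hx
  obtain ⟨n, hn, hnx⟩ := rg_exists_pow_apply_eq σ x
  obtain ⟨m, rfl⟩ : ∃ m, n = m + 1 := ⟨n - 1, by omega⟩
  have h1 : σ⁻¹ x = (σ ^ m) x := by
    have h0 : (σ ^ (m + 1)) x = σ ((σ ^ m) x) := by
      rw [pow_succ']; rfl
    have h2 : σ ((σ ^ m) x) = x := h0.symm.trans hnx
    show σ.symm x = (σ ^ m) x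
    exact (σ.symm_apply_eq).2 h2.symm
  rw [h1]
  exact rg_pow_apply_mem A σ h m x hx

/-- Membership in the decomposition group: it suffices to map `A` into `A`. -/
theorem rg_mem_decomposition_iff (A : ValuationSubring K) (σ : K ≃ₐ[F] K) :
    σ ∈ A.decompositionSubgroup F ↔ ∀ x ∈ A, σ x ∈ A := by
  constructor
  · intro hσ x hx
    have h1 : σ • A = A := MulAction.mem_stabilizer_iff.1 hσ
    have h2 : σ • x ∈ σ • A := ValuationSubring.smul_mem_pointwise_smul σ x A hx
    rw [h1] at h2
    exact h2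
  · intro h
    rw [ValuationSubring.decompositionSubgroup, MulAction.mem_stabilizer_iff]
    apply SetLike.ext
    intro x
    rw [ValuationSubring.mem_pointwise_smul_iff_inv_smul_mem]
    constructor
    · intro hx
      have := h _ hx
      simpa using this
    · intro hx
      exact rg_inv_apply_mem A σ h x hx

theorem rg_decomposition_apply_mem (A : ValuationSubring K) (σ : K ≃ₐ[F] K)
    (hσ : σ ∈ A.decompositionSubgroup F) {x : K} (hx : x ∈ A) : σ x ∈ A :=
  (rg_mem_decomposition_iff A σ).1 hσ x hx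

theorem rg_decomposition_val_le_one (A : ValuationSubring K) (σ : K ≃ₐ[F] K)
    (hσ : σ ∈ A.decompositionSubgroup F) {x : K} (hx : A.valuation x ≤ 1) :
    A.valuation (σ x) ≤ 1 :=
  (A.valuation_le_one_iff _).2
    (rg_decomposition_apply_mem A σ hσ ((A.valuation_le_one_iff _).1 hx))

theorem rg_decomposition_val_lt_one (A : ValuationSubring K) (σ : K ≃ₐ[F] K)
    (hσ : σ ∈ A.decompositionSubgroup F) {x : K} (hx : A.valuation x < 1) :
    A.valuation (σ x) < 1 := by
  by_cases h0 : x = 0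
  · subst h0; simpa using hx
  have hle := rg_decomposition_val_le_one A σ hσ hx.le
  rcases lt_or_eq_of_le hle with h | h
  · exact h
  exfalso
  -- `σ x` is a unit of `A`, hence so is `x`
  have hσx0 : σ x ≠ 0 := by simpa using h0
  have hinv : A.valuation ((σ x)⁻¹) ≤ 1 := by
    rw [map_inv₀, h, inv_one]
  have hσinv : σ⁻¹ ∈ A.decompositionSubgroup F := inv_mem hσ
  have h2 := rg_decomposition_val_le_one A σ⁻¹ hσinv hinv
  have h3 : σ⁻¹ ((σ x)⁻¹) = x⁻¹ := by
    rw [map_inv₀]
    congr 1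
    show (σ⁻¹ * σ) x = x
    rw [inv_mul_cancel]; rfl
  rw [h3, map_inv₀] at h2
  have hx0 : A.valuation x ≠ 0 := by simpa using h0
  have : 1 ≤ A.valuation x := by
    rwa [inv_le_one₀ (zero_lt_iff.2 hx0)] at h2
  exact absurd hx (not_lt.2 this)

theorem rg_decomposition_val_lt (A : ValuationSubring K) (σ : K ≃ₐ[F] K)
    (hσ : σ ∈ A.decompositionSubgroup F) {x y : K} (h : A.valuation x < A.valuation y) :
    A.valuation (σ x) < A.valuation (σ y) := by
  have hy0 : y ≠ 0 := by
    rintro rfl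
    simp at h
  have hvy : A.valuation y ≠ 0 := by simpa using hy0
  have hσy0 : σ y ≠ 0 := by simpa using hy0
  have hvσy : A.valuation (σ y) ≠ 0 := by simpa using hσy0
  have h1 : A.valuation (x / y) < 1 := by
    rw [map_div₀]
    exact (div_lt_one₀ (zero_lt_iff.2 hvy)).2 h
  have h2 := rg_decomposition_val_lt_one A σ hσ h1
  rw [map_div₀, map_div₀] at h2
  exact (div_lt_one₀ (zero_lt_iff.2 hvσy)).1 h2

theorem rg_decomposition_pow_mem (A : ValuationSubring K) (σ : K ≃ₐ[F] K)
    (hσ : σ ∈ A.decompositionSubgroup F) (n : ℕ) : σ ^ n ∈ A.decompositionSubgroup F :=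
  pow_mem hσ n

theorem rg_not_val_lt (A : ValuationSubring K) (σ : K ≃ₐ[F] K)
    (hσ : σ ∈ A.decompositionSubgroup F) (x : K) : ¬ A.valuation (σ x) < A.valuation x := by
  intro h
  have hmono : ∀ n : ℕ, A.valuation ((σ ^ (n + 1)) x) < A.valuation x := by
    intro n
    induction n with
    | zero => simpa using h
    | succ n ih =>
      have h1 : A.valuation (σ ((σ ^ (n + 1)) x)) < A.valuation (σ x) :=
        rg_decomposition_val_lt A σ hσ ih
      have h2 : (σ ^ (n + 1 + 1)) x = σ ((σ ^ (n + 1)) x) := by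
        rw [pow_succ' σ (n + 1)]; rfl
      rw [h2]
      exact h1.trans h
  obtain ⟨n, hn, hnx⟩ := rg_exists_pow_apply_eq σ x
  obtain ⟨m, rfl⟩ : ∃ m, n = m + 1 := ⟨n - 1, by omega⟩
  have := hmono m
  rw [hnx] at this
  exact lt_irrefl _ this

/-- The decomposition group preserves the valuation. -/
theorem rg_valuation_map (A : ValuationSubring K) (σ : K ≃ₐ[F] K)
    (hσ : σ ∈ A.decompositionSubgroup F) (x : K) : A.valuation (σ x) = A.valuation x := by
  apply le_antisymm
  · have := rg_not_val_lt A σ⁻¹ (inv_mem hσ) (σ x)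
    have h3 : σ⁻¹ (σ x) = x := by
      show (σ⁻¹ * σ) x = x
      rw [inv_mul_cancel]; rfl
    rw [h3] at this
    exact not_lt.1 this
  · exact not_lt.1 (rg_not_val_lt A σ hσ x)

theorem rg_inertia_le_decomposition (A : ValuationSubring K) (σ : K ≃ₐ[F] K)
    (hσ : σ ∈ A.inertiaSubgroupIn F) : σ ∈ A.decompositionSubgroup F := by
  obtain ⟨τ, _, rfl⟩ := Subgroup.mem_map.1 hσ
  exact τ.2

/-- The inertia group preserves the valuation. -/
theorem rg_valuation_map_inertia (A : ValuationSubring K) (σ : K ≃ₐ[F] K)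
    (hσ : σ ∈ A.inertiaSubgroupIn F) (x : K) : A.valuation (σ x) = A.valuation x :=
  rg_valuation_map A σ (rg_inertia_le_decomposition A σ hσ) x

/-- Characterisation of the inertia group by congruences. -/
theorem rg_mem_inertia_iff (A : ValuationSubring K) (σ : K ≃ₐ[F] K) :
    σ ∈ A.inertiaSubgroupIn F ↔ ∀ x ∈ A, A.valuation (σ x - x) < 1 := by
  constructor
  · intro hσ x hx
    exact Fermat.Agent.S05.local_inertia_val A σ hσ x ((A.valuation_le_one_iff x).2 hx)
  · intro h
    have hmem : ∀ x ∈ A, σ x ∈ A := by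
      intro x hx
      have h1 : σ x - x ∈ A := (A.valuation_le_one_iff _).1 (h x hx).le
      have : σ x = (σ x - x) + x := by ring
      rw [this]
      exact A.add_mem _ _ h1 hx
    have hD : σ ∈ A.decompositionSubgroup F := (rg_mem_decomposition_iff A σ).2 hmem
    refine Subgroup.mem_map.2 ⟨⟨σ, hD⟩, ?_, rfl⟩
    rw [ValuationSubring.inertiaSubgroup, MonoidHom.mem_ker]
    ext r
    obtain ⟨a, rfl⟩ := IsLocalRing.residue_surjective r
    show (⟨σ, hD⟩ : A.decompositionSubgroup F) • IsLocalRing.residue A a = IsLocalRing.residue A a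
    rw [← IsLocalRing.ResidueField.residue_smul]
    rw [← sub_eq_zero, ← map_sub, IsLocalRing.residue_eq_zero_iff]
    have := h a a.2
    exact (A.valuation_lt_one_iff _).2 this

end General

section Rational

variable {K : Type*} [Field K] (A : ValuationSubring K)

theorem rg_val_natCast_pow {q : ℕ} (hq : q.Prime) (hA : A.LiesOverPrime q) {m : ℕ} (hm : m ≠ 0) :
    ∃ k : ℕ, A.valuation (m : K) = A.valuation (q : K) ^ k := by
  obtain ⟨e, c, hc, rfl⟩ := Nat.exists_eq_pow_mul_and_not_dvd hm q hq.ne_one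
  refine ⟨e, ?_⟩
  push_cast
  rw [map_mul, map_pow, Fermat.Agent.S05.val_natCast_eq_one_of_not_dvd A hq hA hc, mul_one]

theorem rg_val_intCast_pow {q : ℕ} (hq : q.Prime) (hA : A.LiesOverPrime q) {m : ℤ} (hm : m ≠ 0) :
    ∃ k : ℕ, A.valuation (m : K) = A.valuation (q : K) ^ k := by
  obtain ⟨k, hk⟩ := rg_val_natCast_pow A hq hA (m := m.natAbs) (Int.natAbs_ne_zero.2 hm)
  refine ⟨k, ?_⟩
  rw [← hk]
  rcases Int.natAbs_eq m with h | h
  · conv_lhs => rw [h]
    simp
  · conv_lhs => rw [h]
    simp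

/-- The valuation of a nonzero rational number is an integral power of the valuation of `q`. -/
theorem rg_valuation_rat [Algebra ℚ K] {q : ℕ} (hq : q.Prime) (hA : A.LiesOverPrime q)
    {r : ℚ} (hr : r ≠ 0) :
    ∃ k : ℤ, A.valuation (algebraMap ℚ K r) = A.valuation (q : K) ^ k := by
  haveI : CharZero K := algebraRat.charZero K
  obtain ⟨a, ha⟩ := rg_val_intCast_pow A hq hA (m := r.num) (Rat.num_ne_zero.2 hr)
  obtain ⟨b, hb⟩ := rg_val_natCast_pow A hq hA (m := r.den) r.den_nz
  refine ⟨(a : ℤ) - (b : ℤ), ?_⟩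
  have hq0 : A.valuation (q : K) ≠ 0 := by
    have : (q : K) ≠ 0 := by exact_mod_cast hq.ne_zero
    simpa using this
  rw [eq_ratCast, Rat.cast_def, map_div₀, ha, hb, zpow_sub₀ hq0, zpow_natCast, zpow_natCast]

end Rational

end

end Fermat.Agent.S13
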