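import Mathlib
import Fermat.Prelude.Def_FLTPrelim_Ramification
import Fermat.Agent.S54.Frobenius
import Fermat.Agent.S13.RamGlueBasic

set_option autoImplicit false
set_option linter.unusedSectionVars false
set_option linter.unusedVariables false
set_option linter.style.haveILetI false

namespace Fermat.Agent.S13

open scoped Pointwise
open Fermat.Agent.S54

noncomputable section

section Prof

variable (H : Subgroup GQ)

/-- Transitivity of a closed subgroup `H` of `G_ℚ` on the primes of `Zb` over a prime of the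
ring of `H`-invariants. -/
theorem rg_exists_smul_eq (hH : IsClosed (H : Set GQ)) (P Q : Ideal Zb) [P.IsPrime] [Q.IsPrime]
    (hPQ : ∀ b : Zb, (∀ h ∈ H, h • b = b) → (b ∈ P ↔ b ∈ Q)) :
    ∃ h ∈ H, Q = h • P := by
  haveI := isGalois_Qb
  letI : TopologicalSpace Zb := ⊥
  haveI : DiscreteTopology Zb := ⟨rfl⟩
  haveI := continuousSMul_Zb
  haveI : CompactSpace H := isCompact_iff_compactSpace.mp hH.isCompact
  haveI : SMulCommClass H (FixedPoints.subring Zb H) Zb :=
    ⟨fun h a b => by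
      show h • ((a : Zb) * b) = (a : Zb) * h • b
      rw [smul_mul', a.2 h]⟩
  haveI : Algebra.IsInvariant (FixedPoints.subring Zb H) Zb H :=
    ⟨fun b hb => ⟨⟨b, hb⟩, rfl⟩⟩
  have hunder : P.under (FixedPoints.subring Zb H) = Q.under (FixedPoints.subring Zb H) := by
    ext a
    simp only [Ideal.under_def, Ideal.mem_comap]
    exact hPQ a.1 (fun h hh => a.2 ⟨h, hh⟩)
  obtain ⟨g, hg⟩ := Algebra.IsInvariant.exists_smul_of_under_eq_of_profinite
    (A := FixedPoints.subring Zb H) (B := Zb) (G := H) P Q hunder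
  exact ⟨g.1, g.2, hg⟩

/-- Surjectivity of the stabiliser in `H` onto the automorphisms of the residue extension. -/
theorem rg_exists_stabilizer_eq (hH : IsClosed (H : Set GQ)) (Q : Ideal Zb) [Q.IsPrime]
    (φ : (Zb ⧸ Q) ≃+* (Zb ⧸ Q))
    (hφ : ∀ b : Zb, (∀ h ∈ H, h • b = b) → φ (Ideal.Quotient.mk Q b) = Ideal.Quotient.mk Q b) :
    ∃ h ∈ H, h • Q = Q ∧ ∀ b : Zb, Ideal.Quotient.mk Q (h • b) = φ (Ideal.Quotient.mk Q b) := by
  haveI := isGalois_Qb
  letI : TopologicalSpace Zb := ⊥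
  haveI : DiscreteTopology Zb := ⟨rfl⟩
  haveI := continuousSMul_Zb
  haveI : CompactSpace H := isCompact_iff_compactSpace.mp hH.isCompact
  haveI : SMulCommClass H (FixedPoints.subring Zb H) Zb :=
    ⟨fun h a b => by
      show h • ((a : Zb) * b) = (a : Zb) * h • b
      rw [smul_mul', a.2 h]⟩
  haveI : Algebra.IsInvariant (FixedPoints.subring Zb H) Zb H :=
    ⟨fun b hb => ⟨⟨b, hb⟩, rfl⟩⟩
  let P₀ : Ideal (FixedPoints.subring Zb H) := Q.under (FixedPoints.subring Zb H)
  haveI : Q.LiesOver P₀ := ⟨rfl⟩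
  let F : (Zb ⧸ Q) ≃ₐ[(FixedPoints.subring Zb H) ⧸ P₀] (Zb ⧸ Q) :=
    AlgEquiv.ofRingEquiv (f := φ) (by
      intro x
      obtain ⟨a, rfl⟩ := Ideal.Quotient.mk_surjective x
      exact hφ a.1 (fun h hh => a.2 ⟨h, hh⟩))
  obtain ⟨g, hg⟩ := Ideal.Quotient.stabilizerHom_surjective_of_profinite (G := H) P₀ Q F
  refine ⟨g.1.1, g.1.2, g.2, fun b => ?_⟩
  have := congrArg (fun f => f (Ideal.Quotient.mk Q b)) hg
  simp only [Ideal.Quotient.stabilizerHom_apply] at this
  exact this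

/-- Core lifting lemma in terms of a prime `Q` of `Zb`. -/
theorem rg_lift_core (hH : IsClosed (H : Set GQ)) (Q : Ideal Zb) [Q.IsPrime] (τ : GQ)
    (hτ : ∀ b : Zb, (∀ h ∈ H, h • b = b) → τ • b - b ∈ Q) :
    ∃ h ∈ H, ∀ b : Zb, (τ * h) • b - b ∈ Q := by
  -- Step 1
  haveI : (τ⁻¹ • Q).IsPrime := by
    rw [Ideal.pointwise_smul_eq_comap]
    exact Ideal.comap_isPrime _ Q
  obtain ⟨h₁, hh₁, h1⟩ := rg_exists_smul_eq H hH Q (τ⁻¹ • Q) (by
    intro b hb
    rw [Ideal.mem_inv_pointwise_smul_iff]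
    have := hτ b hb
    constructor
    · intro h
      have h2 : τ • b = (τ • b - b) + b := by ring
      rw [h2]
      exact Q.add_mem this h
    · intro h
      have h2 : b = τ • b - (τ • b - b) := by ring
      rw [h2]
      exact Q.sub_mem h this)
  have hstab : (τ * h₁) • Q = Q := by
    rw [mul_smul, ← h1, smul_inv_smul]
  -- Step 2
  let g₁ : MulAction.stabilizer GQ Q := ⟨τ * h₁, hstab⟩
  haveI : Q.LiesOver (Q.under ℤ) := ⟨rfl⟩
  let φ : (Zb ⧸ Q) ≃+* (Zb ⧸ Q) :=
    (Ideal.Quotient.stabilizerHom Q (Q.under ℤ) GQ g₁).toRingEquiv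
  have hφ : ∀ b : Zb, φ (Ideal.Quotient.mk Q b) = Ideal.Quotient.mk Q ((τ * h₁) • b) := by
    intro b
    rfl
  obtain ⟨h₂, hh₂, hstab₂, h2⟩ := rg_exists_stabilizer_eq H hH Q φ (by
    intro b hb
    rw [hφ, mul_smul, hb h₁ hh₁, Ideal.Quotient.eq]
    exact hτ b hb)
  refine ⟨h₁ * h₂⁻¹, H.mul_mem hh₁ (H.inv_mem hh₂), fun b => ?_⟩
  rw [← Ideal.Quotient.eq]
  have h3 := h2 (h₂⁻¹ • b)
  rw [smul_inv_smul, hφ] at h3
  rw [h3, ← mul_assoc, mul_smul]

end Prof

section Bridge

variable (A : ValuationSubring Qb)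

theorem rg_val_le_one_of_isIntegral {x : Qb} (hx : IsIntegral ℤ x) : A.valuation x ≤ 1 := by
  have h := (Valuation.integer.integers A.valuation).isIntegral_iff_v_le_one (x := x)
  exact h.1 hx.tower_top

theorem rg_Zb_val_le_one (b : Zb) : A.valuation (b : Qb) ≤ 1 :=
  rg_val_le_one_of_isIntegral A b.2

/-- The centre of the valuation subring `A` on `Zb`. -/
def rg_Q : Ideal Zb where
  carrier := {b | A.valuation (b : Qb) < 1}
  zero_mem' := by simp
  add_mem' := fun {a b} ha hb => by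
    show A.valuation ((a + b : Zb) : Qb) < 1
    push_cast
    exact lt_of_le_of_lt (A.valuation.map_add _ _) (max_lt ha hb)
  smul_mem' := fun c x hx => by
    show A.valuation ((c * x : Zb) : Qb) < 1
    push_cast
    rw [map_mul]
    exact mul_lt_one_of_nonneg_of_lt_one_right (rg_Zb_val_le_one A c) zero_le hx

theorem rg_mem_Q_iff (b : Zb) : b ∈ rg_Q A ↔ A.valuation (b : Qb) < 1 := Iff.rfl

instance rg_Q_isPrime : (rg_Q A).IsPrime := by
  refine ⟨?_, ?_⟩
  · intro h
    have : (1 : Zb) ∈ rg_Q A := by rw [h]; trivial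
    rw [rg_mem_Q_iff] at this
    simp at this
  · intro x y hxy
    rw [rg_mem_Q_iff] at hxy ⊢
    rw [rg_mem_Q_iff]
    by_contra hcon
    push Not at hcon
    have hx : A.valuation (x : Qb) = 1 := le_antisymm (rg_Zb_val_le_one A x) hcon.1
    have hy : A.valuation (y : Qb) = 1 := le_antisymm (rg_Zb_val_le_one A y) hcon.2
    have : A.valuation ((x * y : Zb) : Qb) = 1 := by
      push_cast
      rw [map_mul, hx, hy, one_mul]
    rw [this] at hxy
    exact lt_irrefl _ hxy

/-- Every element of `A` is a quotient `b / s` of integral elements with `s` a unit of `A`. -/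
theorem rg_exists_frac {x : Qb} (hx : x ∈ A) :
    ∃ b s : Zb, A.valuation (s : Qb) = 1 ∧ x * (s : Qb) = (b : Qb) := by
  let Q' : Ideal Zs := rg_Q A
  haveI : Q'.IsPrime := rg_Q_isPrime A
  have hnot : ∀ s : Zs, s ∉ Q' → A.valuation (s : Qb) = 1 := by
    intro s hs
    have h1 : ¬ A.valuation (s : Qb) < 1 := hs
    exact le_antisymm (rg_Zb_val_le_one A ⟨s.1, s.2⟩) (not_lt.1 h1)
  rcases (valQ Q').mem_or_inv_mem x with h | h
  · obtain ⟨b, s, hs, hbs⟩ := (mem_valQ_iff Q' x).1 h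
    exact ⟨⟨b.1, b.2⟩, ⟨s.1, s.2⟩, hnot s hs, hbs⟩
  · obtain ⟨b, s, hs, hbs⟩ := (mem_valQ_iff Q' x⁻¹).1 h
    by_cases hx0 : x = 0
    · exact ⟨0, 1, by simp, by simp [hx0]⟩
    have hs1 := hnot s hs
    have hxv : A.valuation x ≤ 1 := (A.valuation_le_one_iff x).2 hx
    have hb1 : A.valuation (b : Qb) = 1 := by
      apply le_antisymm (rg_Zb_val_le_one A ⟨b.1, b.2⟩)
      rw [← hbs, map_mul, hs1, mul_one, map_inv₀]
      have hxv0 : A.valuation x ≠ 0 := by simpa using hx0
      exact (one_le_inv₀ (zero_lt_iff.2 hxv0)).2 hxv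
    refine ⟨⟨s.1, s.2⟩, ⟨b.1, b.2⟩, hb1, ?_⟩
    show x * (b : Qb) = (s : Qb)
    rw [← hbs]
    field_simp

/-- To be in the inertia group it suffices to act trivially on `Zb` modulo the centre. -/
theorem rg_mem_inertia_of_Zb (σ : GQ)
    (h : ∀ b : Zb, A.valuation (σ (b : Qb) - (b : Qb)) < 1) : σ ∈ A.inertiaSubgroupIn ℚ := by
  haveI : Algebra.IsAlgebraic ℚ Qb := AlgebraicClosure.isAlgebraic ℚ
  rw [rg_mem_inertia_iff]
  intro x hx
  obtain ⟨b, s, hs, hbs⟩ := rg_exists_frac A hx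
  have hs0 : (s : Qb) ≠ 0 := by
    intro h0
    rw [h0, map_zero] at hs
    exact zero_ne_one hs
  have hσs : A.valuation (σ (s : Qb)) = 1 := by
    have h1 : σ (s : Qb) = (s : Qb) + (σ (s : Qb) - (s : Qb)) := by ring
    rw [h1, A.valuation.map_add_eq_of_lt_left (by rw [hs]; exact h s), hs]
  have hσs0 : σ (s : Qb) ≠ 0 := by simpa using hs0
  have hxe : x = (b : Qb) / (s : Qb) := by
    rw [← hbs]; field_simp
  have key : σ x - x = ((σ (b : Qb) - (b : Qb)) * (s : Qb) -
      (b : Qb) * (σ (s : Qb) - (s : Qb))) / ((s : Qb) * σ (s : Qb)) := by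
    rw [hxe, map_div₀]
    field_simp
    ring
  rw [key, map_div₀, map_mul, hs, hσs, one_mul, div_one]
  refine lt_of_le_of_lt (A.valuation.map_sub _ _) (max_lt ?_ ?_)
  · rw [map_mul, hs, mul_one]
    exact h b
  · rw [map_mul]
    exact mul_lt_one_of_nonneg_of_lt_one_right (rg_Zb_val_le_one A b) zero_le (h s)

end Bridge

section Lift

variable (A : ValuationSubring Qb)

/-- LIFTING, subgroup form: if `τ` acts as an element of inertia on the `H`-invariants of `A`
(`H` a closed subgroup of `G_ℚ`), then `τ h` is in the inertia group of `A` for some `h ∈ H`. -/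
theorem rg_lift_inertia_subgroup (H : Subgroup GQ) (hH : IsClosed (H : Set GQ)) (τ : GQ)
    (hτ : ∀ x ∈ A, (∀ h ∈ H, h x = x) → A.valuation (τ x - x) < 1) :
    ∃ h ∈ H, τ * h ∈ A.inertiaSubgroupIn ℚ := by
  obtain ⟨h, hh, hb⟩ := rg_lift_core H hH (rg_Q A) τ (by
    intro b hb
    rw [rg_mem_Q_iff]
    have := hτ (b : Qb) ((A.valuation_le_one_iff _).1 (rg_Zb_val_le_one A b)) (by
      intro h hh
      have := congrArg (fun z : Zb => (z : Qb)) (hb h hh)
      simpa using this)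
    simpa using this)
  refine ⟨h, hh, rg_mem_inertia_of_Zb A _ (fun b => ?_)⟩
  have := (rg_mem_Q_iff A _).1 (hb b)
  simpa using this

/-- LIFTING: an automorphism acting on `K ∩ A` as an element of inertia agrees on `K` with an
element of the inertia group of `A`. -/
theorem rg_lift_inertia (K : IntermediateField ℚ Qb) (τ : GQ)
    (hτ : ∀ x ∈ K, x ∈ A → A.valuation (τ x - x) < 1) :
    ∃ σ ∈ A.inertiaSubgroupIn ℚ, ∀ x ∈ K, σ x = τ x := by
  haveI := isGalois_Qb
  obtain ⟨h, hh, hσ⟩ := rg_lift_inertia_subgroup A K.fixingSubgroup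
    (InfiniteGalois.fixingSubgroup_isClosed K) τ (by
      intro x hxA hfix
      refine hτ x ?_ hxA
      have h1 : x ∈ IntermediateField.fixedField K.fixingSubgroup := by
        intro g
        exact hfix g.1 g.2
      rwa [InfiniteGalois.fixedField_fixingSubgroup] at h1)
  refine ⟨τ * h, hσ, fun x hx => ?_⟩
  show τ (h x) = τ x
  congr 1
  exact (IntermediateField.mem_fixingSubgroup_iff K h).1 hh x hx

end Lift

end

end Fermat.Agent.S13
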