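import Mathlib
import Fermat.Prelude.Def_FLTPrelim_Ramification
import Fermat.Agent.S13.RamGlueLift
import Fermat.Agent.S13.RamGlueFL
import Fermat.Agent.S13.InertiaField
import Fermat.Agent.S13.OrbitLemma

/-!
# S13 / M5 (RamGlue): the bridge between valuation subrings of `AlgebraicClosure ℚ` and primes of
number fields; (R2'), (R3) and item (6).  (OWNER: helper8)

* `rg_lift_inertia_int`, `rg_inertia_lift`: finite-level inertia lifts to the inertia group of `A`.
* `rg_exists_inertia_ne_of_ramified`: ramified primes give nontrivial inertia on `K`.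
* `rg_valuation_eq_zpow` (R2'), `rg_exists_inertia_moves`, `rg_orbit_card` (R3).
-/

set_option autoImplicit false
set_option linter.unusedSectionVars false
set_option linter.unusedVariables false
set_option linter.style.haveILetI false
set_option linter.unnecessarySimpa false

namespace Fermat.Agent.S13

open scoped Pointwise
open NumberField
open Fermat.Agent.S54

noncomputable section

section Bridge2

variable (A : ValuationSubring Qb)

/-- LIFTING, integral form: it suffices to test the congruence on the integral elements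
of `K`. -/
theorem rg_lift_inertia_int (K : IntermediateField ℚ Qb) (τ : GQ)
    (hτ : ∀ x ∈ K, IsIntegral ℤ x → A.valuation (τ x - x) < 1) :
    ∃ σ ∈ A.inertiaSubgroupIn ℚ, ∀ x ∈ K, σ x = τ x := by
  haveI := isGalois_Qb
  obtain ⟨h, hh, hb⟩ := rg_lift_core K.fixingSubgroup
    (InfiniteGalois.fixingSubgroup_isClosed K) (rg_Q A) τ (by
      intro b hb
      rw [rg_mem_Q_iff]
      have hK : (b : Qb) ∈ K := by
        have h1 : (b : Qb) ∈ IntermediateField.fixedField K.fixingSubgroup := by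
          intro g
          have := congrArg (fun z : Zb => (z : Qb)) (hb g.1 g.2)
          exact this
        rwa [InfiniteGalois.fixedField_fixingSubgroup] at h1
      have := hτ (b : Qb) hK b.2
      simpa using this)
  refine ⟨τ * h, rg_mem_inertia_of_Zb A _ (fun b => ?_), fun x hx => ?_⟩
  · have := (rg_mem_Q_iff A _).1 (hb b)
    simpa using this
  · show τ (h x) = τ x
    congr 1
    exact (IntermediateField.mem_fixingSubgroup_iff K h).1 hh x hx

variable (K : IntermediateField ℚ Qb) [FiniteDimensional ℚ K]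

instance rg_numberField : NumberField K := NumberField.mk

theorem rg_isIntegral_coe (x : 𝓞 K) : IsIntegral ℤ (((x : K) : Qb)) := by
  have h1 : IsIntegral ℤ (x : K) := x.2
  exact h1.map (IsScalarTower.toAlgHom ℤ K Qb)

/-- The centre of `A` on the ring of integers of a number field `K ⊆ Qb`. -/
def rg_PK : Ideal (𝓞 K) where
  carrier := {x | A.valuation (((x : K) : Qb)) < 1}
  zero_mem' := by simp
  add_mem' := fun {a b} ha hb => by
    show A.valuation ((((a + b : 𝓞 K) : K) : Qb)) < 1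
    push_cast
    exact lt_of_le_of_lt (A.valuation.map_add _ _) (max_lt ha hb)
  smul_mem' := fun c x hx => by
    show A.valuation ((((c * x : 𝓞 K) : K) : Qb)) < 1
    push_cast
    rw [map_mul]
    exact mul_lt_one_of_nonneg_of_lt_one_right
      (rg_val_le_one_of_isIntegral A (rg_isIntegral_coe K c)) zero_le hx

theorem rg_mem_PK_iff (x : 𝓞 K) : x ∈ rg_PK A K ↔ A.valuation (((x : K) : Qb)) < 1 := Iff.rfl

theorem rg_val_eq_one_of_notMem_PK {x : 𝓞 K} (hx : x ∉ rg_PK A K) :
    A.valuation (((x : K) : Qb)) = 1 :=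
  le_antisymm (rg_val_le_one_of_isIntegral A (rg_isIntegral_coe K x))
    (not_lt.1 (fun h => hx ((rg_mem_PK_iff A K x).2 h)))

instance rg_PK_isPrime : (rg_PK A K).IsPrime := by
  refine ⟨?_, ?_⟩
  · intro h
    have : (1 : 𝓞 K) ∈ rg_PK A K := by rw [h]; trivial
    rw [rg_mem_PK_iff] at this
    simp at this
  · intro x y hxy
    by_contra hcon
    push Not at hcon
    have hx := rg_val_eq_one_of_notMem_PK A K hcon.1
    have hy := rg_val_eq_one_of_notMem_PK A K hcon.2
    rw [rg_mem_PK_iff] at hxy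
    have : A.valuation ((((x * y : 𝓞 K) : K) : Qb)) = 1 := by
      push_cast
      rw [map_mul, hx, hy, one_mul]
    rw [this] at hxy
    exact lt_irrefl _ hxy

theorem rg_natCast_mem_PK {q : ℕ} (hA : A.LiesOverPrime q) : (q : 𝓞 K) ∈ rg_PK A K := by
  rw [rg_mem_PK_iff]
  have h1 : A.valuation ((q : ℕ) : Qb) < 1 := A.mem_nonunits_iff.1 hA
  simpa using h1

/-- Elements of the finite-level inertia group are restrictions of elements of the inertia group
of `A`. -/
theorem rg_inertia_lift [IsGalois ℚ K] (g : K ≃ₐ[ℚ] K)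
    (hg : g ∈ (rg_PK A K).inertia Gal(K/ℚ)) :
    ∃ σ ∈ A.inertiaSubgroupIn ℚ, ∀ x : K, σ (x : Qb) = ((g x : K) : Qb) := by
  haveI : Normal ℚ Qb := (isGalois_Qb).to_normal
  obtain ⟨σ, hσ, h⟩ := rg_lift_inertia_int A K (g.liftNormal Qb) (by
    intro x hxK hxint
    have hcomm : (g.liftNormal Qb) x = ((g ⟨x, hxK⟩ : K) : Qb) :=
      AlgEquiv.liftNormal_commutes g Qb ⟨x, hxK⟩
    have hint' : IsIntegral ℤ (⟨x, hxK⟩ : K) := by
      have : IsIntegral ℤ (algebraMap K Qb ⟨x, hxK⟩) := hxint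
      exact (isIntegral_algebraMap_iff (algebraMap K Qb).injective).1 this
    let x' : 𝓞 K := ⟨⟨x, hxK⟩, hint'⟩
    have h1 : g • x' - x' ∈ rg_PK A K := hg x'
    rw [rg_mem_PK_iff] at h1
    rw [hcomm]
    have h2 : (((g • x' - x' : 𝓞 K) : K) : Qb) = ((g ⟨x, hxK⟩ : K) : Qb) - x := rfl
    rw [← h2]
    exact h1)
  refine ⟨σ, hσ, fun x => ?_⟩
  rw [h x x.2]
  exact AlgEquiv.liftNormal_commutes g Qb x

/-- (6) If every prime of `K` over `q` is ramified, then the inertia group of `A` acts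
nontrivially on `K`. -/
theorem rg_exists_inertia_ne_of_ramified [IsGalois ℚ K] {q : ℕ} (hq : q.Prime)
    (hA : A.LiesOverPrime q)
    (hram : ∀ (P : Ideal (𝓞 K)) (_ : P.IsPrime), (q : 𝓞 K) ∈ P → ¬ Algebra.IsUnramifiedAt ℤ P) :
    ∃ σ ∈ A.inertiaSubgroupIn ℚ, ∃ x ∈ K, σ x ≠ x := by
  have h1 := hram (rg_PK A K) inferInstance (rg_natCast_mem_PK A K hA)
  have h2 : (rg_PK A K).ramificationIdx ℤ ≠ 1 := by
    rw [Ne, Ideal.ramificationIdx_eq_one_iff]
    exact h1
  obtain ⟨g, hg, hg1⟩ := rg_exists_inertia_ne_one K (rg_PK A K) h2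
  obtain ⟨σ, hσ, h⟩ := rg_inertia_lift A K g hg
  have hex : ∃ x : K, g x ≠ x := by
    by_contra hc
    push Not at hc
    exact hg1 (AlgEquiv.ext hc)
  obtain ⟨x, hx⟩ := hex
  refine ⟨σ, hσ, x, x.2, ?_⟩
  rw [h x]
  intro heq
  exact hx (Subtype.ext heq)

/-- Finite-level form of (R2'): `α ∈ K` fixed by the inertia group of `A`. -/
theorem rg_valuation_eq_zpow_of_mem [IsGalois ℚ K] {q : ℕ} (hq : q.Prime)
    (hA : A.LiesOverPrime q)
    (hIF : ∀ (P : Ideal (𝓞 K)) [P.IsPrime], (q : 𝓞 K) ∈ P → ∀ α : K, α ≠ 0 →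
      (∀ σ ∈ Ideal.inertia Gal(K/ℚ) P, σ α = α) →
      ∃ (k : ℤ) (a s : 𝓞 K), a ∉ P ∧ s ∉ P ∧ α * s = (q : K) ^ k * a)
    {α : Qb} (hα : α ≠ 0) (hαK : α ∈ K)
    (hfix : ∀ σ ∈ A.inertiaSubgroupIn ℚ, σ α = α) :
    ∃ k : ℤ, A.valuation α = A.valuation (q : Qb) ^ k := by
  have hα' : (⟨α, hαK⟩ : K) ≠ 0 := by
    intro h
    exact hα (congrArg Subtype.val h)
  obtain ⟨k, a, s, ha, hs, h⟩ := hIF (rg_PK A K) (rg_natCast_mem_PK A K hA) ⟨α, hαK⟩ hα' (by
    intro g hg
    obtain ⟨σ, hσ, hσg⟩ := rg_inertia_lift A K g hg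
    apply Subtype.ext
    rw [← hσg ⟨α, hαK⟩]
    exact hfix σ hσ)
  refine ⟨k, ?_⟩
  have h' : α * (((s : K)) : Qb) = (q : Qb) ^ k * (((a : K)) : Qb) := by
    have h0 := congrArg (fun z : K => (z : Qb)) h
    have hz : (((q : K) ^ k : K) : Qb) = (q : Qb) ^ k := by
      have h3 : algebraMap K Qb ((q : K) ^ k) = (algebraMap K Qb (q : K)) ^ k :=
        map_zpow₀ (algebraMap K Qb) (q : K) k
      have h4 : algebraMap K Qb (q : K) = (q : Qb) := map_natCast (algebraMap K Qb) q
      rw [h4] at h3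
      exact h3
    have h1 : (((⟨α, hαK⟩ : K) * (s : K) : K) : Qb) = α * (((s : K)) : Qb) := rfl
    have h2 : ((((q : K) ^ k * (a : K) : K)) : Qb) = (((q : K) ^ k : K) : Qb) * ((a : K) : Qb) := rfl
    rw [← h1, ← hz, ← h2]
    exact h0
  have hva := rg_val_eq_one_of_notMem_PK A K ha
  have hvs := rg_val_eq_one_of_notMem_PK A K hs
  have := congrArg A.valuation h'
  rw [map_mul, map_mul, hva, hvs, mul_one, mul_one, map_zpow₀] at this
  exact this

end Bridge2

section Final

variable (A : ValuationSubring Qb)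

theorem rg_exists_finite_galois (α : Qb) :
    ∃ K : IntermediateField ℚ Qb, FiniteDimensional ℚ K ∧ IsGalois ℚ K ∧ α ∈ K := by
  haveI : Algebra.IsAlgebraic ℚ Qb := AlgebraicClosure.isAlgebraic ℚ
  haveI : Normal ℚ Qb := (isGalois_Qb).to_normal
  have hint : IsIntegral ℚ α := (Algebra.IsAlgebraic.isAlgebraic α).isIntegral
  haveI : FiniteDimensional ℚ (IntermediateField.adjoin ℚ {α}) :=
    IntermediateField.adjoin.finiteDimensional hint
  haveI hN : Normal ℚ (IntermediateField.normalClosure ℚ (IntermediateField.adjoin ℚ {α}) Qb) :=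
    normalClosure.normal ℚ _ _
  refine ⟨IntermediateField.normalClosure ℚ (IntermediateField.adjoin ℚ {α}) Qb,
    inferInstance, ?_, ?_⟩
  · exact IsGalois.mk
  · exact IntermediateField.le_normalClosure _ (IntermediateField.mem_adjoin_simple_self ℚ α)

/-- **(R2')** A nonzero element of `Qb` fixed by the inertia group of `A` (over the prime `q`)
has valuation an integral power of the valuation of `q`. -/
theorem rg_valuation_eq_zpow {q : ℕ} (hq : q.Prime) (hA : A.LiesOverPrime q) {α : Qb}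
    (hα : α ≠ 0) (hfix : ∀ σ ∈ A.inertiaSubgroupIn ℚ, σ α = α) :
    ∃ k : ℤ, A.valuation α = A.valuation (q : Qb) ^ k := by
  obtain ⟨K, hfin, hgal, hαK⟩ := rg_exists_finite_galois α
  haveI := hfin
  haveI := hgal
  exact rg_valuation_eq_zpow_of_mem A K hq hA
    (fun P _ hqP β hβ hβfix => s13_if_fixed P hq hqP β hβ hβfix) hα hαK hfix

/-- Contrapositive of (R2'): an element whose valuation is not a power of the valuation of `q`
is moved by some element of the inertia group. -/
theorem rg_exists_inertia_moves {q : ℕ} (hq : q.Prime) (hA : A.LiesOverPrime q) {α : Qb}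
    (hα : α ≠ 0) (h : ∀ k : ℤ, A.valuation α ≠ A.valuation (q : Qb) ^ k) :
    ∃ σ ∈ A.inertiaSubgroupIn ℚ, σ α ≠ α := by
  by_contra hcon
  push Not at hcon
  obtain ⟨k, hk⟩ := rg_valuation_eq_zpow A hq hA hα hcon
  exact h k hk

/-- **(R3)** the orbit lemma. -/
theorem rg_orbit_card {q : ℕ} (hq : q.Prime) (hA : A.LiesOverPrime q) {α : Qb} {d : ℕ}
    (hd : 0 < d) (h : A.valuation α ^ d * A.valuation (q : Qb) = 1) (S : Finset Qb)
    (hS : ∀ σ ∈ A.inertiaSubgroupIn ℚ, σ α ∈ S) : d ≤ S.card := by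
  haveI : Algebra.IsAlgebraic ℚ Qb := AlgebraicClosure.isAlgebraic ℚ
  have hq0 : (q : Qb) ≠ 0 := by exact_mod_cast hq.ne_zero
  exact s13_orbit_card A.valuation (A.inertiaSubgroupIn ℚ)
    (fun σ hσ x => rg_valuation_map_inertia A σ hσ x) hq0 (A.mem_nonunits_iff.1 hA)
    (fun β hβ hβfix => rg_valuation_eq_zpow A hq hA hβ hβfix) hd h S hS

/-- **(6)**, in the announced argument order. -/
theorem rg_exists_inertia_ne_of_ramified' (K : IntermediateField ℚ Qb) [FiniteDimensional ℚ K]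
    [IsGalois ℚ K] {q : ℕ} (hq : q.Prime) (A : ValuationSubring Qb) (hA : A.LiesOverPrime q)
    (hram : ∀ (P : Ideal (𝓞 K)) (_ : P.IsPrime), (q : 𝓞 K) ∈ P → ¬ Algebra.IsUnramifiedAt ℤ P) :
    ∃ σ ∈ A.inertiaSubgroupIn ℚ, ∃ x ∈ K, σ x ≠ x :=
  rg_exists_inertia_ne_of_ramified A K hq hA hram

end Final

end

end Fermat.Agent.S13
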