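import Mathlib
import Fermat.Agent.S13.Defs
import Fermat.Agent.S13.AtTwoLin
import Fermat.Agent.S13.Local2FreyTors
import Fermat.Agent.S13.TorsionQb
import Fermat.Agent.S13.RamGlueBasic
import Fermat.Agent.S13.RamGlue

/-!
# S13 / M8: the statement (AT 2)  (OWNER: helper9)

`P` a Frey package, `A` a valuation subring of `Qb = AlgebraicClosure ℚ` over `2`,
`I = A.inertiaSubgroupIn ℚ`, `V = E[p]`, `N ⊂ V` a Galois-stable line.

* `s13_at_two_inertia` : `I` acts trivially on `N` and on `V / N`, given (R2') at `2`.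
* `s13_at_two_not_fixed` : `Gal(Qb/ℚ)` does not act trivially on `N` (the Frey curve has no
  rational point of order `p`; reduction mod `2`).
-/

set_option autoImplicit false
set_option linter.unusedSectionVars false
set_option linter.unusedVariables false
set_option linter.style.haveILetI false

namespace Fermat.Agent.S13

open WeierstrassCurve WeierstrassCurve.Affine WeierstrassCurve.Affine.Point
open Fermat.Agent.S05

section Aux

/-- A point killed by two coprime integers is zero. -/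
theorem s13_a2_eq_zero_of_coprime {G : Type*} [AddGroup G] {x : G} {m n : ℕ}
    (hm : m • x = 0) (hn : n • x = 0) (hc : Nat.Coprime m n) : x = 0 := by
  have h1 : addOrderOf x ∣ m := addOrderOf_dvd_of_nsmul_eq_zero hm
  have h2 : addOrderOf x ∣ n := addOrderOf_dvd_of_nsmul_eq_zero hn
  have h3 : addOrderOf x ∣ 1 := by
    have := Nat.dvd_gcd h1 h2
    rwa [hc.gcd_eq_one] at this
  exact AddMonoid.addOrderOf_eq_one_iff.1 (Nat.dvd_one.1 h3)

/-- An element of `Qb` fixed by the whole Galois group is rational. -/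
theorem s13_a2_rat_of_fixed (α : Qb) (h : ∀ σ : GQ, σ α = α) :
    ∃ r : ℚ, algebraMap ℚ Qb r = α := by
  haveI : IsGalois ℚ Qb := Fermat.Agent.S54.isGalois_Qb
  exact (InfiniteGalois.mem_range_algebraMap_iff_fixed (k := ℚ) (K := Qb) α).2 h

variable {K : Type*} [Field K] [Algebra ℚ K] (A : ValuationSubring K)

/-- The residue field of `ℚ` at `2` is `𝔽₂`: an integral rational number is `≡ 0` or `≡ 1`. -/
theorem s13_a2_rat_dich (hA : A.LiesOverPrime 2) (r : ℚ)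
    (hr : A.valuation (algebraMap ℚ K r) ≤ 1) :
    A.valuation (algebraMap ℚ K r) < 1 ∨ A.valuation (algebraMap ℚ K r - 1) < 1 := by
  haveI : CharZero K := algebraRat.charZero K
  have hd0 : ((r.den : ℤ) : K) ≠ 0 := by
    have := r.den_nz
    exact_mod_cast this
  have hr' : algebraMap ℚ K r = ((r.num : ℤ) : K) / ((r.den : ℤ) : K) := by
    rw [eq_ratCast, Rat.cast_def]; push_cast; rfl
  have hlt : ∀ m : ℤ, (2 : ℤ) ∣ m → A.valuation ((m : ℤ) : K) < 1 := fun m hm =>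
    val_intCast_lt_one_of_dvd A hA (by exact_mod_cast hm)
  have heq : ∀ m : ℤ, ¬ (2 : ℤ) ∣ m → A.valuation ((m : ℤ) : K) = 1 := fun m hm =>
    val_intCast_eq_one_of_not_dvd A Nat.prime_two hA (by exact_mod_cast hm)
  have hden : ¬ (2 : ℤ) ∣ (r.den : ℤ) := by
    intro h2
    have hnum : ¬ (2 : ℤ) ∣ r.num := by
      intro h2n
      have hcop : Nat.Coprime r.num.natAbs r.den := r.reduced
      have h2a : 2 ∣ r.num.natAbs := by
        have := Int.natAbs_dvd_natAbs.2 h2n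
        simpa using this
      have h2b : 2 ∣ r.den := by exact_mod_cast h2
      have := Nat.dvd_gcd h2a h2b
      rw [hcop.gcd_eq_one] at this
      omega
    have v1 := heq _ hnum
    have v2 := hlt _ h2
    rw [hr', map_div₀, v1] at hr
    have hpos : 0 < A.valuation ((r.den : ℤ) : K) :=
      zero_lt_iff.2 ((Valuation.ne_zero_iff _).2 hd0)
    rw [div_le_iff₀ hpos, one_mul] at hr
    exact absurd hr (not_le.2 v2)
  have vden := heq _ hden
  by_cases hn : (2 : ℤ) ∣ r.num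
  · left
    rw [hr', map_div₀, vden, div_one]
    exact hlt _ hn
  · right
    have e : algebraMap ℚ K r - 1 = (((r.num - r.den : ℤ)) : K) / ((r.den : ℤ) : K) := by
      rw [hr']
      field_simp
      push_cast
      ring
    rw [e, map_div₀, vden, div_one]
    apply hlt
    omega

end Aux

section Main

variable (P : FreyPackage) (A : ValuationSubring Qb)

/-- `(σ - 1) V` is fixed by inertia, on the level of `Vp P`. -/
theorem s13_a2_sq (hA : A.LiesOverPrime 2) {σ τ : GQ} (hσ : σ ∈ A.inertiaSubgroupIn ℚ)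
    (hτ : τ ∈ A.inertiaSubgroupIn ℚ) (x : Vp P) : τ • (σ • x - x) = σ • x - x := by
  apply Subtype.ext
  exact s13_l2f_inertia_sq A P hA σ τ (local_inertia_val A σ hσ) (local_inertia_val A τ hτ)
    (x : (P.freyCurve⁄Qb).Point) (s13_nsmul_coe x)

/-- **(AT 2), inertia part**: given (R2') at `2`, the inertia group at `2` acts trivially on a
stable line `N` and on `V / N`. -/
theorem s13_at_two_inertia (hA : A.LiesOverPrime 2)
    (hR2 : ∀ α : Qb, α ≠ 0 → (∀ σ ∈ A.inertiaSubgroupIn ℚ, σ α = α) →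
      ∃ k : ℤ, A.valuation α = A.valuation (2 : Qb) ^ k)
    (N : Submodule (ZMod P.p) (Submodule.torsionBy ℤ (P.freyCurve⁄Qb).Point P.p))
    (hstab : IsGaloisStable ℚ N) (hN0 : N ≠ ⊥) (hN1 : N ≠ ⊤) :
    (∀ σ ∈ A.inertiaSubgroupIn ℚ, ∀ x ∈ N, σ • x = x) ∧
    (∀ σ ∈ A.inertiaSubgroupIn ℚ,
      ∀ x : Submodule.torsionBy ℤ (P.freyCurve⁄Qb).Point P.p, σ • x - x ∈ N) := by
  haveI : Fact P.p.Prime := ⟨P.pp⟩
  haveI : Finite (Vp P) := s13_tq_frey_finite P
  haveI : Module.Finite (ZMod P.p) (Vp P) := Module.Finite.of_finite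
  have hrank : Module.finrank (ZMod P.p) (Vp P) ≤ 2 :=
    s13_a2_finrank_le_two (s13_tq_frey_card_le P)
  -- Step 1: a nonzero inertia-fixed vector of `N`
  obtain ⟨z, hzN, hz0, hzfix⟩ : ∃ z ∈ N, z ≠ 0 ∧ ∀ τ ∈ A.inertiaSubgroupIn ℚ, τ • z = z := by
    by_cases h : ∀ σ ∈ A.inertiaSubgroupIn ℚ, ∀ x ∈ N, σ • x = x
    · obtain ⟨x, hx, hx0⟩ := Submodule.exists_mem_ne_zero_of_ne_bot hN0
      exact ⟨x, hx, hx0, fun τ hτ => h τ hτ x hx⟩
    · push Not at h
      obtain ⟨σ, hσ, x, hx, hne⟩ := h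
      exact ⟨σ • x - x, N.sub_mem (hstab σ x hx) hx, sub_ne_zero.2 hne,
        fun τ hτ => s13_a2_sq P A hA hσ hτ x⟩
  -- Step 2: inertia acts trivially on `N`
  have ha : ∀ σ ∈ A.inertiaSubgroupIn ℚ, ∀ x ∈ N, σ • x = x := by
    intro σ hσ x hx
    obtain ⟨c, rfl⟩ := s13_a2_line_span hrank N hN1 hzN hz0 hx
    rw [s13_smul_zmod, hzfix σ hσ]
  refine ⟨ha, ?_⟩
  -- Step 3: inertia acts trivially on `V / N`
  intro σ hσ x
  by_contra hw
  obtain ⟨σ₀, hσ₀, Q, hQ, hmove⟩ :=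
    s13_l2f_moves A P hA (A.inertiaSubgroupIn ℚ : Set GQ) hR2
  apply hmove
  obtain ⟨n, hn, c, hc⟩ := s13_a2_decomp hrank N hN0 hw (s13_mkVp Q hQ)
  have hfix : σ₀ • (s13_mkVp Q hQ : Vp P) = s13_mkVp Q hQ := by
    rw [hc, smul_add, s13_smul_zmod, ha σ₀ hσ₀ n hn, s13_a2_sq P A hA hσ hσ₀ x]
  exact congrArg Subtype.val hfix

/-- A `p`-torsion point of the Frey curve fixed by the whole Galois group is rational, has unit
`x`-coordinate at `2` and integral `y`-coordinate. -/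
theorem s13_a2_fixed_unit (hA : A.LiesOverPrime 2) {x y : Qb}
    (h : (P.freyCurve⁄Qb).Nonsingular x y) (htor : P.p • Point.some x y h = 0)
    (hfix : ∀ σ : GQ, σ • Point.some x y h = Point.some x y h) :
    (∃ rx : ℚ, algebraMap ℚ Qb rx = x) ∧ (∃ ry : ℚ, algebraMap ℚ Qb ry = y) ∧
      A.valuation x = 1 ∧ A.valuation y ≤ 1 := by
  have hcoord : ∀ σ : GQ, σ x = x ∧ σ y = y := by
    intro σ
    obtain ⟨h', hsmul⟩ := local_smul_some σ P.freyCurve h
    have := hfix σ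
    rw [hsmul, Point.some.injEq] at this
    exact this
  obtain ⟨rx, hrx⟩ := s13_a2_rat_of_fixed x (fun σ => (hcoord σ).1)
  obtain ⟨ry, hry⟩ := s13_a2_rat_of_fixed y (fun σ => (hcoord σ).2)
  have hxle : A.valuation x ≤ 1 := s13_l2f_2a A P hA x y h htor
  have hx1 : A.valuation x = 1 := by
    refine le_antisymm hxle (not_lt.1 fun hlt => ?_)
    have hx0 : x ≠ 0 := by
      intro h0
      obtain ⟨j, hj0, -, hj⟩ := s13_l2f_2c_val A P hA x y h htor hlt
      rw [h0, _root_.map_zero, zero_pow P.hp0] at hj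
      have h40 : algebraMap ℚ Qb P.freyCurve.a₄ ≠ 0 := by
        rw [Ne, map_eq_zero_iff _ (algebraMap ℚ Qb).injective]
        exact s13_l2f_a₄_ne_zero P
      exact pow_ne_zero _ ((Valuation.ne_zero_iff _).2 h40) hj.symm
    have hrx0 : rx ≠ 0 := by
      rintro rfl
      rw [_root_.map_zero] at hrx
      exact hx0 hrx.symm
    obtain ⟨k, hk⟩ := rg_valuation_rat A Nat.prime_two hA hrx0
    rw [hrx] at hk
    have hk' : A.valuation x = A.valuation (2 : Qb) ^ k := by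
      rw [hk]; norm_num
    exact s13_l2f_2c A P hA x y h htor hlt k hk'
  refine ⟨⟨rx, hrx⟩, ⟨ry, hry⟩, hx1, ?_⟩
  have k2 : A.valuation (P.freyCurve⁄Qb).a₂ ≤ 1 := by
    have := s13_l2f_val_a₂ A P
    simpa using this
  have k4 : A.valuation (P.freyCurve⁄Qb).a₄ ≤ 1 := by
    rw [s13_l2f_k4]
    exact (s13_l2f_val_a₄_lt A P hA).le
  have k6 : A.valuation (P.freyCurve⁄Qb).a₆ ≤ 1 := by
    rw [s13_l2f_k6, _root_.map_zero]
    exact zero_le_one
  exact tb2_val_y_le A.valuation (s13_l2f_k1 P) (s13_l2f_k3 P) k2 k4 k6 h.1 hxle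

/-- **(AT 2), global part**: the Galois group does not act trivially on a nonzero submodule of
`E[p]`: the Frey curve has no rational point of order `p` (reduction modulo `2`). -/
theorem s13_at_two_not_fixed (hA : A.LiesOverPrime 2)
    (N : Submodule (ZMod P.p) (Submodule.torsionBy ℤ (P.freyCurve⁄Qb).Point P.p))
    (hN0 : N ≠ ⊥) :
    ¬ (∀ σ : GQ, ∀ x ∈ N, σ • x = x) := by
  intro hfix
  have hv2 : A.valuation (2 : Qb) < 1 := s13_l2f_val_two A hA
  have k1 := s13_l2f_k1 (K := Qb) P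
  have k3 := s13_l2f_k3 (K := Qb) P
  have k2 : A.valuation (P.freyCurve⁄Qb).a₂ ≤ 1 := by
    have := s13_l2f_val_a₂ A P
    simpa using this
  obtain ⟨x₀, hx₀N, hx₀0⟩ := Submodule.exists_mem_ne_zero_of_ne_bot hN0
  -- the point `P₀`, and its multiples, are fixed by Galois
  have hfixpt : ∀ (m : ℕ) (σ : GQ),
      σ • (m • (x₀ : (P.freyCurve⁄Qb).Point)) = m • (x₀ : (P.freyCurve⁄Qb).Point) := by
    intro m σ
    have hm : m • x₀ ∈ N := N.nsmul_mem hx₀N m
    exact congrArg Subtype.val (hfix σ (m • x₀) hm)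
  have htor₀ : P.p • (x₀ : (P.freyCurve⁄Qb).Point) = 0 := s13_nsmul_coe x₀
  have hP₀ : (x₀ : (P.freyCurve⁄Qb).Point) ≠ 0 := fun h0 => hx₀0 (Subtype.ext h0)
  have htorm : ∀ m : ℕ, P.p • (m • (x₀ : (P.freyCurve⁄Qb).Point)) = 0 := by
    intro m
    rw [smul_comm, htor₀, nsmul_zero]
  have hc2 : Nat.Coprime 2 P.p :=
    (Nat.coprime_primes Nat.prime_two P.pp).2 (by have := P.hp5; omega)
  have hc3 : Nat.Coprime 3 P.p :=
    (Nat.coprime_primes Nat.prime_three P.pp).2 (by have := P.hp5; omega)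
  have h2P₀ : 2 • (x₀ : (P.freyCurve⁄Qb).Point) ≠ 0 := fun h0 =>
    hP₀ (s13_a2_eq_zero_of_coprime h0 htor₀ hc2)
  have h3P₀ : 3 • (x₀ : (P.freyCurve⁄Qb).Point) ≠ 0 := fun h0 =>
    hP₀ (s13_a2_eq_zero_of_coprime h0 htor₀ hc3)
  -- coordinates
  obtain ⟨x, y, h, hPe⟩ : ∃ (x y : Qb) (h : (P.freyCurve⁄Qb).Nonsingular x y),
      (x₀ : (P.freyCurve⁄Qb).Point) = Point.some x y h := by
    rcases hq : (x₀ : (P.freyCurve⁄Qb).Point) with _ | ⟨x, y, h⟩
    · exact absurd hq hP₀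
    · exact ⟨x, y, h, rfl⟩
  obtain ⟨x₂, y₂, h₂, hQe⟩ : ∃ (x₂ y₂ : Qb) (h₂ : (P.freyCurve⁄Qb).Nonsingular x₂ y₂),
      2 • (x₀ : (P.freyCurve⁄Qb).Point) = Point.some x₂ y₂ h₂ := by
    rcases hq : 2 • (x₀ : (P.freyCurve⁄Qb).Point) with _ | ⟨x, y, h⟩
    · exact absurd hq h2P₀
    · exact ⟨x, y, h, rfl⟩
  have hfix1 : ∀ σ : GQ, σ • Point.some x y h = Point.some x y h := by
    intro σ
    have := hfixpt 1 σ
    rwa [one_smul, hPe] at this
  have hfix2 : ∀ σ : GQ, σ • Point.some x₂ y₂ h₂ = Point.some x₂ y₂ h₂ := by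
    intro σ
    have := hfixpt 2 σ
    rwa [hQe] at this
  have htor1 : P.p • Point.some x y h = 0 := by rw [← hPe]; exact htor₀
  have htor2 : P.p • Point.some x₂ y₂ h₂ = 0 := by rw [← hQe]; exact htorm 2
  obtain ⟨⟨rx, hrx⟩, ⟨ry, hry⟩, hx1, hy1⟩ := s13_a2_fixed_unit P A hA h htor1 hfix1
  obtain ⟨⟨rx₂, hrx₂⟩, ⟨ry₂, hry₂⟩, hx₂1, hy₂1⟩ := s13_a2_fixed_unit P A hA h₂ htor2 hfix2
  -- `x ≡ x₂ ≡ 1`
  have hxm : A.valuation (x - 1) < 1 := by
    rcases s13_a2_rat_dich A hA rx (by rw [hrx]; exact hx1.le) with h' | h'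
    · rw [hrx, hx1] at h'; exact absurd h' (lt_irrefl _)
    · rwa [hrx] at h'
  have hx₂m : A.valuation (x₂ - 1) < 1 := by
    rcases s13_a2_rat_dich A hA rx₂ (by rw [hrx₂]; exact hx₂1.le) with h' | h'
    · rw [hrx₂, hx₂1] at h'; exact absurd h' (lt_irrefl _)
    · rwa [hrx₂] at h'
  have hxx : A.valuation (x₂ - x) < 1 := by
    have e : x₂ - x = (x₂ - 1) - (x - 1) := by ring
    rw [e]
    exact Valuation.map_sub_lt _ hx₂m hxm
  -- `y₂ ≡ y` or `y₂ ≡ y + 1`
  have hyy : A.valuation (y₂ - y) ≤ 1 := Valuation.map_sub_le _ hy₂1 hy1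
  have hdich : A.valuation (y₂ - y) < 1 ∨ A.valuation (y₂ - y - 1) < 1 := by
    have := s13_a2_rat_dich A hA (ry₂ - ry) (by rw [map_sub, hry₂, hry]; exact hyy)
    rwa [map_sub, hry₂, hry] at this
  rcases hdich with hd | hd
  · -- `2P₀ ≡ P₀`
    rcases tb2_close A.valuation k1 k3 k2 hv2 h h₂ hx1 hy1 hxx hd with heq | ⟨x₃, y₃, h₃, hsub, hx₃⟩
    · -- `2P₀ = P₀`
      apply hP₀
      have : 2 • (x₀ : (P.freyCurve⁄Qb).Point) = (x₀ : (P.freyCurve⁄Qb).Point) := by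
        rw [hQe, hPe, heq]
      rw [two_nsmul] at this
      exact add_eq_right.1 this
    · -- `2P₀ - P₀ = P₀` has non-integral `x`-coordinate
      have e : Point.some x₂ y₂ h₂ - Point.some x y h = Point.some x y h := by
        rw [← hQe, ← hPe, two_nsmul, add_sub_cancel_right]
      rw [e, Point.some.injEq] at hsub
      rw [← hsub.1, hx1] at hx₃
      exact lt_irrefl _ hx₃
  · -- `2P₀ ≡ -P₀`
    have hneg : (P.freyCurve⁄Qb).Nonsingular x ((P.freyCurve⁄Qb).negY x y) :=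
      (nonsingular_neg ..).mpr h
    have hnegY : (P.freyCurve⁄Qb).negY x y = -y - x := by
      simp only [Affine.negY, k1, k3]; ring
    have hnegP : -(x₀ : (P.freyCurve⁄Qb).Point) =
        Point.some x ((P.freyCurve⁄Qb).negY x y) hneg := by
      rw [hPe, Point.neg_some]
    have hyn : A.valuation ((P.freyCurve⁄Qb).negY x y) ≤ 1 := by
      rw [hnegY]
      exact Valuation.map_sub_le _ (by rw [Valuation.map_neg]; exact hy1) hx1.le
    have h2y : A.valuation (2 * y) < 1 := by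
      rw [map_mul]
      calc A.valuation 2 * A.valuation y ≤ A.valuation 2 * 1 := mul_le_mul_right hy1 _
        _ = A.valuation 2 := mul_one _
        _ < 1 := hv2
    have hyy' : A.valuation (y₂ - (P.freyCurve⁄Qb).negY x y) < 1 := by
      have e : y₂ - (P.freyCurve⁄Qb).negY x y = (y₂ - y - 1) + 2 * y + (x - 1) + 2 := by
        rw [hnegY]; ring
      rw [e]
      exact Valuation.map_add_lt _
        (Valuation.map_add_lt _ (Valuation.map_add_lt _ hd h2y) hxm) hv2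
    rcases tb2_close A.valuation k1 k3 k2 hv2 hneg h₂ hx1 hyn hxx hyy' with
      heq | ⟨x₃, y₃, h₃, hsub, hx₃⟩
    · -- `2P₀ = -P₀`
      apply h3P₀
      have : 2 • (x₀ : (P.freyCurve⁄Qb).Point) = -(x₀ : (P.freyCurve⁄Qb).Point) := by
        rw [hQe, hnegP, heq]
      have e3 : 3 • (x₀ : (P.freyCurve⁄Qb).Point) =
          2 • (x₀ : (P.freyCurve⁄Qb).Point) + (x₀ : (P.freyCurve⁄Qb).Point) := succ_nsmul _ 2
      rw [e3, this, neg_add_cancel]
    · -- `3P₀` has non-integral `x`-coordinate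
      have e : Point.some x₂ y₂ h₂ - Point.some x ((P.freyCurve⁄Qb).negY x y) hneg =
          3 • (x₀ : (P.freyCurve⁄Qb).Point) := by
        rw [← hQe, ← hnegP, sub_neg_eq_add]
        exact (succ_nsmul _ 2).symm
      have htor3 : P.p • Point.some x₃ y₃ h₃ = 0 := by
        rw [← hsub, e]; exact htorm 3
      exact absurd (s13_l2f_2a A P hA x₃ y₃ h₃ htor3) (not_le.2 hx₃)

/-- **(AT 2)** with (R2') at `2` as the only remaining hypothesis. -/
theorem s13_at_two_of_R2 (hA : A.LiesOverPrime 2)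
    (hR2 : ∀ α : Qb, α ≠ 0 → (∀ σ ∈ A.inertiaSubgroupIn ℚ, σ α = α) →
      ∃ k : ℤ, A.valuation α = A.valuation (2 : Qb) ^ k)
    (N : Submodule (ZMod P.p) (Submodule.torsionBy ℤ (P.freyCurve⁄Qb).Point P.p))
    (hstab : IsGaloisStable ℚ N) (hN0 : N ≠ ⊥) (hN1 : N ≠ ⊤) :
    (∀ σ ∈ A.inertiaSubgroupIn ℚ, ∀ x ∈ N, σ • x = x) ∧
    (∀ σ ∈ A.inertiaSubgroupIn ℚ,
      ∀ x : Submodule.torsionBy ℤ (P.freyCurve⁄Qb).Point P.p, σ • x - x ∈ N) ∧
    ¬ (∀ σ : Qb ≃ₐ[ℚ] Qb, ∀ x ∈ N, σ • x = x) :=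
  ⟨(s13_at_two_inertia P A hA hR2 N hstab hN0 hN1).1,
    (s13_at_two_inertia P A hA hR2 N hstab hN0 hN1).2,
    s13_at_two_not_fixed P A hA N hN0⟩

/-- **(AT 2)** (export (E4) of the S13 plan): for a valuation subring `A` of `Qb` over `2` and a
Galois-stable line `N ⊂ E[p]` of the Frey curve, the inertia group of `A` acts trivially on `N`
and on `E[p] / N`, and the Galois group does not act trivially on `N`. -/
theorem s13_at_two (P : FreyPackage) (A : ValuationSubring Qb) (hA : A.LiesOverPrime 2)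
    (N : Submodule (ZMod P.p) (Submodule.torsionBy ℤ (P.freyCurve⁄Qb).Point P.p))
    (hstab : IsGaloisStable ℚ N) (hN0 : N ≠ ⊥) (hN1 : N ≠ ⊤) :
    (∀ σ ∈ A.inertiaSubgroupIn ℚ, ∀ x ∈ N, σ • x = x) ∧
    (∀ σ ∈ A.inertiaSubgroupIn ℚ,
      ∀ x : Submodule.torsionBy ℤ (P.freyCurve⁄Qb).Point P.p, σ • x - x ∈ N) ∧
    ¬ (∀ σ : Qb ≃ₐ[ℚ] Qb, ∀ x ∈ N, σ • x = x) := by
  refine s13_at_two_of_R2 P A hA ?_ N hstab hN0 hN1
  intro α hα hfix
  obtain ⟨k, hk⟩ := rg_valuation_eq_zpow A Nat.prime_two hA hα hfix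
  refine ⟨k, ?_⟩
  rw [hk]
  norm_num

end Main

end Fermat.Agent.S13
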