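import Fermat.Agent.S13.LocalPCore
import Fermat.Agent.S13.TorsionQbInt

/-!
# S13 / (AT p): discharge of the division-polynomial input  (OWNER: helper1)

`s13_wef_tors` : the structure `S13WefTors A e f p` (M2 + M4 for `Y² = X (X - e) (X - f)`,
`e f : ℤ`) from helper5's `Ladder.lean` and helper7's `TorsionQb.lean` / `TorsionQbInt.lean`.
-/

set_option autoImplicit false
set_option linter.unusedSectionVars false
set_option linter.unusedVariables false

namespace Fermat.Agent.S13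

open WeierstrassCurve WeierstrassCurve.Affine WeierstrassCurve.Affine.Point
open Fermat.Agent.S05 Polynomial

/-- an integer is a unit at `A` or has valuation `≤ v p`. -/
lemma s13_lpd_int_val {K : Type*} [Field K] (A : ValuationSubring K) {p : ℕ} (hp : p.Prime)
    (hA : A.LiesOverPrime p) (n : ℤ) :
    A.valuation ((n : ℤ) : K) = 1 ∨ A.valuation ((n : ℤ) : K) ≤ A.valuation ((p : ℕ) : K) := by
  by_cases h : (p : ℤ) ∣ n
  · right
    obtain ⟨n', rfl⟩ := h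
    push_cast
    rw [map_mul]
    calc A.valuation ((p : ℕ) : K) * A.valuation ((n' : ℤ) : K)
        ≤ A.valuation ((p : ℕ) : K) * 1 := mul_le_mul_right (val_intCast_le_one A n') _
      _ = A.valuation ((p : ℕ) : K) := mul_one _
  · left
    exact val_intCast_eq_one_of_not_dvd A hp hA h

/-- **The division-polynomial input** for `Y² = X (X - e) (X - f)`, `e f : ℤ` nonzero and
distinct, at a valuation subring `A` of `ℚ̄` over an odd prime `p`. -/
theorem s13_wef_tors (A : ValuationSubring (AlgebraicClosure ℚ)) {p : ℕ} (hp : p.Prime)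
    (hp2 : p ≠ 2) (hA : A.LiesOverPrime p) (e f : ℤ) (he : e ≠ 0) (hf : f ≠ 0) (hef : e ≠ f) :
    S13WefTors A (e : ℚ) (f : ℚ) p := by
  have hodd : Odd p := hp.odd_of_ne_two hp2
  have hp3 : 3 ≤ p := by
    have := hp.two_le
    omega
  have hpK : ((p : ℕ) : AlgebraicClosure ℚ) ≠ 0 := s13_tq_natCast_ne_zero hp.ne_zero
  have hΔ : (Wef (e : ℚ) (f : ℚ)).Δ ≠ 0 :=
    s13_tq_Wef_Δ_ne_zero (by exact_mod_cast he) (by exact_mod_cast hf) (by exact_mod_cast hef)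
  have hΔK := s13_tq_baseChange_Δ_ne_zero (K := AlgebraicClosure ℚ) _ hΔ
  refine ⟨s13_tq_p_finite hodd hpK, s13_tq_p_ncard_le hodd hpK,
    s13_tq_Cp ((Wef (e : ℚ) (f : ℚ))⁄(AlgebraicClosure ℚ)) p,
    (s13_tq_Cp ((Wef (e : ℚ) (f : ℚ))⁄(AlgebraicClosure ℚ)) p).natDegree,
    (p / 2) ^ 2 + p / 2, s13_tq_Cp_natDegree hodd hpK, ?_, rfl, ?_, ?_, ?_, ?_, ?_⟩
  · have : 1 ≤ p / 2 := by omega
    positivity
  · rw [s13_tq_Cp_leadingCoeff hodd hpK, Valuation.map_neg]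
  · rw [s13_tq_Wef_Cp_coeff_zero, map_mul, map_pow, map_pow, Valuation.map_neg, map_one, one_pow,
      one_mul]
    congr 2
    rw [map_mul, map_intCast, map_intCast]
    push_cast
    rfl
  · intro i
    rw [s13_tq_Wef_Cp_coeff]
    exact s13_lpd_int_val A hp hA _
  · intro x hx
    exact s13_tq_p_tors_of_root hΔK hodd hx
  · intro x y h hP
    exact s13_tq_p_root_of_tors hodd h hP

/-- **(AT p) for the Frey curve**, with (R2') at `p` as the only black box. -/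
theorem s13_atp_of_R2 (P : FreyPackage) (A : ValuationSubring (AlgebraicClosure ℚ))
    (hA : A.LiesOverPrime P.p)
    (hR2 : ∀ β : AlgebraicClosure ℚ, β ≠ 0 → (∀ σ ∈ A.inertiaSubgroupIn ℚ, σ β = β) →
      ∃ k : ℤ, A.valuation β = A.valuation ((P.p : ℕ) : AlgebraicClosure ℚ) ^ k)
    (C1 : AddSubgroup (P.freyCurve⁄(AlgebraicClosure ℚ)).Point)
    (hC1 : ∀ Q ∈ C1, P.p • Q = 0) (hC1ne : ∃ Q ∈ C1, Q ≠ 0)
    (hC1top : ∃ Q : (P.freyCurve⁄(AlgebraicClosure ℚ)).Point, P.p • Q = 0 ∧ Q ∉ C1)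
    (hC1st : ∀ σ ∈ A.inertiaSubgroupIn ℚ, ∀ Q ∈ C1, σ • Q ∈ C1) :
    (∀ σ ∈ A.inertiaSubgroupIn ℚ, ∀ Q ∈ C1, σ • Q = Q) ∨
      (∀ σ ∈ A.inertiaSubgroupIn ℚ, ∀ Q : (P.freyCurve⁄(AlgebraicClosure ℚ)).Point,
        P.p • Q = 0 → σ • Q - Q ∈ C1) :=
  s13_atp_bb P A hA
    (fun e f he hf hef =>
      s13_wef_tors A P.pp (by have := P.hp5; omega) hA e f he hf hef)
    hR2 C1 hC1 hC1ne hC1top hC1st

/-- **(AT p) for the Frey curve, frozen encoding**, with (R2') at `p` as the only black box. -/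
theorem s13_atp_frozen_of_R2 (P : FreyPackage) (A : ValuationSubring (AlgebraicClosure ℚ))
    (hA : A.LiesOverPrime P.p)
    (hR2 : ∀ β : AlgebraicClosure ℚ, β ≠ 0 → (∀ σ ∈ A.inertiaSubgroupIn ℚ, σ β = β) →
      ∃ k : ℤ, A.valuation β = A.valuation ((P.p : ℕ) : AlgebraicClosure ℚ) ^ k)
    (N : Submodule (ZMod P.p)
      (Submodule.torsionBy ℤ (P.freyCurve⁄(AlgebraicClosure ℚ)).Point P.p))
    (hN0 : N ≠ ⊥) (hN1 : N ≠ ⊤)
    (hst : ∀ σ ∈ A.inertiaSubgroupIn ℚ, ∀ x ∈ N, σ • x ∈ N) :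
    (∀ σ ∈ A.inertiaSubgroupIn ℚ, ∀ x ∈ N, σ • x = x) ∨
      (∀ σ ∈ A.inertiaSubgroupIn ℚ,
        ∀ x : Submodule.torsionBy ℤ (P.freyCurve⁄(AlgebraicClosure ℚ)).Point P.p,
          σ • x - x ∈ N) :=
  s13_atp_frozen_bb P A hA
    (fun e f he hf hef =>
      s13_wef_tors A P.pp (by have := P.hp5; omega) hA e f he hf hef)
    hR2 N hN0 hN1 hst

end Fermat.Agent.S13
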