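import Mathlib
import Fermat.Prelude.Def_FLTPrelim_Ramification
import Fermat.Agent.S54.Frobenius

set_option autoImplicit false
set_option linter.style.haveILetI false

namespace Fermat.Agent.S13

open Fermat.Agent.S54
open scoped Pointwise NumberField

noncomputable section

variable (K : IntermediateField ℚ Qb)

/-- The absolute Galois group of `K`. -/
abbrev s13_GK := Qb ≃ₐ[K] Qb

/-- Restriction of scalars `Gal(ℚ̄/K) → Gal(ℚ̄/ℚ)`. -/
def s13_res : s13_GK K →* GQ where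
  toFun g := g.restrictScalars ℚ
  map_one' := rfl
  map_mul' _ _ := rfl

lemma s13_res_apply (g : s13_GK K) (x : Qb) : s13_res K g x = g x := rfl

lemma s13_res_fix (g : s13_GK K) (x : Qb) (hx : x ∈ K) : s13_res K g x = x :=
  g.commutes ⟨x, hx⟩

lemma s13_res_smul (g : s13_GK K) (b : Zb) : s13_res K g • b = g • b := rfl

lemma s13_res_smul_ideal (g : s13_GK K) (I : Ideal Zb) : s13_res K g • I = g • I := by
  ext x
  rw [Ideal.mem_pointwise_smul_iff_inv_smul_mem, Ideal.mem_pointwise_smul_iff_inv_smul_mem]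
  rfl

theorem s13_isGalois_K : IsGalois K Qb := by
  haveI := isGalois_Qb
  exact IsGalois.tower_top_intermediateField K

/-- The inclusion of the ring of integers of `K` into the ring of all algebraic integers. -/
def s13_incl : 𝓞 K →+* Zb :=
  RingHom.codRestrict ((algebraMap K Qb).comp (algebraMap (𝓞 K) K)) Zb (fun x => by
    have h := NumberField.RingOfIntegers.isIntegral_coe x
    exact h.map (IsScalarTower.toAlgHom ℤ K Qb))

lemma s13_incl_coe (x : 𝓞 K) : ((s13_incl K x : Zb) : Qb) = ((x : K) : Qb) := rfl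

/-- The algebra structure of `Zb` over `𝓞 K`. -/
@[reducible] def s13_algebra : Algebra (𝓞 K) Zb := (s13_incl K).toAlgebra

attribute [local instance] s13_algebra

lemma s13_algebraMap_coe (x : 𝓞 K) : ((algebraMap (𝓞 K) Zb x : Zb) : Qb) = ((x : K) : Qb) := rfl

theorem s13_smulCommClass : SMulCommClass (s13_GK K) (𝓞 K) Zb := by
  refine ⟨fun g x b => ?_⟩
  apply Subtype.ext
  show g ((algebraMap (𝓞 K) Zb x : Zb) * b : Zb) = ((algebraMap (𝓞 K) Zb x : Zb) * (g • b) : Zb)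
  push_cast
  rw [map_mul]
  congr 1
  exact g.commutes (x : K)

theorem s13_isInvariant : Algebra.IsInvariant (𝓞 K) Zb (s13_GK K) := by
  haveI := s13_isGalois_K K
  refine ⟨fun b hb => ?_⟩
  have h1 : (b : Qb) ∈ (⊥ : IntermediateField K Qb) := by
    rw [InfiniteGalois.mem_bot_iff_fixed]
    intro f
    have := congrArg (fun z : Zb => (z : Qb)) (hb f)
    simpa using this
  obtain ⟨r, hr⟩ := IntermediateField.mem_bot.1 h1
  have hint : IsIntegral ℤ (algebraMap K Qb r) := hr ▸ b.2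
  have hintK : IsIntegral ℤ r :=
    (isIntegral_algebraMap_iff (algebraMap K Qb).injective).mp hint
  refine ⟨⟨r, hintK⟩, Subtype.ext ?_⟩
  rw [← hr]
  rfl

theorem s13_continuousSMul [TopologicalSpace Zb] [DiscreteTopology Zb] :
    ContinuousSMul (s13_GK K) Zb := by
  haveI : Algebra.IsAlgebraic ℚ Qb := AlgebraicClosure.isAlgebraic ℚ
  haveI : Algebra.IsAlgebraic K Qb := Algebra.IsAlgebraic.tower_top (K := ℚ) K
  rw [continuousSMul_iff_stabilizer_isOpen]
  intro x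
  have := stabilizer_isOpen_of_isIntegral (K := K) (L := Qb) (x : Qb)
  convert this using 1
  ext g
  simp only [SetLike.mem_coe, MulAction.mem_stabilizer_iff]
  constructor
  · intro h
    have := congrArg (fun z : Zb => (z : Qb)) h
    simpa using this
  · intro h
    exact Subtype.ext h

/-- compatibility of the lift with the inclusion of integers -/
lemma s13_smul_incl (σ : GQ) (τ : K ≃ₐ[ℚ] K) (hσ : ∀ x : K, σ (x : Qb) = ((τ x : K) : Qb))
    (x : 𝓞 K) : σ • (algebraMap (𝓞 K) Zb x) = algebraMap (𝓞 K) Zb (τ • x) := by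
  apply Subtype.ext
  exact hσ (x : K)

/-- **Lifting lemma**: an element of the inertia group of `Q ∩ 𝓞 K` in `Gal(K/ℚ)` lifts to an
element of the inertia group of `Q` in the absolute Galois group of `ℚ`. -/
theorem s13_lift_inertia (Q : Ideal Zb) [hQ : Q.IsPrime] (τ : K ≃ₐ[ℚ] K)
    (hτ : ∀ x : 𝓞 K, s13_incl K (τ • x) - s13_incl K x ∈ Q) :
    ∃ σ : GQ, σ • Q = Q ∧ (∀ b : Zb, σ • b - b ∈ Q) ∧
      ∀ x : K, σ (x : Qb) = ((τ x : K) : Qb) := by
  replace hτ : ∀ x : 𝓞 K, algebraMap (𝓞 K) Zb (τ • x) - algebraMap (𝓞 K) Zb x ∈ Q := hτ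
  haveI := isGalois_Qb
  haveI := s13_isGalois_K K
  letI : TopologicalSpace Zb := ⊥
  haveI : DiscreteTopology Zb := ⟨rfl⟩
  haveI := s13_continuousSMul K
  haveI := s13_smulCommClass K
  haveI := s13_isInvariant K
  -- step 1: an arbitrary lift
  let σ₀ : GQ := τ.liftNormal Qb
  have hσ₀ : ∀ x : K, σ₀ (x : Qb) = ((τ x : K) : Qb) := fun x => τ.liftNormal_commutes Qb x
  have hσ₀inv : ∀ x : K, σ₀⁻¹ (x : Qb) = ((τ⁻¹ x : K) : Qb) := by
    intro x
    have h1 := hσ₀ (τ⁻¹ x)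
    have h2 : τ (τ⁻¹ x) = x := by
      show τ (τ.symm x) = x
      simp
    rw [h2] at h1
    rw [← h1]
    show σ₀.symm (σ₀ _) = _
    simp
  -- step 2: move `σ₀ • Q` back to `Q`
  have hunder : (σ₀ • Q).under (𝓞 K) = Q.under (𝓞 K) := by
    ext x
    rw [Ideal.under_def, Ideal.under_def, Ideal.mem_comap, Ideal.mem_comap,
      Ideal.mem_pointwise_smul_iff_inv_smul_mem, s13_smul_incl K σ₀⁻¹ τ⁻¹ hσ₀inv x]
    have h := hτ (τ⁻¹ • x)
    rw [smul_inv_smul] at h
    constructor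
    · intro h1
      have := Q.add_mem h h1
      simpa using this
    · intro h1
      have := Q.sub_mem h1 h
      simpa using this
  obtain ⟨h, hh⟩ := Algebra.IsInvariant.exists_smul_of_under_eq_of_profinite (A := 𝓞 K)
    (G := s13_GK K) (σ₀ • Q) Q hunder
  let σ₁ : GQ := s13_res K h * σ₀
  have hσ₁Q : σ₁ • Q = Q := by
    show (s13_res K h * σ₀) • Q = Q
    rw [mul_smul, s13_res_smul_ideal]
    exact hh.symm
  have hσ₁ : ∀ x : K, σ₁ (x : Qb) = ((τ x : K) : Qb) := by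
    intro x
    show s13_res K h (σ₀ (x : Qb)) = _
    rw [hσ₀]
    exact s13_res_fix K h _ (τ x).2
  -- step 3: correct the action on the residue field
  let P : Ideal (𝓞 K) := Q.under (𝓞 K)
  let p : Ideal ℤ := Q.under ℤ
  let e₁ : (Zb ⧸ Q) ≃ₐ[ℤ ⧸ p] (Zb ⧸ Q) :=
    Ideal.Quotient.stabilizerHom Q p GQ ⟨σ₁, hσ₁Q⟩
  have he₁ : ∀ b : Zb, e₁ (Ideal.Quotient.mk Q b) = Ideal.Quotient.mk Q (σ₁ • b) := fun b =>
    Ideal.Quotient.stabilizerHom_apply Q p GQ ⟨σ₁, hσ₁Q⟩ b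
  let φ : (Zb ⧸ Q) ≃ₐ[𝓞 K ⧸ P] (Zb ⧸ Q) :=
    AlgEquiv.ofRingEquiv (f := e₁.toRingEquiv) (by
      intro x
      obtain ⟨y, rfl⟩ := Ideal.Quotient.mk_surjective x
      show e₁ (Ideal.Quotient.mk Q (algebraMap (𝓞 K) Zb y)) =
        Ideal.Quotient.mk Q (algebraMap (𝓞 K) Zb y)
      rw [he₁, s13_smul_incl K σ₁ τ hσ₁ y, Ideal.Quotient.eq]
      exact hτ y)
  have hφ : ∀ b : Zb, φ (Ideal.Quotient.mk Q b) = Ideal.Quotient.mk Q (σ₁ • b) := he₁
  obtain ⟨⟨h', hh'⟩, hφ'⟩ :=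
    Ideal.Quotient.stabilizerHom_surjective_of_profinite (G := s13_GK K) P Q φ
  have hh'Q : s13_res K h' • Q = Q := by
    rw [s13_res_smul_ideal]
    exact hh'
  have hh'invQ : h'⁻¹ • Q = Q := by
    rw [← s13_res_smul_ideal, map_inv]
    conv_lhs => rw [← hh'Q]
    rw [inv_smul_smul]
  refine ⟨(s13_res K h')⁻¹ * σ₁, ?_, ?_, ?_⟩
  · rw [mul_smul, hσ₁Q, ← map_inv, s13_res_smul_ideal, hh'invQ]
  · intro b
    have h1 : Ideal.Quotient.mk Q (h' • b) = Ideal.Quotient.mk Q (σ₁ • b) := by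
      rw [← hφ b, ← hφ']
      exact (Ideal.Quotient.stabilizerHom_apply Q P (s13_GK K) ⟨h', hh'⟩ b).symm
    rw [Ideal.Quotient.eq] at h1
    have h2 : h'⁻¹ • (h' • b - σ₁ • b) ∈ h'⁻¹ • Q :=
      Ideal.smul_mem_pointwise_smul _ _ _ h1
    rw [hh'invQ, smul_sub, inv_smul_smul] at h2
    have h3 : ((s13_res K h')⁻¹ * σ₁) • b - b = -(b - h'⁻¹ • σ₁ • b) := by
      rw [mul_smul, ← map_inv, s13_res_smul]
      ring
    rw [h3]
    exact Q.neg_mem h2
  · intro x
    show (s13_res K h')⁻¹ (σ₁ (x : Qb)) = _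
    rw [hσ₁, ← map_inv]
    exact s13_res_fix K h'⁻¹ _ (τ x).2

end
end Fermat.Agent.S13
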