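import Mathlib
import Fermat.Prelude.Def_FLTPrelim_Ramification
import Fermat.Agent.S54.Frobenius
import Fermat.Agent.S13.RamLift

set_option autoImplicit false
set_option linter.style.haveILetI false

namespace Fermat.Agent.S13

open Fermat.Agent.S54
open scoped Pointwise NumberField

noncomputable section

/-! ### Valuation subrings of `Qb` and primes of `Zb` -/

/-- Algebraic integers lie in every valuation subring. -/
theorem s13_Zb_le (A : ValuationSubring Qb) (b : Zb) : (b : Qb) ∈ A := by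
  have h : IsIntegral A (b : Qb) := b.2.tower_top
  obtain ⟨a, ha⟩ := IsIntegrallyClosed.isIntegral_iff.mp h
  rw [← ha]
  exact a.2

/-- The inclusion of `Zb` in a valuation subring. -/
def s13_toVal (A : ValuationSubring Qb) : Zb →+* A :=
  RingHom.codRestrict (algebraMap Zb Qb) A (s13_Zb_le A)

lemma s13_toVal_coe (A : ValuationSubring Qb) (b : Zb) : ((s13_toVal A b : A) : Qb) = (b : Qb) :=
  rfl

/-- The prime of `Zb` determined by a valuation subring. -/
def s13_primeOf (A : ValuationSubring Qb) : Ideal Zb :=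
  Ideal.comap (s13_toVal A) (IsLocalRing.maximalIdeal A)

instance s13_primeOf_isPrime (A : ValuationSubring Qb) : (s13_primeOf A).IsPrime :=
  Ideal.comap_isPrime _ _

/-- An ideal of `Zb`, viewed as an ideal of the subring `Zs`. -/
def s13_toZs (Q : Ideal Zb) : Ideal Zs := Q

instance s13_toZs_isPrime (Q : Ideal Zb) [h : Q.IsPrime] : (s13_toZs Q).IsPrime := h

/-- The same prime, as an ideal of the subring `Zs`. -/
abbrev s13_primeOfs (A : ValuationSubring Qb) : Ideal Zs := s13_toZs (s13_primeOf A)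

lemma s13_mem_primeOf (A : ValuationSubring Qb) (b : Zb) :
    b ∈ s13_primeOf A ↔ (b : Qb) ∈ A.nonunits := by
  rw [s13_primeOf, Ideal.mem_comap, ← ValuationSubring.coe_mem_nonunits_iff]
  rfl

lemma s13_mem_primeOfs (A : ValuationSubring Qb) (b : Zs) :
    b ∈ s13_primeOfs A ↔ (b : Qb) ∈ A.nonunits :=
  s13_mem_primeOf A ⟨b.1, b.2⟩

lemma s13_natCast_mem_primeOf (A : ValuationSubring Qb) (q : ℕ) (hq : A.LiesOverPrime q) :
    (q : Zb) ∈ s13_primeOf A := by
  rw [s13_mem_primeOf]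
  simpa [ValuationSubring.LiesOverPrime] using hq

/-- units of `A` coming from `Zb` -/
lemma s13_inv_mem (A : ValuationSubring Qb) (s : Zs) (hs : s ∉ s13_primeOfs A) :
    ((s : Qb))⁻¹ ∈ A := by
  rw [s13_mem_primeOfs, ValuationSubring.mem_nonunits_iff_or] at hs
  push Not at hs
  exact hs.2

lemma s13_coe_ne_zero (A : ValuationSubring Qb) (s : Zs) (hs : s ∉ s13_primeOfs A) :
    (s : Qb) ≠ 0 := by
  intro h0
  apply hs
  have : s = 0 := Subtype.ext h0
  rw [this]; exact (s13_primeOfs A).zero_mem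

/-- A valuation subring of `Qb` is the localisation of `Zb` at its prime. -/
theorem s13_eq_valQ (A : ValuationSubring Qb) : A = valQ (s13_primeOfs A) := by
  set Q : Ideal Zs := s13_primeOfs A with hQ
  have hge : ∀ x : Qb, x ∈ valQ Q → x ∈ A := by
    intro x hx
    obtain ⟨b, s, hs, h⟩ := (mem_valQ_iff Q x).mp hx
    have hs' : ((s : Qb))⁻¹ ∈ A := s13_inv_mem A s hs
    have hs0 : (s : Qb) ≠ 0 := s13_coe_ne_zero A s hs
    have hx' : x = (b : Qb) * ((s : Qb))⁻¹ := by
      rw [← h]; field_simp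
    rw [hx']
    exact A.mul_mem _ _ (s13_Zb_le A ⟨b.1, b.2⟩) hs'
  apply SetLike.ext
  intro x
  refine ⟨fun hx => ?_, hge x⟩
  rcases (valQ Q).mem_or_inv_mem x with h | h
  · exact h
  · obtain ⟨b, s, hs, h1⟩ := (mem_valQ_iff Q x⁻¹).mp h
    by_cases hx0 : x = 0
    · rw [hx0]; exact (valQ Q).zero_mem
    have hs0 : (s : Qb) ≠ 0 := s13_coe_ne_zero A s hs
    have hxb : x * (b : Qb) = (s : Qb) := by
      rw [← h1]; field_simp
    refine (mem_valQ_iff Q x).mpr ⟨s, b, ?_, hxb⟩
    -- `b ∉ Q`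
    intro hb
    have hb' : (b : Qb) ∈ A.nonunits := (s13_mem_primeOfs A b).mp hb
    have hs' : (s : Qb) ∈ A.nonunits := by
      rw [← hxb]
      rw [ValuationSubring.mem_nonunits_iff] at hb' ⊢
      rw [map_mul]
      have hx1 : A.valuation x ≤ 1 := (A.valuation_le_one_iff x).mpr hx
      calc A.valuation x * A.valuation (b : Qb) ≤ 1 * A.valuation (b : Qb) :=
            mul_le_mul' hx1 le_rfl
        _ = A.valuation (b : Qb) := one_mul _
        _ < 1 := hb'
    exact hs ((s13_mem_primeOfs A s).mpr hs')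

/-- An element of the inertia group of the prime `Q` of `Zb` lies in the inertia group of the
valuation subring `valQ Q`. -/
theorem s13_inertia_valQ (Q₀ : Ideal Zb) [hQ₀ : Q₀.IsPrime] (σ : GQ)
    (hσQ : σ • Q₀ = Q₀) (hσ : ∀ b : Zb, σ • b - b ∈ Q₀) :
    σ ∈ (valQ (s13_toZs Q₀)).inertiaSubgroupIn ℚ := by
  set Q : Ideal Zs := s13_toZs Q₀ with hQdef
  have hstab : ∀ τ : GQ, τ • Q₀ = Q₀ → ∀ x ∈ valQ Q, τ x ∈ valQ Q := by
    intro τ hτ x hx
    obtain ⟨b, s, hs, h⟩ := (mem_valQ_iff Q x).mp hx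
    let b' : Zb := ⟨b.1, b.2⟩
    let s' : Zb := ⟨s.1, s.2⟩
    let tb : Zb := τ • b'
    let ts : Zb := τ • s'
    refine (mem_valQ_iff Q _).mpr ⟨⟨tb.1, tb.2⟩, ⟨ts.1, ts.2⟩, ?_, ?_⟩
    · intro hmem
      apply hs
      have h2 : τ • s' ∈ τ • Q₀ := by rw [hτ]; exact hmem
      have h3 : s' ∈ Q₀ := Ideal.smul_mem_pointwise_smul_iff.mp h2
      exact h3
    · show τ x * τ (s : Qb) = τ (b : Qb)
      rw [← map_mul, h]
  have hσinv : σ⁻¹ • Q₀ = Q₀ := by
    conv_lhs => rw [← hσQ]
    rw [inv_smul_smul]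
  have hσmem : σ ∈ (valQ Q).decompositionSubgroup ℚ := by
    rw [MulAction.mem_stabilizer_iff]
    apply SetLike.ext
    intro x
    rw [ValuationSubring.mem_pointwise_smul_iff_inv_smul_mem]
    constructor
    · intro h
      have := hstab σ hσQ _ h
      simpa using this
    · intro h
      exact hstab σ⁻¹ hσinv x h
  refine Subgroup.mem_map.mpr ⟨⟨σ, hσmem⟩, ?_, rfl⟩
  set g : (valQ Q).decompositionSubgroup ℚ := ⟨σ, hσmem⟩ with hg
  show g ∈ (MulSemiringAction.toRingAut ((valQ Q).decompositionSubgroup ℚ)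
    (IsLocalRing.ResidueField (valQ Q))).ker
  rw [MonoidHom.mem_ker]
  ext x
  show g • x = x
  obtain ⟨a, rfl⟩ := IsLocalRing.residue_surjective x
  obtain ⟨b, s, hs, h⟩ := (mem_valQ_iff Q (a : Qb)).mp a.2
  let ι : Zs → valQ Q := fun z => ⟨(z : Qb), coe_mem_valQ Q z⟩
  have hι : ∀ z : Zs, g • IsLocalRing.residue (valQ Q) (ι z) =
      IsLocalRing.residue (valQ Q) (ι z) := by
    intro z
    rw [← IsLocalRing.ResidueField.residue_smul, ← sub_eq_zero, ← map_sub]
    let z' : Zb := ⟨z.1, z.2⟩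
    have hz := hσ z'
    let w : Zb := σ • z' - z'
    have := residue_valQ_eq_zero Q ⟨w.1, w.2⟩ hz
    convert this using 2
    apply Subtype.ext
    rfl
  have hmul : a * ι s = ι b := Subtype.ext h
  have h1 : (g • IsLocalRing.residue (valQ Q) a) * (g • IsLocalRing.residue (valQ Q) (ι s))
      = g • IsLocalRing.residue (valQ Q) (ι b) := by
    rw [← smul_mul', ← map_mul, hmul]
  rw [hι s, hι b, ← hmul, map_mul] at h1
  have hne : (IsLocalRing.residue (valQ Q) (ι s)) ≠ 0 := residue_valQ_ne_zero Q s hs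
  exact mul_right_cancel₀ hne h1

/-- **Lemma M**: an element of the inertia group of the prime of `A` lies in the inertia group
of the valuation subring `A`. -/
theorem s13_mem_inertia (A : ValuationSubring Qb) (σ : GQ)
    (hσQ : σ • s13_primeOf A = s13_primeOf A) (hσ : ∀ b : Zb, σ • b - b ∈ s13_primeOf A) :
    σ ∈ A.inertiaSubgroupIn ℚ := by
  have h := s13_inertia_valQ (s13_primeOf A) σ hσQ hσ
  rwa [← s13_eq_valQ A] at h

end
end Fermat.Agent.S13
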