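import Mathlib
import Fermat.Prelude.Def_FLTPrelim_Ramification
import Fermat.Agent.S54.Frobenius
import Fermat.Agent.S13.RamLift
import Fermat.Agent.S13.RamVal

set_option autoImplicit false
set_option linter.style.haveILetI false

namespace Fermat.Agent.S13

open Fermat.Agent.S54
open scoped Pointwise NumberField

noncomputable section

/-- **Minkowski, local form**: a finite Galois extension `K ≠ ℚ` inside `Qb` has a prime `q`
such that for *every* valuation subring `A` of `Qb` over `q` the inertia group of `A` acts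
nontrivially on `K`. -/
theorem s13_exists_ramified (K : IntermediateField ℚ Qb) [FiniteDimensional ℚ K] [IsGalois ℚ K]
    (hK : K ≠ ⊥) :
    ∃ q : ℕ, q.Prime ∧ ∀ A : ValuationSubring Qb, A.LiesOverPrime q →
      ∃ σ ∈ A.inertiaSubgroupIn ℚ, ∃ x : K, σ (x : Qb) ≠ (x : Qb) := by
  haveI : NumberField K := ⟨⟩
  have hrank : 1 < Module.finrank ℚ K := by
    have h0 : 0 < Module.finrank ℚ K := Module.finrank_pos
    have h1 : Module.finrank ℚ K ≠ 1 := by
      intro h
      exact hK (IntermediateField.finrank_eq_one_iff.mp h)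
    omega
  obtain ⟨q, hq, hram⟩ :=
    NumberField.exists_not_isUnramifiedAt_int_of_isGalois (K := K) (𝒪 := 𝓞 K) hrank
  refine ⟨q, hq, fun A hA => ?_⟩
  let Q : Ideal Zb := s13_primeOf A
  let P : Ideal (𝓞 K) := Ideal.comap (s13_incl K) Q
  haveI hPprime : P.IsPrime := Ideal.comap_isPrime _ _
  have hqP : (q : 𝓞 K) ∈ P := by
    show s13_incl K (q : 𝓞 K) ∈ Q
    rw [map_natCast]
    exact s13_natCast_mem_primeOf A q hA
  have hnr := hram P hPprime hqP
  -- the inertia group of `P` is nontrivial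
  let p : Ideal ℤ := P.under ℤ
  have hcard : Nat.card (P.inertia (K ≃ₐ[ℚ] K)) = P.ramificationIdx ℤ := by
    rw [Ideal.card_inertia_eq_ramificationIdxIn (G := (K ≃ₐ[ℚ] K)) p P,
      Ideal.ramificationIdxIn_eq_ramificationIdx p P (K ≃ₐ[ℚ] K)]
  have hne1 : P.ramificationIdx ℤ ≠ 1 := fun h => hnr (Ideal.ramificationIdx_eq_one_iff.mp h)
  have hex : ∃ τ : K ≃ₐ[ℚ] K, τ ∈ P.inertia (K ≃ₐ[ℚ] K) ∧ τ ≠ 1 := by
    by_contra hcon
    push Not at hcon
    apply hne1
    rw [← hcard]
    have hbot : P.inertia (K ≃ₐ[ℚ] K) = ⊥ := by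
      rw [Subgroup.eq_bot_iff_forall]
      exact hcon
    rw [hbot]
    simp
  obtain ⟨τ, hτ, hτ1⟩ := hex
  have hτ' : ∀ x : 𝓞 K, s13_incl K (τ • x) - s13_incl K x ∈ Q := by
    intro x
    have := hτ x
    show s13_incl K (τ • x) - s13_incl K x ∈ Q
    rw [← map_sub]
    exact this
  obtain ⟨σ, hσQ, hσ, hστ⟩ := s13_lift_inertia K Q τ hτ'
  refine ⟨σ, s13_mem_inertia A σ hσQ hσ, ?_⟩
  by_contra hcon
  push Not at hcon
  apply hτ1
  ext x
  have h1 := hστ x
  rw [hcon x] at h1
  simp only [AlgEquiv.one_apply]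
  exact_mod_cast h1.symm

/-- **Theorem G (Minkowski)**: a normal subgroup of the absolute Galois group of `ℚ` that
contains the pointwise stabiliser of a finite set and, for every prime `q`, the inertia group of
some valuation subring over `q`, is the whole group. -/
theorem s13_minkowski (H : Subgroup GQ) (hN : H.Normal) (S : Set Qb) (hSfin : S.Finite)
    (hS : ∀ σ : GQ, (∀ x ∈ S, σ x = x) → σ ∈ H)
    (hI : ∀ q : ℕ, q.Prime →
      ∃ A : ValuationSubring Qb, A.LiesOverPrime q ∧ A.inertiaSubgroupIn ℚ ≤ H) :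
    H = ⊤ := by
  haveI := isGalois_Qb
  haveI : Algebra.IsAlgebraic ℚ Qb := AlgebraicClosure.isAlgebraic ℚ
  -- `H` is open
  let E : IntermediateField ℚ Qb := IntermediateField.adjoin ℚ S
  haveI : Finite S := hSfin.to_subtype
  haveI : FiniteDimensional ℚ E :=
    IntermediateField.finiteDimensional_adjoin (fun x _ => Algebra.IsIntegral.isIntegral x)
  have hEH : E.fixingSubgroup ≤ H := by
    intro σ hσ
    apply hS
    intro x hx
    exact (IntermediateField.mem_fixingSubgroup_iff E σ).mp hσ x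
      (IntermediateField.subset_adjoin ℚ S hx)
  have hopen : IsOpen (H : Set GQ) :=
    Subgroup.isOpen_mono hEH (IntermediateField.fixingSubgroup_isOpen E)
  have hclosed : IsClosed (H : Set GQ) := Subgroup.isClosed_of_isOpen H hopen
  let Hc : ClosedSubgroup GQ := ⟨H, hclosed⟩
  let K : IntermediateField ℚ Qb := IntermediateField.fixedField H
  have hfix : K.fixingSubgroup = H := InfiniteGalois.fixingSubgroup_fixedField Hc
  haveI : FiniteDimensional ℚ K := by
    rw [← InfiniteGalois.isOpen_iff_finite]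
    show IsOpen (K.fixingSubgroup : Set GQ)
    rw [hfix]
    exact hopen
  haveI : IsGalois ℚ K := by
    have h := (InfiniteGalois.normal_iff_isGalois K).mp (hfix ▸ hN)
    convert h
    exact Subsingleton.elim _ _
  by_cases hK : K = ⊥
  · rw [← hfix, hK]
    exact IntermediateField.fixingSubgroup_bot
  · exfalso
    obtain ⟨q, hq, hram⟩ := s13_exists_ramified K hK
    obtain ⟨A, hA, hAH⟩ := hI q hq
    obtain ⟨σ, hσ, x, hx⟩ := hram A hA
    have hσH : σ ∈ K.fixingSubgroup := by
      rw [hfix]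
      exact hAH hσ
    exact hx ((IntermediateField.mem_fixingSubgroup_iff K σ).mp hσH x x.2)

end
end Fermat.Agent.S13
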