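import Fermat.Agent.S13.Defs
import Fermat.Agent.S13.TorsionQb
import Fermat.Agent.S13.RamGlue
import Fermat.Agent.S13.Minkowski
import Fermat.Agent.S13.LocalPData
import Fermat.Agent.S13.AtTwo
import Fermat.Agent.S05.Assembly

/-!
# S13 / M11 — assembly (OWNER: helper4)

From the six top-level exports
* `s13_tq_frey_nontrivial`, `s13_tq_frey_finite` (torsion of the Frey curve, helper7),
* `rg_exists_liesOverPrime`, `rg_valuation_eq_zpow` (valuation subrings over every prime,
  (R2'), helper8),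
* `s13_minkowski` (Theorem G, helper3),
* `s13_at_two` (local statement at `2`, helper9 / helper6),
* `s13_atp_frozen_of_R2` (local statement at `p`, helper1 / helper2),
* `Fermat.Agent.S05.frey_unramified` (local statement at the odd primes `q ≠ p`)
we deduce: a reducible mod-`p` representation of the Frey curve has a Galois-stable cofixed line.
-/

set_option autoImplicit false

namespace Fermat.Agent.S13

open WeierstrassCurve WeierstrassCurve.Affine WeierstrassCurve.Affine.Point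

section subgroups

variable {P : FreyPackage}

/-- `H1`: the automorphisms fixing the submodule `N` pointwise. -/
def s13_H1 (N : Submodule (ZMod P.p) (Vp P)) : Subgroup GQ where
  carrier := {σ | ∀ x ∈ N, σ • x = x}
  one_mem' := fun x _ => one_smul _ x
  mul_mem' := by
    intro σ τ hσ hτ x hx
    show (σ * τ) • x = x
    rw [mul_smul, hτ x hx, hσ x hx]
  inv_mem' := by
    intro σ hσ x hx
    show σ⁻¹ • x = x
    conv_lhs => rw [← hσ x hx]
    rw [inv_smul_smul]

lemma s13_mem_H1 {N : Submodule (ZMod P.p) (Vp P)} {σ : GQ} :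
    σ ∈ s13_H1 N ↔ ∀ x ∈ N, σ • x = x := Iff.rfl

/-- `H2`: the automorphisms acting trivially on the quotient by `N`. -/
def s13_H2 (N : Submodule (ZMod P.p) (Vp P)) : Subgroup GQ where
  carrier := {σ | ∀ x : Vp P, σ • x - x ∈ N}
  one_mem' := fun x => by
    show (1 : GQ) • x - x ∈ N
    rw [one_smul, sub_self]
    exact N.zero_mem
  mul_mem' := by
    intro σ τ hσ hτ x
    show (σ * τ) • x - x ∈ N
    have : (σ * τ) • x - x = (σ • (τ • x) - τ • x) + (τ • x - x) := by
      rw [mul_smul]; abel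
    rw [this]
    exact N.add_mem (hσ _) (hτ _)
  inv_mem' := by
    intro σ hσ x
    show σ⁻¹ • x - x ∈ N
    have : σ⁻¹ • x - x = -(σ • (σ⁻¹ • x) - σ⁻¹ • x) := by
      rw [smul_inv_smul]; abel
    rw [this]
    exact N.neg_mem (hσ _)

lemma s13_mem_H2 {N : Submodule (ZMod P.p) (Vp P)} {σ : GQ} :
    σ ∈ s13_H2 N ↔ ∀ x : Vp P, σ • x - x ∈ N := Iff.rfl

lemma s13_H1_normal {N : Submodule (ZMod P.p) (Vp P)} (hN : IsGaloisStable ℚ N) :
    (s13_H1 N).Normal := by
  refine ⟨fun σ hσ g x hx => ?_⟩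
  show (g * σ * g⁻¹) • x = x
  rw [mul_smul, mul_smul, hσ _ (hN g⁻¹ x hx), smul_inv_smul]

lemma s13_H2_normal {N : Submodule (ZMod P.p) (Vp P)} (hN : IsGaloisStable ℚ N) :
    (s13_H2 N).Normal := by
  refine ⟨fun σ hσ g x => ?_⟩
  show (g * σ * g⁻¹) • x - x ∈ N
  have : (g * σ * g⁻¹) • x - x = g • (σ • (g⁻¹ • x) - g⁻¹ • x) := by
    rw [mul_smul, mul_smul, smul_sub, smul_inv_smul]
  rw [this]
  exact hN g _ (hσ _)

end subgroups

section coords

variable {P : FreyPackage}

/-- the coordinates of a point. -/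
def s13_coords : (P.freyCurve⁄Qb).Point → Set Qb
  | .zero => ∅
  | .some x y _ => {x, y}

lemma s13_coords_finite (Q : (P.freyCurve⁄Qb).Point) : (s13_coords Q).Finite := by
  cases Q with
  | zero => exact Set.finite_empty
  | some x y h => exact Set.toFinite {x, y}

lemma s13_smul_eq_of_coords {σ : GQ} {Q : (P.freyCurve⁄Qb).Point}
    (h : ∀ s ∈ s13_coords Q, σ s = s) : σ • Q = Q := by
  cases Q with
  | zero => rfl
  | some x y hxy =>
    have hx : σ x = x := h x (by simp [s13_coords])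
    have hy : σ y = y := h y (by simp [s13_coords])
    rw [Point.algEquiv_smul_def, Point.map_some]
    congr 1

/-- the set of all coordinates of all `p`-torsion points. -/
def s13_allCoords (P : FreyPackage) : Set Qb :=
  ⋃ x : Vp P, s13_coords (x : (P.freyCurve⁄Qb).Point)

lemma s13_allCoords_finite (hfin : Finite (Vp P)) : (s13_allCoords P).Finite :=
  Set.finite_iUnion fun _ => s13_coords_finite _

lemma s13_smul_eq_of_allCoords {σ : GQ} (h : ∀ s ∈ s13_allCoords P, σ s = s) (x : Vp P) :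
    σ • x = x := by
  apply Subtype.ext
  show σ • (x : (P.freyCurve⁄Qb).Point) = x
  apply s13_smul_eq_of_coords
  intro s hs
  exact h s (Set.mem_iUnion.2 ⟨x, hs⟩)

end coords



/-- **(END)**: the stable line is cofixed. -/
theorem s13_cofixed (P : FreyPackage) (N : Submodule (ZMod P.p) (Vp P))
    (hstab : IsGaloisStable ℚ N) (hN0 : N ≠ ⊥) (hN1 : N ≠ ⊤) :
    ∀ (σ : GQ) (x : Vp P), σ • x - x ∈ N := by
  have hfin : Finite (Vp P) := s13_tq_frey_finite P
  -- the finite set of coordinates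
  have hS := s13_allCoords_finite (P := P) hfin
  have hS1 : ∀ σ : GQ, (∀ s ∈ s13_allCoords P, σ s = s) → σ ∈ s13_H1 N :=
    fun σ h x _ => s13_smul_eq_of_allCoords h x
  have hS2 : ∀ σ : GQ, (∀ s ∈ s13_allCoords P, σ s = s) → σ ∈ s13_H2 N := by
    intro σ h x
    rw [s13_smul_eq_of_allCoords h x, sub_self]
    exact N.zero_mem
  -- the primes `q ≠ p`
  have hq : ∀ q : ℕ, q.Prime → q ≠ P.p →
      ∃ A : ValuationSubring Qb, A.LiesOverPrime q ∧
        A.inertiaSubgroupIn ℚ ≤ s13_H1 N ∧ A.inertiaSubgroupIn ℚ ≤ s13_H2 N := by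
    intro q hq hqp
    obtain ⟨A, hA⟩ := rg_exists_liesOverPrime q hq
    refine ⟨A, hA, ?_⟩
    by_cases hq2 : q = 2
    · subst hq2
      obtain ⟨h1, h2, -⟩ := s13_at_two P A hA N hstab hN0 hN1
      exact ⟨fun σ hσ => h1 σ hσ, fun σ hσ => h2 σ hσ⟩
    · have hunr := Fermat.Agent.S05.frey_unramified P hq hq2 hqp
      have hfix : ∀ σ ∈ A.inertiaSubgroupIn ℚ, ∀ x : Vp P, σ • x = x :=
        fun σ hσ x => hunr A hA σ hσ x
      refine ⟨fun σ hσ x _ => hfix σ hσ x, fun σ hσ x => ?_⟩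
      show σ • x - x ∈ N
      rw [hfix σ hσ x, sub_self]
      exact N.zero_mem
  -- `H1 ≠ ⊤`
  have hH1 : s13_H1 N ≠ ⊤ := by
    obtain ⟨A, hA⟩ := rg_exists_liesOverPrime 2 Nat.prime_two
    obtain ⟨-, -, h3⟩ := s13_at_two P A hA N hstab hN0 hN1
    intro htop
    apply h3
    intro σ x hx
    have : σ ∈ s13_H1 N := by rw [htop]; exact Subgroup.mem_top σ
    exact this x hx
  -- the prime `p`
  obtain ⟨Ap, hAp⟩ := rg_exists_liesOverPrime P.p P.pp
  have hp : (∀ σ ∈ Ap.inertiaSubgroupIn ℚ, ∀ x ∈ N, σ • x = x) ∨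
      (∀ σ ∈ Ap.inertiaSubgroupIn ℚ, ∀ x : Vp P, σ • x - x ∈ N) :=
    s13_atp_frozen_of_R2 P Ap hAp
      (fun β hβ hfix => rg_valuation_eq_zpow Ap P.pp hAp hβ hfix) N hN0 hN1
      (fun σ _ x hx => hstab σ x hx)
  have hram : ∀ H : Subgroup GQ, s13_H1 N ⊓ s13_H2 N ≤ H → Ap.inertiaSubgroupIn ℚ ≤ H →
      ∀ q : ℕ, q.Prime →
        ∃ A : ValuationSubring Qb, A.LiesOverPrime q ∧ A.inertiaSubgroupIn ℚ ≤ H := by
    intro H hH hHp q hq'
    by_cases hqp : q = P.p
    · subst hqp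
      exact ⟨Ap, hAp, hHp⟩
    · obtain ⟨A, hA, h1, h2⟩ := hq q hq' hqp
      exact ⟨A, hA, fun σ hσ => hH ⟨h1 hσ, h2 hσ⟩⟩
  have hp2' : Ap.inertiaSubgroupIn ℚ ≤ s13_H2 N := by
    rcases hp with h | h
    · exfalso
      apply hH1
      have hle : Ap.inertiaSubgroupIn ℚ ≤ s13_H1 N := fun σ hσ x hx => h σ hσ x hx
      exact s13_minkowski (s13_H1 N) (s13_H1_normal hstab) (s13_allCoords P) hS hS1
        (hram _ inf_le_left hle)
    · exact fun σ hσ x => h σ hσ x
  have htop : s13_H2 N = ⊤ :=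
    s13_minkowski (s13_H2 N) (s13_H2_normal hstab) (s13_allCoords P) hS hS2
      (hram _ inf_le_right hp2')
  intro σ x
  have : σ ∈ s13_H2 N := by rw [htop]; exact Subgroup.mem_top σ
  exact this x

/-- **S13**: a reducible mod-`p` representation of the Frey curve has a Galois-stable
cofixed line. -/
theorem s13_main (P : FreyPackage)
    (hred : ¬ GaloisRepIsIrreducible (K := AlgebraicClosure ℚ) ℚ P.freyCurve P.p) :
    HasGaloisStableCofixedLine (K := AlgebraicClosure ℚ) ℚ P.freyCurve P.p := by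
  have hT0 : Nontrivial (Vp P) := s13_tq_frey_nontrivial P
  have hex : ∃ N : Submodule (ZMod P.p) (Vp P), IsGaloisStable ℚ N ∧ N ≠ ⊥ ∧ N ≠ ⊤ := by
    by_contra h
    apply hred
    refine ⟨hT0, fun N hN => ?_⟩
    by_contra h'
    push Not at h'
    exact h ⟨N, hN, h'.1, h'.2⟩
  obtain ⟨N, hN, hN0, hN1⟩ := hex
  exact ⟨N, hN, hN0, hN1, s13_cofixed P N hN hN0 hN1⟩

end Fermat.Agent.S13
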