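import Fermat.Agent.S13.Defs
import Fermat.Agent.S05.Val

/-!
# S13 / M8: the Frey curve at the prime `2`  (OWNER: helper6)

`E = P.freyCurve : y² + xy = x³ + a₂x² + a₄x`, `a₂ = (b^p - 1 - a^p)/4 ∈ ℤ`,
`a₄ = -a^p b^p / 16 = 2^k u` with `u` an odd integer, `k = p v₂(b) - 4 > 0`, `p ∤ k`.

For a valuation subring `A` over `2` of a field `K ⊇ ℚ`: `v 2 < 1`, `v a₂ ≤ 1`,
`v a₄ = v 2 ^ k`.
-/

set_option autoImplicit false
set_option linter.unusedSectionVars false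
set_option linter.unusedVariables false

namespace Fermat.Agent.S13

open Fermat.Agent.S05

section arith

variable (P : FreyPackage)

lemma s13_l2f_two_dvd_b : (2 : ℤ) ∣ P.b :=
  (ZMod.intCast_zmod_eq_zero_iff_dvd P.b 2).1 P.hb2

lemma s13_l2f_four_dvd_a_add_one : (4 : ℤ) ∣ P.a + 1 := by
  have h : ((P.a + 1 : ℤ) : ZMod 4) = 0 := by
    push_cast
    rw [P.ha4]
    decide
  exact (ZMod.intCast_zmod_eq_zero_iff_dvd (P.a + 1) 4).1 h

lemma s13_l2f_a_odd : ¬ (2 : ℤ) ∣ P.a := by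
  intro h
  have h4 := s13_l2f_four_dvd_a_add_one P
  omega

lemma s13_l2f_four_dvd_b_pow : (4 : ℤ) ∣ P.b ^ P.p := by
  have h2 : (2 : ℤ) ^ 2 ∣ P.b ^ 2 := pow_dvd_pow_of_dvd (s13_l2f_two_dvd_b P) 2
  have h3 : P.b ^ 2 ∣ P.b ^ P.p := pow_dvd_pow P.b (by have := P.hp5; omega)
  have e : (4 : ℤ) = 2 ^ 2 := by norm_num
  rw [e]
  exact h2.trans h3

lemma s13_l2f_four_dvd_a_pow_add_one : (4 : ℤ) ∣ P.a ^ P.p + 1 := by
  have h := Odd.add_dvd_pow_add_pow P.a 1 P.hp_odd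
  rw [one_pow] at h
  exact (s13_l2f_four_dvd_a_add_one P).trans h

/-- `a₂` is an integer. -/
theorem s13_l2f_a₂_int : ∃ m : ℤ, P.freyCurve.a₂ = (m : ℚ) := by
  obtain ⟨s, hs⟩ := s13_l2f_four_dvd_b_pow P
  obtain ⟨t, ht⟩ := s13_l2f_four_dvd_a_pow_add_one P
  refine ⟨s - t, ?_⟩
  rw [s13_frey_a₂]
  have hs' : (P.b : ℚ) ^ P.p = 4 * s := by exact_mod_cast hs
  have ht' : (P.a : ℚ) ^ P.p + 1 = 4 * t := by exact_mod_cast ht
  have ha : (P.a : ℚ) ^ P.p = 4 * t - 1 := by linarith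
  rw [hs', ha]
  push_cast
  ring

/-- `a₄ = 2^k u` with `u` odd, `k > 0`, `p ∤ k`. -/
theorem s13_l2f_a₄_int :
    ∃ (k : ℕ) (u : ℤ), 0 < k ∧ ¬ P.p ∣ k ∧ ¬ (2 : ℤ) ∣ u ∧
      P.freyCurve.a₄ = (2 : ℚ) ^ k * (u : ℚ) := by
  have hfin : FiniteMultiplicity (2 : ℤ) P.b :=
    Int.finiteMultiplicity_iff.2 ⟨by decide, P.hb0⟩
  obtain ⟨b', hb', hodd⟩ := hfin.exists_eq_pow_mul_and_not_dvd
  set s := multiplicity (2 : ℤ) P.b with hsdef
  have hs : 0 < s := by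
    rcases Nat.eq_zero_or_pos s with h0 | h0
    · exfalso
      rw [h0, pow_zero, one_mul] at hb'
      rw [← hb'] at hodd
      exact hodd (s13_l2f_two_dvd_b P)
    · exact h0
  have hp5 := P.hp5
  have hsp : 5 ≤ s * P.p := by nlinarith
  have h2p : Prime (2 : ℤ) := Int.prime_two
  refine ⟨s * P.p - 4, -(P.a ^ P.p * b' ^ P.p), by omega, ?_, ?_, ?_⟩
  · intro hdvd
    have h1 : P.p ∣ s * P.p := dvd_mul_left _ _
    have h2 : P.p ∣ s * P.p - (s * P.p - 4) := Nat.dvd_sub h1 hdvd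
    have e : s * P.p - (s * P.p - 4) = 4 := by omega
    rw [e] at h2
    have := Nat.le_of_dvd (by norm_num) h2
    omega
  · rw [dvd_neg]
    intro hdvd
    rcases h2p.dvd_or_dvd hdvd with h | h
    · exact s13_l2f_a_odd P (h2p.dvd_of_dvd_pow h)
    · exact hodd (h2p.dvd_of_dvd_pow h)
  · rw [s13_frey_a₄]
    have hb'' : (P.b : ℚ) = 2 ^ s * (b' : ℚ) := by exact_mod_cast hb'
    have e16 : (2 : ℚ) ^ (s * P.p) = 2 ^ (s * P.p - 4) * 16 := by
      have : s * P.p = (s * P.p - 4) + 4 := by omega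
      conv_lhs => rw [this, pow_add]
      norm_num
    rw [hb'', mul_pow, ← pow_mul, e16]
    push_cast
    field_simp

theorem s13_l2f_a₄_ne_zero : P.freyCurve.a₄ ≠ 0 := by
  rw [s13_frey_a₄]
  have ha : (P.a : ℚ) ≠ 0 := by exact_mod_cast P.ha0
  have hb : (P.b : ℚ) ≠ 0 := by exact_mod_cast P.hb0
  exact div_ne_zero (mul_ne_zero (neg_ne_zero.2 (pow_ne_zero _ ha)) (pow_ne_zero _ hb))
    (by norm_num)

end arith

section val

variable {K : Type*} [Field K] [Algebra ℚ K] (A : ValuationSubring K) (P : FreyPackage)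

theorem s13_l2f_val_two (hA : A.LiesOverPrime 2) : A.valuation (2 : K) < 1 := by
  have h1 : A.valuation (((2 : ℕ) : K)) < 1 := A.mem_nonunits_iff.1 hA
  simpa using h1

theorem s13_l2f_two_ne_zero : (2 : K) ≠ 0 := by
  have hchar : CharZero K := charZero_of_injective_algebraMap (algebraMap ℚ K).injective
  exact two_ne_zero

theorem s13_l2f_val_a₂ : A.valuation (algebraMap ℚ K P.freyCurve.a₂) ≤ 1 := by
  obtain ⟨m, hm⟩ := s13_l2f_a₂_int P
  rw [hm, map_intCast]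
  exact val_intCast_le_one A m

/-- `v a₄ = v 2 ^ k`, `k > 0`, `p ∤ k`. -/
theorem s13_l2f_val_a₄ (hA : A.LiesOverPrime 2) :
    ∃ k : ℕ, 0 < k ∧ ¬ P.p ∣ k ∧
      A.valuation (algebraMap ℚ K P.freyCurve.a₄) = A.valuation (2 : K) ^ k := by
  obtain ⟨k, u, hk, hpk, hu, ha4⟩ := s13_l2f_a₄_int P
  refine ⟨k, hk, hpk, ?_⟩
  have hu1 : A.valuation ((u : ℤ) : K) = 1 :=
    val_intCast_eq_one_of_not_dvd A Nat.prime_two hA (by exact_mod_cast hu)
  rw [ha4, map_mul, map_pow, map_intCast, map_ofNat, map_mul, map_pow, hu1, mul_one]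

theorem s13_l2f_val_a₄_lt (hA : A.LiesOverPrime 2) :
    A.valuation (algebraMap ℚ K P.freyCurve.a₄) < 1 := by
  obtain ⟨k, hk, -, h⟩ := s13_l2f_val_a₄ A P hA
  rw [h]
  exact pow_lt_one₀ zero_le (s13_l2f_val_two A hA) hk.ne'

end val

end Fermat.Agent.S13
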