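import Fermat.Agent.S13.Local2FreyTors
import Fermat.Agent.S13.RamGlue

/-!
# S13 / M8: (A1) for the Frey curve at `2`, no black box  (OWNER: helper6)

`Qb = AlgebraicClosure ℚ`, `A` a valuation subring of `Qb` over `2`: some element of the inertia
group of `A` moves some `p`-torsion point of the Frey curve.
-/

set_option autoImplicit false
set_option linter.unusedSectionVars false
set_option linter.unusedVariables false

namespace Fermat.Agent.S13

open WeierstrassCurve WeierstrassCurve.Affine WeierstrassCurve.Affine.Point

/-- **(A1)**: the inertia group at `2` acts nontrivially on the `p`-torsion of the Frey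
curve. -/
theorem s13_l2f_moves_final [DecidableEq (AlgebraicClosure ℚ)] (P : FreyPackage)
    (A : ValuationSubring (AlgebraicClosure ℚ)) (hA : A.LiesOverPrime 2) :
    ∃ σ ∈ A.inertiaSubgroupIn ℚ, ∃ Q : (P.freyCurve⁄(AlgebraicClosure ℚ)).Point,
      P.p • Q = 0 ∧ σ • Q ≠ Q :=
  s13_l2f_moves_inertia A P hA
    (fun α hα hfix => rg_valuation_eq_zpow A Nat.prime_two hA hα hfix)

end Fermat.Agent.S13
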