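import Fermat.Agent.S13.Local2FreyTors
import Fermat.Agent.S13.RamGlueBasic

/-!
# S13 / M8: the Frey curve has no rational point of order `p`  (OWNER: helper6)

`K ⊇ ℚ` a field such that the elements of `K` fixed by all `ℚ`-automorphisms are rational
(`hgal`), `A` a valuation subring of `K` over `2`.  A nonzero `p`-torsion point `Q` of the Frey
curve is moved by some automorphism of `K` (`s13_l2r_exists_moves`): otherwise `Q`, `2Q`, `-Q`
are three distinct points with rational coordinates, `x` a `2`-adic unit by (2a) + (2c), and two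
of them have the same reduction modulo `2` (pigeonhole on the parity of `y`), so they are equal
by (2d) + (2a).
-/

set_option autoImplicit false
set_option linter.unusedSectionVars false
set_option linter.unusedVariables false

namespace Fermat.Agent.S13

open WeierstrassCurve WeierstrassCurve.Affine WeierstrassCurve.Affine.Point
open Fermat.Agent.S05

section parity

variable {K : Type*} [Field K] [Algebra ℚ K] (A : ValuationSubring K)

/-- A rational number which is integral at `2` is congruent to `0` or `1` modulo `2`. -/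
theorem s13_l2r_parity (hA : A.LiesOverPrime 2) (r : ℚ)
    (hr : A.valuation (algebraMap ℚ K r) ≤ 1) :
    A.valuation (algebraMap ℚ K r) < 1 ∨ A.valuation (algebraMap ℚ K r - 1) < 1 := by
  haveI : CharZero K := algebraRat.charZero K
  have hden0 : ((r.den : ℕ) : K) ≠ 0 := by exact_mod_cast r.den_nz
  have hr' : algebraMap ℚ K r = (r.num : K) / (r.den : K) := by
    rw [eq_ratCast, Rat.cast_def]
  -- the denominator is odd
  have hdodd : ¬ (2 : ℕ) ∣ r.den := by
    intro h2
    have hnum : ¬ ((2 : ℕ) : ℤ) ∣ r.num := by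
      intro h
      have h1 : (2 : ℕ) ∣ r.num.natAbs := by
        have := Int.natAbs_dvd_natAbs.2 h
        simpa using this
      have hcop := r.reduced
      have : (2 : ℕ) ∣ Nat.gcd r.num.natAbs r.den := Nat.dvd_gcd h1 h2
      rw [Nat.Coprime] at hcop
      rw [hcop] at this
      omega
    have hvn : A.valuation ((r.num : ℤ) : K) = 1 :=
      val_intCast_eq_one_of_not_dvd A Nat.prime_two hA hnum
    have hvd : A.valuation ((r.den : ℕ) : K) < 1 := by
      have := val_intCast_lt_one_of_dvd A hA (m := (r.den : ℤ)) (by exact_mod_cast h2)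
      simpa using this
    rw [hr', map_div₀, hvn] at hr
    have hd0 : A.valuation ((r.den : ℕ) : K) ≠ 0 := (Valuation.ne_zero_iff _).2 hden0
    have : 1 < (A.valuation ((r.den : ℕ) : K))⁻¹ :=
      (one_lt_inv₀ (zero_lt_iff.2 hd0)).2 hvd
    rw [one_div] at hr
    exact absurd hr (not_le.2 this)
  have hvd : A.valuation ((r.den : ℕ) : K) = 1 :=
    val_natCast_eq_one_of_not_dvd A Nat.prime_two hA hdodd
  by_cases hnum : ((2 : ℕ) : ℤ) ∣ r.num
  · left
    rw [hr', map_div₀, hvd, div_one]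
    exact val_intCast_lt_one_of_dvd A hA hnum
  · right
    have e : algebraMap ℚ K r - 1 = ((r.num - (r.den : ℤ) : ℤ) : K) / (r.den : K) := by
      rw [hr']
      push_cast
      field_simp
    rw [e, map_div₀, hvd, div_one]
    apply val_intCast_lt_one_of_dvd A hA
    have h1 : ¬ (2 : ℤ) ∣ r.num := by exact_mod_cast hnum
    have h2 : ¬ (2 : ℤ) ∣ (r.den : ℤ) := by exact_mod_cast hdodd
    have : (2 : ℤ) ∣ r.num - (r.den : ℤ) := by omega
    exact_mod_cast this

end parity

section main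

variable {K : Type*} [Field K] [DecidableEq K] [Algebra ℚ K] (A : ValuationSubring K)
  (P : FreyPackage)

/-- A nonzero `p`-torsion point of the Frey curve fixed by all automorphisms. -/
structure S13L2RGood (Q : (P.freyCurve⁄K).Point) : Prop where
  tors : P.p • Q = 0
  ne : Q ≠ 0
  fixed : ∀ σ : K ≃ₐ[ℚ] K, σ • Q = Q

variable {P}

/-- The coordinates of a rational torsion point: `x ≡ 1`, `y ≡ 0` or `1` modulo `2`. -/
theorem S13L2RGood.coords (hA : A.LiesOverPrime 2)
    (hgal : ∀ α : K, (∀ σ : K ≃ₐ[ℚ] K, σ α = α) → ∃ q : ℚ, algebraMap ℚ K q = α)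
    {Q : (P.freyCurve⁄K).Point} (hQ : S13L2RGood P Q) :
    ∃ (x y : K) (h : (P.freyCurve⁄K).Nonsingular x y), Q = Point.some x y h ∧
      A.valuation x = 1 ∧ A.valuation (x - 1) < 1 ∧ A.valuation y ≤ 1 ∧
      (A.valuation y < 1 ∨ A.valuation (y - 1) < 1) := by
  obtain ⟨htor, hne, hfix⟩ := hQ
  rcases Q with _ | ⟨x, y, h⟩
  · exact absurd rfl hne
  refine ⟨x, y, h, rfl, ?_⟩
  have hxy : ∀ σ : K ≃ₐ[ℚ] K, σ x = x ∧ σ y = y := by
    intro σ
    obtain ⟨h', hsmul⟩ := local_smul_some σ P.freyCurve h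
    have h1 := hfix σ
    rw [hsmul] at h1
    have := Point.some.inj h1
    exact this
  obtain ⟨rx, hrx⟩ := hgal x (fun σ => (hxy σ).1)
  obtain ⟨ry, hry⟩ := hgal y (fun σ => (hxy σ).2)
  have hx0 : x ≠ 0 := tb_x_ne_zero A.valuation (s13_l2f_k3 P) (s13_l2f_k6 P)
    (s13_l2f_two_ne_zero (K := K)) (s13_l2f_kb2 A P hA) (s13_l2f_k4_ne P)
    (by rw [s13_l2f_k4]; exact s13_l2f_val_a₄_lt A P hA) P.hp_odd h htor
  have hrx0 : rx ≠ 0 := by
    rintro rfl
    rw [_root_.map_zero] at hrx
    exact hx0 hrx.symm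
  have hxle : A.valuation x ≤ 1 := s13_l2f_2a A P hA x y h htor
  have hx1 : A.valuation x = 1 := by
    rcases hxle.lt_or_eq with hlt | heq
    · exfalso
      obtain ⟨k, hk⟩ := rg_valuation_rat A Nat.prime_two hA hrx0
      rw [hrx] at hk
      have hk' : A.valuation x = A.valuation (2 : K) ^ k := by simpa using hk
      exact s13_l2f_2c A P hA x y h htor hlt k hk'
    · exact heq
  have hyle : A.valuation y ≤ 1 := by
    refine tb2_val_y_le A.valuation (s13_l2f_k1 P) (s13_l2f_k3 P) ?_ ?_ ?_ h.1 hxle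
    · have := s13_l2f_val_a₂ (K := K) A P
      simpa using this
    · rw [s13_l2f_k4]; exact (s13_l2f_val_a₄_lt A P hA).le
    · rw [s13_l2f_k6, _root_.map_zero]; exact zero_le_one
  refine ⟨hx1, ?_, hyle, ?_⟩
  · have := s13_l2r_parity A hA rx (by rw [hrx]; exact hxle)
    rw [hrx] at this
    rcases this with h0 | h1
    · rw [hx1] at h0; exact absurd h0 (lt_irrefl _)
    · exact h1
  · have := s13_l2r_parity A hA ry (by rw [hry]; exact hyle)
    rw [hry] at this
    exact this

/-- Two rational torsion points with the same reduction are equal. -/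
theorem s13_l2r_eq_of_close (hA : A.LiesOverPrime 2)
    {x y x' y' : K} (h : (P.freyCurve⁄K).Nonsingular x y) (h' : (P.freyCurve⁄K).Nonsingular x' y')
    (htor : P.p • Point.some x y h = 0) (htor' : P.p • Point.some x' y' h' = 0)
    (hx : A.valuation x = 1) (hy : A.valuation y ≤ 1)
    (hxx : A.valuation (x' - x) < 1) (hyy : A.valuation (y' - y) < 1) :
    Point.some x' y' h' = Point.some x y h := by
  have ka2 : A.valuation (P.freyCurve⁄K).a₂ ≤ 1 := by
    have := s13_l2f_val_a₂ (K := K) A P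
    simpa using this
  rcases tb2_close A.valuation (s13_l2f_k1 P) (s13_l2f_k3 P) ka2 (s13_l2f_val_two A hA) h h'
    hx hy hxx hyy with heq | ⟨x₃, y₃, h₃, hsub, hbig⟩
  · exact heq
  · exfalso
    have h0 : P.p • (Point.some x' y' h' - Point.some x y h) = 0 := by
      rw [smul_sub, htor, htor', sub_zero]
    rw [hsub] at h0
    exact absurd (s13_l2f_2a A P hA x₃ y₃ h₃ h0) (not_le.2 hbig)

/-- Two rational torsion points with `y`-coordinates of the same parity are equal. -/
theorem S13L2RGood.eq_of_parity (hA : A.LiesOverPrime 2)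
    (hgal : ∀ α : K, (∀ σ : K ≃ₐ[ℚ] K, σ α = α) → ∃ q : ℚ, algebraMap ℚ K q = α)
    {Q Q' : (P.freyCurve⁄K).Point} (hQ : S13L2RGood P Q) (hQ' : S13L2RGood P Q')
    {x y x' y' : K} {h : (P.freyCurve⁄K).Nonsingular x y}
    {h' : (P.freyCurve⁄K).Nonsingular x' y'}
    (e : Q = Point.some x y h) (e' : Q' = Point.some x' y' h')
    (hx : A.valuation x = 1) (hx1 : A.valuation (x - 1) < 1) (hx1' : A.valuation (x' - 1) < 1)
    (hy : A.valuation y ≤ 1) (hyy : A.valuation (y' - y) < 1) : Q' = Q := by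
  have htor := hQ.tors
  have htor' := hQ'.tors
  rw [e] at htor ⊢
  rw [e'] at htor' ⊢
  refine s13_l2r_eq_of_close A hA h h' htor htor' hx hy ?_ hyy
  have : x' - x = (x' - 1) - (x - 1) := by ring
  rw [this]
  exact Valuation.map_sub_lt _ hx1' hx1

/-- Among two distinct rational torsion points, exactly one has even `y`. -/
theorem S13L2RGood.parity_ne (hA : A.LiesOverPrime 2)
    (hgal : ∀ α : K, (∀ σ : K ≃ₐ[ℚ] K, σ α = α) → ∃ q : ℚ, algebraMap ℚ K q = α)
    {Q Q' : (P.freyCurve⁄K).Point} (hQ : S13L2RGood P Q) (hQ' : S13L2RGood P Q')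
    (hne : Q' ≠ Q)
    {x y x' y' : K} {h : (P.freyCurve⁄K).Nonsingular x y}
    {h' : (P.freyCurve⁄K).Nonsingular x' y'}
    (e : Q = Point.some x y h) (e' : Q' = Point.some x' y' h')
    (hx : A.valuation x = 1) (hx1 : A.valuation (x - 1) < 1) (hx1' : A.valuation (x' - 1) < 1)
    (hy : A.valuation y ≤ 1) : ¬ A.valuation (y' - y) < 1 :=
  fun hyy => hne (hQ.eq_of_parity A hA hgal hQ' e e' hx hx1 hx1' hy hyy)

variable (P)

/-- **The Frey curve has no rational point of order `p`**: every nonzero `p`-torsion point is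
moved by some automorphism. -/
theorem s13_l2r_exists_moves (hA : A.LiesOverPrime 2)
    (hgal : ∀ α : K, (∀ σ : K ≃ₐ[ℚ] K, σ α = α) → ∃ q : ℚ, algebraMap ℚ K q = α)
    (Q : (P.freyCurve⁄K).Point) (htor : P.p • Q = 0) (hne : Q ≠ 0) :
    ∃ σ : K ≃ₐ[ℚ] K, σ • Q ≠ Q := by
  by_contra hcon
  push Not at hcon
  have hp5 := P.hp5
  -- `k • Q ≠ 0` for `0 < k < p`
  have hk : ∀ k : ℕ, 0 < k → k < P.p → k • Q ≠ 0 := by
    intro k hk0 hkp hkQ
    have hcop : Nat.Coprime k P.p := by
      rw [Nat.coprime_comm]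
      exact (Nat.Prime.coprime_iff_not_dvd P.pp).2 (fun hd => by
        have := Nat.le_of_dvd hk0 hd
        omega)
    have hgcd : (Nat.gcd k P.p) • Q = 0 := by
      have := Nat.gcd_eq_gcd_ab k P.p
      have h1 : ((Nat.gcd k P.p : ℕ) : ℤ) • Q = 0 := by
        rw [this, add_smul, mul_smul, mul_smul, natCast_zsmul, natCast_zsmul]
        have e1 : (k : ℕ) • (Nat.gcdA k P.p • Q) = Nat.gcdA k P.p • (k • Q) := by
          rw [smul_comm]
        have e2 : (P.p : ℕ) • (Nat.gcdB k P.p • Q) = Nat.gcdB k P.p • (P.p • Q) := by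
          rw [smul_comm]
        rw [e1, e2, hkQ, htor, smul_zero, smul_zero, add_zero]
      rwa [natCast_zsmul] at h1
    rw [hcop, one_smul] at hgcd
    exact hne hgcd
  have g1 : S13L2RGood P Q := ⟨htor, hne, hcon⟩
  have h2Q : Q + Q ≠ 0 := by
    have := hk 2 (by norm_num) (by omega)
    rwa [two_smul] at this
  have g2 : S13L2RGood P (Q + Q) :=
    ⟨by rw [smul_add, htor, add_zero], h2Q, fun σ => by
      have := smul_add σ Q Q
      rw [hcon σ] at this
      exact this⟩
  have g3 : S13L2RGood P (-Q) :=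
    ⟨by rw [smul_neg, htor, _root_.neg_zero], neg_ne_zero.2 hne, fun σ => by
      have := smul_neg σ Q
      rw [hcon σ] at this
      exact this⟩
  have n12 : Q + Q ≠ Q := by
    intro h
    apply hne
    have : Q + Q = Q + 0 := by rw [h, add_zero]
    exact add_left_cancel this
  have n13 : -Q ≠ Q := by
    intro h
    apply h2Q
    nth_rewrite 1 [← h]
    exact neg_add_cancel Q
  have n23 : -Q ≠ Q + Q := by
    intro h
    have h3 := hk 3 (by norm_num) (by omega)
    apply h3
    have : (3 : ℕ) • Q = Q + (Q + Q) := by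
      rw [show (3 : ℕ) = 1 + 2 from rfl, add_smul, one_smul, two_smul]
    rw [this, ← h, add_neg_cancel]
  obtain ⟨x₁, y₁, h₁, e₁, hx₁, hx₁', hy₁, hp₁⟩ := g1.coords A hA hgal
  obtain ⟨x₂, y₂, h₂, e₂, hx₂, hx₂', hy₂, hp₂⟩ := g2.coords A hA hgal
  obtain ⟨x₃, y₃, h₃, e₃, hx₃, hx₃', hy₃, hp₃⟩ := g3.coords A hA hgal
  have d12 := g1.parity_ne A hA hgal g2 n12 e₁ e₂ hx₁ hx₁' hx₂' hy₁
  have d13 := g1.parity_ne A hA hgal g3 n13 e₁ e₃ hx₁ hx₁' hx₃' hy₁
  have d23 := g2.parity_ne A hA hgal g3 n23 e₂ e₃ hx₂ hx₂' hx₃' hy₂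
  -- pigeonhole
  have sub0 : ∀ {a b : K}, A.valuation a < 1 → A.valuation b < 1 → A.valuation (b - a) < 1 :=
    fun ha hb => Valuation.map_sub_lt _ hb ha
  have sub1 : ∀ {a b : K}, A.valuation (a - 1) < 1 → A.valuation (b - 1) < 1 →
      A.valuation (b - a) < 1 := by
    intro a b ha hb
    have : b - a = (b - 1) - (a - 1) := by ring
    rw [this]
    exact Valuation.map_sub_lt _ hb ha
  rcases hp₁ with a1 | a1 <;> rcases hp₂ with a2 | a2 <;> rcases hp₃ with a3 | a3
  · exact d12 (sub0 a1 a2)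
  · exact d12 (sub0 a1 a2)
  · exact d13 (sub0 a1 a3)
  · exact d23 (sub1 a2 a3)
  · exact d23 (sub0 a2 a3)
  · exact d13 (sub1 a1 a3)
  · exact d12 (sub1 a1 a2)
  · exact d12 (sub1 a1 a2)

end main

section Qbar

/-- **The Frey curve has no rational point of order `p`**, over `AlgebraicClosure ℚ`. -/
theorem s13_l2r_exists_moves_Qb [DecidableEq (AlgebraicClosure ℚ)] (P : FreyPackage)
    (A : ValuationSubring (AlgebraicClosure ℚ)) (hA : A.LiesOverPrime 2)
    (Q : (P.freyCurve⁄(AlgebraicClosure ℚ)).Point) (htor : P.p • Q = 0) (hne : Q ≠ 0) :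
    ∃ σ : AlgebraicClosure ℚ ≃ₐ[ℚ] AlgebraicClosure ℚ, σ • Q ≠ Q := by
  have hG : IsGalois ℚ (AlgebraicClosure ℚ) := by
    haveI : Algebra.IsAlgebraic ℚ (AlgebraicClosure ℚ) := AlgebraicClosure.isAlgebraic ℚ
    haveI : IsAlgClosure ℚ (AlgebraicClosure ℚ) := ⟨inferInstance, inferInstance⟩
    haveI : Normal ℚ (AlgebraicClosure ℚ) := IsAlgClosure.normal ℚ (AlgebraicClosure ℚ)
    exact ⟨⟩
  refine s13_l2r_exists_moves A P hA ?_ Q htor hne
  intro α hα
  have := (InfiniteGalois.mem_range_algebraMap_iff_fixed (k := ℚ) (K := AlgebraicClosure ℚ) α).2 hα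
  exact this

end Qbar

end Fermat.Agent.S13
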