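import Fermat.Agent.S13.PairB

/-!
# S13 / M7: the tropical rule (2c) in `b`-form  (OWNER: helper6)

`W` a Weierstrass curve over a field `K` with `a₃ = a₆ = 0` (so `b₄ = 2 a₄`, `b₆ = 0`,
`b₈ = -a₄²`), and a valuation with `v b₂ = 1`, `v a₄ < 1` (no hypothesis on `v 2`, so residue
characteristic `2` is allowed).  For a point `P = (x, y)` of odd order `p` with `v x < 1`:

* `tb_torsion_val`      : `v x ^ p = v a₄ ^ (2 j)` with `0 < 2 j < p`;
* `tb_torsion_val_gt`   : `v a₄ < v x`;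
* `tb_torsion_not_zpow` : if `v a₄ = v π ^ n` with `v π < 1` and `p ∤ n`, then `v x` is not an
  integral power of `v π`;
* `TBData.cpt_add_eq_zero` / `tb_E0_add` : the points of odd order with `cpt = 0` ("not reducing
  to the node") are closed under addition.
-/

set_option autoImplicit false
set_option linter.unusedSectionVars false
set_option linter.unusedVariables false

namespace Fermat.Agent.S13

open WeierstrassCurve WeierstrassCurve.Affine Fermat.Agent.S05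

variable {K : Type*} [Field K] [DecidableEq K]

section additive

variable {Γ : Type*} [AddCommGroup Γ] [LinearOrder Γ] [IsOrderedAddMonoid Γ]
  {W : WeierstrassCurve.Affine K} {w : K → Γ}

/-- `c (k P) ≡ ± k c(P)` modulo `2 n`, `n = w a₄`. -/
theorem TBData.crel_nsmul (D : TBData W w) {p : ℕ} (hp : Odd p) {P : W.Point}
    (hP : p • P = 0) (hc : 0 < cpt w (w W.a₄) P) (k : ℕ) :
    crel (w W.a₄) (cpt w (w W.a₄) (k • P)) (k • cpt w (w W.a₄) P) := by
  induction k using Nat.twoStepInduction with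
  | zero => simp only [zero_nsmul, cpt_zero]; exact crel_refl _ _
  | one => simp only [one_nsmul]; exact crel_refl _ _
  | more k ih0 ih1 =>
    have e1 : (k + 2) • P = (k + 1) • P + P := succ_nsmul P (k + 1)
    have e2 : k • P = (k + 1) • P - P := by rw [succ_nsmul P k]; abel
    have hpair := D.pair_rule (noTwo_nsmul_of_odd hp hP (k + 1)) (noTwo_of_odd_nsmul hp hP)
      (by rw [← e1]; exact noTwo_nsmul_of_odd hp hP (k + 2))
      (by rw [← e2]; exact noTwo_nsmul_of_odd hp hP k) hc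
    rw [← e1, ← e2] at hpair
    refine crel_step (X := (k + 2) • cpt w (w W.a₄) P) (Y := (k + 1) • cpt w (w W.a₄) P)
      (Z := k • cpt w (w W.a₄) P) ?_ ?_ ih1 ih0 hpair
    · exact succ_nsmul _ (k + 1)
    · exact succ_nsmul _ k

/-- **The tropical rule (2c)**, additive version: `p • w x = (2 j) • w a₄`, `0 < 2 j < p`, and
`w x < w a₄`. -/
theorem tb_torsion_w (D : TBData W w) {p : ℕ} (hp : Odd p) {x y : K} (h : W.Nonsingular x y)
    (htor : p • Point.some x y h = 0) (hx : 0 < w x) :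
    ∃ j : ℕ, 0 < j ∧ 2 * j < p ∧ p • w x = (2 * j) • w W.a₄ ∧ w x < w W.a₄ := by
  have hn := D.wa4
  have hp0 : p ≠ 0 := by
    rintro rfl
    simp at hp
  obtain ⟨c, hcdef⟩ : ∃ c, c = cpt w (w W.a₄) (Point.some x y h) := ⟨_, rfl⟩
  have hc : 0 < c := by rw [hcdef, cpt_some]; exact (cval_pos_iff hn _).2 hx
  have hcmin : c = min (w x) (w W.a₄) := by rw [hcdef, cpt_some]; exact cval_of_pos hx
  have hrel := D.crel_nsmul hp htor (by rw [← hcdef]; exact hc) p
  rw [htor, cpt_zero, ← hcdef] at hrel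
  have hnn : w W.a₄ + w W.a₄ = (2 : ℤ) • w W.a₄ := by module
  -- `p • c = (2 m') • n`
  obtain ⟨m', hm'⟩ : ∃ m' : ℤ, (p : ℤ) • c = (2 * m') • w W.a₄ := by
    obtain ⟨m, hm | hm⟩ := hrel
    · refine ⟨-m, ?_⟩
      rw [hnn] at hm
      have : (p : ℤ) • c = -(m • ((2 : ℤ) • w W.a₄)) := by
        rw [natCast_zsmul]
        exact eq_neg_of_add_eq_zero_left hm.symm
      rw [this]
      module
    · refine ⟨m, ?_⟩
      rw [hnn] at hm
      have : (p : ℤ) • c = m • ((2 : ℤ) • w W.a₄) := by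
        rw [natCast_zsmul]
        have := hm.symm
        rw [neg_add_eq_zero] at this
        exact this
      rw [this]
      module
  have hpz : (0 : ℤ) < (p : ℤ) := by exact_mod_cast Nat.pos_of_ne_zero hp0
  have hpc : 0 < (p : ℤ) • c := zsmul_pos hc hpz
  -- bounds on `m'`
  have hm'pos : 0 < 2 * m' := by
    have : (0 : ℤ) • w W.a₄ < (2 * m') • w W.a₄ := by rw [zero_zsmul, ← hm']; exact hpc
    exact (zsmul_lt_zsmul_iff_left hn).1 this
  have hcle : c ≤ w W.a₄ := by rw [hcmin]; exact min_le_right _ _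
  have hm'le : 2 * m' ≤ p := by
    have h1 : (p : ℤ) • c ≤ (p : ℤ) • w W.a₄ := zsmul_le_zsmul_right hpz.le hcle
    rw [hm'] at h1
    exact (zsmul_le_zsmul_iff_left hn).1 h1
  have hm'lt : 2 * m' < p := by
    rcases hm'le.lt_or_eq with h1 | h1
    · exact h1
    · exfalso
      obtain ⟨r, hr⟩ := hp
      rw [hr] at h1
      push_cast at h1
      omega
  have hclt : c < w W.a₄ := by
    by_contra hcon
    have hge : w W.a₄ ≤ c := not_lt.1 hcon
    have h1 : (p : ℤ) • w W.a₄ ≤ (p : ℤ) • c := zsmul_le_zsmul_right hpz.le hge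
    rw [hm'] at h1
    have := (zsmul_le_zsmul_iff_left hn).1 h1
    omega
  have hwx : w x = c := by
    rw [hcmin] at hclt ⊢
    rcases le_total (w x) (w W.a₄) with h1 | h1
    · rw [min_eq_left h1]
    · rw [min_eq_right h1] at hclt; exact absurd hclt (lt_irrefl _)
  refine ⟨m'.toNat, ?_, ?_, ?_, ?_⟩
  · omega
  · omega
  · rw [hwx, ← natCast_zsmul, hm']
    have : (2 * m' : ℤ) = ((2 * m'.toNat : ℕ) : ℤ) := by
      push_cast
      omega
    rw [this, natCast_zsmul]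
  · rw [hwx]; exact hclt

/-- The points of odd order not reducing to the node are closed under addition. -/
theorem TBData.cpt_add_eq_zero (D : TBData W w) {P Q : W.Point}
    (gP : NoTwo P) (gPQ : NoTwo (P + Q)) (gPPQ : NoTwo (P + (P + Q))) (gQ : NoTwo Q)
    (hP : cpt w (w W.a₄) P = 0) (hQ : cpt w (w W.a₄) Q = 0) :
    cpt w (w W.a₄) (P + Q) = 0 := by
  have hn := D.wa4
  by_contra hne
  have hnonneg : 0 ≤ cpt w (w W.a₄) (P + Q) := by
    rcases P + Q with _ | ⟨x, y, h⟩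
    · exact le_rfl
    · exact cval_nonneg hn _
  have hle : cpt w (w W.a₄) (P + Q) ≤ w W.a₄ := by
    rcases P + Q with _ | ⟨x, y, h⟩
    · exact hn.le
    · exact cval_le hn _
  have hpos : 0 < cpt w (w W.a₄) (P + Q) := lt_of_le_of_ne hnonneg (Ne.symm hne)
  have e : P - (P + Q) = -Q := by abel
  have gm : NoTwo (P - (P + Q)) := by rw [e]; exact gQ.neg
  have hpair := D.pair_rule gP gPQ gPPQ gm hpos
  rw [e, cpt_neg, hP, hQ] at hpair
  unfold calpha at hpair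
  grind

theorem tb_E0_add (D : TBData W w) {p : ℕ} (hp : Odd p) {P Q : W.Point}
    (hP : p • P = 0) (hQ : p • Q = 0)
    (hcP : cpt w (w W.a₄) P = 0) (hcQ : cpt w (w W.a₄) Q = 0) :
    cpt w (w W.a₄) (P + Q) = 0 := by
  have hPQ : p • (P + Q) = 0 := by rw [nsmul_add, hP, hQ, add_zero]
  have hPPQ : p • (P + (P + Q)) = 0 := by rw [nsmul_add, hP, hPQ, add_zero]
  exact D.cpt_add_eq_zero (noTwo_of_odd_nsmul hp hP) (noTwo_of_odd_nsmul hp hPQ)
    (noTwo_of_odd_nsmul hp hPPQ) (noTwo_of_odd_nsmul hp hQ) hcP hcQ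

end additive

section multiplicative

variable {Γ₀ : Type*} [LinearOrderedCommGroupWithZero Γ₀] (v : Valuation K Γ₀)
  {W : WeierstrassCurve.Affine K}

/-- The `TBData` attached to a valuation. -/
theorem tbData_of_valuation (h3 : W.a₃ = 0) (h6 : W.a₆ = 0) (h2 : (2 : K) ≠ 0)
    (hb2 : v W.b₂ = 1) (h4 : W.a₄ ≠ 0) (hv4 : v W.a₄ < 1) : TBData W (nzvalOf v) := by
  have hb20 : W.b₂ ≠ 0 := by
    intro h0
    rw [h0] at hb2
    simp at hb2
  have hv2 : v (2 : K) ≤ 1 := by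
    have h := v.map_add (1 : K) 1
    rw [one_add_one_eq_two, map_one, max_self] at h
    exact h
  exact
    { a3 := h3, a6 := h6
      val := isNzVal_nzvalOf v
      two_ne := h2
      w2 := by
        rw [← nzvalOf_one v, nzvalOf_le_iff v one_ne_zero h2, map_one]
        exact hv2
      b2_ne := hb20
      wb2 := (nzvalOf_eq_zero_iff v hb20).2 hb2
      a4_ne := h4
      wa4 := (nzvalOf_pos_iff v h4).2 hv4 }

theorem tb_x_ne_zero (h3 : W.a₃ = 0) (h6 : W.a₆ = 0) (h2 : (2 : K) ≠ 0)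
    (hb2 : v W.b₂ = 1) (h4 : W.a₄ ≠ 0) (hv4 : v W.a₄ < 1) {p : ℕ} (hp : Odd p)
    {x y : K} (h : W.Nonsingular x y) (htor : p • Point.some x y h = 0) : x ≠ 0 := by
  have D := tbData_of_valuation v h3 h6 h2 hb2 h4 hv4
  exact D.x_ne_zero h.1 (D.eta_ne_zero (noTwo_of_odd_nsmul hp htor))

/-- **The tropical rule (2c)** together with `v a₄ < v x`. -/
theorem tb_torsion_val' (h3 : W.a₃ = 0) (h6 : W.a₆ = 0) (h2 : (2 : K) ≠ 0)
    (hb2 : v W.b₂ = 1) (h4 : W.a₄ ≠ 0) (hv4 : v W.a₄ < 1) {p : ℕ} (hp : Odd p)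
    {x y : K} (h : W.Nonsingular x y) (htor : p • Point.some x y h = 0) (hx : v x < 1) :
    ∃ j : ℕ, 0 < j ∧ 2 * j < p ∧ v x ^ p = v W.a₄ ^ (2 * j) ∧ v W.a₄ < v x := by
  have D := tbData_of_valuation v h3 h6 h2 hb2 h4 hv4
  have hx0 : x ≠ 0 := tb_x_ne_zero v h3 h6 h2 hb2 h4 hv4 hp h htor
  obtain ⟨j, hj, hjp, hw, hlt⟩ := tb_torsion_w D hp h htor ((nzvalOf_pos_iff v hx0).2 hx)
  refine ⟨j, hj, hjp, ?_, (nzvalOf_lt_iff v hx0 h4).1 hlt⟩
  rw [← (isNzVal_nzvalOf v).map_pow hx0 p, ← (isNzVal_nzvalOf v).map_pow h4 (2 * j),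
    nzvalOf_eq_iff v (pow_ne_zero p hx0) (pow_ne_zero (2 * j) h4), map_pow, map_pow] at hw
  exact hw

/-- **The tropical rule (2c)**: a point `(x, y)` of odd order `p` with `v x < 1` has
`v x ^ p = v a₄ ^ (2 j)` with `0 < 2 j < p`. -/
theorem tb_torsion_val (h3 : W.a₃ = 0) (h6 : W.a₆ = 0) (h2 : (2 : K) ≠ 0)
    (hb2 : v W.b₂ = 1) (h4 : W.a₄ ≠ 0) (hv4 : v W.a₄ < 1) {p : ℕ} (hp : Odd p)
    {x y : K} (h : W.Nonsingular x y) (htor : p • Point.some x y h = 0) (hx : v x < 1) :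
    ∃ j : ℕ, 0 < j ∧ 2 * j < p ∧ v x ^ p = v W.a₄ ^ (2 * j) := by
  obtain ⟨j, hj, hjp, hw, -⟩ := tb_torsion_val' v h3 h6 h2 hb2 h4 hv4 hp h htor hx
  exact ⟨j, hj, hjp, hw⟩

/-- Such a point is not on the "middle component": `v a₄ < v x`. -/
theorem tb_torsion_val_gt (h3 : W.a₃ = 0) (h6 : W.a₆ = 0) (h2 : (2 : K) ≠ 0)
    (hb2 : v W.b₂ = 1) (h4 : W.a₄ ≠ 0) (hv4 : v W.a₄ < 1) {p : ℕ} (hp : Odd p)
    {x y : K} (h : W.Nonsingular x y) (htor : p • Point.some x y h = 0) (hx : v x < 1) :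
    v W.a₄ < v x := by
  obtain ⟨j, -, -, -, hlt⟩ := tb_torsion_val' v h3 h6 h2 hb2 h4 hv4 hp h htor hx
  exact hlt

/-- If `v a₄ = v π ^ n` with `v π < 1` and `p ∤ n` (`p` an odd prime), then the valuation of the
`x`-coordinate of a `p`-torsion point reducing to the node is not an integral power of `v π`. -/
theorem tb_torsion_not_zpow (h3 : W.a₃ = 0) (h6 : W.a₆ = 0) (h2 : (2 : K) ≠ 0)
    (hb2 : v W.b₂ = 1) (h4 : W.a₄ ≠ 0) (hv4 : v W.a₄ < 1) {p : ℕ} (hp : p.Prime) (hp2 : p ≠ 2)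
    {π : K} (hπ0 : π ≠ 0) (hπ : v π < 1) {n : ℕ} (hn : v W.a₄ = v π ^ n) (hpn : ¬ p ∣ n)
    {x y : K} (h : W.Nonsingular x y) (htor : p • Point.some x y h = 0) (hx : v x < 1)
    (k : ℤ) : v x ≠ v π ^ k := by
  intro hk
  obtain ⟨j, hj, hjp, hw⟩ :=
    tb_torsion_val v h3 h6 h2 hb2 h4 hv4 (hp.odd_of_ne_two hp2) h htor hx
  have hvπ0 : v π ≠ 0 := (Valuation.ne_zero_iff v).2 hπ0
  rw [hk, hn, ← pow_mul, ← zpow_natCast, ← zpow_mul, ← zpow_natCast (v π)] at hw
  have hinj : Function.Injective (fun m : ℤ => v π ^ m) := by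
    have hanti : StrictAnti (fun m : ℤ => v π ^ m) :=
      zpow_right_strictAnti₀ (zero_lt_iff.2 hvπ0) hπ
    exact hanti.injective
  have hkey : k * (p : ℤ) = ((n * (2 * j) : ℕ) : ℤ) := hinj hw
  have hdvd : (p : ℤ) ∣ ((n * (2 * j) : ℕ) : ℤ) := ⟨k, by rw [← hkey]; ring⟩
  have hdvd' : p ∣ n * (2 * j) := by exact_mod_cast hdvd
  rcases (Nat.Prime.dvd_mul hp).1 hdvd' with h1 | h1
  · exact hpn h1
  · have := Nat.le_of_dvd (by omega) h1
    omega

end multiplicative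

end Fermat.Agent.S13
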