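import Fermat.Agent.S13.LocalPData

/-!
# S13 / (AT p): the local statement at `p` for the Frey curve  (OWNER: helper1)

* black-box form (hypotheses `hT` = M2 + M4 for `Wef e f`, `hR2` = (R2') at `p`):
  `s13_atp`, `s13_atp_frozen` (proved in `LocalPCore.lean` as `s13_atp_bb`,
  `s13_atp_frozen_bb`);
* with `hT` discharged (`LocalPData.lean`): `s13_wef_tors`, `s13_atp_of_R2`,
  `s13_atp_frozen_of_R2`.
-/

set_option autoImplicit false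
set_option linter.unusedSectionVars false
set_option linter.unusedVariables false

namespace Fermat.Agent.S13

open WeierstrassCurve WeierstrassCurve.Affine WeierstrassCurve.Affine.Point
open Fermat.Agent.S05

/-- **(AT p) for the Frey curve** (black-box inputs `hT`, `hR2`; see `s13_atp_of_R2` for the
version with `hT` discharged). -/
theorem s13_atp (P : FreyPackage) (A : ValuationSubring (AlgebraicClosure ℚ))
    (hA : A.LiesOverPrime P.p)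
    (hT : ∀ e f : ℤ, e ≠ 0 → f ≠ 0 → e ≠ f → S13WefTors A (e : ℚ) (f : ℚ) P.p)
    (hR2 : ∀ β : AlgebraicClosure ℚ, β ≠ 0 → (∀ σ ∈ A.inertiaSubgroupIn ℚ, σ β = β) →
      ∃ k : ℤ, A.valuation β = A.valuation ((P.p : ℕ) : AlgebraicClosure ℚ) ^ k)
    (C1 : AddSubgroup (P.freyCurve⁄(AlgebraicClosure ℚ)).Point)
    (hC1 : ∀ Q ∈ C1, P.p • Q = 0) (hC1ne : ∃ Q ∈ C1, Q ≠ 0)
    (hC1top : ∃ Q : (P.freyCurve⁄(AlgebraicClosure ℚ)).Point, P.p • Q = 0 ∧ Q ∉ C1)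
    (hC1st : ∀ σ ∈ A.inertiaSubgroupIn ℚ, ∀ Q ∈ C1, σ • Q ∈ C1) :
    (∀ σ ∈ A.inertiaSubgroupIn ℚ, ∀ Q ∈ C1, σ • Q = Q) ∨
      (∀ σ ∈ A.inertiaSubgroupIn ℚ, ∀ Q : (P.freyCurve⁄(AlgebraicClosure ℚ)).Point,
        P.p • Q = 0 → σ • Q - Q ∈ C1) :=
  s13_atp_bb P A hA hT hR2 C1 hC1 hC1ne hC1top hC1st

/-- **(AT p) for the Frey curve, in the frozen encoding** (black-box inputs `hT`, `hR2`; see
`s13_atp_frozen_of_R2` for the version with `hT` discharged). -/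
theorem s13_atp_frozen (P : FreyPackage) (A : ValuationSubring (AlgebraicClosure ℚ))
    (hA : A.LiesOverPrime P.p)
    (hT : ∀ e f : ℤ, e ≠ 0 → f ≠ 0 → e ≠ f → S13WefTors A (e : ℚ) (f : ℚ) P.p)
    (hR2 : ∀ β : AlgebraicClosure ℚ, β ≠ 0 → (∀ σ ∈ A.inertiaSubgroupIn ℚ, σ β = β) →
      ∃ k : ℤ, A.valuation β = A.valuation ((P.p : ℕ) : AlgebraicClosure ℚ) ^ k)
    (N : Submodule (ZMod P.p)
      (Submodule.torsionBy ℤ (P.freyCurve⁄(AlgebraicClosure ℚ)).Point P.p))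
    (hN0 : N ≠ ⊥) (hN1 : N ≠ ⊤)
    (hst : ∀ σ ∈ A.inertiaSubgroupIn ℚ, ∀ x ∈ N, σ • x ∈ N) :
    (∀ σ ∈ A.inertiaSubgroupIn ℚ, ∀ x ∈ N, σ • x = x) ∨
      (∀ σ ∈ A.inertiaSubgroupIn ℚ,
        ∀ x : Submodule.torsionBy ℤ (P.freyCurve⁄(AlgebraicClosure ℚ)).Point P.p,
          σ • x - x ∈ N) :=
  s13_atp_frozen_bb P A hA hT hR2 N hN0 hN1 hst

end Fermat.Agent.S13
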