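import Fermat.Agent.S13.LocalPGoodA

/-!
# S13 / M9 (part C): the "Eisenstein" argument  (OWNER: helper2)

`K` an algebraically closed field with a valuation `v`, `C : K[X]` of degree `d` with
`v (C.coeff 0) = 1`, `v C.leadingCoeff = v π` and such that every coefficient `c` of `C` satisfies
`v c = 1 ∨ v c ≤ v π` (e.g. `C` has integer coefficients and `π = p` is the residue
characteristic).  If ALL roots of `C` are non-integral (`1 < v x`) then every root `x` satisfies
`v x ^ d * v π = 1`.
-/

set_option autoImplicit false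
set_option linter.unusedSectionVars false
set_option linter.unusedVariables false

namespace Fermat.Agent.S13

open Polynomial

section Eis

variable {K : Type*} [Field K] {Γ₀ : Type*} [LinearOrderedCommGroupWithZero Γ₀]
  (v : Valuation K Γ₀)

/-- The product of the `1 - y X`, `y` running over a multiset of elements of valuation `< 1`,
has constant coefficient `1`, integral coefficients, and all other coefficients of valuation
`< 1`. -/
lemma s13_lpg_prod_coeff (s : Multiset K) (hs : ∀ y ∈ s, v y < 1) :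
    ((s.map (fun y => (1 : K[X]) - C y * X)).prod.coeff 0 = 1) ∧
    (∀ k, v ((s.map (fun y => (1 : K[X]) - C y * X)).prod.coeff k) ≤ 1) ∧
    (∀ k, 1 ≤ k → v ((s.map (fun y => (1 : K[X]) - C y * X)).prod.coeff k) < 1) := by
  induction s using Multiset.induction_on with
  | empty =>
    refine ⟨by simp, fun k => ?_, fun k hk => ?_⟩
    · simp only [Multiset.map_zero, Multiset.prod_zero, coeff_one]
      split_ifs
      · rw [map_one]
      · rw [map_zero]; exact zero_le_one
    · simp only [Multiset.map_zero, Multiset.prod_zero, coeff_one]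
      rw [if_neg (by omega), map_zero]
      exact zero_lt_one
  | cons a s ih =>
    have ha : v a < 1 := hs a (Multiset.mem_cons_self a s)
    obtain ⟨ih0, ihle, ihlt⟩ := ih (fun y hy => hs y (Multiset.mem_cons_of_mem hy))
    set R := (s.map (fun y => (1 : K[X]) - C y * X)).prod with hR
    have hprod : ((a ::ₘ s).map (fun y => (1 : K[X]) - C y * X)).prod = R - C a * (X * R) := by
      rw [Multiset.map_cons, Multiset.prod_cons]
      ring
    rw [hprod]
    have hc0 : (R - C a * (X * R)).coeff 0 = 1 := by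
      rw [coeff_sub, coeff_C_mul, coeff_X_mul_zero, mul_zero, sub_zero, ih0]
    have hck : ∀ k, (R - C a * (X * R)).coeff (k + 1) = R.coeff (k + 1) - a * R.coeff k := by
      intro k
      rw [coeff_sub, coeff_C_mul, coeff_X_mul]
    refine ⟨hc0, fun k => ?_, fun k hk => ?_⟩
    · rcases k with _ | k
      · rw [hc0, map_one]
      · rw [hck]
        exact Valuation.map_sub_le v (ihle _) (s13_lpg_le_mul v ha.le (ihle _))
    · obtain ⟨k, rfl⟩ : ∃ j, k = j + 1 := ⟨k - 1, by omega⟩
      rw [hck]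
      exact Valuation.map_sub_lt v (ihlt _ (by omega)) (s13_lpg_lt_mul_left v ha (ihle _))

variable [IsAlgClosed K]

/-- If all roots of `P` are non-integral and the constant coefficient is a unit, then all other
coefficients have valuation `< 1`. -/
lemma s13_lpg_coeff_lt (P : K[X]) (h0 : v (P.coeff 0) = 1)
    (hroots : ∀ x, P.IsRoot x → 1 < v x) (k : ℕ) (hk : 1 ≤ k) : v (P.coeff k) < 1 := by
  have hP0 : P ≠ 0 := by
    rintro rfl
    rw [coeff_zero, map_zero] at h0
    exact zero_ne_one h0
  have hsplit : P.Splits := IsAlgClosed.splits P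
  have hfac := hsplit.eq_prod_roots
  -- each factor
  have hroot_ne : ∀ x ∈ P.roots, x ≠ 0 := fun x hx =>
    s13_lpg_ne_zero_of_lt v (hroots x ((mem_roots hP0).1 hx))
  have hfactor : (P.roots.map (fun x => X - C x)).prod =
      C ((P.roots.map (fun x => -x)).prod) *
        ((P.roots.map (fun x => x⁻¹)).map (fun y => (1 : K[X]) - C y * X)).prod := by
    rw [Multiset.map_map]
    have : ∀ x ∈ P.roots, (X - C x : K[X]) = C (-x) * (((fun y => (1 : K[X]) - C y * X) ∘
        fun x => x⁻¹) x) := by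
      intro x hx
      have hx0 := hroot_ne x hx
      simp only [Function.comp]
      rw [mul_sub, mul_one, ← mul_assoc, ← C_mul, neg_mul, mul_inv_cancel₀ hx0]
      simp
      ring
    rw [Multiset.map_congr rfl this, Multiset.prod_map_mul, ← Multiset.prod_hom _ (C : K →+* K[X]),
      Multiset.map_map]
    rfl
  set R := ((P.roots.map (fun x => x⁻¹)).map (fun y => (1 : K[X]) - C y * X)).prod with hR
  set κ := P.leadingCoeff * (P.roots.map (fun x => -x)).prod with hκ
  have hPR : P = C κ * R := by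
    conv_lhs => rw [hfac]
    rw [hfactor, hκ, C_mul, mul_assoc]
  obtain ⟨hR0, -, hRlt⟩ := s13_lpg_prod_coeff v (P.roots.map (fun x => x⁻¹)) (by
    intro y hy
    obtain ⟨x, hx, rfl⟩ := Multiset.mem_map.1 hy
    exact s13_lpg_inv_lt v (hroots x ((mem_roots hP0).1 hx)))
  have hκ1 : v κ = 1 := by
    have : P.coeff 0 = κ := by
      conv_lhs => rw [hPR]
      rw [coeff_C_mul, hR0, mul_one]
    rw [← this, h0]
  conv_lhs => rw [hPR]
  rw [coeff_C_mul, map_mul, hκ1, one_mul]
  exact hRlt k hk

end Eis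

section Eis2

variable {K : Type*} [Field K] {Γ₀ : Type*} [LinearOrderedCommGroupWithZero Γ₀]
  (v : Valuation K Γ₀) [IsAlgClosed K]

/-- **Eisenstein argument**: all roots non-integral, constant coefficient a unit, leading
coefficient of valuation `v π`, coefficients units or of valuation `≤ v π`: then every root `x`
satisfies `v x ^ d * v π = 1`, `d` the degree. -/
theorem s13_lpg_root_val (P : K[X]) {π : K} {d : ℕ} (hd : P.natDegree = d) (hd1 : 1 ≤ d)
    (h0 : v (P.coeff 0) = 1) (hlc : v P.leadingCoeff = v π)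
    (hint : ∀ k, v (P.coeff k) = 1 ∨ v (P.coeff k) ≤ v π)
    (hroots : ∀ x, P.IsRoot x → 1 < v x) {x : K} (hx : P.IsRoot x) : v x ^ d * v π = 1 := by
  obtain ⟨d', rfl⟩ : ∃ j, d = j + 1 := ⟨d - 1, by omega⟩
  have hP0 : P ≠ 0 := by
    rintro rfl
    rw [coeff_zero, map_zero] at h0
    exact zero_ne_one h0
  have hlc0 : P.leadingCoeff ≠ 0 := leadingCoeff_ne_zero.2 hP0
  have hπ0 : v π ≠ 0 := by rw [← hlc]; exact (Valuation.ne_zero_iff v).2 hlc0
  have hπpos : 0 < v π := zero_lt_iff.2 hπ0
  have hx1 : 1 < v x := hroots x hx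
  have hx0 : x ≠ 0 := s13_lpg_ne_zero_of_lt v hx1
  have hy : v x⁻¹ < 1 := s13_lpg_inv_lt v hx1
  have hsmall : ∀ k, 1 ≤ k → v (P.coeff k) ≤ v π := by
    intro k hk
    rcases hint k with h | h
    · exact absurd h (s13_lpg_coeff_lt v P h0 hroots k hk).ne
    · exact h
  have heval : P.eval x = 0 := hx
  rw [eval_eq_sum_range, hd, Finset.sum_range_succ, Finset.sum_range_succ'] at heval
  -- multiply by `y ^ (d' + 1)`
  have hmul : (∑ k ∈ Finset.range d', P.coeff (k + 1) * x⁻¹ ^ (d' - k)) +
      P.coeff 0 * x⁻¹ ^ (d' + 1) + P.coeff (d' + 1) = 0 := by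
    have h1 : (∑ k ∈ Finset.range d', P.coeff (k + 1) * x⁻¹ ^ (d' - k)) =
        (∑ k ∈ Finset.range d', P.coeff (k + 1) * x ^ (k + 1)) * x⁻¹ ^ (d' + 1) := by
      rw [Finset.sum_mul]
      apply Finset.sum_congr rfl
      intro k hk
      have hk' : k < d' := Finset.mem_range.1 hk
      have e1 : d' + 1 = (d' - k) + (k + 1) := by omega
      rw [mul_assoc]
      congr 1
      have e2 : x⁻¹ ^ (d' + 1) = x⁻¹ ^ (d' - k) * x⁻¹ ^ (k + 1) := by
        rw [← pow_add, ← e1]
      rw [e2, mul_comm (x⁻¹ ^ (d' - k)), ← mul_assoc, ← mul_pow,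
        mul_inv_cancel₀ hx0, one_pow, one_mul]
    have h2 : P.coeff (d' + 1) = P.coeff (d' + 1) * x ^ (d' + 1) * x⁻¹ ^ (d' + 1) := by
      rw [mul_assoc, ← mul_pow, mul_inv_cancel₀ hx0, one_pow, mul_one]
    have h3 : P.coeff 0 * x⁻¹ ^ (d' + 1) = P.coeff 0 * x ^ 0 * x⁻¹ ^ (d' + 1) := by
      rw [pow_zero, mul_one]
    rw [h1, h3, h2, ← add_mul, ← add_mul, heval, zero_mul]
  have hmid : v (∑ k ∈ Finset.range d', P.coeff (k + 1) * x⁻¹ ^ (d' - k)) < v π := by
    apply Valuation.map_sum_lt v hπ0
    intro k hk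
    have hk' : k < d' := Finset.mem_range.1 hk
    rw [map_mul, map_pow]
    have hpow : v x⁻¹ ^ (d' - k) < 1 := pow_lt_one₀ zero_le hy (by omega)
    calc v (P.coeff (k + 1)) * v x⁻¹ ^ (d' - k) ≤ v π * v x⁻¹ ^ (d' - k) :=
          mul_le_mul_left (hsmall (k + 1) (by omega)) _
      _ < v π * 1 := mul_lt_mul_of_pos_left hpow hπpos
      _ = v π := mul_one _
  have hlc' : v (P.coeff (d' + 1)) = v π := by
    rw [← hlc, leadingCoeff, hd]
  have hkey : P.coeff 0 * x⁻¹ ^ (d' + 1) =
      -((∑ k ∈ Finset.range d', P.coeff (k + 1) * x⁻¹ ^ (d' - k)) + P.coeff (d' + 1)) := by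
    linear_combination hmul
  have hval := congrArg v hkey
  rw [Valuation.map_neg, Valuation.map_add_eq_of_lt_right v (by rw [hlc']; exact hmid), hlc',
    map_mul, h0, one_mul, map_pow, map_inv₀] at hval
  rw [← hval, ← mul_pow, mul_inv_cancel₀ ((Valuation.ne_zero_iff v).2 hx0), one_pow]

end Eis2

end Fermat.Agent.S13
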