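import Fermat.Agent.S13.LocalPGoodB
import Fermat.Agent.S13.LocalPGoodC

/-!
# S13 / M9: the statement (AT p) in the GOOD case  (OWNER: helper2)

`W : Y² = X (X - e) (X - f)` over `F`, `K / F` an algebraically closed extension with a valuation
`v`, GOOD reduction: `v 2 = 1`, `v e = v f = v (f - e) = 1`; `p` an odd prime.
`I` a subgroup of `K ≃ₐ[F] K` ("inertia": `v x ≤ 1 → v (σ x - x) < 1`).
Black boxes (hypotheses of `s13_lpg_atp_good`):
* (T1) the `p`-torsion of `W(K)` is finite with at most `p²` elements;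
* (M4) the division polynomial `C`: degree `d`, `2 d + 1 = p²`, `v (leading coeff) = v p`,
  unit constant coefficient, coefficients units or of valuation `≤ v p`,
  roots = `x`-coordinates of the nonzero `p`-torsion points;
* (R3) the orbit lemma: `v α ^ d * v p = 1` implies that every finite set containing the
  `I`-orbit of `α` has at least `d` elements.
Conclusion, for an `I`-stable subgroup `C1` of the `p`-torsion with `C1 ≠ 0`, `C1 ≠` everything:
`I` acts trivially on `C1`, or `I` acts trivially on `V / C1`.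
-/

set_option autoImplicit false
set_option linter.unusedSectionVars false
set_option linter.unusedVariables false

namespace Fermat.Agent.S13

open WeierstrassCurve WeierstrassCurve.Affine WeierstrassCurve.Affine.Point

section Grp

variable {G : Type*} [AddCommGroup G]

/-- the `p`-torsion subgroup. -/
def s13_lpg_tors (G : Type*) [AddCommGroup G] (p : ℕ) : AddSubgroup G where
  carrier := {P | p • P = 0}
  add_mem' := fun {a b} ha hb => by
    show p • (a + b) = 0
    rw [smul_add, ha, hb, add_zero]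
  zero_mem' := smul_zero p
  neg_mem' := fun {a} ha => by
    show p • (-a) = 0
    rw [smul_neg, ha, _root_.neg_zero]

lemma s13_lpg_mem_tors {p : ℕ} {P : G} : P ∈ s13_lpg_tors G p ↔ p • P = 0 := Iff.rfl

/-- a finite additive group killed by `p` has `p`-power order. -/
lemma s13_lpg_card_pow {p : ℕ} (hp : p.Prime) (Z : AddSubgroup G) [Finite Z]
    (hZ : ∀ P ∈ Z, p • P = 0) : ∃ n, Nat.card Z = p ^ n := by
  have : Fact p.Prime := ⟨hp⟩
  have hpg : IsPGroup p (Multiplicative Z) := by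
    intro g
    refine ⟨1, ?_⟩
    rw [pow_one]
    have h1 : p • (Multiplicative.toAdd g : Z) = 0 := by
      apply Subtype.ext
      rw [AddSubgroup.coe_nsmul]
      exact hZ _ (Multiplicative.toAdd g).2
    exact congrArg Multiplicative.ofAdd h1
  have : Finite (Multiplicative Z) := inferInstanceAs (Finite Z)
  obtain ⟨n, hn⟩ := (IsPGroup.iff_card).1 hpg
  exact ⟨n, by rw [← hn]; rfl⟩

/-- a proper subgroup of the `p`-torsion has at most `p` elements, if the `p`-torsion has at most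
`p²` elements. -/
lemma s13_lpg_card_le {p : ℕ} (hp : p.Prime)
    (hfin : {P : G | p • P = 0}.Finite) (hcard : {P : G | p • P = 0}.ncard ≤ p ^ 2)
    (Z : AddSubgroup G) (hZ : ∀ P ∈ Z, p • P = 0) (hne : ∃ P, p • P = 0 ∧ P ∉ Z) :
    Finite Z ∧ ∃ m, m ≤ 1 ∧ Nat.card Z = p ^ m := by
  set V := s13_lpg_tors G p with hV
  have hVfin : Finite V := hfin.to_subtype
  have hZV : Z ≤ V := fun P hP => hZ P hP
  have hZfin : Finite Z := Finite.of_injective (AddSubgroup.inclusion hZV)
    (AddSubgroup.inclusion_injective hZV)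
  refine ⟨hZfin, ?_⟩
  obtain ⟨n, hn⟩ := s13_lpg_card_pow hp V (fun P hP => hP)
  obtain ⟨m, hm⟩ := s13_lpg_card_pow hp Z hZ
  have hVcard : Nat.card V = {P : G | p • P = 0}.ncard := by
    rw [← Nat.card_coe_set_eq]; rfl
  have hn2 : n ≤ 2 := by
    have : p ^ n ≤ p ^ 2 := by rw [← hn, hVcard]; exact hcard
    exact (Nat.pow_le_pow_iff_right hp.one_lt).1 this
  have hdvd : Nat.card Z ∣ Nat.card V := AddSubgroup.card_dvd_of_le hZV
  have hmn : m ≤ n := by
    rw [hm, hn] at hdvd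
    exact (Nat.pow_dvd_pow_iff_le_right hp.one_lt).1 hdvd
  have hlt : m ≠ n := by
    rintro rfl
    obtain ⟨P, hP, hPZ⟩ := hne
    have : Z = V := by
      apply AddSubgroup.eq_of_le_of_card_ge hZV
      rw [hm, hn]
    rw [this] at hPZ
    exact hPZ hP
  exact ⟨m, by omega, hm⟩

/-- a proper subgroup of a group of order `≤ p` is trivial. -/
lemma s13_lpg_eq_bot {p : ℕ} (hp : p.Prime) (Z Z' : AddSubgroup G) [Finite Z]
    (hcard : ∃ m, m ≤ 1 ∧ Nat.card Z = p ^ m) (hle : Z' ≤ Z) (hne : Z' ≠ Z) : Z' = ⊥ := by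
  obtain ⟨m, hm1, hm⟩ := hcard
  have : Finite Z' := Finite.of_injective (AddSubgroup.inclusion hle)
    (AddSubgroup.inclusion_injective hle)
  have hdvd : Nat.card Z' ∣ Nat.card Z := AddSubgroup.card_dvd_of_le hle
  have hcne : Nat.card Z' ≠ Nat.card Z := by
    intro h
    exact hne (AddSubgroup.eq_of_le_of_card_ge hle h.ge)
  rw [hm] at hdvd hcne
  have h1 : Nat.card Z' = 1 := by
    interval_cases m
    · rw [pow_zero] at hdvd hcne
      exact absurd (Nat.dvd_one.1 hdvd) hcne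
    · rw [pow_one] at hdvd hcne
      rcases (Nat.dvd_prime hp).1 hdvd with h | h
      · exact h
      · exact absurd h hcne
  exact (AddSubgroup.card_eq_one).1 h1

end Grp

section Main

variable {F K : Type*} [Field F] [Field K] [DecidableEq K] [Algebra F K] [IsAlgClosed K]
  {Γ₀ : Type*} [LinearOrderedCommGroupWithZero Γ₀] (v : Valuation K Γ₀)

/-- the `x`-coordinate of a point (junk value `0` at `O`). -/
def s13_lpg_xc {W : Affine K} : W.Point → K
  | .zero => 0
  | .some x _ _ => x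

@[simp] lemma s13_lpg_xc_some {W : Affine K} {x y : K} (h : W.Nonsingular x y) :
    s13_lpg_xc (Point.some x y h) = x := rfl

/-- **(AT p), GOOD case.** -/
theorem s13_lpg_atp_good (W : Affine F) (e f : F) (h1 : W.a₁ = 0) (h3 : W.a₃ = 0)
    (h2 : W.a₂ = -(e + f)) (h4 : W.a₄ = e * f) (h6 : W.a₆ = 0)
    {p : ℕ} (hp : p.Prime) (hp2 : p ≠ 2) (hv2 : v (2 : K) = 1)
    (he : v (algebraMap F K e) = 1) (hf : v (algebraMap F K f) = 1)
    (hfe : v (algebraMap F K (f - e)) = 1)
    -- (T1)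
    (hfin : {P : (W⁄K).Point | p • P = 0}.Finite)
    (hcard : {P : (W⁄K).Point | p • P = 0}.ncard ≤ p ^ 2)
    -- (M4)
    (C : Polynomial K) {d : ℕ} (hd : 2 * d + 1 = p ^ 2) (hCdeg : C.natDegree = d)
    (hClc : v C.leadingCoeff = v (p : K)) (hC0 : v (C.coeff 0) = 1)
    (hCint : ∀ k, v (C.coeff k) = 1 ∨ v (C.coeff k) ≤ v (p : K))
    (hCroot : ∀ x : K, C.IsRoot x → ∃ (y : K) (h : (W⁄K).Nonsingular x y),
      p • Point.some x y h = 0)
    (hCtors : ∀ (x y : K) (h : (W⁄K).Nonsingular x y), p • Point.some x y h = 0 → C.IsRoot x)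
    -- inertia and (R3)
    (I : Subgroup (K ≃ₐ[F] K)) (hI : ∀ σ ∈ I, ∀ x : K, v x ≤ 1 → v (σ x - x) < 1)
    (hR3 : ∀ (α : K) (S : Finset K), (∀ σ ∈ I, σ α ∈ S) → v α ^ d * v (p : K) = 1 → d ≤ S.card)
    -- the line
    (C1 : AddSubgroup (W⁄K).Point) (hC1 : ∀ P ∈ C1, p • P = 0) (hC1ne : ∃ P ∈ C1, P ≠ 0)
    (hC1top : ∃ P : (W⁄K).Point, p • P = 0 ∧ P ∉ C1)
    (hC1st : ∀ σ ∈ I, ∀ P ∈ C1, σ • P ∈ C1) :
    (∀ σ ∈ I, ∀ P ∈ C1, σ • P = P) ∨
      (∀ σ ∈ I, ∀ P : (W⁄K).Point, p • P = 0 → σ • P - P ∈ C1) := by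
  have hodd : Odd p := hp.odd_of_ne_two hp2
  have hp3 : 3 ≤ p := by
    have := hp.two_le
    omega
  -- coefficients of the base change
  have k1 : (W⁄K).a₁ = 0 := by simp [h1]
  have k3 : (W⁄K).a₃ = 0 := by simp [h3]
  have k2 : (W⁄K).a₂ = -(algebraMap F K e + algebraMap F K f) := by simp [h2]
  have k4 : (W⁄K).a₄ = algebraMap F K e * algebraMap F K f := by simp [h4]
  have k6 : (W⁄K).a₆ = 0 := by simp [h6]
  have h20 : (2 : K) ≠ 0 := s13_lpg_two_ne_zero v hv2
  have ha2 : v (W⁄K).a₂ ≤ 1 := by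
    rw [k2, Valuation.map_neg]; exact Valuation.map_add_le v he.le hf.le
  have ha4 : v (W⁄K).a₄ ≤ 1 := by rw [k4, map_mul, he, hf, mul_one]
  have ha6 : v (W⁄K).a₆ ≤ 1 := by rw [k6, _root_.map_zero]; exact zero_le_one
  -- `σ • P - P` is torsion and in `E1`
  have hdiff : ∀ σ ∈ I, ∀ P : (W⁄K).Point, p • P = 0 →
      p • (σ • P - P) = 0 ∧ s13_lpg_E1 v (σ • P - P) := by
    intro σ hσ P hP
    refine ⟨?_, s13_lpg_same_red v σ (hI σ hσ) W e f h1 h3 h2 h4 h6 hodd hv2 he hf hfe P hP⟩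
    rw [smul_sub, ← Fermat.Agent.S05.local_smul_nsmul, hP, sub_zero]
    rfl
  -- the two cases
  by_cases hSS : ∀ P : (W⁄K).Point, p • P = 0 → s13_lpg_E1 v P
  · -- SS: contradiction
    exfalso
    have hroots : ∀ x, C.IsRoot x → 1 < v x := by
      intro x hx
      obtain ⟨y, h, htor⟩ := hCroot x hx
      exact hSS _ htor
    obtain ⟨P, hPC1, hP0⟩ := hC1ne
    rcases P with _ | ⟨x, y, h⟩
    · exact hP0 rfl
    have hxroot : C.IsRoot x := hCtors x y h (hC1 _ hPC1)
    have hd1 : 1 ≤ d := by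
      have : 9 ≤ p ^ 2 := by nlinarith
      omega
    have hval := s13_lpg_root_val v C hCdeg hd1 hC0 hClc hCint hroots hxroot
    -- the finite set of `x`-coordinates of `C1`
    have hC1fin : (C1 : Set (W⁄K).Point).Finite := hfin.subset (fun Q hQ => hC1 Q hQ)
    obtain ⟨hZfin, m, hm1, hm⟩ := s13_lpg_card_le hp hfin hcard C1 hC1 hC1top
    have hcardC1 : hC1fin.toFinset.card ≤ p := by
      have e1 : hC1fin.toFinset.card = Nat.card C1 := by
        rw [← Set.ncard_eq_toFinset_card _ hC1fin, ← Nat.card_coe_set_eq]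
        rfl
      rw [e1, hm]
      calc p ^ m ≤ p ^ 1 := Nat.pow_le_pow_right hp.pos hm1
        _ = p := pow_one p
    have hS := hR3 x (hC1fin.toFinset.image s13_lpg_xc) (by
      intro σ hσ
      obtain ⟨h', hsmul⟩ := Fermat.Agent.S05.local_smul_some σ W h
      have hmem : σ • Point.some x y h ∈ C1 := hC1st σ hσ _ hPC1
      rw [Finset.mem_image]
      refine ⟨σ • Point.some x y h, ?_, ?_⟩
      · rw [Set.Finite.mem_toFinset]; exact hmem
      · rw [hsmul]; rfl) hval
    have hle : d ≤ p := le_trans hS (le_trans Finset.card_image_le hcardC1)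
    nlinarith
  · -- ORD
    obtain ⟨P0, hP0⟩ := not_forall.1 hSS
    obtain ⟨hP0tor, hP0E⟩ := Classical.not_imp.1 hP0
    set E := s13_lpg_E1sub v k1 k3 ha2 ha4 ha6 h20 with hE
    set Z := E ⊓ s13_lpg_tors (W⁄K).Point p with hZ
    have hZtor : ∀ P ∈ Z, p • P = 0 := fun P hP => hP.2
    obtain ⟨hZfin, hZcard⟩ := s13_lpg_card_le hp hfin hcard Z hZtor
      ⟨P0, hP0tor, fun h => hP0E h.1⟩
    have hdiffZ : ∀ σ ∈ I, ∀ P : (W⁄K).Point, p • P = 0 → σ • P - P ∈ Z := by
      intro σ hσ P hP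
      obtain ⟨ht, hE1⟩ := hdiff σ hσ P hP
      exact ⟨hE1, ht⟩
    by_cases hZC : Z ≤ C1
    · right
      intro σ hσ P hP
      exact hZC (hdiffZ σ hσ P hP)
    · left
      have hbot : Z ⊓ C1 = ⊥ := by
        apply s13_lpg_eq_bot hp Z (Z ⊓ C1) hZcard inf_le_left
        intro h
        exact hZC (h ▸ inf_le_right)
      intro σ hσ P hP
      have hmem : σ • P - P ∈ Z ⊓ C1 :=
        ⟨hdiffZ σ hσ P (hC1 P hP), C1.sub_mem (hC1st σ hσ P hP) hP⟩
      rw [hbot, AddSubgroup.mem_bot] at hmem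
      exact sub_eq_zero.1 hmem

end Main

end Fermat.Agent.S13
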