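import Fermat.Agent.S05.Assembly
import Fermat.Agent.S13.LocalPMult
import Fermat.Agent.S13.LocalPGood
import Fermat.Agent.S13.OrbitLemma
import Fermat.Agent.S13.RamGlueBasic

/-!
# S13 / (AT p): the local statement at `p` for the Frey curve, black-box form
(OWNER: helper1)

For a valuation subring `A` of `ℚ̄` over `p` and an `I_A`-stable line `C1` in the `p`-torsion
`V` of the Frey curve: `I_A` acts trivially on `C1`, or `I_A` acts trivially on `V / C1`.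

* `S13WefTors`      : the division-polynomial input (M2 + M4) for `Y² = X (X - e) (X - f)`.
* `s13_atp_of_data` : transfer of `s13_lpg_atp_good` (M9) / `s13_lpm_main` (M10) to the Frey
  curve along the S05 transfer map.
* `s13_atp_bb`      : the case analysis `p ∣ a`, `p ∣ b`, `p ∣ c`, `p ∤ a b c`.

Black-box inputs: `hT` (M2 + M4 for the curves `Wef e f`, `e f : ℤ`) and `hR2` ((R2') of M5 at
`q = p`, used only in the GOOD case).
-/

set_option autoImplicit false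
set_option linter.unusedSectionVars false
set_option linter.unusedVariables false

namespace Fermat.Agent.S13

open WeierstrassCurve WeierstrassCurve.Affine WeierstrassCurve.Affine.Point
open Fermat.Agent.S05

/-- The division-polynomial input (M2 + M4) for `Y² = X (X - e) (X - f)` over `ℚ̄` at a
valuation subring `A`: the `p`-torsion is finite with at most `p²` elements, and there is a
polynomial `C` (the `p`-th division polynomial, of degree `d = (p² - 1)/2`) whose roots are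
exactly the `x`-coordinates of the nonzero `p`-torsion points, with `v (lc C) = v p`,
`v (C 0) = v (e f) ^ k`, `k ≥ 1`, and coefficients which are units or divisible by `p`. -/
structure S13WefTors (A : ValuationSubring (AlgebraicClosure ℚ)) (e f : ℚ) (p : ℕ) : Prop where
  fin : {Q : ((Wef e f)⁄(AlgebraicClosure ℚ)).Point | p • Q = 0}.Finite
  card : {Q : ((Wef e f)⁄(AlgebraicClosure ℚ)).Point | p • Q = 0}.ncard ≤ p ^ 2
  poly : ∃ (C : Polynomial (AlgebraicClosure ℚ)) (d k : ℕ), 2 * d + 1 = p ^ 2 ∧ 0 < k ∧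
    C.natDegree = d ∧
    A.valuation C.leadingCoeff = A.valuation ((p : ℕ) : AlgebraicClosure ℚ) ∧
    A.valuation (C.coeff 0) = A.valuation (algebraMap ℚ (AlgebraicClosure ℚ) (e * f)) ^ k ∧
    (∀ i : ℕ, A.valuation (C.coeff i) = 1 ∨
      A.valuation (C.coeff i) ≤ A.valuation ((p : ℕ) : AlgebraicClosure ℚ)) ∧
    (∀ x : AlgebraicClosure ℚ, C.IsRoot x →
      ∃ (y : AlgebraicClosure ℚ) (h : ((Wef e f)⁄(AlgebraicClosure ℚ)).Nonsingular x y),
        p • Point.some x y h = 0) ∧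
    (∀ (x y : AlgebraicClosure ℚ) (h : ((Wef e f)⁄(AlgebraicClosure ℚ)).Nonsingular x y),
        p • Point.some x y h = 0 → C.IsRoot x)

/-- (AT p) for the Frey curve, given the transfer data `(τ, e, f)` and the GOOD/MULT
alternative. -/
theorem s13_atp_of_data (P : FreyPackage) (A : ValuationSubring (AlgebraicClosure ℚ))
    (hA : A.LiesOverPrime P.p) (τ e f : ℚ)
    (k₂ : -(e + f) = 1 + 3 * τ + 4 * P.freyCurve.a₂)
    (k₄ : e * f = 16 * P.freyCurve.a₄ + 3 * τ ^ 2 + 2 * τ + 8 * P.freyCurve.a₂ * τ)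
    (k₆ : τ * (τ + e) * (τ + f) = 0)
    (hcase : (A.valuation (algebraMap ℚ (AlgebraicClosure ℚ) e) = 1 ∧
        A.valuation (algebraMap ℚ (AlgebraicClosure ℚ) f) = 1 ∧
        A.valuation (algebraMap ℚ (AlgebraicClosure ℚ) (f - e)) = 1) ∨
      (∃ ε : ℚ, ε ≠ 0 ∧ A.valuation (algebraMap ℚ (AlgebraicClosure ℚ) ε) < 1 ∧
        A.valuation (algebraMap ℚ (AlgebraicClosure ℚ) ε) ≤
          A.valuation ((P.p : ℕ) : AlgebraicClosure ℚ) ∧ e = ε ^ P.p ∧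
        A.valuation (algebraMap ℚ (AlgebraicClosure ℚ) f) = 1 ∧
        A.valuation (algebraMap ℚ (AlgebraicClosure ℚ) (f - e)) = 1))
    (hT : S13WefTors A e f P.p)
    (hR2 : ∀ β : AlgebraicClosure ℚ, β ≠ 0 → (∀ σ ∈ A.inertiaSubgroupIn ℚ, σ β = β) →
      ∃ k : ℤ, A.valuation β = A.valuation ((P.p : ℕ) : AlgebraicClosure ℚ) ^ k)
    (C1 : AddSubgroup (P.freyCurve⁄(AlgebraicClosure ℚ)).Point)
    (hC1 : ∀ Q ∈ C1, P.p • Q = 0) (hC1ne : ∃ Q ∈ C1, Q ≠ 0)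
    (hC1top : ∃ Q : (P.freyCurve⁄(AlgebraicClosure ℚ)).Point, P.p • Q = 0 ∧ Q ∉ C1)
    (hC1st : ∀ σ ∈ A.inertiaSubgroupIn ℚ, ∀ Q ∈ C1, σ • Q ∈ C1) :
    (∀ σ ∈ A.inertiaSubgroupIn ℚ, ∀ Q ∈ C1, σ • Q = Q) ∨
      (∀ σ ∈ A.inertiaSubgroupIn ℚ, ∀ Q : (P.freyCurve⁄(AlgebraicClosure ℚ)).Point,
        P.p • Q = 0 → σ • Q - Q ∈ C1) := by
  obtain ⟨Φ, hΦinj, hΦσ⟩ := transfer_exists (K := AlgebraicClosure ℚ) P.freyCurve τ e f rfl rfl rfl
    k₂ k₄ k₆
  have hq := P.pp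
  have hp2 : P.p ≠ 2 := by have := P.hp5; omega
  have h2A : A.valuation (2 : AlgebraicClosure ℚ) = 1 := by
    have := val_natCast_eq_one_of_not_dvd A hq hA (m := 2)
      (fun h => hp2 ((Nat.prime_dvd_prime_iff_eq hq Nat.prime_two).1 h))
    simpa using this
  obtain ⟨C, d, k, hd, hk, hCdeg, hlc, hc0, hCint, hCroot, hCtors⟩ := hT.poly
  -- the image of `C1`
  have hC1' : ∀ R ∈ C1.map Φ, P.p • R = 0 := by
    rintro _ ⟨Q, hQ, rfl⟩
    rw [← map_nsmul, hC1 Q hQ, _root_.map_zero]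
  have hC1st' : ∀ σ ∈ A.inertiaSubgroupIn ℚ, ∀ R ∈ C1.map Φ, σ • R ∈ C1.map Φ := by
    rintro σ hσ _ ⟨Q, hQ, rfl⟩
    exact ⟨σ • Q, hC1st σ hσ Q hQ, hΦσ σ Q⟩
  have key : (∀ σ ∈ A.inertiaSubgroupIn ℚ, ∀ R ∈ C1.map Φ, σ • R = R) ∨
      (∀ σ ∈ A.inertiaSubgroupIn ℚ, ∀ R : ((Wef e f)⁄(AlgebraicClosure ℚ)).Point,
        P.p • R = 0 → σ • R - R ∈ C1.map Φ) := by
    rcases hcase with ⟨he, hf, hfe⟩ | ⟨ε, hε0, hε, hεp, heε, hf, hfe⟩
    · -- GOOD
      have hd0 : 0 < d := by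
        have := P.hp5
        have h25 : 5 ^ 2 ≤ P.p ^ 2 := Nat.pow_le_pow_left this 2
        omega
      have hp0 : ((P.p : ℕ) : AlgebraicClosure ℚ) ≠ 0 := Nat.cast_ne_zero.2 P.pp.ne_zero
      have hp1 : A.valuation ((P.p : ℕ) : AlgebraicClosure ℚ) < 1 := A.mem_nonunits_iff.1 hA
      refine s13_lpg_atp_good A.valuation (Wef e f) e f rfl rfl rfl rfl rfl P.pp hp2 h2A he hf hfe
        hT.fin hT.card C hd hCdeg hlc ?_ hCint hCroot hCtors (A.inertiaSubgroupIn ℚ)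
        (fun σ hσ => local_inertia_val A σ hσ) ?_ (C1.map Φ) hC1' ?_ ?_ hC1st'
      · rw [hc0, map_mul, map_mul, he, hf, one_mul, one_pow]
      · intro α S hS hα
        haveI : Algebra.IsAlgebraic ℚ (AlgebraicClosure ℚ) := AlgebraicClosure.isAlgebraic ℚ
        exact s13_orbit_card A.valuation (A.inertiaSubgroupIn ℚ)
          (fun σ hσ x => rg_valuation_map_inertia A σ hσ x) hp0 hp1 hR2 hd0 hα S hS
      · obtain ⟨Q, hQ, hQ0⟩ := hC1ne
        refine ⟨Φ Q, ⟨Q, hQ, rfl⟩, ?_⟩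
        intro h0
        apply hQ0
        apply hΦinj
        rw [h0, _root_.map_zero]
      · obtain ⟨Q, hQ, hQC⟩ := hC1top
        refine ⟨Φ Q, by rw [← map_nsmul, hQ, _root_.map_zero], ?_⟩
        rintro ⟨R, hR, hRe⟩
        apply hQC
        rw [← hΦinj hRe]
        exact hR
    · -- MULT
      have hClt := s13_lpm_coeff_lt A e f ε P.p P.pp hε hεp heε hf C hk hlc hc0
      exact s13_lpm_main A e f ε P.p P.pp hp2 h2A hε0 hε heε hf hfe (A.inertiaSubgroupIn ℚ)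
        (fun σ hσ => local_inertia_val A σ hσ) hT.fin hT.card C hCroot hClt (C1.map Φ)
        hC1' hC1st'
  rcases key with h | h
  · left
    intro σ hσ Q hQ
    apply hΦinj
    rw [hΦσ]
    exact h σ hσ (Φ Q) ⟨Q, hQ, rfl⟩
  · right
    intro σ hσ Q hQ
    have hΦQ : P.p • Φ Q = 0 := by rw [← map_nsmul, hQ, _root_.map_zero]
    obtain ⟨R, hR, hRe⟩ := h σ hσ (Φ Q) hΦQ
    have : R = σ • Q - Q := by
      apply hΦinj
      rw [hRe, map_sub, hΦσ]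
    rw [← this]
    exact hR

/-- an integer divisible by `p` has valuation `≤ v p`. -/
lemma s13_atp_val_le_of_dvd (A : ValuationSubring (AlgebraicClosure ℚ)) {p : ℕ} {m : ℤ}
    (h : (p : ℤ) ∣ m) :
    A.valuation (algebraMap ℚ (AlgebraicClosure ℚ) ((m : ℤ) : ℚ)) ≤
      A.valuation ((p : ℕ) : AlgebraicClosure ℚ) := by
  obtain ⟨m', rfl⟩ := h
  rw [map_intCast]
  push_cast
  rw [map_mul]
  calc A.valuation ((p : ℕ) : AlgebraicClosure ℚ) * A.valuation ((m' : ℤ) : AlgebraicClosure ℚ)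
      ≤ A.valuation ((p : ℕ) : AlgebraicClosure ℚ) * 1 :=
        mul_le_mul_right (val_intCast_le_one A m') _
    _ = A.valuation ((p : ℕ) : AlgebraicClosure ℚ) := mul_one _

/-- **(AT p) for the Frey curve**: for every valuation subring `A` of `ℚ̄` over `p` and every
`I_A`-stable line `C1` of the `p`-torsion `V`, `I_A` acts trivially on `C1` or on `V / C1`.
Black-box inputs: `hT` (M2 + M4: division polynomials of `Y² = X (X - e) (X - f)`,
`e f : ℤ`) and `hR2` ((R2') at `p`). -/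
theorem s13_atp_bb (P : FreyPackage) (A : ValuationSubring (AlgebraicClosure ℚ))
    (hA : A.LiesOverPrime P.p)
    (hT : ∀ e f : ℤ, e ≠ 0 → f ≠ 0 → e ≠ f → S13WefTors A (e : ℚ) (f : ℚ) P.p)
    (hR2 : ∀ β : AlgebraicClosure ℚ, β ≠ 0 → (∀ σ ∈ A.inertiaSubgroupIn ℚ, σ β = β) →
      ∃ k : ℤ, A.valuation β = A.valuation ((P.p : ℕ) : AlgebraicClosure ℚ) ^ k)
    (C1 : AddSubgroup (P.freyCurve⁄(AlgebraicClosure ℚ)).Point)
    (hC1 : ∀ Q ∈ C1, P.p • Q = 0) (hC1ne : ∃ Q ∈ C1, Q ≠ 0)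
    (hC1top : ∃ Q : (P.freyCurve⁄(AlgebraicClosure ℚ)).Point, P.p • Q = 0 ∧ Q ∉ C1)
    (hC1st : ∀ σ ∈ A.inertiaSubgroupIn ℚ, ∀ Q ∈ C1, σ • Q ∈ C1) :
    (∀ σ ∈ A.inertiaSubgroupIn ℚ, ∀ Q ∈ C1, σ • Q = Q) ∨
      (∀ σ ∈ A.inertiaSubgroupIn ℚ, ∀ Q : (P.freyCurve⁄(AlgebraicClosure ℚ)).Point,
        P.p • Q = 0 → σ • Q - Q ∈ C1) := by
  have hq := P.pp
  have hFLT : (P.a : ℚ) ^ P.p + (P.b : ℚ) ^ P.p = (P.c : ℚ) ^ P.p := by
    have := congrArg (Int.cast : ℤ → ℚ) P.hFLT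
    push_cast at this
    exact this
  have ha2 : P.freyCurve.a₂ = ((P.b : ℚ) ^ P.p - 1 - (P.a : ℚ) ^ P.p) / 4 := rfl
  have ha4 : P.freyCurve.a₄ = -((P.a : ℚ) ^ P.p) * ((P.b : ℚ) ^ P.p) / 16 := rfl
  have hodd : Odd P.p := P.hp_odd
  have ha0 : P.a ^ P.p ≠ 0 := pow_ne_zero _ P.ha0
  have hb0 : P.b ^ P.p ≠ 0 := pow_ne_zero _ P.hb0
  have hc0 : P.c ^ P.p ≠ 0 := pow_ne_zero _ P.hc0
  -- the three pairs `(e, f)`
  have hT1 : S13WefTors A ((P.a : ℚ) ^ P.p) (-((P.b : ℚ) ^ P.p)) P.p := by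
    have := hT (P.a ^ P.p) (-(P.b ^ P.p)) ha0 (neg_ne_zero.2 hb0) (by
      intro h
      apply hc0
      rw [← P.hFLT, h]; ring)
    push_cast at this
    exact this
  have hT2 : S13WefTors A (-((P.b : ℚ) ^ P.p)) ((P.a : ℚ) ^ P.p) P.p := by
    have := hT (-(P.b ^ P.p)) (P.a ^ P.p) (neg_ne_zero.2 hb0) ha0 (by
      intro h
      apply hc0
      rw [← P.hFLT, ← h]; ring)
    push_cast at this
    exact this
  have hT3 : S13WefTors A (-((P.c : ℚ) ^ P.p)) (-((P.a : ℚ) ^ P.p)) P.p := by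
    have := hT (-(P.c ^ P.p)) (-(P.a ^ P.p)) (neg_ne_zero.2 hc0) (neg_ne_zero.2 ha0) (by
      intro h
      apply hb0
      have : P.b ^ P.p = P.c ^ P.p - P.a ^ P.p := by rw [← P.hFLT]; ring
      rw [this]
      linear_combination -h)
    push_cast at this
    exact this
  have unit_pow : ∀ m : ℤ, ¬ (P.p : ℤ) ∣ m →
      A.valuation (algebraMap ℚ (AlgebraicClosure ℚ) ((m : ℚ) ^ P.p)) = 1 := by
    intro m hm
    rw [val_algebraMap_intCast_pow, val_intCast_eq_one_of_not_dvd A hq hA hm, one_pow]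
  have small : ∀ m : ℤ, (P.p : ℤ) ∣ m →
      A.valuation (algebraMap ℚ (AlgebraicClosure ℚ) ((-m : ℤ) : ℚ)) < 1 := by
    intro m hm
    rw [map_intCast]
    exact val_intCast_lt_one_of_dvd A hA ((dvd_neg).2 hm)
  by_cases ha : (P.p : ℤ) ∣ P.a
  · -- `p ∣ a`
    have hb : ¬ (P.p : ℤ) ∣ P.b := not_dvd_of_gcd_eq_one hq P.hgcdab ha
    have hc : ¬ (P.p : ℤ) ∣ P.c := not_dvd_of_gcd_eq_one hq P.hgcdac ha
    refine s13_atp_of_data P A hA 0 ((P.a : ℚ) ^ P.p) (-((P.b : ℚ) ^ P.p))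
      (by rw [ha2]; ring) (by rw [ha2, ha4]; ring) (by ring)
      (Or.inr ⟨(P.a : ℚ), ?_, ?_, ?_, rfl, ?_, ?_⟩) hT1 hR2 C1 hC1 hC1ne hC1top hC1st
    · exact_mod_cast P.ha0
    · rw [map_intCast]; exact val_intCast_lt_one_of_dvd A hA ha
    · exact s13_atp_val_le_of_dvd A ha
    · rw [val_algebraMap_neg]; exact unit_pow _ hb
    · have : -((P.b : ℚ) ^ P.p) - (P.a : ℚ) ^ P.p = -((P.c : ℚ) ^ P.p) := by rw [← hFLT]; ring
      rw [this, val_algebraMap_neg]; exact unit_pow _ hc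
  by_cases hb : (P.p : ℤ) ∣ P.b
  · -- `p ∣ b`
    have hc : ¬ (P.p : ℤ) ∣ P.c := not_dvd_of_gcd_eq_one hq P.hgcdbc hb
    refine s13_atp_of_data P A hA 0 (-((P.b : ℚ) ^ P.p)) ((P.a : ℚ) ^ P.p)
      (by rw [ha2]; ring) (by rw [ha2, ha4]; ring) (by ring)
      (Or.inr ⟨((-P.b : ℤ) : ℚ), ?_, small _ hb, ?_, ?_, unit_pow _ ha, ?_⟩) hT2 hR2 C1 hC1
      hC1ne hC1top hC1st
    · have := P.hb0
      exact_mod_cast neg_ne_zero.2 this
    · exact s13_atp_val_le_of_dvd A ((dvd_neg).2 hb)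
    · push_cast
      rw [Odd.neg_pow hodd]
    · have : (P.a : ℚ) ^ P.p - -((P.b : ℚ) ^ P.p) = (P.c : ℚ) ^ P.p := by rw [← hFLT]; ring
      rw [this]; exact unit_pow _ hc
  by_cases hc : (P.p : ℤ) ∣ P.c
  · -- `p ∣ c`
    refine s13_atp_of_data P A hA ((P.a : ℚ) ^ P.p) (-((P.c : ℚ) ^ P.p))
      (-((P.a : ℚ) ^ P.p))
      (by rw [ha2, ← hFLT]; ring) (by rw [ha2, ha4, ← hFLT]; ring) (by ring)
      (Or.inr ⟨((-P.c : ℤ) : ℚ), ?_, small _ hc, ?_, ?_, ?_, ?_⟩) hT3 hR2 C1 hC1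
      hC1ne hC1top hC1st
    · have := P.hc0
      exact_mod_cast neg_ne_zero.2 this
    · exact s13_atp_val_le_of_dvd A ((dvd_neg).2 hc)
    · push_cast
      rw [Odd.neg_pow hodd]
    · rw [val_algebraMap_neg]; exact unit_pow _ ha
    · have : -((P.a : ℚ) ^ P.p) - -((P.c : ℚ) ^ P.p) = (P.b : ℚ) ^ P.p := by rw [← hFLT]; ring
      rw [this]; exact unit_pow _ hb
  · -- good reduction
    refine s13_atp_of_data P A hA 0 ((P.a : ℚ) ^ P.p) (-((P.b : ℚ) ^ P.p))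
      (by rw [ha2]; ring) (by rw [ha2, ha4]; ring) (by ring) (Or.inl ⟨unit_pow _ ha, ?_, ?_⟩)
      hT1 hR2 C1 hC1 hC1ne hC1top hC1st
    · rw [val_algebraMap_neg]; exact unit_pow _ hb
    · have : -((P.b : ℚ) ^ P.p) - (P.a : ℚ) ^ P.p = -((P.c : ℚ) ^ P.p) := by rw [← hFLT]; ring
      rw [this, val_algebraMap_neg]; exact unit_pow _ hc

/-- **(AT p) for the Frey curve, in the frozen encoding**: `N` a submodule of the `p`-torsion,
stable under the inertia group `I_A` (e.g. Galois stable), `N ≠ ⊥`, `N ≠ ⊤`.  Then `I_A` acts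
trivially on `N` or on `V / N`. -/
theorem s13_atp_frozen_bb (P : FreyPackage) (A : ValuationSubring (AlgebraicClosure ℚ))
    (hA : A.LiesOverPrime P.p)
    (hT : ∀ e f : ℤ, e ≠ 0 → f ≠ 0 → e ≠ f → S13WefTors A (e : ℚ) (f : ℚ) P.p)
    (hR2 : ∀ β : AlgebraicClosure ℚ, β ≠ 0 → (∀ σ ∈ A.inertiaSubgroupIn ℚ, σ β = β) →
      ∃ k : ℤ, A.valuation β = A.valuation ((P.p : ℕ) : AlgebraicClosure ℚ) ^ k)
    (N : Submodule (ZMod P.p)
      (Submodule.torsionBy ℤ (P.freyCurve⁄(AlgebraicClosure ℚ)).Point P.p))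
    (hN0 : N ≠ ⊥) (hN1 : N ≠ ⊤)
    (hst : ∀ σ ∈ A.inertiaSubgroupIn ℚ, ∀ x ∈ N, σ • x ∈ N) :
    (∀ σ ∈ A.inertiaSubgroupIn ℚ, ∀ x ∈ N, σ • x = x) ∨
      (∀ σ ∈ A.inertiaSubgroupIn ℚ,
        ∀ x : Submodule.torsionBy ℤ (P.freyCurve⁄(AlgebraicClosure ℚ)).Point P.p,
          σ • x - x ∈ N) := by
  have htor : ∀ x : Submodule.torsionBy ℤ (P.freyCurve⁄(AlgebraicClosure ℚ)).Point P.p,
      P.p • (x : (P.freyCurve⁄(AlgebraicClosure ℚ)).Point) = 0 := by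
    intro x
    have hx : (P.p : ℤ) • (x : (P.freyCurve⁄(AlgebraicClosure ℚ)).Point) = 0 :=
      (Submodule.mem_torsionBy_iff _ _).1 x.2
    rw [← hx, natCast_zsmul]
  have hmemt : ∀ Q : (P.freyCurve⁄(AlgebraicClosure ℚ)).Point, P.p • Q = 0 →
      Q ∈ Submodule.torsionBy ℤ (P.freyCurve⁄(AlgebraicClosure ℚ)).Point P.p := by
    intro Q hQ
    rw [Submodule.mem_torsionBy_iff, natCast_zsmul]
    exact hQ
  let C1 : AddSubgroup (P.freyCurve⁄(AlgebraicClosure ℚ)).Point :=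
    { carrier := {Q | ∃ x ∈ N, (x : (P.freyCurve⁄(AlgebraicClosure ℚ)).Point) = Q}
      zero_mem' := ⟨0, N.zero_mem, rfl⟩
      add_mem' := by
        rintro _ _ ⟨x, hx, rfl⟩ ⟨y, hy, rfl⟩
        exact ⟨x + y, N.add_mem hx hy, rfl⟩
      neg_mem' := by
        rintro _ ⟨x, hx, rfl⟩
        exact ⟨-x, N.neg_mem hx, rfl⟩ }
  have hmemC : ∀ x : Submodule.torsionBy ℤ (P.freyCurve⁄(AlgebraicClosure ℚ)).Point P.p,
      (x : (P.freyCurve⁄(AlgebraicClosure ℚ)).Point) ∈ C1 → x ∈ N := by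
    rintro x ⟨y, hy, hyx⟩
    have : y = x := Subtype.ext hyx
    rw [← this]; exact hy
  have key := s13_atp_bb P A hA hT hR2 C1
    (by
      rintro _ ⟨x, hx, rfl⟩
      exact htor x)
    (by
      obtain ⟨x, hx, hx0⟩ := (Submodule.ne_bot_iff N).1 hN0
      refine ⟨x, ⟨x, hx, rfl⟩, ?_⟩
      intro h0
      exact hx0 (Subtype.ext h0))
    (by
      obtain ⟨x, hx⟩ : ∃ x, x ∉ N := by
        by_contra hcon
        push_neg at hcon
        exact hN1 (eq_top_iff.2 (fun x _ => hcon x))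
      exact ⟨x, htor x, fun h => hx (hmemC x h)⟩)
    (by
      rintro σ hσ _ ⟨x, hx, rfl⟩
      exact ⟨σ • x, hst σ hσ x hx, rfl⟩)
  rcases key with h | h
  · left
    intro σ hσ x hx
    exact Subtype.ext (h σ hσ x ⟨x, hx, rfl⟩)
  · right
    intro σ hσ x
    exact hmemC (σ • x - x) (h σ hσ x (htor x))

end Fermat.Agent.S13
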