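import Fermat.Agent.S13.LocalP
import Fermat.Agent.S13.RamGlue

/-!
# S13 / (AT p): the local statement at `p` for the Frey curve, final form  (OWNER: helper1)

`s13_at_p`, `s13_at_p_frozen` : no black box left (M2 + M4 discharged in `LocalPData.lean`,
(R2') = helper8's `rg_valuation_eq_zpow`).
-/

set_option autoImplicit false
set_option linter.unusedSectionVars false
set_option linter.unusedVariables false

namespace Fermat.Agent.S13

open WeierstrassCurve WeierstrassCurve.Affine WeierstrassCurve.Affine.Point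

/-- **(AT p) for the Frey curve**: for every valuation subring `A` of `ℚ̄` over `p` and every
`I_A`-stable line `C1` of the `p`-torsion `V`, the inertia group `I_A` acts trivially on `C1`
or on `V / C1`. -/
theorem s13_at_p (P : FreyPackage) (A : ValuationSubring (AlgebraicClosure ℚ))
    (hA : A.LiesOverPrime P.p)
    (C1 : AddSubgroup (P.freyCurve⁄(AlgebraicClosure ℚ)).Point)
    (hC1 : ∀ Q ∈ C1, P.p • Q = 0) (hC1ne : ∃ Q ∈ C1, Q ≠ 0)
    (hC1top : ∃ Q : (P.freyCurve⁄(AlgebraicClosure ℚ)).Point, P.p • Q = 0 ∧ Q ∉ C1)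
    (hC1st : ∀ σ ∈ A.inertiaSubgroupIn ℚ, ∀ Q ∈ C1, σ • Q ∈ C1) :
    (∀ σ ∈ A.inertiaSubgroupIn ℚ, ∀ Q ∈ C1, σ • Q = Q) ∨
      (∀ σ ∈ A.inertiaSubgroupIn ℚ, ∀ Q : (P.freyCurve⁄(AlgebraicClosure ℚ)).Point,
        P.p • Q = 0 → σ • Q - Q ∈ C1) :=
  s13_atp_of_R2 P A hA (fun β hβ hfix => rg_valuation_eq_zpow A P.pp hA hβ hfix)
    C1 hC1 hC1ne hC1top hC1st

/-- **(AT p) for the Frey curve, frozen encoding**: `N` a submodule of the `p`-torsion, stable
under `I_A`, `N ≠ ⊥`, `N ≠ ⊤`.  Then `I_A` acts trivially on `N` or on `V / N`. -/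
theorem s13_at_p_frozen (P : FreyPackage) (A : ValuationSubring (AlgebraicClosure ℚ))
    (hA : A.LiesOverPrime P.p)
    (N : Submodule (ZMod P.p)
      (Submodule.torsionBy ℤ (P.freyCurve⁄(AlgebraicClosure ℚ)).Point P.p))
    (hN0 : N ≠ ⊥) (hN1 : N ≠ ⊤)
    (hst : ∀ σ ∈ A.inertiaSubgroupIn ℚ, ∀ x ∈ N, σ • x ∈ N) :
    (∀ σ ∈ A.inertiaSubgroupIn ℚ, ∀ x ∈ N, σ • x = x) ∨
      (∀ σ ∈ A.inertiaSubgroupIn ℚ,
        ∀ x : Submodule.torsionBy ℤ (P.freyCurve⁄(AlgebraicClosure ℚ)).Point P.p,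
          σ • x - x ∈ N) :=
  s13_atp_frozen_of_R2 P A hA (fun β hβ hfix => rg_valuation_eq_zpow A P.pp hA hβ hfix)
    N hN0 hN1 hst

end Fermat.Agent.S13
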