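import Mathlib
import Fermat.Agent.S05.XOnly

/-!
# S13 / M9 (part A): the kernel of reduction `E1` is a subgroup  (OWNER: helper2)

Setting: a field `K` with a valuation `v` (multiplicative notation: `x` integral iff `v x ≤ 1`),
a Weierstrass curve `W` over `K` with `a₁ = a₃ = 0` and integral `a₂, a₄, a₆`.

`s13_lpg_E1 v P` : `P = O` or the `x`-coordinate of `P` is not integral.

* `s13_lpg_E1_add` : `E1` is closed under addition (needs `2 ≠ 0` in `K`).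
* `s13_lpg_E1_neg`, `s13_lpg_E1_nsmul`, `s13_lpg_E1_sub`.
-/

set_option autoImplicit false
set_option linter.unusedSectionVars false
set_option linter.unusedVariables false

namespace Fermat.Agent.S13

open WeierstrassCurve WeierstrassCurve.Affine

section ValAlg

variable {K : Type*} [Field K] {Γ₀ : Type*} [LinearOrderedCommGroupWithZero Γ₀]
  (v : Valuation K Γ₀)

lemma s13_lpg_le_mul {a b : K} (ha : v a ≤ 1) (hb : v b ≤ 1) : v (a * b) ≤ 1 := by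
  rw [map_mul]; exact mul_le_one' ha hb

lemma s13_lpg_le_add {a b : K} (ha : v a ≤ 1) (hb : v b ≤ 1) : v (a + b) ≤ 1 :=
  Valuation.map_add_le v ha hb

lemma s13_lpg_le_sub {a b : K} (ha : v a ≤ 1) (hb : v b ≤ 1) : v (a - b) ≤ 1 :=
  Valuation.map_sub_le v ha hb

lemma s13_lpg_le_pow {a : K} (ha : v a ≤ 1) (n : ℕ) : v (a ^ n) ≤ 1 := by
  rw [map_pow]; exact pow_le_one₀ zero_le ha

lemma s13_lpg_le_nat (n : ℕ) : v (n : K) ≤ 1 := by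
  induction n with
  | zero => simp
  | succ k ih =>
    rw [Nat.cast_succ]
    exact Valuation.map_add_le v ih (by rw [map_one])

lemma s13_lpg_le_two : v (2 : K) ≤ 1 := by
  have := s13_lpg_le_nat v 2
  simpa using this

lemma s13_lpg_le_four : v (4 : K) ≤ 1 := by
  have := s13_lpg_le_nat v 4
  simpa using this

lemma s13_lpg_lt_mul_left {a b : K} (ha : v a < 1) (hb : v b ≤ 1) : v (a * b) < 1 := by
  rw [map_mul]; exact mul_lt_one_of_lt_of_le ha hb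

lemma s13_lpg_lt_mul_right {a b : K} (ha : v a ≤ 1) (hb : v b < 1) : v (a * b) < 1 := by
  rw [mul_comm]; exact s13_lpg_lt_mul_left v hb ha

lemma s13_lpg_lt_add {a b : K} (ha : v a < 1) (hb : v b < 1) : v (a + b) < 1 :=
  Valuation.map_add_lt v ha hb

lemma s13_lpg_lt_sub {a b : K} (ha : v a < 1) (hb : v b < 1) : v (a - b) < 1 :=
  Valuation.map_sub_lt v ha hb

lemma s13_lpg_inv_lt {x : K} (hx : 1 < v x) : v x⁻¹ < 1 := by
  have hx0 : v x ≠ 0 := (lt_trans zero_lt_one hx).ne'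
  rw [map_inv₀]
  exact inv_lt_one_of_one_lt₀ hx

lemma s13_lpg_ne_zero_of_lt {x : K} (hx : 1 < v x) : x ≠ 0 := by
  rintro rfl
  rw [map_zero] at hx
  exact not_lt.2 zero_le hx

lemma s13_lpg_one_lt_of_inv {x : K} (hx0 : x ≠ 0) (hx : v x⁻¹ < 1) : 1 < v x := by
  rw [map_inv₀] at hx
  have hv0 : v x ≠ 0 := (Valuation.ne_zero_iff v).2 hx0
  by_contra h
  have h1 : v x ≤ 1 := not_lt.1 h
  have : 1 ≤ (v x)⁻¹ := (one_le_inv₀ (zero_lt_iff.2 hv0)).2 h1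
  exact not_lt.2 this hx

/-- If `1 + z` with `v z < 1` then the valuation is `1`. -/
lemma s13_lpg_val_one_add {z : K} (hz : v z < 1) : v (1 + z) = 1 := by
  have : v (1 + z) = v (1 : K) := Valuation.map_add_eq_of_lt_left v (by rw [map_one]; exact hz)
  rw [this, map_one]

/-- The key ultrametric step: if `xp * xm * δ² = D` with `v D = 1`, `v δ < 1` and
`(xp + xm) * δ² = S` with `v S < 1`, then `1 < v xp`. -/
lemma s13_lpg_pair {xp xm δ D S : K} (hD : v D = 1) (hδ : v δ < 1) (hS : v S < 1)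
    (hprod : xp * xm * δ ^ 2 = D) (hsum : (xp + xm) * δ ^ 2 = S) : 1 < v xp := by
  by_contra hcon
  have hxp : v xp ≤ 1 := not_lt.1 hcon
  have h1 : v xp * (v xm * v δ ^ 2) = 1 := by
    rw [← hD, ← hprod, map_mul, map_mul, map_pow, mul_assoc]
  have hδ2 : v δ ^ 2 < 1 := pow_lt_one₀ zero_le hδ two_ne_zero
  -- `v xm * v δ ^ 2 ≥ 1`
  have h2 : 1 ≤ v xm * v δ ^ 2 := by
    by_contra h
    have h' : v xm * v δ ^ 2 < 1 := not_le.1 h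
    have : v xp * (v xm * v δ ^ 2) < 1 := mul_lt_one_of_nonneg_of_lt_one_right hxp zero_le h'
    rw [h1] at this
    exact lt_irrefl _ this
  -- `v xm > 1`
  have h3 : 1 < v xm := by
    by_contra h
    have h' : v xm ≤ 1 := not_lt.1 h
    have : v xm * v δ ^ 2 < 1 := mul_lt_one_of_nonneg_of_lt_one_right h' zero_le hδ2
    exact not_lt.2 h2 this
  have h4 : v (xp + xm) = v xm :=
    Valuation.map_add_eq_of_lt_right v (lt_of_le_of_lt hxp h3)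
  have h5 : v xm * v δ ^ 2 < 1 := by
    rw [← h4, ← map_pow, ← map_mul, hsum]; exact hS
  exact not_lt.2 h2 h5

end ValAlg

section ValAlg2

variable {K : Type*} [Field K] {Γ₀ : Type*} [LinearOrderedCommGroupWithZero Γ₀]
  (v : Valuation K Γ₀)

/-- Addition step: both `x(P₁ ± P₂)` are non-integral when `x(P₁)`, `x(P₂)` are. -/
lemma s13_lpg_add_alg {a₂ a₄ a₆ x₁ x₂ xp xm : K} (ha2 : v a₂ ≤ 1) (ha4 : v a₄ ≤ 1)
    (ha6 : v a₆ ≤ 1) (hx₁ : 1 < v x₁) (hx₂ : 1 < v x₂)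
    (hprod : xp * xm * (x₁ - x₂) ^ 2 = (x₁ * x₂ - a₄) ^ 2 - 4 * a₆ * (x₁ + x₂ + a₂))
    (hsum : (xp + xm) * (x₁ - x₂) ^ 2 =
      2 * ((x₁ + x₂) * (x₁ * x₂ + a₄) + 2 * a₂ * x₁ * x₂ + 2 * a₆)) :
    1 < v xp := by
  have h10 : x₁ ≠ 0 := s13_lpg_ne_zero_of_lt v hx₁
  have h20 : x₂ ≠ 0 := s13_lpg_ne_zero_of_lt v hx₂
  have hu₁ : v x₁⁻¹ < 1 := s13_lpg_inv_lt v hx₁
  have hu₂ : v x₂⁻¹ < 1 := s13_lpg_inv_lt v hx₂
  have hu₁' : v x₁⁻¹ ≤ 1 := hu₁.le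
  have hu₂' : v x₂⁻¹ ≤ 1 := hu₂.le
  have h2 := s13_lpg_le_two v
  have h4 := s13_lpg_le_four v
  -- the unit `D = 1 + z`
  have hzlt : v (x₁⁻¹ * (-2 * a₄ * x₂⁻¹ + a₄ ^ 2 * x₁⁻¹ * x₂⁻¹ ^ 2
      - 4 * a₆ * x₂⁻¹ * (x₁⁻¹ + x₂⁻¹ + a₂ * x₁⁻¹ * x₂⁻¹))) < 1 := by
    apply s13_lpg_lt_mul_left v hu₁
    apply s13_lpg_le_sub
    · apply s13_lpg_le_add
      · apply s13_lpg_le_mul v _ hu₂'
        apply s13_lpg_le_mul v _ ha4
        rw [Valuation.map_neg]; exact h2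
      · apply s13_lpg_le_mul v _ (s13_lpg_le_pow v hu₂' 2)
        exact s13_lpg_le_mul v (s13_lpg_le_pow v ha4 2) hu₁'
    · apply s13_lpg_le_mul
      · exact s13_lpg_le_mul v (s13_lpg_le_mul v h4 ha6) hu₂'
      · apply s13_lpg_le_add v (s13_lpg_le_add v hu₁' hu₂')
        exact s13_lpg_le_mul v (s13_lpg_le_mul v ha2 hu₁') hu₂'
  have hD := s13_lpg_val_one_add v hzlt
  have hSlt : v (2 * ((x₁⁻¹ + x₂⁻¹) * (1 + a₄ * x₁⁻¹ * x₂⁻¹) + 2 * a₂ * x₁⁻¹ * x₂⁻¹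
      + 2 * a₆ * x₁⁻¹ ^ 2 * x₂⁻¹ ^ 2)) < 1 := by
    apply s13_lpg_lt_mul_right v h2
    apply s13_lpg_lt_add
    · apply s13_lpg_lt_add
      · apply s13_lpg_lt_mul_left v (s13_lpg_lt_add v hu₁ hu₂)
        apply s13_lpg_le_add v (by rw [map_one])
        exact s13_lpg_le_mul v (s13_lpg_le_mul v ha4 hu₁') hu₂'
      · apply s13_lpg_lt_mul_right v _ hu₂
        exact s13_lpg_le_mul v (s13_lpg_le_mul v h2 ha2) hu₁'
    · apply s13_lpg_lt_mul_right v _ (by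
        rw [map_pow]; exact pow_lt_one₀ zero_le hu₂ two_ne_zero)
      exact s13_lpg_le_mul v (s13_lpg_le_mul v h2 ha6) (s13_lpg_le_pow v hu₁' 2)
  have hδ : v (x₂⁻¹ - x₁⁻¹) < 1 := s13_lpg_lt_sub v hu₂ hu₁
  have key : (x₂⁻¹ - x₁⁻¹) ^ 2 = (x₁ - x₂) ^ 2 * (x₁⁻¹ * x₂⁻¹) ^ 2 := by
    field_simp
  refine s13_lpg_pair v hD hδ hSlt (xm := xm) ?_ ?_
  · rw [key, ← mul_assoc, hprod]
    field_simp
    ring
  · rw [key, ← mul_assoc, hsum]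
    field_simp
    ring

/-- Duplication step. -/
lemma s13_lpg_double_alg {a₂ a₄ a₆ x y x' : K} (ha2 : v a₂ ≤ 1) (ha4 : v a₄ ≤ 1)
    (ha6 : v a₆ ≤ 1) (hx : 1 < v x)
    (hy : y ^ 2 = x ^ 3 + a₂ * x ^ 2 + a₄ * x + a₆)
    (hd : x' * (4 * y ^ 2) = x ^ 4 - 2 * a₄ * x ^ 2 - 8 * a₆ * x + a₄ ^ 2 - 4 * a₂ * a₆) :
    1 < v x' := by
  have h0 : x ≠ 0 := s13_lpg_ne_zero_of_lt v hx
  have hu : v x⁻¹ < 1 := s13_lpg_inv_lt v hx
  have hu' : v x⁻¹ ≤ 1 := hu.le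
  have h2 := s13_lpg_le_two v
  have h4 := s13_lpg_le_four v
  have h8 : v (8 : K) ≤ 1 := by
    have := s13_lpg_le_nat v 8
    simpa using this
  -- numerator: `x⁴ (1 + z₁)`
  have hz1 : v (x⁻¹ * (-2 * a₄ * x⁻¹ - 8 * a₆ * x⁻¹ ^ 2 + a₄ ^ 2 * x⁻¹ ^ 3
      - 4 * a₂ * a₆ * x⁻¹ ^ 3)) < 1 := by
    apply s13_lpg_lt_mul_left v hu
    apply s13_lpg_le_sub
    · apply s13_lpg_le_add
      · apply s13_lpg_le_sub
        · apply s13_lpg_le_mul v _ hu'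
          apply s13_lpg_le_mul v _ ha4
          rw [Valuation.map_neg]; exact h2
        · exact s13_lpg_le_mul v (s13_lpg_le_mul v h8 ha6) (s13_lpg_le_pow v hu' 2)
      · exact s13_lpg_le_mul v (s13_lpg_le_pow v ha4 2) (s13_lpg_le_pow v hu' 3)
    · exact s13_lpg_le_mul v (s13_lpg_le_mul v (s13_lpg_le_mul v h4 ha2) ha6)
        (s13_lpg_le_pow v hu' 3)
  have hN := s13_lpg_val_one_add v hz1
  have hz2 : v (x⁻¹ * (a₂ + a₄ * x⁻¹ + a₆ * x⁻¹ ^ 2)) < 1 := by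
    apply s13_lpg_lt_mul_left v hu
    apply s13_lpg_le_add
    · exact s13_lpg_le_add v ha2 (s13_lpg_le_mul v ha4 hu')
    · exact s13_lpg_le_mul v ha6 (s13_lpg_le_pow v hu' 2)
  have hM := s13_lpg_val_one_add v hz2
  -- `x' * 4 * (1 + z₂) = x * (1 + z₁)`
  have hrel : x' * (4 * (1 + x⁻¹ * (a₂ + a₄ * x⁻¹ + a₆ * x⁻¹ ^ 2))) =
      x * (1 + x⁻¹ * (-2 * a₄ * x⁻¹ - 8 * a₆ * x⁻¹ ^ 2 + a₄ ^ 2 * x⁻¹ ^ 3
      - 4 * a₂ * a₆ * x⁻¹ ^ 3)) := by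
    have h3 : x ^ 3 ≠ 0 := pow_ne_zero 3 h0
    apply mul_right_cancel₀ h3
    have e1 : x' * (4 * (1 + x⁻¹ * (a₂ + a₄ * x⁻¹ + a₆ * x⁻¹ ^ 2))) * x ^ 3 =
        x' * (4 * y ^ 2) := by
      rw [hy]; field_simp; ring
    rw [e1, hd]
    field_simp
    ring
  have hval := congrArg v hrel
  rw [map_mul, map_mul, hM, mul_one, map_mul, hN, mul_one] at hval
  by_contra hcon
  have hx' : v x' ≤ 1 := not_lt.1 hcon
  have : v x ≤ 1 := by
    rw [← hval]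
    exact mul_le_one' hx' h4
  exact not_lt.2 this hx

end ValAlg2

end Fermat.Agent.S13

namespace Fermat.Agent.S13

open WeierstrassCurve WeierstrassCurve.Affine

section E1

variable {K : Type*} [Field K] [DecidableEq K] {Γ₀ : Type*} [LinearOrderedCommGroupWithZero Γ₀]
  (v : Valuation K Γ₀) {W : Affine K}

/-- The kernel of reduction: `O`, or a point with non-integral `x`-coordinate. -/
def s13_lpg_E1 : W.Point → Prop
  | .zero => True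
  | .some x _ _ => 1 < v x

@[simp] lemma s13_lpg_E1_zero : s13_lpg_E1 v (0 : W.Point) := trivial

@[simp] lemma s13_lpg_E1_some {x y : K} (h : W.Nonsingular x y) :
    s13_lpg_E1 v (Point.some x y h) ↔ 1 < v x := Iff.rfl

lemma s13_lpg_E1_neg {P : W.Point} (hP : s13_lpg_E1 v P) : s13_lpg_E1 v (-P) := by
  rcases P with _ | ⟨x, y, h⟩
  · exact hP
  · rw [Point.neg_some]; exact hP

lemma s13_lpg_E1_neg_iff {P : W.Point} : s13_lpg_E1 v (-P) ↔ s13_lpg_E1 v P := by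
  constructor
  · intro h
    have := s13_lpg_E1_neg v h
    rwa [neg_neg] at this
  · exact s13_lpg_E1_neg v

/-- `E1` is closed under addition. -/
theorem s13_lpg_E1_add (h1 : W.a₁ = 0) (h3 : W.a₃ = 0) (ha2 : v W.a₂ ≤ 1) (ha4 : v W.a₄ ≤ 1)
    (ha6 : v W.a₆ ≤ 1) (h2 : (2 : K) ≠ 0) {P Q : W.Point}
    (hP : s13_lpg_E1 v P) (hQ : s13_lpg_E1 v Q) : s13_lpg_E1 v (P + Q) := by
  rcases P with _ | ⟨x₁, y₁, h₁⟩
  · have e1 : (Point.zero : W.Point) = 0 := rfl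
    rw [e1, zero_add]; exact hQ
  rcases Q with _ | ⟨x₂, y₂, h₂⟩
  · have e1 : (Point.zero : W.Point) = 0 := rfl
    rw [e1, add_zero]; exact hP
  have hx₁ : 1 < v x₁ := hP
  have hx₂ : 1 < v x₂ := hQ
  by_cases hx : x₁ = x₂
  · rcases (Point.X_eq_iff (h₁ := h₁) (h₂ := h₂)).1 hx with heq | heq
    · -- doubling
      rw [heq]
      by_cases hy : y₂ = 0
      · rw [Fermat.Agent.S05.xonly_double_of_y_eq_zero h1 h3 h₂ hy]
        trivial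
      · obtain ⟨x', y', h', hadd, hx'⟩ := Fermat.Agent.S05.xonly_double h1 h3 h2 h₂ hy
        rw [hadd]
        exact s13_lpg_double_alg v ha2 ha4 ha6 hx₂
          (Fermat.Agent.S05.xonly_equation h1 h3 h₂.1) hx'
    · rw [heq, neg_add_cancel]; trivial
  · obtain ⟨xp, yp, xm, ym, hp, hm, hadd, -, -, -, hprod, hsum⟩ :=
      Fermat.Agent.S05.xonly_add_sub h1 h3 h₁ h₂ hx
    rw [hadd]
    exact s13_lpg_add_alg v ha2 ha4 ha6 hx₁ hx₂ hprod hsum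

theorem s13_lpg_E1_sub (h1 : W.a₁ = 0) (h3 : W.a₃ = 0) (ha2 : v W.a₂ ≤ 1) (ha4 : v W.a₄ ≤ 1)
    (ha6 : v W.a₆ ≤ 1) (h2 : (2 : K) ≠ 0) {P Q : W.Point}
    (hP : s13_lpg_E1 v P) (hQ : s13_lpg_E1 v Q) : s13_lpg_E1 v (P - Q) := by
  rw [sub_eq_add_neg]
  exact s13_lpg_E1_add v h1 h3 ha2 ha4 ha6 h2 hP (s13_lpg_E1_neg v hQ)

theorem s13_lpg_E1_nsmul (h1 : W.a₁ = 0) (h3 : W.a₃ = 0) (ha2 : v W.a₂ ≤ 1) (ha4 : v W.a₄ ≤ 1)
    (ha6 : v W.a₆ ≤ 1) (h2 : (2 : K) ≠ 0) {P : W.Point}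
    (hP : s13_lpg_E1 v P) (n : ℕ) : s13_lpg_E1 v (n • P) := by
  induction n with
  | zero => rw [zero_smul]; trivial
  | succ k ih =>
    rw [succ_nsmul]
    exact s13_lpg_E1_add v h1 h3 ha2 ha4 ha6 h2 ih hP

/-- `E1` as an additive subgroup. -/
def s13_lpg_E1sub (h1 : W.a₁ = 0) (h3 : W.a₃ = 0) (ha2 : v W.a₂ ≤ 1) (ha4 : v W.a₄ ≤ 1)
    (ha6 : v W.a₆ ≤ 1) (h2 : (2 : K) ≠ 0) : AddSubgroup W.Point where
  carrier := {P | s13_lpg_E1 v P}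
  add_mem' := fun hP hQ => s13_lpg_E1_add v h1 h3 ha2 ha4 ha6 h2 hP hQ
  zero_mem' := trivial
  neg_mem' := fun hP => s13_lpg_E1_neg v hP

lemma s13_lpg_mem_E1sub (h1 : W.a₁ = 0) (h3 : W.a₃ = 0) (ha2 : v W.a₂ ≤ 1) (ha4 : v W.a₄ ≤ 1)
    (ha6 : v W.a₆ ≤ 1) (h2 : (2 : K) ≠ 0) (P : W.Point) :
    P ∈ s13_lpg_E1sub v h1 h3 ha2 ha4 ha6 h2 ↔ s13_lpg_E1 v P := Iff.rfl

end E1

end Fermat.Agent.S13
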