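import Fermat.Agent.S13.LocalPGoodA
import Fermat.Agent.S05.Local

/-!
# S13 / M9 (part B): the same-reduction lemma at a prime of good reduction  (OWNER: helper2)

Setting: `W : Y² = X (X - e) (X - f)` over a field `K` with a valuation `v`, `v 2 = 1`,
`v e = v f = v (f - e) = 1` (GOOD reduction, odd residue characteristic).

* `s13_lpg_y_unit` : an odd-order torsion point with integral `x` has `v y = 1`.
* `s13_lpg_same_red` : if `σ` is in the inertia group (`v x ≤ 1 → v (σ x - x) < 1`) and `P` is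
  a torsion point of odd order then `σ • P - P` lies in the kernel of reduction `E1`.
-/

set_option autoImplicit false
set_option linter.unusedSectionVars false
set_option linter.unusedVariables false

namespace Fermat.Agent.S13

open WeierstrassCurve WeierstrassCurve.Affine

section YUnit

variable {K : Type*} [Field K] [DecidableEq K] {Γ₀ : Type*} [LinearOrderedCommGroupWithZero Γ₀]
  (v : Valuation K Γ₀) {W : Affine K}

lemma s13_lpg_two_ne_zero (hv2 : v (2 : K) = 1) : (2 : K) ≠ 0 := by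
  intro h
  rw [h, map_zero] at hv2
  exact zero_ne_one hv2

lemma s13_lpg_four_eq (hv2 : v (2 : K) = 1) : v (4 : K) = 1 := by
  have : (4 : K) = 2 * 2 := by norm_num
  rw [this, map_mul, hv2, mul_one]

/-- the equation `y² = x (x - e) (x - f)`. -/
lemma s13_lpg_equation {e f : K} (h1 : W.a₁ = 0) (h3 : W.a₃ = 0) (h2 : W.a₂ = -(e + f))
    (h4 : W.a₄ = e * f) (h6 : W.a₆ = 0) {x y : K} (h : W.Equation x y) :
    y ^ 2 = x * (x - e) * (x - f) := by
  have := Fermat.Agent.S05.xonly_equation h1 h3 h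
  rw [h2, h4, h6] at this
  linear_combination this

/-- In the GOOD case, if `v y < 1` and `x` is integral then `x² - e f` is a unit. -/
lemma s13_lpg_unit_of_small_y {e f x y : K} (he : v e = 1) (hf : v f = 1) (hfe : v (f - e) = 1)
    (hx : v x ≤ 1) (hy : v y < 1) (heq : y ^ 2 = x * (x - e) * (x - f)) :
    v (x ^ 2 - e * f) = 1 := by
  have hprod : v x * v (x - e) * v (x - f) < 1 := by
    rw [← map_mul, ← map_mul, ← heq, map_pow]
    exact pow_lt_one₀ zero_le hy two_ne_zero
  have hxe : v (x - e) ≤ 1 := Valuation.map_sub_le v hx he.le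
  have hxf : v (x - f) ≤ 1 := Valuation.map_sub_le v hx hf.le
  have hef : v (e * f) = 1 := by rw [map_mul, he, hf, mul_one]
  have hef' : v (e - f) = 1 := by rw [Valuation.map_sub_swap, hfe]
  by_cases c1 : v x < 1
  · have : v (x ^ 2) < v (e * f) := by
      rw [hef, map_pow]; exact pow_lt_one₀ zero_le c1 two_ne_zero
    rw [Valuation.map_sub_eq_of_lt_right v this, hef]
  have c1' : v x = 1 := le_antisymm hx (not_lt.1 c1)
  by_cases c2 : v (x - e) < 1
  · have e1 : x ^ 2 - e * f = (x - e) * (x + e) + e * (e - f) := by ring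
    have h1 : v ((x - e) * (x + e)) < 1 :=
      s13_lpg_lt_mul_left v c2 (Valuation.map_add_le v hx he.le)
    have h2 : v (e * (e - f)) = 1 := by rw [map_mul, he, hef', mul_one]
    rw [e1, Valuation.map_add_eq_of_lt_right v (by rw [h2]; exact h1), h2]
  have c2' : v (x - e) = 1 := le_antisymm hxe (not_lt.1 c2)
  have c3 : v (x - f) < 1 := by
    rw [c1', c2', one_mul, one_mul] at hprod
    exact hprod
  have e1 : x ^ 2 - e * f = (x - f) * (x + f) + f * (f - e) := by ring
  have h1 : v ((x - f) * (x + f)) < 1 :=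
    s13_lpg_lt_mul_left v c3 (Valuation.map_add_le v hx hf.le)
  have h2 : v (f * (f - e)) = 1 := by rw [map_mul, hf, hfe, mul_one]
  rw [e1, Valuation.map_add_eq_of_lt_right v (by rw [h2]; exact h1), h2]

/-- An odd-order torsion point with integral `x`-coordinate has a unit `y`-coordinate
(GOOD case). -/
theorem s13_lpg_y_unit {e f : K} (h1 : W.a₁ = 0) (h3 : W.a₃ = 0) (h2 : W.a₂ = -(e + f))
    (h4 : W.a₄ = e * f) (h6 : W.a₆ = 0) (hv2 : v (2 : K) = 1)
    (he : v e = 1) (hf : v f = 1) (hfe : v (f - e) = 1) {p : ℕ} (hp : Odd p)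
    {x y : K} (h : W.Nonsingular x y) (htor : p • Point.some x y h = 0) (hx : v x ≤ 1) :
    v y = 1 := by
  have h20 : (2 : K) ≠ 0 := s13_lpg_two_ne_zero v hv2
  have heq := s13_lpg_equation h1 h3 h2 h4 h6 h.1
  have ha2 : v W.a₂ ≤ 1 := by
    rw [h2, Valuation.map_neg]; exact Valuation.map_add_le v he.le hf.le
  have ha4 : v W.a₄ ≤ 1 := by rw [h4, map_mul, he, hf, mul_one]
  have ha6 : v W.a₆ ≤ 1 := by rw [h6, map_zero]; exact zero_le_one
  have hxe : v (x - e) ≤ 1 := Valuation.map_sub_le v hx he.le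
  have hxf : v (x - f) ≤ 1 := Valuation.map_sub_le v hx hf.le
  have hyle : v y ≤ 1 := by
    have : v y ^ 2 ≤ 1 := by
      rw [← map_pow, heq, map_mul, map_mul]
      exact mul_le_one' (mul_le_one' hx hxe) hxf
    by_contra hcon
    have : 1 < v y ^ 2 := one_lt_pow₀ (not_le.1 hcon) two_ne_zero
    exact absurd this (not_lt.2 ‹v y ^ 2 ≤ 1›)
  by_contra hne
  have hylt : v y < 1 := lt_of_le_of_ne hyle hne
  -- `y ≠ 0`
  have hy0 : y ≠ 0 := by
    intro hy
    have hdbl := Fermat.Agent.S05.xonly_double_of_y_eq_zero h1 h3 h hy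
    have := Fermat.Agent.S05.noTwo_of_odd_nsmul hp htor hdbl
    exact Point.some_ne_zero h this
  obtain ⟨x', y', h', hadd, hx'⟩ := Fermat.Agent.S05.xonly_double h1 h3 h20 h hy0
  have hunit := s13_lpg_unit_of_small_y v he hf hfe hx hylt heq
  have hx'val : 1 < v x' := by
    have e1 : x' * (4 * y ^ 2) = (x ^ 2 - e * f) ^ 2 := by
      rw [hx', h4, h6, h2]; ring
    have e2 := congrArg v e1
    rw [map_mul, map_mul, map_pow, map_pow, hunit, one_pow, s13_lpg_four_eq v hv2, one_mul] at e2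
    by_contra hcon
    have hle : v x' ≤ 1 := not_lt.1 hcon
    have hy2 : v y ^ 2 < 1 := pow_lt_one₀ zero_le hylt two_ne_zero
    have : v x' * v y ^ 2 < 1 := mul_lt_one_of_nonneg_of_lt_one_right hle zero_le hy2
    rw [e2] at this
    exact lt_irrefl _ this
  -- `2P ∈ E1`, hence `P = ((p+1)/2) • 2P ∈ E1`
  have hE : s13_lpg_E1 v (Point.some x y h + Point.some x y h) := by
    rw [hadd]; exact hx'val
  obtain ⟨k, hk⟩ := hp
  have hP : (k + 1) • (Point.some x y h + Point.some x y h) = Point.some x y h := by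
    have : (k + 1) • (Point.some x y h + Point.some x y h) =
        p • Point.some x y h + Point.some x y h := by
      rw [hk, ← two_nsmul, ← mul_nsmul', ← succ_nsmul]
      congr 1
      ring
    rw [this, htor, zero_add]
  have := s13_lpg_E1_nsmul v h1 h3 ha2 ha4 ha6 h20 hE (k + 1)
  rw [hP] at this
  exact absurd hx (not_le.2 this)

end YUnit

end Fermat.Agent.S13

namespace Fermat.Agent.S13

open WeierstrassCurve WeierstrassCurve.Affine WeierstrassCurve.Affine.Point

section SameRed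

variable {F K : Type*} [Field F] [Field K] [DecidableEq K] [Algebra F K]
  {Γ₀ : Type*} [LinearOrderedCommGroupWithZero Γ₀] (v : Valuation K Γ₀)

/-- an element of the inertia group preserves non-integrality. -/
lemma s13_lpg_sigma_big (σ : K ≃ₐ[F] K) (hσ : ∀ x : K, v x ≤ 1 → v (σ x - x) < 1) {x : K}
    (hx : 1 < v x) : 1 < v (σ x) := by
  have hx0 : x ≠ 0 := s13_lpg_ne_zero_of_lt v hx
  have hu : v x⁻¹ < 1 := s13_lpg_inv_lt v hx
  have h1 : v (σ x⁻¹ - x⁻¹) < 1 := hσ _ hu.le
  have h2 : v (σ x⁻¹) < 1 := by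
    have e1 : σ x⁻¹ = (σ x⁻¹ - x⁻¹) + x⁻¹ := by ring
    rw [e1]
    exact Valuation.map_add_lt v h1 hu
  rw [map_inv₀] at h2
  exact s13_lpg_one_lt_of_inv v ((map_ne_zero σ).2 hx0) h2

/-- **Same-reduction lemma** (GOOD case): for `σ` in the inertia group and `P` a torsion point
of odd order, `σ • P - P` lies in the kernel of reduction. -/
theorem s13_lpg_same_red (σ : K ≃ₐ[F] K) (hσ : ∀ x : K, v x ≤ 1 → v (σ x - x) < 1)
    (W : Affine F) (e f : F) (h1 : W.a₁ = 0) (h3 : W.a₃ = 0) (h2 : W.a₂ = -(e + f))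
    (h4 : W.a₄ = e * f) (h6 : W.a₆ = 0) {p : ℕ} (hp : Odd p) (hv2 : v (2 : K) = 1)
    (he : v (algebraMap F K e) = 1) (hf : v (algebraMap F K f) = 1)
    (hfe : v (algebraMap F K (f - e)) = 1)
    (P : (W⁄K).Point) (hP : p • P = 0) : s13_lpg_E1 v (σ • P - P) := by
  -- coefficients of the base change
  have k1 : (W⁄K).a₁ = 0 := by simp [h1]
  have k3 : (W⁄K).a₃ = 0 := by simp [h3]
  have k2 : (W⁄K).a₂ = -(algebraMap F K e + algebraMap F K f) := by simp [h2]
  have k4 : (W⁄K).a₄ = algebraMap F K e * algebraMap F K f := by simp [h4]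
  have k6 : (W⁄K).a₆ = 0 := by simp [h6]
  have hfe' : v (algebraMap F K f - algebraMap F K e) = 1 := by rwa [← map_sub]
  have h20 : (2 : K) ≠ 0 := s13_lpg_two_ne_zero v hv2
  have ha2 : v (W⁄K).a₂ ≤ 1 := by
    rw [k2, Valuation.map_neg]; exact Valuation.map_add_le v he.le hf.le
  have ha4 : v (W⁄K).a₄ ≤ 1 := by rw [k4, map_mul, he, hf, mul_one]
  have ha6 : v (W⁄K).a₆ ≤ 1 := by rw [k6, _root_.map_zero]; exact zero_le_one
  rcases P with _ | ⟨x, y, h⟩
  · have e1 : σ • (Point.zero : (W⁄K).Point) = 0 := rfl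
    have e2 : (Point.zero : (W⁄K).Point) = 0 := rfl
    rw [e1, e2, sub_zero]; trivial
  obtain ⟨h', hsmul⟩ := Fermat.Agent.S05.local_smul_some σ W h
  have htor' : p • Point.some (σ x) (σ y) h' = 0 := by
    rw [← hsmul, ← Fermat.Agent.S05.local_smul_nsmul, hP]; rfl
  rw [hsmul]
  by_cases hx : 1 < v x
  · -- `P ∈ E1`
    have hσx := s13_lpg_sigma_big v σ hσ hx
    exact s13_lpg_E1_sub v k1 k3 ha2 ha4 ha6 h20 (P := Point.some (σ x) (σ y) h')
      (Q := Point.some x y h) hσx hx
  have hx' : v x ≤ 1 := not_lt.1 hx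
  have hy1 : v y = 1 := s13_lpg_y_unit v k1 k3 k2 k4 k6 hv2 he hf hfe' hp h hP hx'
  have hσxx : v (σ x - x) < 1 := hσ x hx'
  have hσyy : v (σ y - y) < 1 := hσ y hy1.le
  have hσx : v (σ x) ≤ 1 := by
    have e1 : σ x = (σ x - x) + x := by ring
    rw [e1]
    exact Valuation.map_add_le v hσxx.le hx'
  have h2y : v (2 * y) = 1 := by rw [map_mul, hv2, hy1, mul_one]
  have hsum : v (σ y + y) = 1 := by
    have e1 : σ y + y = (σ y - y) + 2 * y := by ring
    rw [e1, Valuation.map_add_eq_of_lt_right v (by rw [h2y]; exact hσyy), h2y]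
  by_cases hxx : σ x = x
  · -- same `x`: then `σ y = y`
    have e1 := Fermat.Agent.S05.xonly_equation k1 k3 h.1
    have e2 := Fermat.Agent.S05.xonly_equation k1 k3 h'.1
    rw [hxx] at e2
    have hmul : (σ y - y) * (σ y + y) = 0 := by linear_combination e2 - e1
    rcases mul_eq_zero.1 hmul with h0 | h0
    · have hyy : σ y = y := sub_eq_zero.1 h0
      have : Point.some (σ x) (σ y) h' = Point.some x y h := by
        rw [Point.some.injEq]; exact ⟨hxx, hyy⟩
      rw [this, sub_self]; trivial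
    · exfalso
      rw [h0, _root_.map_zero] at hsum
      exact zero_ne_one hsum
  · obtain ⟨xp, yp, xm, ym, hp', hm, -, hsub, -, hxm, -, -⟩ :=
      Fermat.Agent.S05.xonly_add_sub k1 k3 h' h hxx
    rw [hsub]
    show 1 < v xm
    have hB : v (((W⁄K).a₂ + σ x + x) * (σ x - x) ^ 2) < 1 := by
      apply s13_lpg_lt_mul_right v
      · exact Valuation.map_add_le v (Valuation.map_add_le v ha2 hσx) hx'
      · rw [map_pow]; exact pow_lt_one₀ zero_le hσxx two_ne_zero
    have hA : v ((σ y + y) ^ 2) = 1 := by rw [map_pow, hsum, one_pow]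
    have hAB : v ((σ y + y) ^ 2 - ((W⁄K).a₂ + σ x + x) * (σ x - x) ^ 2) = 1 := by
      rw [Valuation.map_sub_eq_of_lt_left v (by rw [hA]; exact hB), hA]
    have hprod : v xm * v (σ x - x) ^ 2 = 1 := by
      rw [← hAB, ← hxm, map_mul, map_pow]
    by_contra hcon
    have hle : v xm ≤ 1 := not_lt.1 hcon
    have hd2 : v (σ x - x) ^ 2 < 1 := pow_lt_one₀ zero_le hσxx two_ne_zero
    have : v xm * v (σ x - x) ^ 2 < 1 := mul_lt_one_of_nonneg_of_lt_one_right hle zero_le hd2
    rw [hprod] at this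
    exact lt_irrefl _ this

end SameRed

end Fermat.Agent.S13
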