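import Mathlib
import Fermat.Prelude.Def_FLTPrelim_Ramification

/-!
# S13 / M6: Theorem G (Minkowski), in black-box form  (OWNER: helper2, insurance for M6)

`Qb = AlgebraicClosure ℚ`, `GQ = Gal(Qb/ℚ)`.

* `s13_mk_exists` (Galois bookkeeping): a normal subgroup `H` of `GQ` containing the pointwise
  stabiliser of a finite set `S ⊂ Qb` is the fixing subgroup of a finite Galois extension
  `K / ℚ` inside `Qb`.
* `s13_mk_minkowski_of`: THEOREM G.  If moreover for every prime `q` some inertia group `I_A`,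
  `A` over `q`, is contained in `H`, then `H = ⊤`.  The ramification input
  ("a prime all of whose primes in `K` are ramified has a nontrivial inertia action on `K`")
  is the hypothesis `h6`.
-/

set_option autoImplicit false
set_option linter.unusedSectionVars false
set_option linter.unusedVariables false

namespace Fermat.Agent.S13

open NumberField

lemma s13_mk_isGalois : IsGalois ℚ (AlgebraicClosure ℚ) := by
  have h1 : Algebra.IsAlgebraic ℚ (AlgebraicClosure ℚ) := AlgebraicClosure.isAlgebraic ℚ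
  have h2 : IsAlgClosure ℚ (AlgebraicClosure ℚ) := ⟨inferInstance, inferInstance⟩
  have h3 : Normal ℚ (AlgebraicClosure ℚ) := IsAlgClosure.normal ℚ (AlgebraicClosure ℚ)
  exact ⟨⟩

/-- **Galois bookkeeping.** -/
theorem s13_mk_exists (H : Subgroup (AlgebraicClosure ℚ ≃ₐ[ℚ] AlgebraicClosure ℚ))
    (hN : H.Normal) (S : Set (AlgebraicClosure ℚ)) (hS : S.Finite)
    (hSH : ∀ σ : AlgebraicClosure ℚ ≃ₐ[ℚ] AlgebraicClosure ℚ, (∀ s ∈ S, σ s = s) → σ ∈ H) :
    ∃ K : IntermediateField ℚ (AlgebraicClosure ℚ), FiniteDimensional ℚ K ∧ IsGalois ℚ K ∧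
      ∀ σ : AlgebraicClosure ℚ ≃ₐ[ℚ] AlgebraicClosure ℚ, σ ∈ H ↔ ∀ x ∈ K, σ x = x := by
  have hgal : IsGalois ℚ (AlgebraicClosure ℚ) := s13_mk_isGalois
  have halg : Algebra.IsAlgebraic ℚ (AlgebraicClosure ℚ) := AlgebraicClosure.isAlgebraic ℚ
  -- the field generated by `S`
  set M : IntermediateField ℚ (AlgebraicClosure ℚ) := IntermediateField.adjoin ℚ S with hM
  have hMfin : FiniteDimensional ℚ M := by
    have : Finite S := hS.to_subtype
    exact IntermediateField.finiteDimensional_adjoin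
      (fun x _ => (Algebra.IsAlgebraic.isAlgebraic x).isIntegral)
  have hMopen : IsOpen (M.fixingSubgroup : Set (AlgebraicClosure ℚ ≃ₐ[ℚ] AlgebraicClosure ℚ)) :=
    IntermediateField.fixingSubgroup_isOpen M
  have hMH : M.fixingSubgroup ≤ H := by
    intro σ hσ
    apply hSH
    intro s hs
    exact (IntermediateField.mem_fixingSubgroup_iff M σ).1 hσ s
      (IntermediateField.subset_adjoin ℚ S hs)
  have hHopen : IsOpen (H : Set (AlgebraicClosure ℚ ≃ₐ[ℚ] AlgebraicClosure ℚ)) :=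
    Subgroup.isOpen_mono hMH hMopen
  have hHclosed : IsClosed (H : Set (AlgebraicClosure ℚ ≃ₐ[ℚ] AlgebraicClosure ℚ)) :=
    Subgroup.isClosed_of_isOpen H hHopen
  let Hc : ClosedSubgroup (AlgebraicClosure ℚ ≃ₐ[ℚ] AlgebraicClosure ℚ) := ⟨H, hHclosed⟩
  set K : IntermediateField ℚ (AlgebraicClosure ℚ) := IntermediateField.fixedField H with hK
  have hfix : K.fixingSubgroup = H := InfiniteGalois.fixingSubgroup_fixedField Hc
  have hKopen : IsOpen K.fixingSubgroup.carrier := by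
    rw [hfix]; exact hHopen
  have hKnormal : K.fixingSubgroup.Normal := by
    rw [hfix]; exact hN
  obtain ⟨h1, h2⟩ :=
    (InfiniteGalois.isOpen_and_normal_iff_finite_and_isGalois K).1 ⟨hKopen, hKnormal⟩
  refine ⟨K, h1, h2, fun σ => ?_⟩
  rw [← hfix, IntermediateField.mem_fixingSubgroup_iff]

/-- **Theorem G** (Minkowski), with the ramification input `h6` as a hypothesis. -/
theorem s13_mk_minkowski_of
    (h6 : ∀ (K : IntermediateField ℚ (AlgebraicClosure ℚ)) [FiniteDimensional ℚ K]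
      [IsGalois ℚ K] (q : ℕ) (hq : q.Prime) (A : ValuationSubring (AlgebraicClosure ℚ))
      (hA : A.LiesOverPrime q),
      (∀ (P : Ideal (𝓞 K)) (_ : P.IsPrime), (q : 𝓞 K) ∈ P → ¬ Algebra.IsUnramifiedAt ℤ P) →
      ∃ σ ∈ A.inertiaSubgroupIn ℚ, ∃ x ∈ K, σ x ≠ x)
    (H : Subgroup (AlgebraicClosure ℚ ≃ₐ[ℚ] AlgebraicClosure ℚ)) (hN : H.Normal)
    (S : Set (AlgebraicClosure ℚ)) (hS : S.Finite)
    (hSH : ∀ σ : AlgebraicClosure ℚ ≃ₐ[ℚ] AlgebraicClosure ℚ, (∀ s ∈ S, σ s = s) → σ ∈ H)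
    (hram : ∀ q : ℕ, q.Prime → ∃ A : ValuationSubring (AlgebraicClosure ℚ),
      A.LiesOverPrime q ∧ A.inertiaSubgroupIn ℚ ≤ H) : H = ⊤ := by
  obtain ⟨K, hKfin, hKgal, hKH⟩ := s13_mk_exists H hN S hS hSH
  by_contra hne
  have : NumberField K := NumberField.of_module_finite ℚ K
  -- `[K : ℚ] > 1`
  have hrank : 1 < Module.finrank ℚ K := by
    by_contra hle
    have hpos : 0 < Module.finrank ℚ K := Module.finrank_pos
    have h1 : Module.finrank ℚ K = 1 := by omega
    have hbot : K = ⊥ := IntermediateField.finrank_eq_one_iff.1 h1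
    apply hne
    rw [eq_top_iff]
    intro σ _
    rw [hKH]
    intro x hx
    rw [hbot, IntermediateField.mem_bot] at hx
    obtain ⟨r, rfl⟩ := hx
    exact σ.commutes r
  obtain ⟨q, hq, hqram⟩ :=
    NumberField.exists_not_isUnramifiedAt_int_of_isGalois (K := K) (𝒪 := 𝓞 K) hrank
  obtain ⟨A, hA, hIA⟩ := hram q hq
  obtain ⟨σ, hσ, x, hx, hσx⟩ := h6 K q hq A hA (fun P hP hqP => hqram P hP hqP)
  exact hσx ((hKH σ).1 (hIA hσ) x hx)

end Fermat.Agent.S13
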