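import Fermat.Agent.S05.Trop

/-!
# S13 / M7: tropical lemmas in `b`-form  (OWNER: helper6)

Pure linear arithmetic in a linearly ordered abelian group `Γ` (value group of an additive
valuation `w`).  Setting: a Weierstrass curve with `b₆ = 0`, `b₄ = 2 a₄`, `b₈ = -a₄²`,
`w b₂ = 0`, `n = w a₄ > 0`, `t = w 2 ≥ 0`.  For a point `(x, y)` put `η = 2y + a₁x + a₃`, so that
`η² = x · (4x² + b₂x + 4a₄)`; `q` denotes `w (4x² + b₂x + 4a₄)`.

* `tb_trop_pair`   : the pair rule.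
* `tb_trop_double` : the duplication rule.
-/

set_option autoImplicit false
set_option linter.unusedVariables false
set_option linter.unusedSectionVars false

namespace Fermat.Agent.S13

open Fermat.Agent.S05

variable {Γ : Type*} [AddCommGroup Γ] [LinearOrder Γ] [IsOrderedAddMonoid Γ]

theorem tb_trop_double
    (n t v q μ η v' : Γ)
    (hn : 0 < n) (ht : 0 ≤ t) (hv : 0 < v)
    (hqB : v < t + t + n → q = v)
    (hqC : t + t + n < v → q = t + t + n)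
    (hqge : min v (t + t + n) ≤ q)
    (hμ : min (v + v) n ≤ μ) (hμ' : v + v ≠ n → μ = min (v + v) n)
    (hη : η + η = v + q)
    (hv' : v' + (η + η) = μ + μ) :
    cval n v' = calpha n (cval n v) (cval n v) := by
  unfold calpha cval
  grind (splits := 40)

theorem tb_trop_pair
    (n t v₁ v₂ q₁ q₂ δ μ η₁ η₂ vp vm Dv : Γ)
    (hn : 0 < n) (ht : 0 ≤ t) (hv₂ : 0 < v₂)
    (hq₁ge : min (min (t + t + (v₁ + v₁)) v₁) (t + t + n) ≤ q₁)
    (hq₁A : t + t + (v₁ + v₁) < v₁ → t + t + (v₁ + v₁) < t + t + n → q₁ = t + t + (v₁ + v₁))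
    (hq₁B : v₁ < t + t + (v₁ + v₁) → v₁ < t + t + n → q₁ = v₁)
    (hq₁C : t + t + n < t + t + (v₁ + v₁) → t + t + n < v₁ → q₁ = t + t + n)
    (hq₂B : v₂ < t + t + n → q₂ = v₂)
    (hq₂C : t + t + n < v₂ → q₂ = t + t + n)
    (hq₂ge : min v₂ (t + t + n) ≤ q₂)
    (hδ : min v₁ v₂ ≤ δ) (hδ' : v₁ ≠ v₂ → δ = min v₁ v₂)
    (hμ : min (v₁ + v₂) n ≤ μ) (hμ' : v₁ + v₂ ≠ n → μ = min (v₁ + v₂) n)
    (hη₁ : η₁ + η₁ = v₁ + q₁) (hη₂ : η₂ + η₂ = v₂ + q₂)
    (hS : vp + vm + (δ + δ) = μ + μ)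
    (hD : Dv + (δ + δ) = η₁ + η₂)
    (hDge : min vp vm ≤ Dv) (hDeq : vp ≠ vm → Dv = min vp vm) :
    (cval n vp = calpha n (cval n v₁) (cval n v₂) ∧ cval n vm = |cval n v₁ - cval n v₂|) ∨
    (cval n vm = calpha n (cval n v₁) (cval n v₂) ∧ cval n vp = |cval n v₁ - cval n v₂|) := by
  unfold calpha cval
  grind (splits := 60)

end Fermat.Agent.S13
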