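import Fermat.Agent.S05.PairCore
import Fermat.Agent.S05.F1
import Fermat.Agent.S13.TropB

/-!
# S13 / M7 (core): the pair rule in `b`-form  (OWNER: helper6)

Setting: a Weierstrass curve `W` over a field `K` (`2 ≠ 0` in `K`) with `a₃ = a₆ = 0` (so
`b₆ = 0`, `b₄ = 2 a₄`, `b₈ = - a₄²`), and an additive valuation `w` with `w b₂ = 0`, `0 < w a₄`,
`0 ≤ w 2`.  This covers the Frey model `y² + xy = x³ + a₂x² + a₄x` at the prime `2` and the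
model `Y² = X (X - e) (X - f)` at odd primes.

For a point `(x, y)` put `η = 2y + a₁x + a₃`.  General formulas (any Weierstrass curve):
* `η² = 4x³ + b₂x² + 2b₄x + b₆`,
* `4 x(P₁ ± P₂) (x₁-x₂)² = (η₁ ∓ η₂)² - (b₂ + 4(x₁+x₂)) (x₁-x₂)²`,
* `x(2P) η² = x⁴ - b₄x² - 2b₆x - b₈`.

`TBData.pair_rule` : the pair rule for the component distance `cpt w (w a₄)`.
-/

set_option autoImplicit false
set_option linter.unusedSectionVars false
set_option linter.unusedVariables false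

namespace Fermat.Agent.S13

open WeierstrassCurve WeierstrassCurve.Affine Fermat.Agent.S05

variable {K : Type*} [Field K] [DecidableEq K]

/-! ### General formulas -/

section formulas

variable {W : WeierstrassCurve.Affine K}

/-- `η = 2y + a₁x + a₃`. -/
def tbEta (W : WeierstrassCurve.Affine K) (x y : K) : K := 2 * y + W.a₁ * x + W.a₃

theorem tb_eta_eq (x y : K) : tbEta W x y = y - W.negY x y := by
  simp only [tbEta, Affine.negY]; ring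

theorem tb_eta_negY (x y : K) : tbEta W x (W.negY x y) = -tbEta W x y := by
  simp only [tbEta, Affine.negY]; ring

theorem tb_eta_sq {x y : K} (h : W.Equation x y) :
    tbEta W x y ^ 2 = 4 * x ^ 3 + W.b₂ * x ^ 2 + 2 * W.b₄ * x + W.b₆ := by
  have := (W.equation_iff x y).1 h
  simp only [tbEta, WeierstrassCurve.b₂, WeierstrassCurve.b₄, WeierstrassCurve.b₆]
  linear_combination 4 * this

theorem tb_addX_mul (x₁ x₂ y₁ y₂ : K) (hx : x₁ ≠ x₂) :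
    4 * W.addX x₁ x₂ (W.slope x₁ x₂ y₁ y₂) * (x₁ - x₂) ^ 2 =
      (tbEta W x₁ y₁ - tbEta W x₂ y₂) ^ 2 - (W.b₂ + 4 * (x₁ + x₂)) * (x₁ - x₂) ^ 2 := by
  have hd : x₁ - x₂ ≠ 0 := sub_ne_zero.mpr hx
  rw [slope_of_X_ne hx, Affine.addX]
  simp only [tbEta, WeierstrassCurve.b₂]
  field_simp
  ring

/-- The `x`-coordinate of `P₁ + P₂` (`x₁ ≠ x₂`). -/
theorem tb_add {x₁ y₁ x₂ y₂ : K} (h₁ : W.Nonsingular x₁ y₁) (h₂ : W.Nonsingular x₂ y₂)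
    (hx : x₁ ≠ x₂) :
    ∃ (xp yp : K) (hp : W.Nonsingular xp yp),
      Point.some x₁ y₁ h₁ + Point.some x₂ y₂ h₂ = Point.some xp yp hp ∧
      4 * xp * (x₁ - x₂) ^ 2 =
        (tbEta W x₁ y₁ - tbEta W x₂ y₂) ^ 2 - (W.b₂ + 4 * (x₁ + x₂)) * (x₁ - x₂) ^ 2 :=
  ⟨_, _, _, Point.add_of_X_ne hx, tb_addX_mul x₁ x₂ y₁ y₂ hx⟩

/-- The `x`-coordinates of `P₁ + P₂` and `P₁ - P₂` (`x₁ ≠ x₂`). -/
theorem tb_add_sub {x₁ y₁ x₂ y₂ : K} (h₁ : W.Nonsingular x₁ y₁) (h₂ : W.Nonsingular x₂ y₂)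
    (hx : x₁ ≠ x₂) :
    ∃ (xp yp xm ym : K) (hp : W.Nonsingular xp yp) (hm : W.Nonsingular xm ym),
      Point.some x₁ y₁ h₁ + Point.some x₂ y₂ h₂ = Point.some xp yp hp ∧
      Point.some x₁ y₁ h₁ - Point.some x₂ y₂ h₂ = Point.some xm ym hm ∧
      4 * xp * (x₁ - x₂) ^ 2 =
        (tbEta W x₁ y₁ - tbEta W x₂ y₂) ^ 2 - (W.b₂ + 4 * (x₁ + x₂)) * (x₁ - x₂) ^ 2 ∧
      4 * xm * (x₁ - x₂) ^ 2 =
        (tbEta W x₁ y₁ + tbEta W x₂ y₂) ^ 2 - (W.b₂ + 4 * (x₁ + x₂)) * (x₁ - x₂) ^ 2 := by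
  have hn : W.Nonsingular x₂ (W.negY x₂ y₂) := (nonsingular_neg x₂ y₂).mpr h₂
  have hneg : -(Point.some x₂ y₂ h₂) = Point.some x₂ (W.negY x₂ y₂) hn := Point.neg_some h₂
  obtain ⟨xp, yp, hp, hadd, hxp⟩ := tb_add h₁ h₂ hx
  obtain ⟨xm, ym, hm, hsub, hxm⟩ := tb_add h₁ hn hx
  refine ⟨xp, yp, xm, ym, hp, hm, hadd, ?_, hxp, ?_⟩
  · rw [sub_eq_add_neg, hneg, hsub]
  · rw [hxm, tb_eta_negY]
    ring

/-- Product formula, multiplied by `16`. -/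
theorem tb_prod {x₁ y₁ x₂ y₂ xp xm : K} (e₁ : W.Equation x₁ y₁) (e₂ : W.Equation x₂ y₂)
    (hp : 4 * xp * (x₁ - x₂) ^ 2 =
        (tbEta W x₁ y₁ - tbEta W x₂ y₂) ^ 2 - (W.b₂ + 4 * (x₁ + x₂)) * (x₁ - x₂) ^ 2)
    (hm : 4 * xm * (x₁ - x₂) ^ 2 =
        (tbEta W x₁ y₁ + tbEta W x₂ y₂) ^ 2 - (W.b₂ + 4 * (x₁ + x₂)) * (x₁ - x₂) ^ 2) :
    16 * (xp * xm * (x₁ - x₂) ^ 2) * (x₁ - x₂) ^ 2 =
      16 * (x₁ ^ 2 * x₂ ^ 2 - W.b₄ * x₁ * x₂ - W.b₆ * (x₁ + x₂) - W.b₈) * (x₁ - x₂) ^ 2 := by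
  have g₁ := tb_eta_sq e₁
  have g₂ := tb_eta_sq e₂
  have key : 16 * (xp * xm * (x₁ - x₂) ^ 2) * (x₁ - x₂) ^ 2 =
      (4 * xp * (x₁ - x₂) ^ 2) * (4 * xm * (x₁ - x₂) ^ 2) := by ring
  rw [key, hp, hm]
  have expand : ((tbEta W x₁ y₁ - tbEta W x₂ y₂) ^ 2 - (W.b₂ + 4 * (x₁ + x₂)) * (x₁ - x₂) ^ 2) *
      ((tbEta W x₁ y₁ + tbEta W x₂ y₂) ^ 2 - (W.b₂ + 4 * (x₁ + x₂)) * (x₁ - x₂) ^ 2) =
      (tbEta W x₁ y₁ ^ 2 - tbEta W x₂ y₂ ^ 2) ^ 2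
        - 2 * (W.b₂ + 4 * (x₁ + x₂)) * (x₁ - x₂) ^ 2 * (tbEta W x₁ y₁ ^ 2 + tbEta W x₂ y₂ ^ 2)
        + (W.b₂ + 4 * (x₁ + x₂)) ^ 2 * ((x₁ - x₂) ^ 2) ^ 2 := by ring
  rw [expand, g₁, g₂]
  simp only [WeierstrassCurve.b₂, WeierstrassCurve.b₄, WeierstrassCurve.b₆, WeierstrassCurve.b₈]
  ring

/-- Difference formula, multiplied by `4`. -/
theorem tb_diff {x₁ y₁ x₂ y₂ xp xm : K}
    (hp : 4 * xp * (x₁ - x₂) ^ 2 =
        (tbEta W x₁ y₁ - tbEta W x₂ y₂) ^ 2 - (W.b₂ + 4 * (x₁ + x₂)) * (x₁ - x₂) ^ 2)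
    (hm : 4 * xm * (x₁ - x₂) ^ 2 =
        (tbEta W x₁ y₁ + tbEta W x₂ y₂) ^ 2 - (W.b₂ + 4 * (x₁ + x₂)) * (x₁ - x₂) ^ 2) :
    4 * ((xp - xm) * (x₁ - x₂) ^ 2) = 4 * (-1 * (tbEta W x₁ y₁ * tbEta W x₂ y₂)) := by
  linear_combination hp - hm

/-- Duplication when `η = 0`. -/
theorem tb_double_of_eta_eq_zero {x y : K} (h : W.Nonsingular x y) (hη : tbEta W x y = 0) :
    Point.some x y h + Point.some x y h = 0 := by
  apply Point.add_self_of_Y_eq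
  rw [tb_eta_eq] at hη
  exact sub_eq_zero.1 hη

/-- Duplication formula (`η ≠ 0`). -/
theorem tb_double {x y : K} (h : W.Nonsingular x y) (hη : tbEta W x y ≠ 0) :
    ∃ (x' y' : K) (h' : W.Nonsingular x' y'),
      Point.some x y h + Point.some x y h = Point.some x' y' h' ∧
      4 * (x' * tbEta W x y ^ 2) =
        4 * (x ^ 4 - W.b₄ * x ^ 2 - 2 * W.b₆ * x - W.b₈) := by
  have hne : y ≠ W.negY x y := by
    intro hyy
    apply hη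
    rw [tb_eta_eq]
    exact sub_eq_zero.2 hyy
  refine ⟨_, _, _, Point.add_self_of_Y_ne hne, ?_⟩
  have g := tb_eta_sq h.1
  have hη' : y - W.negY x y ≠ 0 := sub_ne_zero.2 hne
  have hsl : W.slope x x y y * tbEta W x y = 3 * x ^ 2 + 2 * W.a₂ * x + W.a₄ - W.a₁ * y := by
    rw [slope_of_Y_ne rfl hne, tb_eta_eq]
    field_simp
  have h1 : 4 * (W.addX x x (W.slope x x y y) * tbEta W x y ^ 2) =
      (2 * (W.slope x x y y * tbEta W x y) + W.a₁ * tbEta W x y) ^ 2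
        - (W.b₂ + 8 * x) * tbEta W x y ^ 2 := by
    rw [Affine.addX]
    simp only [WeierstrassCurve.b₂]
    ring
  rw [h1, hsl, g]
  simp only [tbEta, WeierstrassCurve.b₂, WeierstrassCurve.b₄, WeierstrassCurve.b₆,
    WeierstrassCurve.b₈]
  ring

end formulas

/-! ### Three-term ultrametric inequalities -/

section three

variable {Γ : Type*} [AddCommGroup Γ] [LinearOrder Γ] [IsOrderedAddMonoid Γ] {w : K → Γ}

theorem tb_w_add3_ge (hw : IsNzVal w) {A B C : K} (hA : A ≠ 0) (hB : B ≠ 0) (hC : C ≠ 0)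
    (hS : A + B + C ≠ 0) : min (min (w A) (w B)) (w C) ≤ w (A + B + C) := by
  by_cases hAB : A + B = 0
  · rw [hAB, zero_add]
    exact min_le_right _ _
  · have h1 := hw.map_add hA hB hAB
    have h2 := hw.map_add hAB hC hS
    grind

theorem tb_w_add3_eq (hw : IsNzVal w) {A B C : K} (hA : A ≠ 0) (hB : B ≠ 0) (hC : C ≠ 0)
    (h1 : w A < w B) (h2 : w A < w C) : w (A + B + C) = w A := by
  by_cases hBC : B + C = 0
  · rw [add_assoc, hBC, add_zero]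
  · have h3 := hw.map_add hB hC hBC
    have h4 : w A < w (B + C) := by grind
    rw [add_assoc]
    exact hw.map_add_eq_of_lt hA hBC h4

end three

/-! ### The data -/

variable {Γ : Type*} [AddCommGroup Γ] [LinearOrder Γ] [IsOrderedAddMonoid Γ]

/-- A Weierstrass curve with `a₃ = a₆ = 0` and an additive valuation `w` with `w b₂ = 0`,
`0 < w a₄`, `0 ≤ w 2`. -/
structure TBData (W : WeierstrassCurve.Affine K) (w : K → Γ) : Prop where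
  a3 : W.a₃ = 0
  a6 : W.a₆ = 0
  val : IsNzVal w
  two_ne : (2 : K) ≠ 0
  w2 : 0 ≤ w 2
  b2_ne : W.b₂ ≠ 0
  wb2 : w W.b₂ = 0
  a4_ne : W.a₄ ≠ 0
  wa4 : 0 < w W.a₄

/-- `Q(x) = 4x² + b₂x + 4a₄`, so that `η² = x Q(x)`. -/
def tbQ (W : WeierstrassCurve.Affine K) (x : K) : K := 4 * x ^ 2 + W.b₂ * x + 4 * W.a₄

namespace TBData

variable {W : WeierstrassCurve.Affine K} {w : K → Γ} (D : TBData W w)
include D

theorem b4 : W.b₄ = 2 * W.a₄ := by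
  simp only [WeierstrassCurve.b₄, D.a3]; ring

theorem b6 : W.b₆ = 0 := by
  simp only [WeierstrassCurve.b₆, D.a3, D.a6]; ring

theorem b8 : W.b₈ = -W.a₄ ^ 2 := by
  simp only [WeierstrassCurve.b₈, D.a3, D.a6]; ring

theorem eta_sq {x y : K} (h : W.Equation x y) : tbEta W x y ^ 2 = x * tbQ W x := by
  rw [tb_eta_sq h, D.b4, D.b6]
  unfold tbQ
  ring

theorem eta_ne_zero {x y : K} {h : W.Nonsingular x y} (hQ : NoTwo (Point.some x y h)) :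
    tbEta W x y ≠ 0 :=
  fun hη => Point.some_ne_zero h (hQ (tb_double_of_eta_eq_zero h hη))

theorem x_ne_zero {x y : K} (h : W.Equation x y) (hη : tbEta W x y ≠ 0) : x ≠ 0 := by
  rintro rfl
  have := D.eta_sq h
  rw [zero_mul] at this
  exact hη ((pow_eq_zero_iff (two_ne_zero)).1 this)

theorem Q_ne_zero {x y : K} (h : W.Equation x y) (hη : tbEta W x y ≠ 0) : tbQ W x ≠ 0 := by
  intro h0
  have := D.eta_sq h
  rw [h0, mul_zero] at this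
  exact hη ((pow_eq_zero_iff (two_ne_zero)).1 this)

theorem w_eta {x y : K} (h : W.Equation x y) (hη : tbEta W x y ≠ 0) :
    w (tbEta W x y) + w (tbEta W x y) = w x + w (tbQ W x) := by
  rw [← D.val.map_sq hη, D.eta_sq h, D.val.map_mul (D.x_ne_zero h hη) (D.Q_ne_zero h hη)]

theorem four_ne : (4 : K) ≠ 0 := by
  have : (4 : K) = 2 * 2 := by norm_num
  rw [this]
  exact mul_ne_zero D.two_ne D.two_ne

theorem w_four : w (4 : K) = w 2 + w 2 := by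
  have : (4 : K) = 2 * 2 := by norm_num
  rw [this, D.val.map_mul D.two_ne D.two_ne]

theorem sixteen_ne : (16 : K) ≠ 0 := by
  have : (16 : K) = 4 * 4 := by norm_num
  rw [this]
  exact mul_ne_zero D.four_ne D.four_ne

theorem wA {x : K} (hx : x ≠ 0) : w (4 * x ^ 2) = w 2 + w 2 + (w x + w x) := by
  rw [D.val.map_mul D.four_ne (pow_ne_zero 2 hx), D.w_four, D.val.map_sq hx]

theorem wB {x : K} (hx : x ≠ 0) : w (W.b₂ * x) = w x := by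
  rw [D.val.map_mul D.b2_ne hx, D.wb2, zero_add]

theorem wC : w (4 * W.a₄) = w 2 + w 2 + w W.a₄ := by
  rw [D.val.map_mul D.four_ne D.a4_ne, D.w_four]

theorem wQ_ge {x : K} (hx : x ≠ 0) (hQ : tbQ W x ≠ 0) :
    min (min (w 2 + w 2 + (w x + w x)) (w x)) (w 2 + w 2 + w W.a₄) ≤ w (tbQ W x) := by
  have := tb_w_add3_ge D.val (mul_ne_zero D.four_ne (pow_ne_zero 2 hx))
    (mul_ne_zero D.b2_ne hx) (mul_ne_zero D.four_ne D.a4_ne) hQ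
  rwa [D.wA hx, D.wB hx, D.wC] at this

theorem wQ_A {x : K} (hx : x ≠ 0) (h1 : w 2 + w 2 + (w x + w x) < w x)
    (h2 : w 2 + w 2 + (w x + w x) < w 2 + w 2 + w W.a₄) :
    w (tbQ W x) = w 2 + w 2 + (w x + w x) := by
  have := tb_w_add3_eq D.val (mul_ne_zero D.four_ne (pow_ne_zero 2 hx))
    (mul_ne_zero D.b2_ne hx) (mul_ne_zero D.four_ne D.a4_ne)
    (by rw [D.wA hx, D.wB hx]; exact h1) (by rw [D.wA hx, D.wC]; exact h2)
  rwa [D.wA hx] at this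

theorem wQ_B {x : K} (hx : x ≠ 0) (h1 : w x < w 2 + w 2 + (w x + w x))
    (h2 : w x < w 2 + w 2 + w W.a₄) : w (tbQ W x) = w x := by
  have := tb_w_add3_eq D.val (mul_ne_zero D.b2_ne hx)
    (mul_ne_zero D.four_ne (pow_ne_zero 2 hx)) (mul_ne_zero D.four_ne D.a4_ne)
    (by rw [D.wA hx, D.wB hx]; exact h1) (by rw [D.wB hx, D.wC]; exact h2)
  rw [D.wB hx] at this
  rw [← this]
  unfold tbQ
  congr 1
  ring

theorem wQ_C {x : K} (hx : x ≠ 0) (h1 : w 2 + w 2 + w W.a₄ < w 2 + w 2 + (w x + w x))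
    (h2 : w 2 + w 2 + w W.a₄ < w x) : w (tbQ W x) = w 2 + w 2 + w W.a₄ := by
  have := tb_w_add3_eq D.val (mul_ne_zero D.four_ne D.a4_ne)
    (mul_ne_zero D.four_ne (pow_ne_zero 2 hx)) (mul_ne_zero D.b2_ne hx)
    (by rw [D.wA hx, D.wC]; exact h1) (by rw [D.wB hx, D.wC]; exact h2)
  rw [D.wC] at this
  rw [← this]
  unfold tbQ
  congr 1
  ring

/-- The duplication rule. -/
theorem cpt_double {x y : K} {h : W.Nonsingular x y} (hQ : NoTwo (Point.some x y h))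
    (hQ2 : NoTwo (Point.some x y h + Point.some x y h)) (hx : 0 < w x) :
    cpt w (w W.a₄) (Point.some x y h + Point.some x y h) =
      calpha (w W.a₄) (cval (w W.a₄) (w x)) (cval (w W.a₄) (w x)) := by
  have hη := D.eta_ne_zero hQ
  have hx0 := D.x_ne_zero h.1 hη
  have hQ0 := D.Q_ne_zero h.1 hη
  obtain ⟨x', y', h', hdbl, hx'⟩ := tb_double h hη
  rw [hdbl] at hQ2 ⊢
  have hη' := D.eta_ne_zero hQ2
  have hx'0 := D.x_ne_zero h'.1 hη'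
  rw [D.b4, D.b6, D.b8] at hx'
  have hx'' : x' * tbEta W x y ^ 2 = (x ^ 2 - W.a₄) ^ 2 := by
    have := mul_left_cancel₀ D.four_ne hx'
    rw [this]; ring
  have hM : x ^ 2 - W.a₄ ≠ 0 := by
    intro h0
    rw [h0] at hx''
    have : x' * tbEta W x y ^ 2 ≠ 0 := mul_ne_zero hx'0 (pow_ne_zero 2 hη)
    exact this (by rw [hx'']; simp)
  have hx2 : x ^ 2 ≠ 0 := pow_ne_zero 2 hx0
  have hw2 := D.w2
  rw [cpt_some]
  refine tb_trop_double (w W.a₄) (w 2) (w x) (w (tbQ W x)) (w (x ^ 2 - W.a₄))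
    (w (tbEta W x y)) (w x') D.wa4 D.w2 hx ?_ ?_ ?_ ?_ ?_ (D.w_eta h.1 hη) ?_
  · intro hlt
    exact D.wQ_B hx0 (by grind) hlt
  · intro hlt
    exact D.wQ_C hx0 (by grind) hlt
  · have := D.wQ_ge hx0 hQ0
    grind
  · have := D.val.map_sub_ge hx2 D.a4_ne hM
    rwa [D.val.map_sq hx0] at this
  · intro hne
    have := D.val.map_sub_eq_of_ne hx2 D.a4_ne (by rwa [D.val.map_sq hx0])
    rwa [D.val.map_sq hx0] at this
  · have h1 := congrArg w hx''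
    rw [D.val.map_mul hx'0 (pow_ne_zero 2 hη), D.val.map_sq hη, D.val.map_sq hM] at h1
    exact h1

/-- The pair rule, main case `x₁ ≠ x₂`. -/
theorem pair_rule_of_ne {x₁ y₁ x₂ y₂ : K} {h₁ : W.Nonsingular x₁ y₁} {h₂ : W.Nonsingular x₂ y₂}
    (g₁ : NoTwo (Point.some x₁ y₁ h₁)) (g₂ : NoTwo (Point.some x₂ y₂ h₂))
    (gp : NoTwo (Point.some x₁ y₁ h₁ + Point.some x₂ y₂ h₂))
    (gm : NoTwo (Point.some x₁ y₁ h₁ - Point.some x₂ y₂ h₂))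
    (hx₂ : 0 < w x₂) (hx : x₁ ≠ x₂) :
    (cpt w (w W.a₄) (Point.some x₁ y₁ h₁ + Point.some x₂ y₂ h₂)
        = calpha (w W.a₄) (cval (w W.a₄) (w x₁)) (cval (w W.a₄) (w x₂)) ∧
      cpt w (w W.a₄) (Point.some x₁ y₁ h₁ - Point.some x₂ y₂ h₂)
        = |cval (w W.a₄) (w x₁) - cval (w W.a₄) (w x₂)|) ∨
    (cpt w (w W.a₄) (Point.some x₁ y₁ h₁ - Point.some x₂ y₂ h₂)
        = calpha (w W.a₄) (cval (w W.a₄) (w x₁)) (cval (w W.a₄) (w x₂)) ∧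
      cpt w (w W.a₄) (Point.some x₁ y₁ h₁ + Point.some x₂ y₂ h₂)
        = |cval (w W.a₄) (w x₁) - cval (w W.a₄) (w x₂)|) := by
  have hη₁ := D.eta_ne_zero g₁
  have hη₂ := D.eta_ne_zero g₂
  have hx₁0 := D.x_ne_zero h₁.1 hη₁
  have hx₂0 := D.x_ne_zero h₂.1 hη₂
  have hQ₁ := D.Q_ne_zero h₁.1 hη₁
  have hQ₂ := D.Q_ne_zero h₂.1 hη₂
  obtain ⟨xp, yp, xm, ym, hp, hm, hadd, hsub, hxp, hxm⟩ := tb_add_sub h₁ h₂ hx
  rw [hadd] at gp ⊢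
  rw [hsub] at gm ⊢
  have hηp := D.eta_ne_zero gp
  have hηm := D.eta_ne_zero gm
  have hxp0 := D.x_ne_zero hp.1 hηp
  have hxm0 := D.x_ne_zero hm.1 hηm
  have hd : x₁ - x₂ ≠ 0 := sub_ne_zero.mpr hx
  have hd2 : (x₁ - x₂) ^ 2 ≠ 0 := pow_ne_zero 2 hd
  have hprod := tb_prod h₁.1 h₂.1 hxp hxm
  rw [D.b4, D.b6, D.b8] at hprod
  have hprod' : xp * xm * (x₁ - x₂) ^ 2 = (x₁ * x₂ - W.a₄) ^ 2 := by
    have h1 := mul_right_cancel₀ hd2 hprod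
    have h2 := mul_left_cancel₀ D.sixteen_ne h1
    rw [h2]; ring
  have hM : x₁ * x₂ - W.a₄ ≠ 0 := by
    intro h0
    rw [h0] at hprod'
    have : xp * xm * (x₁ - x₂) ^ 2 ≠ 0 := mul_ne_zero (mul_ne_zero hxp0 hxm0) hd2
    exact this (by rw [hprod']; simp)
  have hDf : (xp - xm) * (x₁ - x₂) ^ 2 = -1 * (tbEta W x₁ y₁ * tbEta W x₂ y₂) :=
    mul_left_cancel₀ D.four_ne (tb_diff hxp hxm)
  have hD0 : xp - xm ≠ 0 := by
    intro h0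
    rw [h0] at hDf
    have : (-1 : K) * (tbEta W x₁ y₁ * tbEta W x₂ y₂) ≠ 0 :=
      mul_ne_zero (neg_ne_zero.mpr one_ne_zero) (mul_ne_zero hη₁ hη₂)
    exact this (by rw [← hDf]; simp)
  have hx12 : x₁ * x₂ ≠ 0 := mul_ne_zero hx₁0 hx₂0
  have hw2 := D.w2
  have hn := D.wa4
  rw [cpt_some, cpt_some]
  refine tb_trop_pair (w W.a₄) (w 2) (w x₁) (w x₂) (w (tbQ W x₁)) (w (tbQ W x₂))
    (w (x₁ - x₂)) (w (x₁ * x₂ - W.a₄)) (w (tbEta W x₁ y₁)) (w (tbEta W x₂ y₂))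
    (w xp) (w xm) (w (xp - xm)) D.wa4 D.w2 hx₂
    (D.wQ_ge hx₁0 hQ₁) (D.wQ_A hx₁0) (D.wQ_B hx₁0) (D.wQ_C hx₁0)
    ?_ ?_ ?_
    (D.val.map_sub_ge hx₁0 hx₂0 hd) (fun hne => D.val.map_sub_eq_of_ne hx₁0 hx₂0 hne)
    ?_ ?_ (D.w_eta h₁.1 hη₁) (D.w_eta h₂.1 hη₂) ?_ ?_
    (D.val.map_sub_ge hxp0 hxm0 hD0) (fun hne => D.val.map_sub_eq_of_ne hxp0 hxm0 hne)
  · intro hlt
    exact D.wQ_B hx₂0 (by grind) hlt
  · intro hlt
    exact D.wQ_C hx₂0 (by grind) hlt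
  · have := D.wQ_ge hx₂0 hQ₂
    grind
  · have := D.val.map_sub_ge hx12 D.a4_ne hM
    rwa [D.val.map_mul hx₁0 hx₂0] at this
  · intro hne
    have := D.val.map_sub_eq_of_ne hx12 D.a4_ne (by rwa [D.val.map_mul hx₁0 hx₂0])
    rwa [D.val.map_mul hx₁0 hx₂0] at this
  · have h1 := congrArg w hprod'
    rw [D.val.map_mul (mul_ne_zero hxp0 hxm0) hd2, D.val.map_mul hxp0 hxm0, D.val.map_sq hd,
      D.val.map_sq hM] at h1
    exact h1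
  · have h1 := congrArg w hDf
    rw [D.val.map_mul hD0 hd2, D.val.map_sq hd,
      D.val.map_mul (neg_ne_zero.mpr one_ne_zero) (mul_ne_zero hη₁ hη₂),
      D.val.map_neg_one, zero_add, D.val.map_mul hη₁ hη₂] at h1
    exact h1

/-- **The pair rule.** -/
theorem pair_rule {Q₁ Q₂ : W.Point} (g₁ : NoTwo Q₁) (g₂ : NoTwo Q₂)
    (gp : NoTwo (Q₁ + Q₂)) (gm : NoTwo (Q₁ - Q₂)) (hQ₂ : 0 < cpt w (w W.a₄) Q₂) :
    (cpt w (w W.a₄) (Q₁ + Q₂) = calpha (w W.a₄) (cpt w (w W.a₄) Q₁) (cpt w (w W.a₄) Q₂) ∧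
      cpt w (w W.a₄) (Q₁ - Q₂) = |cpt w (w W.a₄) Q₁ - cpt w (w W.a₄) Q₂|) ∨
    (cpt w (w W.a₄) (Q₁ - Q₂) = calpha (w W.a₄) (cpt w (w W.a₄) Q₁) (cpt w (w W.a₄) Q₂) ∧
      cpt w (w W.a₄) (Q₁ + Q₂) = |cpt w (w W.a₄) Q₁ - cpt w (w W.a₄) Q₂|) := by
  have hn := D.wa4
  rcases Q₂ with _ | ⟨x₂, y₂, h₂⟩
  · exact absurd hQ₂ (lt_irrefl _)
  have hx₂ : 0 < w x₂ := (cval_pos_iff hn _).1 hQ₂
  have hc₂le : cval (w W.a₄) (w x₂) ≤ w W.a₄ := cval_le hn _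
  have hc₂pos : 0 < cval (w W.a₄) (w x₂) := hQ₂
  rcases Q₁ with _ | ⟨x₁, y₁, h₁⟩
  · -- `Q₁ = 0`
    left
    have e1 : (Point.zero : W.Point) = 0 := rfl
    rw [e1, zero_add, zero_sub, cpt_neg, cpt_zero, cpt_some]
    refine ⟨?_, ?_⟩
    · unfold calpha; grind
    · grind
  by_cases hx : x₁ = x₂
  · -- `Q₁ = ± Q₂`
    rcases (Point.X_eq_iff (h₁ := h₁) (h₂ := h₂)).1 hx with heq | heq
    · left
      rw [heq] at gp ⊢
      rw [sub_self, cpt_zero]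
      refine ⟨D.cpt_double g₂ gp hx₂, ?_⟩
      simp
    · right
      rw [heq] at gm ⊢
      have e2 : -Point.some x₂ y₂ h₂ - Point.some x₂ y₂ h₂
          = -(Point.some x₂ y₂ h₂ + Point.some x₂ y₂ h₂) := by abel
      rw [e2] at gm ⊢
      have gm' : NoTwo (Point.some x₂ y₂ h₂ + Point.some x₂ y₂ h₂) := by
        have := gm.neg
        rwa [neg_neg] at this
      rw [cpt_neg, cpt_neg, neg_add_cancel, cpt_zero]
      refine ⟨D.cpt_double g₂ gm' hx₂, ?_⟩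
      simp
  · exact D.pair_rule_of_ne g₁ g₂ gp gm hx₂ hx

end TBData

end Fermat.Agent.S13
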